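/-
S35 [TORIC], local part — helper5 — part 1: **roots along a sheet at a closed point** (L1).

`B ⊆ E` a chart, `W ⊇ B` the valuation ring of a sheet (`W = B_𝔭`, `𝔭 = {b | W.valuation b < 1}`),
`𝔪 ⊇ 𝔭` a closed point at which the sheet is smooth (`IsBranchUniformizer 𝔭 𝔪 z`).  If `ρ` is a unit
of `W` and `ρ ^ m` is congruent on `W` to a unit of the local ring of `B` at `𝔪`, then `ρ` itself is
congruent on `W` to a unit of that local ring (`(B ⧸ 𝔭)_𝔪` is a discrete valuation ring, hence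
integrally closed).

* `exists_locRing_unit_of_pow_cong` : the statement;
* small tools of the local currency (`locRing`/`locMax` versus the valuation of the sheet).
-/
import Mathlib
import Fermat.Agent.SS.EXPORT_helper4_Loc
import Fermat.Agent.SS.DVRFORM_helper1

set_option autoImplicit false
set_option linter.unusedSectionVars false
set_option linter.style.haveILetI false

namespace Fermat.Agent.SS

section Root

variable {R : Type*} [CommRing R] {E : Type*} [Field E] [Algebra R E]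
  {B : Subalgebra R E}

/-- a unit of the local ring at a point of the sheet is a unit of the sheet. -/
theorem valuation_eq_one_of_locRing_unit {W : ValuationSubring E} (hBW : ∀ b ∈ B, b ∈ W)
    {𝔭 : Ideal ↥B} (h𝔭 : ∀ b : ↥B, b ∈ 𝔭 ↔ W.valuation (b : E) < 1)
    {𝔪 : Ideal ↥B} [h𝔪 : 𝔪.IsPrime] (hle : 𝔭 ≤ 𝔪) {v : E} (hv : v ∈ locRing B 𝔪)
    (hv' : v ∉ locMax B 𝔪) : W.valuation v = 1 := by
  obtain ⟨r, s, hs, hrs⟩ := hv
  have hr : r ∉ 𝔪 := fun hr => hv' ⟨r, s, hr, hs, hrs⟩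
  have hvs : W.valuation (s : E) = 1 := valuation_eq_one_of_notMem hBW h𝔭 (fun h => hs (hle h))
  have hvr : W.valuation (r : E) = 1 := valuation_eq_one_of_notMem hBW h𝔭 (fun h => hr (hle h))
  have := congrArg W.valuation hrs
  rwa [map_mul, hvs, mul_one, hvr] at this

/-- the local ring at a point of the sheet lies in the valuation ring of the sheet. -/
theorem valuation_le_one_of_mem_locRing {W : ValuationSubring E} (hBW : ∀ b ∈ B, b ∈ W)
    {𝔭 : Ideal ↥B} (h𝔭 : ∀ b : ↥B, b ∈ 𝔭 ↔ W.valuation (b : E) < 1)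
    {𝔪 : Ideal ↥B} [h𝔪 : 𝔪.IsPrime] (hle : 𝔭 ≤ 𝔪) {v : E} (hv : v ∈ locRing B 𝔪) :
    W.valuation v ≤ 1 := by
  obtain ⟨r, s, hs, hrs⟩ := hv
  have hvs : W.valuation (s : E) = 1 := valuation_eq_one_of_notMem hBW h𝔭 (fun h => hs (hle h))
  have := congrArg W.valuation hrs
  rw [map_mul, hvs, mul_one] at this
  rw [this]
  exact (ValuationSubring.valuation_le_one_iff _ _).mpr (hBW _ r.2)

/-- **(L1) roots along a sheet at a closed point.** -/
theorem exists_locRing_unit_of_pow_cong [IsNoetherianRing ↥B] {W : ValuationSubring E}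
    (hBW : ∀ b ∈ B, b ∈ W) {𝔭 : Ideal ↥B} [h𝔭p : 𝔭.IsPrime]
    (h𝔭 : ∀ b : ↥B, b ∈ 𝔭 ↔ W.valuation (b : E) < 1)
    (hloc : ∀ x ∈ W, ∃ r s : ↥B, s ∉ 𝔭 ∧ x * (s : E) = (r : E))
    {𝔪 : Ideal ↥B} [h𝔪 : 𝔪.IsMaximal] (hle : 𝔭 ≤ 𝔪) {z : ↥B} (hz : IsBranchUniformizer 𝔭 𝔪 z)
    {m : ℕ} (hm : m ≠ 0) {ρ v : E} (hρ : W.valuation ρ = 1) (hv : v ∈ locRing B 𝔪)
    (hv' : v ∉ locMax B 𝔪) (hcong : W.valuation (ρ ^ m - v) < 1) :
    ∃ w ∈ locRing B 𝔪, w ∉ locMax B 𝔪 ∧ W.valuation (ρ - w) < 1 := by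
  classical
  have h𝔪p : 𝔪.IsPrime := h𝔪.isPrime
  -- `ρ = a / b`
  obtain ⟨a, b, hb, hab⟩ := hloc ρ ((ValuationSubring.valuation_le_one_iff _ _).mp hρ.le)
  have hvb : W.valuation (b : E) = 1 := valuation_eq_one_of_notMem hBW h𝔭 hb
  have ha : a ∉ 𝔭 := by
    intro ha
    have h1 := (h𝔭 a).mp ha
    rw [← hab, map_mul, hρ, hvb, mul_one] at h1
    exact lt_irrefl _ h1
  -- `v = c / d`
  obtain ⟨c, d, hd, hcd⟩ := hv
  have hc : c ∉ 𝔪 := fun hc => hv' ⟨c, d, hc, hd, hcd⟩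
  -- DVR forms
  obtain ⟨k, s, e, hs, he, hse⟩ := hz.exists_pow_mul_sub_mem hle a ha
  obtain ⟨k', s', e', hs', he', hse'⟩ := hz.exists_pow_mul_sub_mem hle b hb
  -- the congruence in `B`
  have hcong' : a ^ m * d - c * b ^ m ∈ 𝔭 := by
    rw [h𝔭]
    have h1 : ((a ^ m * d - c * b ^ m : ↥B) : E) = (ρ ^ m - v) * ((b : E) ^ m * (d : E)) := by
      show (a : E) ^ m * (d : E) - (c : E) * (b : E) ^ m = _
      rw [← hab, ← hcd]; ring
    rw [h1, map_mul]
    have h2 : W.valuation ((b : E) ^ m * (d : E)) ≤ 1 :=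
      (ValuationSubring.valuation_le_one_iff _ _).mpr
        (W.mul_mem _ _ (pow_mem (hBW _ b.2) m) (hBW _ d.2))
    calc W.valuation (ρ ^ m - v) * W.valuation ((b : E) ^ m * (d : E))
        ≤ W.valuation (ρ ^ m - v) * 1 := mul_le_mul_right h2 _
      _ < 1 := by rw [mul_one]; exact hcong
  -- work modulo `𝔭`
  haveI : IsDomain (↥B ⧸ 𝔭) := Ideal.Quotient.isDomain 𝔭
  set φ := Ideal.Quotient.mk 𝔭 with hφ
  have e1 : φ s * φ a = φ e * φ z ^ k := by
    rw [← map_pow, ← map_mul, ← map_mul]; exact (Ideal.Quotient.eq).mpr hse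
  have e2 : φ s' * φ b = φ e' * φ z ^ k' := by
    rw [← map_pow, ← map_mul, ← map_mul]; exact (Ideal.Quotient.eq).mpr hse'
  have e3 : φ a ^ m * φ d = φ c * φ b ^ m := by
    rw [← map_pow, ← map_pow, ← map_mul, ← map_mul]; exact (Ideal.Quotient.eq).mpr hcong'
  have hφz : φ z ≠ 0 := fun h => hz.notMem (Ideal.Quotient.eq_zero_iff_mem.mp h)
  set X : ↥B := e ^ m * s' ^ m * d with hX
  set Y : ↥B := c * e' ^ m * s ^ m with hY
  have hX𝔪 : X ∉ 𝔪 := by
    intro h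
    rcases h𝔪p.mem_or_mem h with h | h
    · rcases h𝔪p.mem_or_mem h with h | h
      · exact he (h𝔪p.mem_of_pow_mem _ h)
      · exact hs' (h𝔪p.mem_of_pow_mem _ h)
    · exact hd h
  have hY𝔪 : Y ∉ 𝔪 := by
    intro h
    rcases h𝔪p.mem_or_mem h with h | h
    · rcases h𝔪p.mem_or_mem h with h | h
      · exact hc h
      · exact he' (h𝔪p.mem_of_pow_mem _ h)
    · exact hs (h𝔪p.mem_of_pow_mem _ h)
  have key : φ z ^ (m * k) * φ X = φ z ^ (m * k') * φ Y := by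
    have h1 : (φ s * φ a) ^ m * φ s' ^ m * φ d = φ c * (φ s' * φ b) ^ m * φ s ^ m := by
      rw [mul_pow, mul_pow]
      linear_combination (φ s ^ m * φ s' ^ m) * e3
    rw [e1, e2] at h1
    rw [hX, hY, map_mul, map_mul, map_mul, map_mul, map_pow, map_pow, map_pow, map_pow, pow_mul',
      pow_mul']
    linear_combination h1
  -- a general cancellation: `k' < k` is impossible (and symmetrically)
  have hlt : ∀ (k₁ k₂ : ℕ) (X₁ X₂ : ↥B), X₂ ∉ 𝔪 →
      φ z ^ (m * k₁) * φ X₁ = φ z ^ (m * k₂) * φ X₂ → ¬ k₂ < k₁ := by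
    intro k₁ k₂ X₁ X₂ hX₂ hkey hlt
    obtain ⟨i, rfl⟩ := Nat.exists_eq_add_of_lt hlt
    have h1 : φ z ^ (m * k₂) * (φ z ^ (m * (i + 1)) * φ X₁ - φ X₂) = 0 := by
      have : m * (k₂ + i + 1) = m * k₂ + m * (i + 1) := by ring
      rw [this, pow_add] at hkey
      linear_combination hkey
    have h2 : φ z ^ (m * (i + 1)) * φ X₁ - φ X₂ = 0 :=
      (mul_eq_zero.mp h1).resolve_left (pow_ne_zero _ hφz)
    rw [← map_pow, ← map_mul, ← map_sub, Ideal.Quotient.eq_zero_iff_mem] at h2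
    have h3 : z ^ (m * (i + 1)) * X₁ ∈ 𝔪 :=
      𝔪.mul_mem_right _ (Ideal.pow_mem_of_mem 𝔪 hz.mem _ (Nat.mul_pos (Nat.pos_of_ne_zero hm)
        (Nat.succ_pos i)))
    apply hX₂
    have : X₂ = z ^ (m * (i + 1)) * X₁ - (z ^ (m * (i + 1)) * X₁ - X₂) := by ring
    rw [this]
    exact 𝔪.sub_mem h3 (hle h2)
  have hkk : k = k' :=
    le_antisymm (not_lt.mp (hlt k k' X Y hY𝔪 key)) (not_lt.mp (hlt k' k Y X hX𝔪 key.symm))
  subst hkk
  -- the root
  have hse'𝔪 : s * e' ∉ 𝔪 := fun h => (h𝔪p.mem_or_mem h).elim hs he'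
  have hes'𝔪 : e * s' ∉ 𝔪 := fun h => (h𝔪p.mem_or_mem h).elim he hs'
  have hvse' : W.valuation ((s * e' : ↥B) : E) = 1 :=
    valuation_eq_one_of_notMem hBW h𝔭 (fun h => hse'𝔪 (hle h))
  have hse'0 : ((s * e' : ↥B) : E) ≠ 0 := fun h0 => by
    rw [h0, map_zero] at hvse'; exact zero_ne_one hvse'
  refine ⟨((e * s' : ↥B) : E) * ((s * e' : ↥B) : E)⁻¹, ?_, ?_, ?_⟩
  · exact (locRing B 𝔪).mul_mem (coe_mem_locRing _)
      (inv_mem_locRing (coe_mem_locRing _) (fun h => hse'𝔪 ((coe_mem_locMax_iff _).mp h)))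
  · intro h
    have h1 := mul_mem_locMax (B := B) (𝔪 := 𝔪) (coe_mem_locRing (s * e')) h
    have h2 : ((s * e' : ↥B) : E) * (((e * s' : ↥B) : E) * ((s * e' : ↥B) : E)⁻¹) =
        ((e * s' : ↥B) : E) := by
      field_simp
    rw [h2] at h1
    exact hes'𝔪 ((coe_mem_locMax_iff _).mp h1)
  · have hmem : a * (s * e') - e * s' * b ∈ 𝔭 := by
      rw [← Ideal.Quotient.eq_zero_iff_mem, map_sub, map_mul, map_mul, map_mul, map_mul]
      linear_combination (φ e') * e1 - (φ e) * e2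
    have h1 := (h𝔭 _).mp hmem
    have h2 : ((a * (s * e') - e * s' * b : ↥B) : E) =
        (ρ - ((e * s' : ↥B) : E) * ((s * e' : ↥B) : E)⁻¹) *
          ((b : E) * ((s * e' : ↥B) : E)) := by
      show (a : E) * ((s * e' : ↥B) : E) - ((e * s' : ↥B) : E) * (b : E) = _
      rw [← hab]
      field_simp
    rw [h2, map_mul, map_mul, hvb, hvse', mul_one, mul_one] at h1
    exact h1

end Root

end Fermat.Agent.SS
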