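/-
(S35-(I3)) — helper9 — **(P4-abs) NORMRED: the norm commutes with reduction in the two-sheet
situation** (pure valuation theory / commutative algebra; Mathlib + helper7's `TwoExt`).

`L / F` finite separable, `O ⊆ F` a discrete valuation ring, `V₁ ≠ V₂` two extensions of `O` to
`L`, `[L : F] ≤ q + 1` with `q` a prime which is not a unit of `O`, and `q` elements of `V₂` with
`O/𝔪`-independent residues (the hypotheses of helper7's `two_ext_hom`, as produced by
`hind_A`/`hind_B` in `VAL2_helper7_HostTwo`).  Then `V₁`, `V₂` are the only extensions, both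
unramified, the residue field of `V₁` is that of `O` and the residue field of `V₂` has degree `q`
(purely inseparable in the application).  For `f ∈ V₁ ∩ V₂`:

* `norm_reduction_two_ext_hom` : if `f ≡ ι a₁` at `V₁` and `f ^ q ≡ ι a₂` at `V₂` then
  `N_{L/F} f ∈ O` and `N_{L/F} f ≡ a₁ a₂` modulo the maximal ideal of `O`
  (i.e. `red (N f) = red₁ f · N_insep (red₂ f)`);
* `valuation_norm_eq_one_two_ext_hom` : the norm of a unit of `V₁ ∩ V₂` is a unit of `O`.

Route: `S := integralClosure O L` is finite free over `O`; `k ⊗_O S ≅ S/P₁ × S/P₂` (injective by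
`e₁ = e₂ = 1` and `S = V₁ ∩ V₂`, bijective by counting dimensions); the norm commutes with the
base change `O → k`, is multiplicative on products, is the identity on an algebra of rank one,
and is the `q`-th power on an algebra of rank `q` in characteristic `q` for elements whose `q`-th
power is a scalar.
-/
import Mathlib
import Fermat.Agent.SS.VAL2_helper7_TwoExtB

set_option autoImplicit false
set_option linter.unusedSectionVars false
set_option linter.style.haveILetI false

open TensorProduct IsLocalRing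

namespace Fermat.Agent.S35

open Fermat.Agent.SS.TwoExt

variable {F L : Type*} [Field F] [Field L] [Algebra F L]
  {O : ValuationSubring F} [IsDiscreteValuationRing ↥O] [FiniteDimensional F L]
  [Algebra.IsSeparable F L]

section General

variable {R : Type*} [CommRing R]

/-- the norm on a product algebra is the product of the norms. -/
theorem normred_norm_prod {S T : Type*} [CommRing S] [CommRing T] [Algebra R S] [Algebra R T]
    [Module.Free R S] [Module.Finite R S] [Module.Free R T] [Module.Finite R T] (x : S) (y : T) :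
    Algebra.norm R ((x, y) : S × T) = Algebra.norm R x * Algebra.norm R y := by
  rw [Algebra.norm_apply, Algebra.norm_apply, Algebra.norm_apply, ← LinearMap.det_prodMap]
  congr 1

/-- the norm commutes with base change. -/
theorem normred_norm_baseChange {B : Type*} [CommRing B] [Algebra R B] [Module.Free R B]
    [Module.Finite R B] (A : Type*) [CommRing A] [Algebra R A] (f : B) :
    Algebra.norm A ((1 : A) ⊗ₜ[R] f) = algebraMap R A (Algebra.norm R f) := by
  rw [Algebra.norm_apply, ← Algebra.baseChange_lmul, LinearMap.det_baseChange, Algebra.norm_apply]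

/-- in characteristic `q`, on an algebra of rank `q`, the norm of a `q`-th root of a scalar `c`
is `c`. -/
theorem normred_norm_eq_of_pow_eq {K E : Type*} [Field K] [CommRing E] [Algebra K E]
    [Module.Finite K E] (q : ℕ) [hq : Fact q.Prime] [CharP K q]
    (hrank : Module.finrank K E = q) {y : E} {c : K} (hy : y ^ q = algebraMap K E c) :
    Algebra.norm K y = c := by
  have h1 : Algebra.norm K y ^ q = c ^ q := by
    rw [← map_pow, hy, Algebra.norm_algebraMap, hrank]
  have h2 : (Algebra.norm K y - c) ^ q = 0 := by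
    rw [sub_pow_char, h1, sub_self]
  exact sub_eq_zero.mp (pow_eq_zero_iff (hq.out.ne_zero) |>.mp h2)

/-- on an algebra of rank one, the norm of a scalar is the scalar. -/
theorem normred_norm_eq_of_finrank_one {K E : Type*} [Field K] [CommRing E] [Algebra K E]
    (hrank : Module.finrank K E = 1) (c : K) :
    Algebra.norm K (algebraMap K E c) = c := by
  rw [Algebra.norm_algebraMap, hrank, pow_one]

end General

section Phi

variable {V₁ V₂ : ValuationSubring L} (h₁ : IsExt O V₁) (h₂ : IsExt O V₂)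

/-- the two reductions `S → S/P₁ × S/P₂`. -/
noncomputable def normredPsi :
    intCl L O →ₐ[↥O] ((intCl L O ⧸ center h₁) × (intCl L O ⧸ center h₂)) :=
  (Ideal.Quotient.mkₐ ↥O (center h₁)).prod (Ideal.Quotient.mkₐ ↥O (center h₂))

/-- the reduction map `k ⊗ S → S/P₁ × S/P₂`. -/
noncomputable def normredPhi :
    (↥O ⧸ maximalIdeal ↥O) ⊗[↥O] (intCl L O) →ₐ[↥O ⧸ maximalIdeal ↥O]
      ((intCl L O ⧸ center h₁) × (intCl L O ⧸ center h₂)) :=
  Algebra.TensorProduct.lift
    (Algebra.ofId (↥O ⧸ maximalIdeal ↥O) ((intCl L O ⧸ center h₁) × (intCl L O ⧸ center h₂)))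
    (normredPsi h₁ h₂)
    (fun x y => Commute.all
      (Algebra.ofId (↥O ⧸ maximalIdeal ↥O) ((intCl L O ⧸ center h₁) × (intCl L O ⧸ center h₂)) x)
      (normredPsi h₁ h₂ y))

theorem normredPhi_one_tmul (s : intCl L O) :
    normredPhi h₁ h₂ (1 ⊗ₜ s) =
      (Ideal.Quotient.mk (center h₁) s, Ideal.Quotient.mk (center h₂) s) := by
  simp [normredPhi, normredPsi]

/-- every element of `k ⊗ S` is a pure tensor `1 ⊗ s`. -/
theorem normred_exists_one_tmul (z : (↥O ⧸ maximalIdeal ↥O) ⊗[↥O] (intCl L O)) :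
    ∃ s : intCl L O, z = 1 ⊗ₜ s := by
  induction z using TensorProduct.induction_on with
  | zero => exact ⟨0, (TensorProduct.tmul_zero _ _).symm⟩
  | tmul x s =>
    obtain ⟨a, rfl⟩ := Ideal.Quotient.mk_surjective x
    refine ⟨a • s, ?_⟩
    rw [TensorProduct.tmul_smul, TensorProduct.smul_tmul', Algebra.smul_def, mul_one]
    rfl
  | add x y hx hy =>
    obtain ⟨s, rfl⟩ := hx
    obtain ⟨t, rfl⟩ := hy
    exact ⟨s + t, (TensorProduct.tmul_add _ _ _).symm⟩

/-- the kernel of the two reductions is generated by a uniformiser. -/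
theorem normred_exists_eq_mul
    (hall : ∀ q : (maximalIdeal ↥O).primesOver (intCl L O),
      q = centerOver h₁ ∨ q = centerOver h₂)
    (he₁ : (center h₁).ramificationIdx ↥O = 1) (he₂ : (center h₂).ramificationIdx ↥O = 1)
    {ϖ : ↥O} (hϖ : Irreducible ϖ) {s : intCl L O} (hs₁ : s ∈ center h₁) (hs₂ : s ∈ center h₂) :
    ∃ s' : intCl L O, s = ϖ • s' := by
  rw [mem_center_iff] at hs₁ hs₂
  have m₁ := mul_inv_mem_of_ramificationIdx_eq_one h₁ he₁ hϖ hs₁
  have m₂ := mul_inv_mem_of_ramificationIdx_eq_one h₂ he₂ hϖ hs₂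
  have hint := isIntegral_of_mem_of_mem h₁ h₂ hall m₁ m₂
  refine ⟨⟨_, hint⟩, ?_⟩
  apply Subtype.ext
  have h0 : (ϖ : F) ≠ 0 := fun h0 => hϖ.ne_zero (Subtype.ext h0)
  have h0' : algebraMap F L (ϖ : F) ≠ 0 := (map_ne_zero _).mpr h0
  change (s : L) = ϖ • ((s : L) * (algebraMap F L (ϖ : F))⁻¹)
  rw [Algebra.smul_def]
  change (s : L) = algebraMap F L (ϖ : F) * ((s : L) * (algebraMap F L (ϖ : F))⁻¹)
  field_simp

theorem normredPhi_injective
    (hall : ∀ q : (maximalIdeal ↥O).primesOver (intCl L O),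
      q = centerOver h₁ ∨ q = centerOver h₂)
    (he₁ : (center h₁).ramificationIdx ↥O = 1) (he₂ : (center h₂).ramificationIdx ↥O = 1) :
    Function.Injective (normredPhi h₁ h₂) := by
  rw [injective_iff_map_eq_zero]
  intro z hz
  obtain ⟨s, rfl⟩ := normred_exists_one_tmul z
  rw [normredPhi_one_tmul, Prod.mk_eq_zero, Ideal.Quotient.eq_zero_iff_mem,
    Ideal.Quotient.eq_zero_iff_mem] at hz
  obtain ⟨ϖ, hϖ⟩ := IsDiscreteValuationRing.exists_irreducible ↥O
  obtain ⟨s', rfl⟩ := normred_exists_eq_mul h₁ h₂ hall he₁ he₂ hϖ hz.1 hz.2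
  rw [TensorProduct.tmul_smul, TensorProduct.smul_tmul', Algebra.smul_def, mul_one]
  have : algebraMap ↥O (↥O ⧸ maximalIdeal ↥O) ϖ = 0 := by
    rw [Ideal.Quotient.algebraMap_eq, Ideal.Quotient.eq_zero_iff_mem]
    exact hϖ.maximalIdeal_eq ▸ Ideal.mem_span_singleton_self ϖ
  rw [this, TensorProduct.zero_tmul]

theorem normredPhi_bijective
    (hall : ∀ q : (maximalIdeal ↥O).primesOver (intCl L O),
      q = centerOver h₁ ∨ q = centerOver h₂)
    (he₁ : (center h₁).ramificationIdx ↥O = 1) (hf₁ : (center h₁).inertiaDeg ↥O = 1)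
    (he₂ : (center h₂).ramificationIdx ↥O = 1) {r : ℕ} (hf₂ : (center h₂).inertiaDeg ↥O = r)
    (hdeg : Module.finrank F L = r + 1) :
    Function.Bijective (normredPhi h₁ h₂) := by
  letI : Field (↥O ⧸ maximalIdeal ↥O) := Ideal.Quotient.field _
  have hinj := normredPhi_injective h₁ h₂ hall he₁ he₂
  refine ⟨hinj, ?_⟩
  rw [Ideal.inertiaDeg_eq_of_isMaximal (maximalIdeal ↥O) (center h₁)] at hf₁
  rw [Ideal.inertiaDeg_eq_of_isMaximal (maximalIdeal ↥O) (center h₂)] at hf₂
  have h3 : Module.finrank ↥O (intCl L O) = Module.finrank F L :=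
    (IsFractionRing.finrank_eq ↥O F (intCl L O) L).symm
  have hdim : Module.finrank (↥O ⧸ maximalIdeal ↥O)
      ((↥O ⧸ maximalIdeal ↥O) ⊗[↥O] (intCl L O)) =
      Module.finrank (↥O ⧸ maximalIdeal ↥O)
        ((intCl L O ⧸ center h₁) × (intCl L O ⧸ center h₂)) := by
    rw [Module.finrank_baseChange, Module.finrank_prod, hf₁, hf₂, h3, hdeg, add_comm]
  exact (LinearMap.injective_iff_surjective_of_finrank_eq_finrank
    (f := (normredPhi h₁ h₂).toLinearMap) hdim).mp hinj

/-- the reduction map as an isomorphism of algebras over the residue field. -/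
noncomputable def normredEquiv
    (hall : ∀ q : (maximalIdeal ↥O).primesOver (intCl L O),
      q = centerOver h₁ ∨ q = centerOver h₂)
    (he₁ : (center h₁).ramificationIdx ↥O = 1) (hf₁ : (center h₁).inertiaDeg ↥O = 1)
    (he₂ : (center h₂).ramificationIdx ↥O = 1) {r : ℕ} (hf₂ : (center h₂).inertiaDeg ↥O = r)
    (hdeg : Module.finrank F L = r + 1) :
    (↥O ⧸ maximalIdeal ↥O) ⊗[↥O] (intCl L O) ≃ₐ[↥O ⧸ maximalIdeal ↥O]
      ((intCl L O ⧸ center h₁) × (intCl L O ⧸ center h₂)) :=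
  AlgEquiv.ofBijective (normredPhi h₁ h₂)
    (normredPhi_bijective h₁ h₂ hall he₁ hf₁ he₂ hf₂ hdeg)

end Phi

section Main

variable {V₁ V₂ : ValuationSubring L} (h₁ : IsExt O V₁) (h₂ : IsExt O V₂)

/-- **norm commutes with reduction** (counting form). -/
theorem norm_reduction_of_count
    (hall : ∀ q : (maximalIdeal ↥O).primesOver (intCl L O),
      q = centerOver h₁ ∨ q = centerOver h₂)
    (he₁ : (center h₁).ramificationIdx ↥O = 1) (hf₁ : (center h₁).inertiaDeg ↥O = 1)
    (he₂ : (center h₂).ramificationIdx ↥O = 1) {q : ℕ} (hq : q.Prime)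
    (hf₂ : (center h₂).inertiaDeg ↥O = q) (hdeg : Module.finrank F L = q + 1)
    (hchar : O.valuation (q : F) < 1)
    {f : L} (hfV₁ : f ∈ V₁) (hfV₂ : f ∈ V₂) {a₁ a₂ : F}
    (hc₁ : V₁.valuation (f - algebraMap F L a₁) < 1)
    (hc₂ : V₂.valuation (f ^ q - algebraMap F L a₂) < 1) :
    Algebra.norm F f ∈ O ∧ O.valuation (Algebra.norm F f - a₁ * a₂) < 1 := by
  letI : Field (↥O ⧸ maximalIdeal ↥O) := Ideal.Quotient.field _
  haveI : Fact q.Prime := ⟨hq⟩
  -- `f` as an element of the integral closure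
  have hfint : IsIntegral ↥O f := isIntegral_of_mem_of_mem h₁ h₂ hall hfV₁ hfV₂
  set fS : intCl L O := ⟨f, hfint⟩ with hfS
  -- `a₁, a₂` are integral
  have ha₁ : a₁ ∈ O := by
    rw [← h₁.mem_iff]
    have : algebraMap F L a₁ = f - (f - algebraMap F L a₁) := by ring
    rw [this]
    exact sub_mem hfV₁ ((ValuationSubring.valuation_le_one_iff _ _).mp hc₁.le)
  have ha₂ : a₂ ∈ O := by
    rw [← h₂.mem_iff]
    have : algebraMap F L a₂ = f ^ q - (f ^ q - algebraMap F L a₂) := by ring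
    rw [this]
    exact sub_mem (pow_mem hfV₂ q) ((ValuationSubring.valuation_le_one_iff _ _).mp hc₂.le)
  set b₁ : ↥O := ⟨a₁, ha₁⟩ with hb₁
  set b₂ : ↥O := ⟨a₂, ha₂⟩ with hb₂
  -- the norm over `F` is the norm over `O`
  have hN : Algebra.norm F f = algebraMap ↥O F (Algebra.norm ↥O fS) :=
    Algebra.norm_localization ↥O (nonZeroDivisors ↥O) (Sₘ := L) fS
  -- characteristic `q`
  haveI : CharP (↥O ⧸ maximalIdeal ↥O) q := by
    rw [CharP.charP_iff_prime_eq_zero hq]
    have h1 : ((q : ↥O) : F) = (q : F) := by simp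
    have h2 : (q : ↥O) ∈ maximalIdeal ↥O := by
      rw [ValuationSubring.valuation_lt_one_iff, h1]
      exact hchar
    have h3 : ((q : ↥O ⧸ maximalIdeal ↥O)) = Ideal.Quotient.mk (maximalIdeal ↥O) (q : ↥O) := by
      simp
    rw [h3, Ideal.Quotient.eq_zero_iff_mem]
    exact h2
  -- reduction of the norm
  have hred : algebraMap ↥O (↥O ⧸ maximalIdeal ↥O) (Algebra.norm ↥O fS) =
      Ideal.Quotient.mk (maximalIdeal ↥O) b₁ * Ideal.Quotient.mk (maximalIdeal ↥O) b₂ := by
    rw [← normred_norm_baseChange (↥O ⧸ maximalIdeal ↥O) fS,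
      ← Algebra.norm_eq_of_algEquiv (normredEquiv h₁ h₂ hall he₁ hf₁ he₂ hf₂ hdeg)]
    have h1 : normredEquiv h₁ h₂ hall he₁ hf₁ he₂ hf₂ hdeg (1 ⊗ₜ fS) =
        (Ideal.Quotient.mk (center h₁) fS, Ideal.Quotient.mk (center h₂) fS) :=
      normredPhi_one_tmul h₁ h₂ fS
    rw [h1]
    refine (normred_norm_prod (R := ↥O ⧸ maximalIdeal ↥O) (Ideal.Quotient.mk (center h₁) fS)
      (Ideal.Quotient.mk (center h₂) fS)).trans ?_
    congr 1
    · -- first factor
      rw [Ideal.inertiaDeg_eq_of_isMaximal (maximalIdeal ↥O) (center h₁)] at hf₁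
      have h2 : Ideal.Quotient.mk (center h₁) fS =
          algebraMap (↥O ⧸ maximalIdeal ↥O) (intCl L O ⧸ center h₁)
            (Ideal.Quotient.mk (maximalIdeal ↥O) b₁) := by
        rw [Ideal.Quotient.algebraMap_mk_of_liesOver, Ideal.Quotient.eq, mem_center_iff]
        exact hc₁
      rw [h2]
      exact normred_norm_eq_of_finrank_one (K := ↥O ⧸ maximalIdeal ↥O) hf₁ _
    · -- second factor
      rw [Ideal.inertiaDeg_eq_of_isMaximal (maximalIdeal ↥O) (center h₂)] at hf₂
      have h2 : Ideal.Quotient.mk (center h₂) fS ^ q =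
          algebraMap (↥O ⧸ maximalIdeal ↥O) (intCl L O ⧸ center h₂)
            (Ideal.Quotient.mk (maximalIdeal ↥O) b₂) := by
        rw [Ideal.Quotient.algebraMap_mk_of_liesOver, ← map_pow, Ideal.Quotient.eq,
          mem_center_iff]
        exact hc₂
      exact normred_norm_eq_of_pow_eq (K := ↥O ⧸ maximalIdeal ↥O) q hf₂ h2
  refine ⟨?_, ?_⟩
  · rw [hN]
    exact (Algebra.norm ↥O fS).2
  · rw [hN]
    have h1 : Algebra.norm ↥O fS - b₁ * b₂ ∈ maximalIdeal ↥O := by
      rw [← Ideal.Quotient.eq, map_mul, ← hred]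
      rfl
    rw [ValuationSubring.valuation_lt_one_iff] at h1
    exact h1

/-- the counting data of the two-extension lemma, from elements of `V₂` with independent
residues. -/
theorem normred_count_two (hne : V₁ ≠ V₂) {r : ℕ} (hr0 : 0 < r)
    (hr : Module.finrank F L ≤ r + 1) (b : Fin r → L) (hb : ∀ i, b i ∈ V₂)
    (hind : ∀ a : Fin r → ↥O, V₂.valuation (∑ i, algebraMap F L (a i : F) * b i) < 1 →
      ∀ i, a i ∈ maximalIdeal ↥O) :
    (∀ q : (maximalIdeal ↥O).primesOver (intCl L O), q = centerOver h₁ ∨ q = centerOver h₂) ∧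
      (center h₁).ramificationIdx ↥O = 1 ∧ (center h₁).inertiaDeg ↥O = 1 ∧
      (center h₂).ramificationIdx ↥O = 1 ∧ (center h₂).inertiaDeg ↥O = r ∧
      Module.finrank F L = r + 1 := by
  choose s hs using fun i => exists_intCl_sub_val_lt_one h₂ (hb i)
  have hind' : ∀ a : Fin r → ↥O,
      V₂.valuation (∑ i, algebraMap F L (a i : F) * ((s i : intCl L O) : L)) < 1 →
      ∀ i, a i ∈ maximalIdeal ↥O := by
    intro a ha
    apply hind a
    exact val_lt_one_of_sub (val_sum_sub_lt_one h₂ a b (fun i => ((s i : intCl L O) : L)) hs) ha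
  exact count_two h₁ h₂ hne hr0 hr
    (le_inertiaDeg_center h₂ (fun i => ((s i : intCl L O) : L)) (fun i => (s i).2) hind')

include h₁ h₂ in
/-- **norm commutes with reduction** in the two-extension situation (`Algebra` form): `V₁ ≠ V₂`
extend the discrete valuation ring `O`, `[L : F] ≤ q + 1`, `q` a prime which is not a unit of `O`,
and `q` elements of `V₂` have independent residues.  If `f ∈ V₁ ∩ V₂` is congruent to `a₁` at `V₁`
and `f ^ q` is congruent to `a₂` at `V₂`, then `N_{L/F} f ∈ O` is congruent to `a₁ a₂`. -/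
theorem norm_reduction_two_ext (hne : V₁ ≠ V₂) {q : ℕ} (hq : q.Prime)
    (hchar : O.valuation (q : F) < 1)
    (hr : Module.finrank F L ≤ q + 1) (b : Fin q → L) (hb : ∀ i, b i ∈ V₂)
    (hind : ∀ a : Fin q → ↥O, V₂.valuation (∑ i, algebraMap F L (a i : F) * b i) < 1 →
      ∀ i, a i ∈ maximalIdeal ↥O)
    {f : L} (hfV₁ : f ∈ V₁) (hfV₂ : f ∈ V₂) {a₁ a₂ : F}
    (hc₁ : V₁.valuation (f - algebraMap F L a₁) < 1)
    (hc₂ : V₂.valuation (f ^ q - algebraMap F L a₂) < 1) :
    Algebra.norm F f ∈ O ∧ O.valuation (Algebra.norm F f - a₁ * a₂) < 1 := by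
  obtain ⟨hall, he₁, hf₁, he₂, hf₂, hdeg⟩ := normred_count_two h₁ h₂ hne hq.pos hr b hb hind
  exact norm_reduction_of_count h₁ h₂ hall he₁ hf₁ he₂ hq hf₂ hdeg hchar hfV₁ hfV₂ hc₁ hc₂

/-- the norm of an element of `V₁ ∩ V₂` is integral. -/
theorem norm_mem_of_count
    (hall : ∀ q : (maximalIdeal ↥O).primesOver (intCl L O),
      q = centerOver h₁ ∨ q = centerOver h₂)
    {f : L} (hfV₁ : f ∈ V₁) (hfV₂ : f ∈ V₂) : Algebra.norm F f ∈ O := by
  have hfint : IsIntegral ↥O f := isIntegral_of_mem_of_mem h₁ h₂ hall hfV₁ hfV₂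
  have hN : Algebra.norm F f = algebraMap ↥O F (Algebra.norm ↥O (⟨f, hfint⟩ : intCl L O)) :=
    Algebra.norm_localization ↥O (nonZeroDivisors ↥O) (Sₘ := L) (⟨f, hfint⟩ : intCl L O)
  rw [hN]
  exact (Algebra.norm ↥O (⟨f, hfint⟩ : intCl L O)).2

/-- the norm of a unit of `V₁ ∩ V₂` is a unit. -/
theorem valuation_norm_eq_one_of_count
    (hall : ∀ q : (maximalIdeal ↥O).primesOver (intCl L O),
      q = centerOver h₁ ∨ q = centerOver h₂)
    {f : L} (hfV₁ : V₁.valuation f = 1) (hfV₂ : V₂.valuation f = 1) :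
    O.valuation (Algebra.norm F f) = 1 := by
  have hf0 : f ≠ 0 := by
    rintro rfl
    simp at hfV₁
  have m₁ : f ∈ V₁ := (ValuationSubring.valuation_le_one_iff _ _).mp hfV₁.le
  have m₂ : f ∈ V₂ := (ValuationSubring.valuation_le_one_iff _ _).mp hfV₂.le
  have i₁ : f⁻¹ ∈ V₁ := by
    rw [← ValuationSubring.valuation_le_one_iff, map_inv₀, hfV₁, inv_one]
  have i₂ : f⁻¹ ∈ V₂ := by
    rw [← ValuationSubring.valuation_le_one_iff, map_inv₀, hfV₂, inv_one]
  have n₁ := norm_mem_of_count h₁ h₂ hall m₁ m₂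
  have n₂ := norm_mem_of_count h₁ h₂ hall i₁ i₂
  rw [Algebra.norm_inv] at n₂
  rw [← ValuationSubring.valuation_le_one_iff] at n₁ n₂
  rw [map_inv₀] at n₂
  have hN0 : Algebra.norm F f ≠ 0 := Algebra.norm_ne_zero_iff.mpr hf0
  have hv0 : O.valuation (Algebra.norm F f) ≠ 0 := (Valuation.ne_zero_iff _).mpr hN0
  have := (inv_le_one₀ (zero_lt_iff.mpr hv0)).mp n₂
  exact le_antisymm n₁ this

include h₁ h₂ in
/-- the norm of a unit of `V₁ ∩ V₂` is a unit, in the two-extension situation. -/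
theorem valuation_norm_eq_one_two_ext (hne : V₁ ≠ V₂) {r : ℕ} (hr0 : 0 < r)
    (hr : Module.finrank F L ≤ r + 1) (b : Fin r → L) (hb : ∀ i, b i ∈ V₂)
    (hind : ∀ a : Fin r → ↥O, V₂.valuation (∑ i, algebraMap F L (a i : F) * b i) < 1 →
      ∀ i, a i ∈ maximalIdeal ↥O)
    {f : L} (hfV₁ : V₁.valuation f = 1) (hfV₂ : V₂.valuation f = 1) :
    O.valuation (Algebra.norm F f) = 1 := by
  obtain ⟨hall, -⟩ := normred_count_two h₁ h₂ hne hr0 hr b hb hind
  exact valuation_norm_eq_one_of_count h₁ h₂ hall hfV₁ hfV₂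

end Main

section Hom

variable {F L : Type*} [Field F] [Field L]

/-- **norm commutes with reduction** in the two-extension situation, along a ring homomorphism
(same hypotheses as `two_ext_hom`, with `r = q` a prime which is not a unit of `O`). -/
theorem norm_reduction_two_ext_hom (ι : F →+* L) (O : ValuationSubring F)
    [IsDiscreteValuationRing ↥O]
    (hfin : letI := ι.toAlgebra; FiniteDimensional F L)
    (hsep : letI := ι.toAlgebra; Algebra.IsSeparable F L)
    {V₁ V₂ : ValuationSubring L} (h₁ : V₁.comap ι = O) (h₂ : V₂.comap ι = O)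
    (hne : V₁ ≠ V₂) {q : ℕ} (hq : q.Prime) (hchar : O.valuation (q : F) < 1)
    (hr : letI := ι.toAlgebra; Module.finrank F L ≤ q + 1)
    (b : Fin q → L) (hb : ∀ i, b i ∈ V₂)
    (hind : ∀ a : Fin q → ↥O, V₂.valuation (∑ i, ι (a i : F) * b i) < 1 →
      ∀ i, a i ∈ maximalIdeal ↥O)
    {f : L} (hfV₁ : f ∈ V₁) (hfV₂ : f ∈ V₂) {a₁ a₂ : F}
    (hc₁ : V₁.valuation (f - ι a₁) < 1) (hc₂ : V₂.valuation (f ^ q - ι a₂) < 1) :
    (letI := ι.toAlgebra; Algebra.norm F f) ∈ O ∧
      O.valuation ((letI := ι.toAlgebra; Algebra.norm F f) - a₁ * a₂) < 1 := by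
  letI := ι.toAlgebra
  haveI := hfin
  haveI := hsep
  exact norm_reduction_two_ext (O := O) (V₁ := V₁) (V₂ := V₂) h₁ h₂ hne hq hchar hr b hb hind
    hfV₁ hfV₂ hc₁ hc₂

/-- the norm of a unit of `V₁ ∩ V₂` is a unit, along a ring homomorphism. -/
theorem valuation_norm_eq_one_two_ext_hom (ι : F →+* L) (O : ValuationSubring F)
    [IsDiscreteValuationRing ↥O]
    (hfin : letI := ι.toAlgebra; FiniteDimensional F L)
    (hsep : letI := ι.toAlgebra; Algebra.IsSeparable F L)
    {V₁ V₂ : ValuationSubring L} (h₁ : V₁.comap ι = O) (h₂ : V₂.comap ι = O)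
    (hne : V₁ ≠ V₂) {r : ℕ} (hr0 : 0 < r)
    (hr : letI := ι.toAlgebra; Module.finrank F L ≤ r + 1)
    (b : Fin r → L) (hb : ∀ i, b i ∈ V₂)
    (hind : ∀ a : Fin r → ↥O, V₂.valuation (∑ i, ι (a i : F) * b i) < 1 →
      ∀ i, a i ∈ maximalIdeal ↥O)
    {f : L} (hfV₁ : V₁.valuation f = 1) (hfV₂ : V₂.valuation f = 1) :
    O.valuation (letI := ι.toAlgebra; Algebra.norm F f) = 1 := by
  letI := ι.toAlgebra
  haveI := hfin
  haveI := hsep
  exact valuation_norm_eq_one_two_ext (O := O) (V₁ := V₁) (V₂ := V₂) h₁ h₂ hne hr0 hr b hb hind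
    hfV₁ hfV₂

end Hom

end Fermat.Agent.S35
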