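/-
S35 — helper8 — **the base statements of the Frobenius route** (`LegFrobBase`, `HesFrobBase`): what
the chain MODEL + N2 + TORIC + NODECOUNT must deliver at ONE Galois base, in the currency of lead's
`TOPB_lead_Iface` (`IsGalBase`, `resGal`, `legGalois`/`hesGalois`, `legE`/`hesE`, `IsRationalPlace`).

For a Galois base `K₁ ⊂ Ω` at `q ∤ M`, a Frobenius lift `φ` at `A | q`, an exponent `m` prime to `q`
and a nonzero MONIC element `f₀` of the level-`M q` field `F(K₁) = keyFq K₁ (M q)` such that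
* at every place `P` of the host `E(K₁)` either `ord_P f₀ = 0` or `P` is rational and `m ∣ ord_P f₀`,
* the norms of `f₀` along the two degeneracy maps `keyFqA`, `keyFqB : F_M(K₁) → F_{M q}(K₁)` are
  `m`-th powers,
the element `frobPolyMul q r φ̄ f₀ = (φ̄^r − q^r)(φ̄² − 1)(φ̄ − 1) f₀` (multiplicative notation) is an
`m`-th power in the host, for an `r ≥ 1` depending on `(M, q)` only.
-/
import Mathlib
import Fermat.Agent.SS.TOPB_lead_Iface
import Fermat.Agent.SS.HOSTB_helper8_HostB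
import Fermat.Agent.JA.UP_helper7_Emb

set_option autoImplicit false
set_option linter.unusedSectionVars false
set_option linter.style.haveILetI false

open HahnSeries IntermediateField AlgebraicCurve ModularCurve

namespace Fermat.Agent.S35

open Fermat.Agent.JA Fermat.Agent.FF Fermat.Agent.SS

/-- `Ω = AlgebraicClosure ℚ`. -/
local notation "Ω" => AlgebraicClosure ℚ

/-- the absolute Galois group. -/
local notation "GQ" => (AlgebraicClosure ℚ ≃ₐ[ℚ] AlgebraicClosure ℚ)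

/-- `(s^r − q^r)(s² − 1)(s − 1) f` in multiplicative notation. -/
noncomputable def frobPolyMul {E : Type*} [Field E] (q r : ℕ) (s : E → E) (f : E) : E :=
  s^[r] (s (s (s f / f)) / (s f / f)) / (s (s (s f / f)) / (s f / f)) ^ (q ^ r)

section Maps

variable (K : Type*) [Field K] [Algebra ℚ K]

/-- the degeneracy map `A` (inclusion) on the level fields. -/
noncomputable def keyFqA (M q : ℕ) [NeZero M] [NeZero (M * q)] : ↥(keyFq K M) →ₐ[K] ↥(keyFq K (M * q)) :=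
  IntermediateField.inclusion (keyFq_le_of_dvd K (dvd_mul_right M q))

/-- the degeneracy map `B` (`x ↦ x ^ q`) on the level fields. -/
noncomputable def keyFqB (M q : ℕ) [NeZero M] [NeZero q] [NeZero (M * q)] :
    ↥(keyFq K M) →ₐ[K] ↥(keyFq K (M * q)) :=
  dilateAlgHom K q (keyFq K M) (keyFq K (M * q))
    (fun _ hf => qExpand_mem_keyFq K (by rw [mul_comm]) hf)

@[simp] theorem coe_keyFqA (M q : ℕ) [NeZero M] [NeZero (M * q)] (f : ↥(keyFq K M)) :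
    ((keyFqA K M q f : ↥(keyFq K (M * q))) : LaurentSeries K) = f :=
  IntermediateField.coe_inclusion _ f

@[simp] theorem coe_keyFqB (M q : ℕ) [NeZero M] [NeZero q] [NeZero (M * q)] (f : ↥(keyFq K M)) :
    ((keyFqB K M q f : ↥(keyFq K (M * q))) : LaurentSeries K) =
      qExpand K q (f : LaurentSeries K) := rfl

end Maps

/-- **the base statement of the Frobenius route, Legendre host** (`q ≠ 2`). -/
def LegFrobBase : Prop :=
  ∀ (M : ℕ) [NeZero M] (q : ℕ) [NeZero q] [NeZero (M * q)], q.Prime → q ≠ 2 → ¬ q ∣ M →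
  ∃ r : ℕ, 0 < r ∧
  ∀ (A : ValuationSubring Ω), A.LiesOverPrime q →
  ∀ (K₁ : IntermediateField ℚ Ω) [Normal ℚ ↥K₁], IsGalBase q K₁ →
  ∀ φ : GQ, A.IsFrobeniusAt φ q → ∀ (m : ℕ), 0 < m → ¬ q ∣ m →
  ∀ f₀ : ↥(keyFq ↥K₁ (M * q)), f₀ ≠ 0 →
    ((f₀ : ↥(keyFq ↥K₁ (M * q))) : LaurentSeries ↥K₁).leadingCoeff = 1 →
    (∀ P : Place ↥K₁ ↥(legE ↥K₁ (M * q)),
      P.ord (fullToLegE ↥K₁ (M * q) f₀) = 0 ∨
        (IsRationalPlace P ∧ (m : ℤ) ∣ P.ord (fullToLegE ↥K₁ (M * q) f₀))) →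
    (∃ hA : ↥(keyFq ↥K₁ M),
      (letI := (keyFqA ↥K₁ M q).toRingHom.toAlgebra; Algebra.norm ↥(keyFq ↥K₁ M) f₀) = hA ^ m) →
    (∃ hB : ↥(keyFq ↥K₁ M),
      (letI := (keyFqB ↥K₁ M q).toRingHom.toAlgebra; Algebra.norm ↥(keyFq ↥K₁ M) f₀) = hB ^ m) →
    ∃ u : ↥(legE ↥K₁ (M * q)),
      frobPolyMul q r (fun x => legGalois ↥K₁ (M * q) (resGal K₁ φ) • x)
        (fullToLegE ↥K₁ (M * q) f₀) = u ^ m

/-- **the base statement of the Frobenius route, Hesse host** (`q = 2`). -/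
def HesFrobBase : Prop :=
  ∀ (M : ℕ) [NeZero M] [NeZero (M * 2)], ¬ 2 ∣ M →
  ∃ r : ℕ, 0 < r ∧
  ∀ (A : ValuationSubring Ω), A.LiesOverPrime 2 →
  ∀ (K₁ : IntermediateField ℚ Ω) [Normal ℚ ↥K₁], IsGalBase 2 K₁ →
  ∀ φ : GQ, A.IsFrobeniusAt φ 2 → ∀ (m : ℕ), 0 < m → ¬ 2 ∣ m →
  ∀ f₀ : ↥(keyFq ↥K₁ (M * 2)), f₀ ≠ 0 →
    ((f₀ : ↥(keyFq ↥K₁ (M * 2))) : LaurentSeries ↥K₁).leadingCoeff = 1 →
    (∀ P : Place ↥K₁ ↥(hesE ↥K₁ (M * 2)),
      P.ord (fullToHesE ↥K₁ (M * 2) f₀) = 0 ∨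
        (IsRationalPlace P ∧ (m : ℤ) ∣ P.ord (fullToHesE ↥K₁ (M * 2) f₀))) →
    (∃ hA : ↥(keyFq ↥K₁ M),
      (letI := (keyFqA ↥K₁ M 2).toRingHom.toAlgebra; Algebra.norm ↥(keyFq ↥K₁ M) f₀) = hA ^ m) →
    (∃ hB : ↥(keyFq ↥K₁ M),
      (letI := (keyFqB ↥K₁ M 2).toRingHom.toAlgebra; Algebra.norm ↥(keyFq ↥K₁ M) f₀) = hB ^ m) →
    ∃ u : ↥(hesE ↥K₁ (M * 2)),
      frobPolyMul 2 r (fun x => hesGalois ↥K₁ (M * 2) (resGal K₁ φ) • x)
        (fullToHesE ↥K₁ (M * 2) f₀) = u ^ m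

end Fermat.Agent.S35
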