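/-
S35 — helper8 — **base change of norms** (generic): for finite free `B/A`, `B'/A'` and compatible
ring homomorphisms `φA : A → A'`, `φB : B → B'` carrying a basis to a basis,
`φA (N_{B/A} x) = N_{B'/A'} (φB x)` (`norm_map_of_basis`); the field version with equal degrees and
`B' = A'·φB(B)` (`norm_map_of_finrank_eq`).
-/
import Mathlib

set_option autoImplicit false
set_option linter.unusedSectionVars false

namespace Fermat.Agent.S35

section Basis

variable {A B A' B' : Type*} [CommRing A] [CommRing B] [Algebra A B]
  [CommRing A'] [CommRing B'] [Algebra A' B']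

/-- **base change of norms along a basis-preserving pair of ring homomorphisms.** -/
theorem norm_map_of_basis {ι : Type*} [Fintype ι] [DecidableEq ι]
    (b : Module.Basis ι A B) (b' : Module.Basis ι A' B')
    (φA : A →+* A') (φB : B →+* B')
    (hcomp : ∀ a : A, φB (algebraMap A B a) = algebraMap A' B' (φA a))
    (hb : ∀ i, φB (b i) = b' i) (x : B) :
    φA (Algebra.norm A x) = Algebra.norm A' (φB x) := by
  rw [Algebra.norm_eq_matrix_det b x, Algebra.norm_eq_matrix_det b' (φB x), RingHom.map_det]
  congr 1
  ext i j
  rw [RingHom.mapMatrix_apply, Matrix.map_apply, Algebra.leftMulMatrix_eq_repr_mul,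
    Algebra.leftMulMatrix_eq_repr_mul]
  -- expand `x * b j` in the basis `b` and apply `φB`
  have h1 : x * b j = ∑ k, (b.repr (x * b j) k) • b k := (b.sum_repr (x * b j)).symm
  have h2 : φB x * b' j = ∑ k, φA (b.repr (x * b j) k) • b' k := by
    rw [← hb j, ← map_mul, h1, map_sum]
    refine Finset.sum_congr rfl fun k _ => ?_
    rw [Algebra.smul_def, map_mul, hcomp, hb, ← Algebra.smul_def]
    congr 2
    rw [← h1]
  rw [h2, map_sum]
  simp only [map_smul, Module.Basis.repr_self, Finsupp.smul_apply, Finsupp.single_apply,
    smul_eq_mul, mul_ite, mul_one, mul_zero, Finsupp.coe_finsetSum, Finset.sum_apply,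
    Finset.sum_ite_eq', Finset.mem_univ, if_true]

end Basis

section Field

variable {A B A' B' : Type*} [Field A] [Field B] [Algebra A B] [FiniteDimensional A B]
  [Field A'] [Field B'] [Algebra A' B'] [FiniteDimensional A' B']

/-- **base change of norms, field version**: equal degrees and `B' = A'·φB(B)`. -/
theorem norm_map_of_finrank_eq (φA : A →+* A') (φB : B →+* B')
    (hcomp : ∀ a : A, φB (algebraMap A B a) = algebraMap A' B' (φA a))
    (hdeg : Module.finrank A B = Module.finrank A' B')
    (hspan : Submodule.span A' (Set.range φB) = ⊤) (x : B) :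
    φA (Algebra.norm A x) = Algebra.norm A' (φB x) := by
  classical
  set b := Module.finBasis A B with hbdef
  -- the images of the basis vectors span `B'`
  have hspan' : ⊤ ≤ Submodule.span A' (Set.range (fun i => φB (b i))) := by
    rw [← hspan, Submodule.span_le]
    rintro _ ⟨y, rfl⟩
    have hy : y = ∑ k, (b.repr y k) • b k := (b.sum_repr y).symm
    rw [hy, map_sum]
    refine Submodule.sum_mem _ fun k _ => ?_
    rw [Algebra.smul_def, map_mul, hcomp, ← Algebra.smul_def]
    exact Submodule.smul_mem _ _ (Submodule.subset_span ⟨k, rfl⟩)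
  have hcard : Fintype.card (Fin (Module.finrank A B)) = Module.finrank A' B' := by
    rw [Fintype.card_fin, hdeg]
  set b' : Module.Basis (Fin (Module.finrank A B)) A' B' :=
    basisOfTopLeSpanOfCardEqFinrank (fun i => φB (b i)) hspan' hcard with hb'def
  refine norm_map_of_basis b b' φA φB hcomp (fun i => ?_) x
  rw [hb'def, coe_basisOfTopLeSpanOfCardEqFinrank]

end Field

end Fermat.Agent.S35
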