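/-
S35 — helper8 — **base change of the degeneracy norms `K₁ → Ω`** on the level fields:
for `K₁ ⊂ Ω` and `f₀ ∈ F_{Mq}(K₁)`,
`keyFqBC M K₁ (N_α f₀) = N_α (keyFqBC (M q) K₁ f₀)` and the same along `β`
(`keyFqBC_normAlong_heckeAlphaBar`, `keyFqBC_normAlong_heckeBetaBar`; forms for `keyFqA`, `keyFqB`).
Ingredients: `norm_map_of_finrank_eq` (NORMBC_helper8), equal degrees `q` / `q + 1` over every field
inside `ℂ` (helper5's `finrankAlong_heckeAlphaBar/BetaBar`), and `F(Ω) = Ω·F(K₁)`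
(`closure_range_keyFqBC`).
-/
import Mathlib
import Fermat.Agent.S35.NORMBC_helper8
import Fermat.Agent.S35.FROBBASE_helper8_Iface
import Fermat.Agent.GR.ANORM_helper5_Fricke
import Fermat.Agent.JA.BCD_helper9_HostRat
import Fermat.Agent.JA.ES_helper4_Main
import Fermat.Agent.SS.BASE_helper1_Leg

set_option autoImplicit false
set_option linter.unusedSectionVars false
set_option linter.style.haveILetI false
set_option synthInstance.maxHeartbeats 400000

open HahnSeries IntermediateField AlgebraicCurve ModularCurve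

namespace Fermat.Agent.S35

open Fermat.Agent.JA Fermat.Agent.FF Fermat.Agent.SS Fermat.Agent.X0N

/-- `Ω = AlgebraicClosure ℚ`. -/
local notation "Ω" => AlgebraicClosure ℚ

section Span

/-- if `L` is algebraic over `F'` and is generated as a field by the range of a ring homomorphism
`φ` together with a subset of `F'`, then the range of `φ` spans `L` over `F'`. -/
theorem span_range_eq_top_of_closure {F F' L : Type*} [Field F] [Field F'] [Field L] [Algebra F' L]
    [Algebra.IsAlgebraic F' L] (φ : F →+* L) (T : Set L)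
    (hT : T ⊆ Set.range (algebraMap F' L))
    (hcl : Subfield.closure (Set.range φ ∪ T) = ⊤) :
    Submodule.span F' (Set.range φ) = ⊤ := by
  -- the span is the subalgebra generated by the range
  have hmon : (Submonoid.closure (Set.range φ) : Set L) = Set.range φ := by
    have : Submonoid.closure (Set.range φ) = MonoidHom.mrange (φ : F →* L) := by
      refine le_antisymm (Submonoid.closure_le.2 ?_) ?_
      · rintro _ ⟨y, rfl⟩; exact ⟨y, rfl⟩
      · rintro _ ⟨y, rfl⟩; exact Submonoid.subset_closure ⟨y, rfl⟩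
    rw [this]; rfl
  have hadj : Submodule.span F' (Set.range φ) =
      Subalgebra.toSubmodule (Algebra.adjoin F' (Set.range φ)) := by
    rw [Algebra.adjoin_eq_span, hmon]
  rw [hadj]
  -- the subalgebra is a field, hence a subfield containing the generators
  set S := Algebra.adjoin F' (Set.range φ) with hS
  have hfield : IsField ↥S := Subalgebra.isField_of_algebraic S
  let Sf : IntermediateField F' L := Subalgebra.toIntermediateField' S hfield
  have hle : Subfield.closure (Set.range φ ∪ T) ≤ Sf.toSubfield := by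
    rw [Subfield.closure_le]
    rintro x (hx | hx)
    · exact Algebra.subset_adjoin hx
    · obtain ⟨a, rfl⟩ := hT hx
      exact S.algebraMap_mem a
  rw [hcl] at hle
  rw [eq_top_iff]
  intro x _
  exact hle (Subfield.mem_top x)

/-- **base change of `normAlong`** (abstract form): equal degrees and `G' = K'·b(F')`. -/
theorem normAlong_map_of_finrankAlong_eq {K K' F F' G G' : Type*} [Field K] [Field K'] [Field F]
    [Field F'] [Field G] [Field G'] [Algebra K F] [Algebra K F'] [Algebra K' G] [Algebra K' G']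
    (φ₁ : F →ₐ[K] F') (φ₂ : G →ₐ[K'] G') (a : F →+* G) (b : F' →+* G')
    (hcomp : ∀ x, b (φ₁ x) = φ₂ (a x))
    (hdeg : finrankAlong K φ₁ = finrankAlong K' φ₂) (hpos : 0 < finrankAlong K' φ₂)
    (hcl : Subfield.closure (Set.range b ∪ Set.range (algebraMap K' G')) = ⊤) (z : F') :
    a (normAlong φ₁ z) = normAlong φ₂ (b z) := by
  unfold normAlong
  unfold finrankAlong at hdeg hpos
  letI a1 := algebraAlong φ₁
  letI a2 := algebraAlong φ₂
  haveI : FiniteDimensional G G' := Module.finite_of_finrank_pos hpos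
  haveI : FiniteDimensional F F' := Module.finite_of_finrank_pos (by rw [hdeg]; exact hpos)
  haveI : Algebra.IsAlgebraic G G' := Algebra.IsAlgebraic.of_finite _ _
  refine norm_map_of_finrank_eq a b hcomp hdeg ?_ z
  refine span_range_eq_top_of_closure b _ ?_ hcl
  rintro _ ⟨c, rfl⟩
  exact ⟨algebraMap K' G c, φ₂.commutes c⟩

end Span

section Key

variable (M q : ℕ) [NeZero M] [NeZero q] [NeZero (M * q)] (K₁ : IntermediateField ℚ Ω)

theorem keyFqBC_heckeAlphaBar (x : ↥(keyFq ↥K₁ M)) :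
    keyFqBC (M * q) K₁ (heckeAlphaBar ↥K₁ M q x) = heckeAlphaBar Ω M q (keyFqBC M K₁ x) :=
  Subtype.ext (by rw [coe_keyFqBC, coe_heckeAlphaBar, coe_heckeAlphaBar, coe_keyFqBC])

theorem keyFqBC_heckeBetaBar (x : ↥(keyFq ↥K₁ M)) :
    keyFqBC (M * q) K₁ (heckeBetaBar ↥K₁ M q x) = heckeBetaBar Ω M q (keyFqBC M K₁ x) :=
  Subtype.ext (by
    rw [coe_keyFqBC, coe_heckeBetaBar, coe_heckeBetaBar, coe_keyFqBC, coeffMap_qExpand])

variable {M q}

/-- **base change of the norm along a degeneracy map**, generic form. -/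
theorem keyFqBC_normAlong_of (φ₁ : ↥(keyFq ↥K₁ M) →ₐ[↥K₁] ↥(keyFq ↥K₁ (M * q)))
    (φΩ : ↥(keyFq Ω M) →ₐ[Ω] ↥(keyFq Ω (M * q)))
    (hcomp : ∀ x, keyFqBC (M * q) K₁ (φ₁ x) = φΩ (keyFqBC M K₁ x))
    (hdeg : finrankAlong ↥K₁ φ₁ = finrankAlong Ω φΩ) (hpos : 0 < finrankAlong Ω φΩ)
    (f₀ : ↥(keyFq ↥K₁ (M * q))) :
    keyFqBC M K₁ (normAlong φ₁ f₀) = normAlong φΩ (keyFqBC (M * q) K₁ f₀) :=
  normAlong_map_of_finrankAlong_eq φ₁ φΩ (keyFqBC M K₁) (keyFqBC (M * q) K₁) hcomp hdeg hpos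
    (closure_range_keyFqBC (M * q) K₁) f₀

variable (M q)

/-- **base change of the norm along `α`.** -/
theorem keyFqBC_normAlong_heckeAlphaBar (hq : q.Prime) (f₀ : ↥(keyFq ↥K₁ (M * q))) :
    keyFqBC M K₁ (normAlong (heckeAlphaBar ↥K₁ M q) f₀) =
      normAlong (heckeAlphaBar Ω M q) (keyFqBC (M * q) K₁ f₀) := by
  letI : Algebra ↥K₁ ℂ := baseToComplex K₁
  haveI : IsScalarTower ℚ ↥K₁ ℂ := IsScalarTower.of_algebraMap_eq (fun r => by
    rw [eq_ratCast, eq_ratCast, map_ratCast])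
  letI : Algebra Ω ℂ := ((IsAlgClosed.lift : Ω →ₐ[ℚ] ℂ) : Ω →+* ℂ).toAlgebra
  haveI : IsScalarTower ℚ Ω ℂ := IsScalarTower.of_algebraMap_eq (fun r => by
    rw [eq_ratCast, eq_ratCast, map_ratCast])
  have h1 := finrankAlong_heckeAlphaBar (k := ↥K₁) M q hq
  have h2 := finrankAlong_heckeAlphaBar (k := Ω) M q hq
  refine keyFqBC_normAlong_of K₁ _ _ (keyFqBC_heckeAlphaBar M q K₁) (h1.trans h2.symm) ?_ f₀
  rw [h2]
  split_ifs
  · exact hq.pos
  · exact Nat.succ_pos q

/-- **base change of the norm along `β`.** -/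
theorem keyFqBC_normAlong_heckeBetaBar (hq : q.Prime) (f₀ : ↥(keyFq ↥K₁ (M * q))) :
    keyFqBC M K₁ (normAlong (heckeBetaBar ↥K₁ M q) f₀) =
      normAlong (heckeBetaBar Ω M q) (keyFqBC (M * q) K₁ f₀) := by
  letI : Algebra ↥K₁ ℂ := baseToComplex K₁
  haveI : IsScalarTower ℚ ↥K₁ ℂ := IsScalarTower.of_algebraMap_eq (fun r => by
    rw [eq_ratCast, eq_ratCast, map_ratCast])
  letI : Algebra Ω ℂ := ((IsAlgClosed.lift : Ω →ₐ[ℚ] ℂ) : Ω →+* ℂ).toAlgebra
  haveI : IsScalarTower ℚ Ω ℂ := IsScalarTower.of_algebraMap_eq (fun r => by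
    rw [eq_ratCast, eq_ratCast, map_ratCast])
  have h1 := finrankAlong_heckeBetaBar (k := ↥K₁) M q hq
  have h2 := finrankAlong_heckeBetaBar (k := Ω) M q hq
  refine keyFqBC_normAlong_of K₁ _ _ (keyFqBC_heckeBetaBar M q K₁) (h1.trans h2.symm) ?_ f₀
  rw [h2]
  split_ifs
  · exact hq.pos
  · exact Nat.succ_pos q

/-- `keyFqA` is `heckeAlphaBar`. -/
theorem keyFqA_eq_alphaBar (K : Type*) [Field K] [Algebra ℚ K] :
    keyFqA K M q = heckeAlphaBar K M q :=
  AlgHom.ext fun c => Subtype.ext (by rw [coe_keyFqA, coe_heckeAlphaBar])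

/-- `keyFqB` is `heckeBetaBar`. -/
theorem keyFqB_eq_betaBar (K : Type*) [Field K] [Algebra ℚ K] :
    keyFqB K M q = heckeBetaBar K M q :=
  AlgHom.ext fun c => Subtype.ext (by rw [coe_keyFqB, coe_heckeBetaBar])

/-- the norm hypothesis of `LegFrobBase` / `HesFrobBase` is a `normAlong`. -/
theorem norm_keyFqA_eq_normAlong (K : Type*) [Field K] [Algebra ℚ K] (f₀ : ↥(keyFq K (M * q))) :
    (letI := (keyFqA K M q).toRingHom.toAlgebra; Algebra.norm ↥(keyFq K M) f₀) =
      normAlong (heckeAlphaBar K M q) f₀ := by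
  rw [← keyFqA_eq_alphaBar]; rfl

theorem norm_keyFqB_eq_normAlong (K : Type*) [Field K] [Algebra ℚ K] (f₀ : ↥(keyFq K (M * q))) :
    (letI := (keyFqB K M q).toRingHom.toAlgebra; Algebra.norm ↥(keyFq K M) f₀) =
      normAlong (heckeBetaBar K M q) f₀ := by
  rw [← keyFqB_eq_betaBar]; rfl

end Key

end Fermat.Agent.S35
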