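/-
S35 — helper6 — [FROBHOST], part 1: **the general Kronecker congruence of a Frobenius lift in the
Gauss ring.**

`R` a discrete valuation ring with fraction field `L` and residue field `k` of characteristic `q`;
`τ : L →+* L` a ring endomorphism inducing `τR` on `R` with `τR r ≡ r ^ q` modulo the maximal ideal
(a Frobenius lift).  Then the coefficientwise action `coeffMap τ` on `L⸨x⸩`
* preserves the Gauss valuation ring `gaussInt R L` (in both directions on `gaussField R L`);
* induces the coefficientwise Frobenius on its residue field: `gaussRed (τ x) = Frob (gaussRed x)`;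
* satisfies the **Kronecker congruence for EVERY Gauss-integral `x`**:
  `x ^ q ≡ (τ x)(x ^ q)`, i.e. `gaussRed (x ^ q - qExpand q (coeffMap τ x)) = 0`;
and the same statements in valuation form on the Gauss valuation subring `gaussValSub R L M` of an
intermediate field `M ≤ gaussField R L`.
-/
import Mathlib
import Fermat.Agent.Igusa.V_helper5_Funct
import Fermat.Agent.JA.ES_helper4_Frob

set_option autoImplicit false
set_option linter.unusedSectionVars false
set_option linter.style.haveILetI false

open ModularCurve Fermat.Agent.Igusa Fermat.Agent.JA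

namespace Fermat.Agent.S35

section Gauss

variable {R : Type*} [CommRing R] [IsDomain R] [IsDiscreteValuationRing R]
variable {L : Type*} [Field L] [Algebra R L] [IsFractionRing R L]
variable (q : ℕ) (τ : L →+* L) (τR : R →+* R)
  (hτ : ∀ r : R, τ (algebraMap R L r) = algebraMap R L (τR r))
  (hfrob : ∀ r : R, τR r - r ^ q ∈ IsLocalRing.maximalIdeal R)

local notation "k" => IsLocalRing.ResidueField R

include hτ in
theorem frob_coeffMap_emb_eq (f : LaurentSeries R) :
    coeffMap τ (emb R L f) = emb R L (coeffMap τR f) := by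
  rw [emb, coeffMap_coeffMap, coeffMap_coeffMap]
  exact coeffMap_congr (RingHom.ext hτ) f

include hfrob in
/-- the reduction of the coefficientwise action of a Frobenius lift is the coefficientwise
Frobenius. -/
theorem red_coeffMap_frob [ExpChar k q] (f : LaurentSeries R) :
    red R (coeffMap τR f) = coeffMap (frobenius k q) (red R f) := by
  rw [red, coeffMap_coeffMap, coeffMap_coeffMap]
  refine coeffMap_congr (RingHom.ext fun r => ?_) f
  rw [RingHom.comp_apply, RingHom.comp_apply, frobenius_def, ← map_pow, ← sub_eq_zero, ← map_sub,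
    IsLocalRing.residue_eq_zero_iff]
  exact hfrob r

theorem coeffMap_frobenius_ne_zero [ExpChar k q] {y : LaurentSeries k} (hy : y ≠ 0) :
    coeffMap (frobenius k q) y ≠ 0 := by
  intro h
  apply hy
  ext n
  have h1 := congrArg (fun z : LaurentSeries k => z.coeff n) h
  simp only [coeffMap_coeff, HahnSeries.coeff_zero] at h1
  rw [HahnSeries.coeff_zero]
  rw [frobenius_def] at h1
  exact eq_zero_of_pow_eq_zero h1

include hτ hfrob in
/-- the coefficientwise action of a Frobenius lift preserves the Gauss valuation ring. -/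
theorem coeffMap_mem_gaussInt_of_frob [ExpChar k q] {x : LaurentSeries L}
    (hx : x ∈ gaussInt R L) : coeffMap τ x ∈ gaussInt R L := by
  obtain ⟨f, g, hg, h⟩ := hx
  refine ⟨coeffMap τR f, coeffMap τR g, ?_, ?_⟩
  · rw [red_coeffMap_frob q τR hfrob]
    exact coeffMap_frobenius_ne_zero q hg
  · rw [← frob_coeffMap_emb_eq τ τR hτ, ← frob_coeffMap_emb_eq τ τR hτ, ← map_mul, h]

include hτ hfrob in
/-- **the coefficientwise action of a Frobenius lift induces the coefficientwise Frobenius on the
residue field of the Gauss valuation ring.** -/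
theorem gaussRed_coeffMap_frob [ExpChar k q] (x : gaussInt R L) :
    gaussRed R L ⟨coeffMap τ (x : LaurentSeries L),
      coeffMap_mem_gaussInt_of_frob q τ τR hτ hfrob x.2⟩ =
      coeffMap (frobenius k q) (gaussRed R L x) := by
  obtain ⟨f, g, hg, h⟩ := x.2
  rw [gaussRed_eq x f g hg h,
    gaussRed_eq _ (coeffMap τR f) (coeffMap τR g)
      (by rw [red_coeffMap_frob q τR hfrob]; exact coeffMap_frobenius_ne_zero q hg)
      (by
        show coeffMap τ (x : LaurentSeries L) * emb R L (coeffMap τR g) = emb R L (coeffMap τR f)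
        rw [← frob_coeffMap_emb_eq τ τR hτ, ← frob_coeffMap_emb_eq τ τR hτ, ← map_mul, h]),
    red_coeffMap_frob q τR hfrob, red_coeffMap_frob q τR hfrob, map_div₀]

include hτ hfrob in
theorem qExpand_coeffMap_mem_gaussInt_of_frob [NeZero q] [ExpChar k q] {x : LaurentSeries L}
    (hx : x ∈ gaussInt R L) : qExpand L q (coeffMap τ x) ∈ gaussInt R L :=
  (gaussHomQExpand R L q).map_mem_gaussInt (coeffMap_mem_gaussInt_of_frob q τ τR hτ hfrob hx)

include hτ hfrob in
/-- **the general Kronecker congruence**: `x ^ q ≡ (τ x)(x ^ q)` for every Gauss-integral `x`. -/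
theorem gaussRed_pow_sub_qExpand_coeffMap [NeZero q] [ExpChar k q] (x : gaussInt R L) :
    gaussRed R L (x ^ q - ⟨qExpand L q (coeffMap τ (x : LaurentSeries L)),
      qExpand_coeffMap_mem_gaussInt_of_frob q τ τR hτ hfrob x.2⟩) = 0 := by
  have h1 : gaussRed R L ⟨qExpand L q (coeffMap τ (x : LaurentSeries L)),
      qExpand_coeffMap_mem_gaussInt_of_frob q τ τR hτ hfrob x.2⟩ =
      qExpand k q (gaussRed R L ⟨coeffMap τ (x : LaurentSeries L),
        coeffMap_mem_gaussInt_of_frob q τ τR hτ hfrob x.2⟩) :=
    (gaussHomQExpand R L q).gaussRed_map (coeffMap_mem_gaussInt_of_frob q τ τR hτ hfrob x.2)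
  rw [map_sub, map_pow, h1, gaussRed_coeffMap_frob q τ τR hτ hfrob x,
    laurent_pow_char q (gaussRed R L x), sub_self]

include hτ hfrob in
/-- **the general Kronecker congruence**, membership form. -/
theorem exists_gaussRed_pow_sub_qExpand_coeffMap [NeZero q] [ExpChar k q] {x : LaurentSeries L}
    (hx : x ∈ gaussInt R L) :
    ∃ h : x ^ q - qExpand L q (coeffMap τ x) ∈ gaussInt R L, gaussRed R L ⟨_, h⟩ = 0 :=
  ⟨(gaussInt R L).sub_mem ((gaussInt R L).pow_mem hx q)
      (qExpand_coeffMap_mem_gaussInt_of_frob q τ τR hτ hfrob hx),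
    gaussRed_pow_sub_qExpand_coeffMap q τ τR hτ hfrob ⟨x, hx⟩⟩

/-- the coefficientwise action of a Frobenius lift as a morphism of Gauss data. -/
noncomputable def gaussHomFrob [ExpChar k q]
    (hτ : ∀ r : R, τ (algebraMap R L r) = algebraMap R L (τR r))
    (hfrob : ∀ r : R, τR r - r ^ q ∈ IsLocalRing.maximalIdeal R) : GaussHom R L R L where
  σW := coeffMap τR
  σL := coeffMap τ
  σk := coeffMap (frobenius k q)
  emb_comm f := (frob_coeffMap_emb_eq τ τR hτ f).symm
  red_comm f := red_coeffMap_frob q τR hfrob f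

include hτ hfrob in
/-- Gauss integrality is reflected by the coefficientwise action of a Frobenius lift. -/
theorem mem_gaussInt_of_coeffMap_mem_of_frob [ExpChar k q] {x : LaurentSeries L}
    (hx : x ∈ gaussField R L) (h : coeffMap τ x ∈ gaussInt R L) : x ∈ gaussInt R L :=
  (gaussHomFrob q τ τR hτ hfrob).mem_gaussInt_of_map_mem hx h

end Gauss

section ValSub

variable {R : Type*} [CommRing R] [IsDomain R] [IsDiscreteValuationRing R]
variable {L : Type*} [Field L] [Algebra R L] [IsFractionRing R L]
variable (q : ℕ) (τ : L →+* L) (τR : R →+* R)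
  (hτ : ∀ r : R, τ (algebraMap R L r) = algebraMap R L (τR r))
  (hfrob : ∀ r : R, τR r - r ^ q ∈ IsLocalRing.maximalIdeal R)

local notation "k" => IsLocalRing.ResidueField R

variable {M : IntermediateField L (LaurentSeries L)} {hM : M ≤ gaussField R L}
  (σ : ↥M →+* ↥M) (hσ : ∀ x : ↥M, ((σ x : ↥M) : LaurentSeries L) = coeffMap τ (x : LaurentSeries L))

include hτ hfrob hσ in
/-- the endomorphism of `M` induced by a Frobenius lift preserves the Gauss valuation subring, in
both directions. -/
theorem frob_mem_gaussValSub_iff [ExpChar k q] (x : ↥M) :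
    x ∈ gaussValSub R L M hM ↔ σ x ∈ gaussValSub R L M hM := by
  rw [mem_gaussValSub_iff, mem_gaussValSub_iff, hσ]
  exact ⟨coeffMap_mem_gaussInt_of_frob q τ τR hτ hfrob,
    mem_gaussInt_of_coeffMap_mem_of_frob q τ τR hτ hfrob (hM x.2)⟩

variable [NeZero q] {N : IntermediateField L (LaurentSeries L)} {hN : N ≤ gaussField R L}
  (A B : ↥M →+* ↥N) (hA : ∀ x : ↥M, ((A x : ↥N) : LaurentSeries L) = (x : LaurentSeries L))
  (hB : ∀ x : ↥M, ((B x : ↥N) : LaurentSeries L) = qExpand L q (x : LaurentSeries L))

include hτ hfrob hσ hA hB in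
/-- **the Frobenius–Kronecker congruence `A(c)^q ≡ B(σ c)` on the Gauss sheet**, for every
Gauss-integral `c` (`A` the inclusion, `B` the dilation `x ↦ x ^ q`, `σ` the coefficientwise action
of a Frobenius lift). -/
theorem valuation_pow_sub_dilate_frob_lt_one [ExpChar k q] {c : ↥M}
    (hc : c ∈ gaussValSub R L M hM) :
    (gaussValSub R L N hN).valuation (A c ^ q - B (σ c)) < 1 := by
  obtain ⟨hmem0, hred⟩ := exists_gaussRed_pow_sub_qExpand_coeffMap q τ τR hτ hfrob
    ((mem_gaussValSub_iff).1 hc)
  have hcoe : ((A c ^ q - B (σ c) : ↥N) : LaurentSeries L) =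
      (c : LaurentSeries L) ^ q - qExpand L q (coeffMap τ (c : LaurentSeries L)) := by
    rw [AddSubgroupClass.coe_sub, IntermediateField.coe_pow, hA, hB, hσ]
  have hmem : A c ^ q - B (σ c) ∈ gaussValSub R L N hN := by
    rw [mem_gaussValSub_iff, hcoe]
    exact hmem0
  have key : (⟨A c ^ q - B (σ c), hmem⟩ : ↥(gaussValSub R L N hN)) ∈
      IsLocalRing.maximalIdeal ↥(gaussValSub R L N hN) := by
    rw [mem_maximalIdeal_gaussValSub_iff, gaussValRed_apply, ← hred]
    congr 1
    exact Subtype.ext hcoe
  exact (ValuationSubring.valuation_lt_one_iff _ _).mp key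

end ValSub

end Fermat.Agent.S35
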