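/-
S35 — helper6 — [FROBHOST], part 2: **the two sheets of the level fields `F_M(K) → F_{Mq}(K)` and
the Frobenius–Kronecker congruences `kron_inf`, `kron_zero` of `SSModelFrob` at the F-level.**

`R` a discrete valuation ring with fraction field `K ⊇ ℚ`, residue characteristic `q`;
`keyFq K N = K(j(x^d) : d ∣ N) ⊂ K⸨x⸩`.
* `keyFqWinf R K N` : the Gauss valuation subring of `F_N(K)` (the sheet `C_∞`; also `V_M`);
* `keyFqW0 R K ι h hq = keyFqWinf ∘ W_q` : the sheet `C_0` of `F_{Mq}(K)` (`W_q` = `atkinLehnerN`);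
* for `τ ∈ Aut(K/ℚ)` inducing `τR` on `R` with `τR r ≡ r ^ q` modulo the maximal ideal and
  `s_N := coeffRingAut (coeffStable_keyFq K N) τ`:
  `keyFq_kron_inf`  : `∀ c ∈ V_M, W_∞.valuation (A c ^ q − B (s_M c)) < 1`,
  `keyFq_kron_zero` : `∀ c ∈ V_M, W_0.valuation (B c ^ q − A (s_M c)) < 1`
  (`A = keyFqA` the inclusion, `B = keyFqB` the dilation `x ↦ x ^ q`);
* the membership fields `mem_VM`, `mem_inf`, `mem_zero` for `s_M`, `s_N` at the F-level.
-/
import Mathlib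
import Fermat.Agent.S35.FROBKRON_helper6_Gauss
import Fermat.Agent.S35.FROBBASE_helper8_Iface
import Fermat.Agent.SS.HOSTW_helper2_Main
import Fermat.Agent.SS.SINFEMB_helper9_Chart
import Fermat.Agent.JA.G1_helper5_Bases

set_option autoImplicit false
set_option linter.unusedSectionVars false
set_option linter.style.haveILetI false
set_option synthInstance.maxHeartbeats 200000

open ModularCurve Fermat.Agent.Igusa Fermat.Agent.JA Fermat.Agent.SS Fermat.Agent.X0N

namespace Fermat.Agent.S35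

noncomputable section

section Sheets

variable (R : Type*) [CommRing R] [IsDomain R] [IsDiscreteValuationRing R]
  (K : Type*) [Field K] [Algebra R K] [IsFractionRing R K] [Algebra ℚ K]

/-- **the sheet `C_∞` of the level field `F_N(K)`**: its coefficientwise Gauss valuation
subring. -/
def keyFqWinf (N : ℕ) [NeZero N] : ValuationSubring ↥(keyFq K N) :=
  gaussValSub R K (keyFq K N) (laurentBaseChange_full_le_gaussField R K N)

theorem mem_keyFqWinf_iff (N : ℕ) [NeZero N] (f : ↥(keyFq K N)) :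
    f ∈ keyFqWinf R K N ↔ (f : LaurentSeries K) ∈ gaussInt R K := Iff.rfl

variable (ι : K →+* ℂ) {M q : ℕ} [NeZero M] [NeZero q] [NeZero (M * q)] {x y : ℤ}
  (h : (q : ℤ) * x + M * y = 1) (hq : q.Prime)

/-- **the sheet `C_0` of the level field `F_{Mq}(K)`**: `w_0 = w_∞ ∘ W_q`. -/
def keyFqW0 : ValuationSubring ↥(keyFq K (M * q)) :=
  (keyFqWinf R K (M * q)).comap (atkinLehnerN ι h hq)

theorem mem_keyFqW0_iff (f : ↥(keyFq K (M * q))) :
    f ∈ keyFqW0 R K ι h hq ↔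
      ((atkinLehnerN ι h hq f : ↥(keyFq K (M * q))) : LaurentSeries K) ∈ gaussInt R K := Iff.rfl

theorem keyFqW0_valuation_lt_one_iff (f : ↥(keyFq K (M * q))) :
    (keyFqW0 R K ι h hq).valuation f < 1 ↔
      (keyFqWinf R K (M * q)).valuation (atkinLehnerN ι h hq f) < 1 :=
  sinfemb_comap_valuation_lt_one_iff _ _ f

theorem keyFqA_eq_heckeAlphaBar (c : ↥(keyFq K M)) : keyFqA K M q c = heckeAlphaBar K M q c :=
  Subtype.ext (by rw [coe_keyFqA, coe_heckeAlphaBar])

theorem keyFqB_eq_heckeBetaBar (c : ↥(keyFq K M)) : keyFqB K M q c = heckeBetaBar K M q c :=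
  Subtype.ext (by rw [coe_keyFqB, coe_heckeBetaBar])

/-- `W_q ∘ A = B`. -/
theorem atkinLehnerN_keyFqA (c : ↥(keyFq K M)) :
    atkinLehnerN ι h hq (keyFqA K M q c) = keyFqB K M q c := by
  rw [keyFqA_eq_heckeAlphaBar, atkinLehnerN_alpha, keyFqB_eq_heckeBetaBar]

/-- `W_q ∘ B = A`. -/
theorem atkinLehnerN_keyFqB (c : ↥(keyFq K M)) :
    atkinLehnerN ι h hq (keyFqB K M q c) = keyFqA K M q c := by
  rw [keyFqB_eq_heckeBetaBar, atkinLehnerN_beta, keyFqA_eq_heckeAlphaBar]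

end Sheets

section Frob

variable {R : Type*} [CommRing R] [IsDomain R] [IsDiscreteValuationRing R]
  {K : Type*} [Field K] [Algebra R K] [IsFractionRing R K] [Algebra ℚ K]
  (ι : K →+* ℂ) {M q : ℕ} [NeZero M] [NeZero q] [NeZero (M * q)] {x y : ℤ}
  (h : (q : ℤ) * x + M * y = 1) (hq : q.Prime)
  (τ : K ≃ₐ[ℚ] K) (τR : R →+* R)
  (hτ : ∀ r : R, τ (algebraMap R K r) = algebraMap R K (τR r))
  (hfrob : ∀ r : R, τR r - r ^ q ∈ IsLocalRing.maximalIdeal R)

local notation "k" => IsLocalRing.ResidueField R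

include hτ hfrob in
/-- `mem_VM` / `mem_inf` at the F-level. -/
theorem keyFq_mem_Winf_iff [ExpChar k q] (N : ℕ) [NeZero N] (f : ↥(keyFq K N)) :
    f ∈ keyFqWinf R K N ↔ coeffRingAut (coeffStable_keyFq K N) τ f ∈ keyFqWinf R K N :=
  frob_mem_gaussValSub_iff q (τ : K →+* K) τR hτ hfrob
    ((coeffRingAut (coeffStable_keyFq K N) τ : ↥(keyFq K N) ≃+* ↥(keyFq K N)) :
      ↥(keyFq K N) →+* ↥(keyFq K N))
    (fun _ => rfl) f

include hτ hfrob in
/-- `mem_zero` at the F-level. -/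
theorem keyFq_mem_W0_iff [ExpChar k q] (f : ↥(keyFq K (M * q))) :
    f ∈ keyFqW0 R K ι h hq ↔
      coeffRingAut (coeffStable_keyFq K (M * q)) τ f ∈ keyFqW0 R K ι h hq := by
  show atkinLehnerN ι h hq f ∈ keyFqWinf R K (M * q) ↔
    atkinLehnerN ι h hq (coeffRingAut (coeffStable_keyFq K (M * q)) τ f) ∈ keyFqWinf R K (M * q)
  rw [atkinLehnerN_coeffRingAut]
  exact keyFq_mem_Winf_iff τ τR hτ hfrob (M * q) _

include hτ hfrob in
/-- **`kron_inf` at the F-level**: `A(c)^q ≡ B(s_M c)` on `C_∞` for every `c ∈ V_M`. -/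
theorem keyFq_kron_inf [ExpChar k q] (c : ↥(keyFq K M)) (hc : c ∈ keyFqWinf R K M) :
    (keyFqWinf R K (M * q)).valuation
      (keyFqA K M q c ^ q - keyFqB K M q (coeffRingAut (coeffStable_keyFq K M) τ c)) < 1 :=
  valuation_pow_sub_dilate_frob_lt_one q (τ : K →+* K) τR hτ hfrob
    ((coeffRingAut (coeffStable_keyFq K M) τ : ↥(keyFq K M) ≃+* ↥(keyFq K M)) :
      ↥(keyFq K M) →+* ↥(keyFq K M))
    (fun _ => rfl) (keyFqA K M q : ↥(keyFq K M) →+* ↥(keyFq K (M * q)))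
    (keyFqB K M q : ↥(keyFq K M) →+* ↥(keyFq K (M * q)))
    (fun f => coe_keyFqA K M q f) (fun f => coe_keyFqB K M q f) hc

include hτ hfrob in
/-- **`kron_zero` at the F-level**: `B(c)^q ≡ A(s_M c)` on `C_0` for every `c ∈ V_M` (the
Atkin–Lehner transform of `kron_inf`). -/
theorem keyFq_kron_zero [ExpChar k q] (c : ↥(keyFq K M)) (hc : c ∈ keyFqWinf R K M) :
    (keyFqW0 R K ι h hq).valuation
      (keyFqB K M q c ^ q - keyFqA K M q (coeffRingAut (coeffStable_keyFq K M) τ c)) < 1 := by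
  rw [keyFqW0_valuation_lt_one_iff, map_sub, map_pow, atkinLehnerN_keyFqB, atkinLehnerN_keyFqA]
  exact keyFq_kron_inf τ τR hτ hfrob c hc

end Frob

end

end Fermat.Agent.S35
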