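/-
S35 [TORIC], local part — helper5 — part 2: **the Frobenius congruence at a fixed closed point and
the roots of `G = s g / g ^ Q` along the sheets through it.**

`B ⊆ E` a chart, `𝔪` a closed point with residue field the image of `R`, `s : E →+* E` an
endomorphism with `s (R) ⊆ R`, `s r ≡ r ^ Q` modulo `π ∈ 𝔪`, preserving the local ring `O = B_𝔪` and
its maximal ideal `M` ("`s` fixes the closed point `𝔪`").

* `map_mem_locRing_of_fix` : `s` preserves `O` and `M` when `s B ⊆ B` and `s x ∈ 𝔪 ↔ x ∈ 𝔪` on `B`;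
* `map_sub_pow_mem_locMax` : **the Frobenius congruence** `s e - e ^ Q ∈ M` for `e ∈ O`;
* `exists_div_cong_of_closed_datum` : from a local root `γ` of `g` at `𝔪` (`g / γ ^ m ∈ Oˣ`) and a
  root `λ` of `g` along a sheet `W` through `𝔪` (`g ≡ λ ^ m` on `W`): `λ / γ` is congruent on `W`
  to a unit of `O`;
* `frob_closed_datum` : `Γ := s γ / γ ^ Q` is a local root of `G := s g / g ^ Q` at `𝔪`, and
  `G / Γ ^ m ≡ 1` modulo `M`;
* `exists_frob_root_at_fixed_point` : `Λ / Γ` (`Λ := s λ / λ ^ Q`) is congruent on `W` to an element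
  `w ∈ O` with `w ≡ 1` modulo `M`.
-/
import Mathlib
import Fermat.Agent.S35.NODEFROB_helper5_Root

set_option autoImplicit false
set_option linter.unusedSectionVars false
set_option linter.style.haveILetI false

namespace Fermat.Agent.SS

section Frob

variable {R : Type*} [CommRing R] {E : Type*} [Field E] [Algebra R E]
  {B : Subalgebra R E}

/-- an endomorphism of `E` mapping the chart into itself and fixing the point `𝔪` preserves the local
ring at `𝔪` and its maximal ideal. -/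
theorem map_mem_locRing_of_fix {𝔪 : Ideal ↥B} [h𝔪 : 𝔪.IsPrime] (s : E →+* E)
    (hsB : ∀ e ∈ B, s e ∈ B)
    (hfix : ∀ x : ↥B, x ∈ 𝔪 ↔ (⟨s x, hsB x x.2⟩ : ↥B) ∈ 𝔪) :
    (∀ e ∈ locRing B 𝔪, s e ∈ locRing B 𝔪) ∧ (∀ e ∈ locMax B 𝔪, s e ∈ locMax B 𝔪) := by
  constructor
  · rintro e ⟨r, d, hd, hrd⟩
    refine ⟨⟨s r, hsB r r.2⟩, ⟨s d, hsB d d.2⟩, fun h => hd ((hfix d).mpr h), ?_⟩
    show s e * s (d : E) = s (r : E)
    rw [← map_mul, hrd]
  · rintro e ⟨r, d, hr, hd, hrd⟩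
    refine ⟨⟨s r, hsB r r.2⟩, ⟨s d, hsB d d.2⟩, (hfix r).mp hr, fun h => hd ((hfix d).mpr h), ?_⟩
    show s e * s (d : E) = s (r : E)
    rw [← map_mul, hrd]

/-- powers are congruent modulo the maximal ideal of the local ring. -/
theorem pow_sub_pow_mem_locMax {𝔪 : Ideal ↥B} [h𝔪 : 𝔪.IsPrime] {e c : E}
    (he : e ∈ locRing B 𝔪) (hc : c ∈ locRing B 𝔪) (hec : e - c ∈ locMax B 𝔪) (n : ℕ) :
    e ^ n - c ^ n ∈ locMax B 𝔪 := by
  induction n with
  | zero => simpa using zero_mem_locMax (B := B) (𝔪 := 𝔪)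
  | succ n ih =>
    have : e ^ (n + 1) - c ^ (n + 1) = e * (e ^ n - c ^ n) + c ^ n * (e - c) := by ring
    rw [this]
    exact add_mem_locMax (mul_mem_locMax he ih) (mul_mem_locMax (pow_mem hc n) hec)

/-- an element of the local ring congruent to `1` is a unit. -/
theorem notMem_locMax_of_sub_one_mem {𝔪 : Ideal ↥B} [h𝔪 : 𝔪.IsPrime] {w : E}
    (hw : w - 1 ∈ locMax B 𝔪) : w ∉ locMax B 𝔪 := by
  intro h
  apply one_notMem_locMax (B := B) (𝔪 := 𝔪)
  have : (1 : E) = w - (w - 1) := by ring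
  rw [this]
  exact sub_mem_locMax h hw

/-- **the Frobenius congruence at a fixed closed point.** -/
theorem map_sub_pow_mem_locMax {𝔪 : Ideal ↥B} [h𝔪 : 𝔪.IsMaximal]
    (hres : ∀ b : ↥B, ∃ c : R, b - algebraMap R ↥B c ∈ 𝔪)
    {π : R} (hπ𝔪 : algebraMap R ↥B π ∈ 𝔪)
    (s : E →+* E) (sR : R →+* R) (Q : ℕ)
    (hsR : ∀ r : R, s (algebraMap R E r) = algebraMap R E (sR r))
    (hfrob : ∀ r : R, sR r - r ^ Q ∈ Ideal.span {π})
    (hsM : ∀ e ∈ locMax B 𝔪, s e ∈ locMax B 𝔪)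
    {e : E} (he : e ∈ locRing B 𝔪) : s e - e ^ Q ∈ locMax B 𝔪 := by
  haveI : 𝔪.IsPrime := h𝔪.isPrime
  obtain ⟨c, hc⟩ := exists_sub_algebraMap_mem_locMax hres he
  have hcO : algebraMap R E c ∈ locRing B 𝔪 := (locRing B 𝔪).algebraMap_mem c
  have h1 : s (algebraMap R E c) - algebraMap R E c ^ Q ∈ locMax B 𝔪 := by
    rw [hsR, ← map_pow, ← map_sub]
    obtain ⟨w, hw⟩ := Ideal.mem_span_singleton.mp (hfrob c)
    rw [hw, map_mul]
    have h2 : algebraMap R E π ∈ locMax B 𝔪 :=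
      (coe_mem_locMax_iff (algebraMap R ↥B π)).mpr hπ𝔪
    rw [mul_comm]
    exact mul_mem_locMax ((locRing B 𝔪).algebraMap_mem w) h2
  have h2 : s (e - algebraMap R E c) ∈ locMax B 𝔪 := hsM _ hc
  have h3 := pow_sub_pow_mem_locMax he hcO hc Q
  have : s e - e ^ Q = (s (algebraMap R E c) - algebraMap R E c ^ Q) + s (e - algebraMap R E c)
      - (e ^ Q - algebraMap R E c ^ Q) := by
    rw [map_sub]; ring
  rw [this]
  exact sub_mem_locMax (add_mem_locMax h1 h2) h3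

/-- the closed datum in the local currency. -/
theorem div_pow_mem_locRing_of_closed_datum {𝔪 : Ideal ↥B} [h𝔪 : 𝔪.IsPrime] {m : ℕ} {g γ : E}
    (hγ : γ ≠ 0) {c d : ↥B} (hc : c ∉ 𝔪) (hd : d ∉ 𝔪) (hgd : g * (d : E) = γ ^ m * (c : E)) :
    g / γ ^ m ∈ locRing B 𝔪 ∧ g / γ ^ m ∉ locMax B 𝔪 := by
  have hγm : γ ^ m ≠ 0 := pow_ne_zero _ hγ
  have h1 : g / γ ^ m * (d : E) = (c : E) := by
    rw [div_mul_eq_mul_div, hgd, mul_comm, mul_div_assoc, div_self hγm, mul_one]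
  refine ⟨⟨c, d, hd, h1⟩, ?_⟩
  rintro ⟨r, s, hr, hs, hrs⟩
  apply hc
  -- `c s = r d`
  have h2 : c * s = r * d := by
    apply Subtype.ext
    show (c : E) * (s : E) = (r : E) * (d : E)
    rw [← h1, ← hrs]; ring
  have h3 : c * s ∈ 𝔪 := h2 ▸ 𝔪.mul_mem_right _ hr
  exact (h𝔪.mem_or_mem h3).resolve_right hs

/-- the closed datum from the local currency. -/
theorem exists_closed_datum_of_div_pow_mem {𝔪 : Ideal ↥B} [h𝔪 : 𝔪.IsPrime] {m : ℕ} {g γ : E}
    (hγ : γ ≠ 0) (hv : g / γ ^ m ∈ locRing B 𝔪) (hv' : g / γ ^ m ∉ locMax B 𝔪) :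
    ∃ c d : ↥B, c ∉ 𝔪 ∧ d ∉ 𝔪 ∧ g * (d : E) = γ ^ m * (c : E) := by
  have hγm : γ ^ m ≠ 0 := pow_ne_zero _ hγ
  obtain ⟨c, d, hd, hcd⟩ := hv
  refine ⟨c, d, fun hc => hv' ⟨c, d, hc, hd, hcd⟩, hd, ?_⟩
  rw [← hcd]
  field_simp

end Frob

section Sheet

variable {R : Type*} [CommRing R] {E : Type*} [Field E] [Algebra R E]
  {B : Subalgebra R E}

/-- a unit of the sheet congruent to a unit: the quotient of two congruences. -/
theorem valuation_div_sub_div_lt_one (W : ValuationSubring E) {a a' b b' : E}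
    (ha' : W.valuation a' ≤ 1) (hb : W.valuation b = 1) (hb' : W.valuation b' = 1)
    (haa : W.valuation (a - a') < 1) (hbb : W.valuation (b - b') < 1) :
    W.valuation (a / b - a' / b') < 1 := by
  have hb0 : b ≠ 0 := fun h => by rw [h, map_zero] at hb; exact zero_ne_one hb
  have hb'0 : b' ≠ 0 := fun h => by rw [h, map_zero] at hb'; exact zero_ne_one hb'
  have h1 : a / b - a' / b' = ((a - a') * b' - a' * (b - b')) / (b * b') := by
    field_simp
    ring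
  rw [h1, map_div₀, map_mul, hb, hb', mul_one, div_one]
  refine lt_of_le_of_lt (Valuation.map_sub _ _ _) (max_lt ?_ ?_)
  · rw [map_mul, hb', mul_one]; exact haa
  · rw [map_mul]
    calc W.valuation a' * W.valuation (b - b') ≤ 1 * W.valuation (b - b') :=
          mul_le_mul_left ha' _
      _ < 1 := by rw [one_mul]; exact hbb

/-- powers of congruent elements of the valuation ring are congruent. -/
theorem valuation_pow_sub_pow_lt_one (W : ValuationSubring E) {a b : E}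
    (ha : W.valuation a ≤ 1) (hb : W.valuation b ≤ 1) (hab : W.valuation (a - b) < 1) (n : ℕ) :
    W.valuation (a ^ n - b ^ n) < 1 := by
  obtain ⟨c, hc⟩ : ∃ c : E, W.valuation c ≤ 1 ∧ a ^ n - b ^ n = (a - b) * c := by
    induction n with
    | zero => exact ⟨0, by simp, by simp⟩
    | succ n ih =>
      obtain ⟨c, hc1, hc2⟩ := ih
      refine ⟨a * c + b ^ n, ?_, ?_⟩
      · refine le_trans (Valuation.map_add _ _ _) (max_le ?_ ?_)
        · rw [map_mul]; exact mul_le_one' ha hc1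
        · rw [map_pow]; exact pow_le_one' hb n
      · have : a ^ (n + 1) - b ^ (n + 1) = a * (a ^ n - b ^ n) + (a - b) * b ^ n := by ring
        rw [this, hc2]; ring
  rw [hc.2, map_mul]
  calc W.valuation (a - b) * W.valuation c ≤ W.valuation (a - b) * 1 := mul_le_mul_right hc.1 _
    _ < 1 := by rw [mul_one]; exact hab

/-- a unit congruent to something is congruent to a unit. -/
theorem valuation_eq_one_of_sub_lt_one (W : ValuationSubring E) {a b : E}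
    (ha : W.valuation a = 1) (hab : W.valuation (b - a) < 1) : W.valuation b = 1 := by
  have : b = a + (b - a) := by ring
  rw [this, Valuation.map_add_eq_of_lt_left]
  · exact ha
  · rw [ha]; exact hab

variable [IsNoetherianRing ↥B] {W : ValuationSubring E}
    (hBW : ∀ b ∈ B, b ∈ W) {𝔭 : Ideal ↥B} [h𝔭p : 𝔭.IsPrime]
    (h𝔭 : ∀ b : ↥B, b ∈ 𝔭 ↔ W.valuation (b : E) < 1)
    (hloc : ∀ x ∈ W, ∃ r s : ↥B, s ∉ 𝔭 ∧ x * (s : E) = (r : E))
    {𝔪 : Ideal ↥B} [h𝔪 : 𝔪.IsMaximal] (hle : 𝔭 ≤ 𝔪) {z : ↥B} (hz : IsBranchUniformizer 𝔭 𝔪 z)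

include hBW h𝔭 hloc hle hz in
/-- **a sheet root divided by a local root is congruent on the sheet to a unit of the local
ring.** -/
theorem exists_div_cong_of_closed_datum {m : ℕ} (hm : m ≠ 0) {g γ lam : E} (hγ : γ ≠ 0)
    (hv : g / γ ^ m ∈ locRing B 𝔪) (hv' : g / γ ^ m ∉ locMax B 𝔪)
    (hlam : W.valuation lam = 1) (hglam : W.valuation (g - lam ^ m) < 1) :
    W.valuation γ = 1 ∧ ∃ r ∈ locRing B 𝔪, r ∉ locMax B 𝔪 ∧ W.valuation (lam / γ - r) < 1 := by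
  haveI : 𝔪.IsPrime := h𝔪.isPrime
  have hγm : γ ^ m ≠ 0 := pow_ne_zero _ hγ
  have hvv : W.valuation (g / γ ^ m) = 1 := valuation_eq_one_of_locRing_unit hBW h𝔭 hle hv hv'
  have hg1 : W.valuation g = 1 := by
    refine valuation_eq_one_of_sub_lt_one W (a := lam ^ m) ?_ hglam
    rw [map_pow, hlam, one_pow]
  have hγ1 : W.valuation γ = 1 := by
    rw [map_div₀, hg1, map_pow] at hvv
    have h1 : W.valuation γ ^ m = 1 := by
      have h0 : W.valuation γ ^ m ≠ 0 := by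
        rw [← map_pow]; exact (Valuation.ne_zero_iff _).mpr hγm
      field_simp at hvv
      exact hvv.symm
    exact (pow_eq_one_iff_left hm).mp h1
  refine ⟨hγ1, ?_⟩
  have hρ : W.valuation (lam / γ) = 1 := by rw [map_div₀, hlam, hγ1, div_one]
  have hcong : W.valuation ((lam / γ) ^ m - g / γ ^ m) < 1 := by
    have : (lam / γ) ^ m - g / γ ^ m = -(g - lam ^ m) / γ ^ m := by
      rw [div_pow]; ring
    rw [this, map_div₀, Valuation.map_neg, map_pow, hγ1, one_pow, div_one]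
    exact hglam
  exact exists_locRing_unit_of_pow_cong hBW h𝔭 hloc hle hz hm hρ hv hv' hcong

/-- **the local root of `G = s g / g ^ Q` at a fixed closed point.** -/
theorem frob_closed_datum (s : E →+* E) (Q : ℕ)
    (hsO : ∀ e ∈ locRing B 𝔪, s e ∈ locRing B 𝔪)
    (hcong : ∀ e ∈ locRing B 𝔪, s e - e ^ Q ∈ locMax B 𝔪)
    {m : ℕ} {g γ : E} (hg : g ≠ 0) (hγ : γ ≠ 0)
    (hv : g / γ ^ m ∈ locRing B 𝔪) (hv' : g / γ ^ m ∉ locMax B 𝔪) :
    (s g / g ^ Q) / (s γ / γ ^ Q) ^ m ∈ locRing B 𝔪 ∧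
      (s g / g ^ Q) / (s γ / γ ^ Q) ^ m - 1 ∈ locMax B 𝔪 := by
  haveI : 𝔪.IsPrime := h𝔪.isPrime
  set v := g / γ ^ m with hvdef
  have hγm : γ ^ m ≠ 0 := pow_ne_zero _ hγ
  have hv0 : v ≠ 0 := div_ne_zero hg hγm
  have hsγ : s γ ≠ 0 := (map_ne_zero s).mpr hγ
  have hsg : s g ≠ 0 := (map_ne_zero s).mpr hg
  have h1 : (s g / g ^ Q) / (s γ / γ ^ Q) ^ m = s v / v ^ Q := by
    have hgQ : g ^ Q ≠ 0 := pow_ne_zero _ (by rintro rfl; exact hv0 (by rw [hvdef, zero_div]))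
    have hγQ : γ ^ Q ≠ 0 := pow_ne_zero _ hγ
    have hsγm : s γ ^ m ≠ 0 := pow_ne_zero _ hsγ
    rw [hvdef, map_div₀, map_pow, div_pow, div_pow, ← pow_mul, ← pow_mul, mul_comm m Q]
    have hγQm : γ ^ (Q * m) ≠ 0 := pow_ne_zero _ hγ
    field_simp
  have hvQ : v ^ Q ∈ locRing B 𝔪 := pow_mem hv Q
  have hvQ' : v ^ Q ∉ locMax B 𝔪 := by
    intro h
    apply hv'
    have hp : (locComap B 𝔪 (locRing B 𝔪) le_rfl).IsPrime := locComap_isPrime le_rfl
    have h2 : (⟨v, hv⟩ : ↥(locRing B 𝔪)) ^ Q ∈ locComap B 𝔪 (locRing B 𝔪) le_rfl := h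
    exact hp.mem_of_pow_mem Q h2
  have hinv : (v ^ Q)⁻¹ ∈ locRing B 𝔪 := inv_mem_locRing hvQ hvQ'
  rw [h1]
  refine ⟨?_, ?_⟩
  · rw [div_eq_mul_inv]
    exact (locRing B 𝔪).mul_mem (hsO v hv) hinv
  · have h2 : s v / v ^ Q - 1 = (v ^ Q)⁻¹ * (s v - v ^ Q) := by
      have : v ^ Q ≠ 0 := pow_ne_zero _ hv0
      field_simp
    rw [h2]
    exact mul_mem_locMax hinv (hcong v hv)

include hBW h𝔭 hloc hle hz in
/-- **the root of `G = s g / g ^ Q` along a sheet through a fixed closed point**, divided by the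
local root `Γ = s γ / γ ^ Q`, is congruent on the sheet to an element of the local ring which is
`≡ 1` modulo the maximal ideal. -/
theorem exists_frob_root_at_fixed_point (s : E →+* E) (Q : ℕ)
    (hsW : ∀ e : E, W.valuation e < 1 → W.valuation (s e) < 1)
    (hsW1 : ∀ e : E, W.valuation e = 1 → W.valuation (s e) = 1)
    (hsO : ∀ e ∈ locRing B 𝔪, s e ∈ locRing B 𝔪)
    (hcong : ∀ e ∈ locRing B 𝔪, s e - e ^ Q ∈ locMax B 𝔪)
    {m : ℕ} (hm : m ≠ 0) {g γ lam : E} (hγ : γ ≠ 0)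
    (hv : g / γ ^ m ∈ locRing B 𝔪) (hv' : g / γ ^ m ∉ locMax B 𝔪)
    (hlam : W.valuation lam = 1) (hglam : W.valuation (g - lam ^ m) < 1) :
    ∃ w ∈ locRing B 𝔪, w - 1 ∈ locMax B 𝔪 ∧
      W.valuation ((s lam / lam ^ Q) / (s γ / γ ^ Q) - w) < 1 := by
  haveI : 𝔪.IsPrime := h𝔪.isPrime
  obtain ⟨hγ1, r, hr, hr', hρr⟩ :=
    exists_div_cong_of_closed_datum hBW h𝔭 hloc hle hz hm hγ hv hv' hlam hglam
  have hlam0 : lam ≠ 0 := fun h => by rw [h, map_zero] at hlam; exact zero_ne_one hlam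
  have hr1 : W.valuation r = 1 := valuation_eq_one_of_locRing_unit hBW h𝔭 hle hr hr'
  have hr0 : r ≠ 0 := fun h => by rw [h, map_zero] at hr1; exact zero_ne_one hr1
  have hρ1 : W.valuation (lam / γ) = 1 := by rw [map_div₀, hlam, hγ1, div_one]
  have hrQ : r ^ Q ∈ locRing B 𝔪 := pow_mem hr Q
  have hrQ' : r ^ Q ∉ locMax B 𝔪 := by
    intro h
    apply hr'
    have hp : (locComap B 𝔪 (locRing B 𝔪) le_rfl).IsPrime := locComap_isPrime le_rfl
    have h2 : (⟨r, hr⟩ : ↥(locRing B 𝔪)) ^ Q ∈ locComap B 𝔪 (locRing B 𝔪) le_rfl := h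
    exact hp.mem_of_pow_mem Q h2
  have hinv : (r ^ Q)⁻¹ ∈ locRing B 𝔪 := inv_mem_locRing hrQ hrQ'
  refine ⟨s r / r ^ Q, ?_, ?_, ?_⟩
  · rw [div_eq_mul_inv]
    exact (locRing B 𝔪).mul_mem (hsO r hr) hinv
  · have h2 : s r / r ^ Q - 1 = (r ^ Q)⁻¹ * (s r - r ^ Q) := by
      have : r ^ Q ≠ 0 := pow_ne_zero _ hr0
      field_simp
    rw [h2]
    exact mul_mem_locMax hinv (hcong r hr)
  · have h1 : (s lam / lam ^ Q) / (s γ / γ ^ Q) = s (lam / γ) / (lam / γ) ^ Q := by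
      have hsγ : s γ ≠ 0 := (map_ne_zero s).mpr hγ
      have hlamQ : lam ^ Q ≠ 0 := pow_ne_zero _ hlam0
      have hγQ : γ ^ Q ≠ 0 := pow_ne_zero _ hγ
      rw [map_div₀, div_pow]
      field_simp
    rw [h1]
    refine valuation_div_sub_div_lt_one W ?_ ?_ ?_ ?_ ?_
    · exact (hsW1 r hr1).le
    · rw [map_pow, hρ1, one_pow]
    · rw [map_pow, hr1, one_pow]
    · rw [← map_sub]; exact hsW _ hρr
    · exact valuation_pow_sub_pow_lt_one W hρ1.le hr1.le hρr Q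

end Sheet

end Fermat.Agent.SS
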