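/-
S35 — lead — **the interface of (I3)** ("a newform of level `M * q`, `q ∤ M`, is ramified at `q`"):
the two degeneracy pushforwards `J₀(M q) → J₀(M)` and the geometric statement `KeyI3`.

* `degPush φ : JZero (M * q) →+ JZero M` — the pushforward of divisor classes (norm of functions)
  along an `Ω`-embedding `φ` of the level-`M` function field into the level-`M q` function field;
  `degPushAlpha M q`, `degPushBeta M q` are the instances `φ = heckeAlphaBar` (inclusion) and
  `φ = heckeBetaBar` (`x ↦ x ^ q`).
* `KeyI3 M q p`: there is `c` such that for every place `A ∣ q` of `Ω`, every Frobenius lift `φ` at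
  `A`, every `k` and every `x ∈ J₀(M q)[p ^ k]` which is fixed by the inertia group at `A` and killed
  by both degeneracy pushforwards: `p ^ c • (φ • φ • x − q ^ 2 • x) = 0`.
-/
import Mathlib
import Fermat.Agent.JA.H0_helper7_Main
import Fermat.Agent.X0N.S24_helper7_Wiring
import Fermat.Prelude.Def_FLTPrelim_Ramification
import Fermat.Prelude.Def_EllipticCurve_FrobeniusTrace

set_option autoImplicit false
set_option linter.unusedSectionVars false
set_option linter.unusedVariables false
set_option linter.style.haveILetI false

open AlgebraicCurve ModularCurve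

namespace Fermat.Agent.S35

open Fermat.Agent.JA Fermat.Agent.X0N

/-- `Ω = AlgebraicClosure ℚ`. -/
local notation "Ω" => AlgebraicClosure ℚ

/-- the absolute Galois group. -/
local notation "GQ" => (AlgebraicClosure ℚ ≃ₐ[ℚ] AlgebraicClosure ℚ)

section Push

variable (M q : ℕ) [NeZero M] [NeZero q]

/-- **the pushforward of divisor classes** along an embedding of the level-`M` function field into
the level-`M q` function field (over `Ω`). -/
noncomputable def degPush [NeZero (M * q)]
    (φ : ↥(modularFunctionFieldBar M) →ₐ[Ω] ↥(modularFunctionFieldBar (M * q))) :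
    JZero (M * q) →+ JZero M :=
  letI := algebraAlong φ
  haveI := isScalarTower_along φ
  haveI hfin : Module.Finite ↥(modularFunctionFieldBar M) ↥(modularFunctionFieldBar (M * q)) :=
    finiteAlong_of_coord (jCoordBar M) (jCoordBar (M * q)) φ
  haveI : Algebra.IsIntegral ↥(modularFunctionFieldBar M) ↥(modularFunctionFieldBar (M * q)) :=
    Algebra.IsIntegral.of_finite _ _
  haveI : HasPrincipalDivisors Ω ↥(modularFunctionFieldBar (M * q)) :=
    (jCoordBar (M * q)).hasPrincipalDivisors
  Pic0.pushforwardHom Ω ↥(modularFunctionFieldBar M) ↥(modularFunctionFieldBar (M * q))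
    (normFormulaAlong_of_coord (jCoordBar M) (jCoordBar (M * q)) φ
      (finiteAlong_of_coord (jCoordBar M) (jCoordBar (M * q)) φ))

/-- the degeneracy pushforward `α_* : J₀(M q) → J₀(M)` (along the inclusion `F_M ⊆ F_{M q}`). -/
noncomputable def degPushAlpha [NeZero (M * q)] : JZero (M * q) →+ JZero M :=
  degPush M q (heckeAlphaBar Ω M q)

/-- the degeneracy pushforward `β_* : J₀(M q) → J₀(M)` (along `f(x) ↦ f(x ^ q)`). -/
noncomputable def degPushBeta [NeZero (M * q)] : JZero (M * q) →+ JZero M :=
  degPush M q (heckeBetaBar Ω M q)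

end Push

/-- **(KEY-I3)**: on the inertia-invariant `p`-power torsion of `J₀(M q)` killed by both degeneracy
pushforwards, the square of every Frobenius lift at `q` is multiplication by `q ^ 2`, up to a
bounded power of `p`. -/
def KeyI3 (M q p : ℕ) [NeZero M] [NeZero q] [NeZero (M * q)] : Prop :=
  ∃ c : ℕ, ∀ A : ValuationSubring Ω, A.LiesOverPrime q →
    ∀ φ : GQ, A.IsFrobeniusAt φ q →
      ∀ (k : ℕ) (x : JZero (M * q)), p ^ k • x = 0 →
        (∀ τ ∈ A.inertiaSubgroupIn ℚ, τ • x = x) →
        degPushAlpha M q x = 0 → degPushBeta M q x = 0 →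
          p ^ c • (φ • φ • x - (q ^ 2) • x) = 0

/-- **the geometric input of (I3), all levels**. -/
def KeyI3Statement : Prop :=
  ∀ (M q p : ℕ) [NeZero M] [NeZero q] [NeZero (M * q)], q.Prime → p.Prime → q ≠ p → ¬ q ∣ M →
    KeyI3 M q p

end Fermat.Agent.S35
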