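/-
(S35)-(I3), package (P2) DESCENT — helper2.  Part 1: **invariant representatives**.

A torsion class `x ∈ J₀(N)[m]` fixed by a set `S` of elements of `G_ℚ` is represented by a pair
`(D, f)`, `m·D = div f`, with `σ D = D` and `σ f = f` for all `σ ∈ S` (`σ` acting on the
coefficients of the `q`-expansions) and `f` of leading `q`-coefficient `1`.

Route: helper3's canonical effective divisor of a class relative to the polar divisor of `j` and the
cusp `∞` (`GR/DESC_helper3_Canon`) is equivariant; the function `f` is then unique up to a constant,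
which the normalisation of the leading coefficient kills.
-/
import Mathlib
import Fermat.Agent.GR.DESC_helper3_Surj
import Fermat.Agent.SS.TOPA_lead
import Fermat.Agent.JA.CONST_helper6
import Fermat.Agent.JA.KEYBASE_helper8_Cusp
import Fermat.Agent.JA.BC_helper9_Desc
import Fermat.Agent.X0N.S24_helper7_Wiring
import Fermat.Agent.JA.KEYBASE_helper8_Main

set_option autoImplicit false
set_option linter.unusedSectionVars false
set_option linter.unusedVariables false
set_option linter.style.haveILetI false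

open HahnSeries IntermediateField AlgebraicCurve ModularCurve

namespace Fermat.Agent.S35

open Fermat.Agent.GR Fermat.Agent.FF Fermat.Agent.JA Fermat.Agent.SS Fermat.Agent.X0N

section Abstract

variable {k F : Type*} [Field k] [Field F] [Algebra k F]

/-- the polar divisor of a function fixed by `g` is fixed by `g`. -/
theorem desc_smul_polar (g : SemilinearAut k F) {x₀ : F} (hg : g • x₀ = x₀) {B₀ : Divisor k F}
    (hB₀ : ∀ P : Place k F, B₀ P = max 0 (-(P.ord x₀))) : g • B₀ = B₀ := by
  refine Finsupp.ext fun Q => ?_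
  rw [SemilinearAut.divisor_smul_apply, hB₀, hB₀, ← place_ord_smul_eq, hg]

theorem desc_smul_nsmul (g : SemilinearAut k F) (n : ℕ) (B : Divisor k F) :
    g • (n • B) = n • (g • B) := by
  refine Finsupp.ext fun Q => ?_
  rw [SemilinearAut.divisor_smul_apply, Finsupp.smul_apply, Finsupp.smul_apply,
    SemilinearAut.divisor_smul_apply]

/-- **invariant representative of a divisor class** (all places of degree one): every class
`c ∈ Pic⁰(F)` has a representative `D` which is fixed by every semilinear automorphism fixing the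
class, a given non-constant function `x₀` and a given place `Q₀`. -/
theorem exists_invariant_divisor [HasPrincipalDivisors k F] (hdeg : ∀ Q : Place k F, Q.deg = 1)
    (x₀ : F) (hx₀ : ∀ a : k, x₀ ≠ algebraMap k F a) (Q₀ : Place k F) (c : Pic0 k F) :
    ∃ (D : Divisor k F) (hD : D ∈ Divisor.degZero (K := k) (F := F)), Pic0.mk ⟨D, hD⟩ = c ∧
      ∀ g : SemilinearAut k F, g • x₀ = x₀ → g • Q₀ = Q₀ → g • c = c → g • D = D := by
  have hx₀0 : x₀ ≠ 0 := by
    intro h
    exact hx₀ 0 (by rw [h, map_zero])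
  obtain ⟨B₀, hB₀⟩ := exists_polarDivisor (K := k) x₀ hx₀0
  obtain ⟨n, hne⟩ := exists_effSet_nonempty B₀
    (fun Q => exists_eff_of_polar hdeg x₀ hx₀ B₀ hB₀ Q) c
  obtain ⟨E, hE⟩ := exists_isCanon hdeg c (n • B₀) Q₀ hne
  obtain ⟨hEeff, hEdeg, hEc⟩ := hE.1
  refine ⟨E - n • B₀, hEdeg, hEc, fun g hgx hgQ hgc => ?_⟩
  have hgB : g • (n • B₀) = n • B₀ := by
    rw [desc_smul_nsmul, desc_smul_polar g hgx hB₀]
  have h1 : IsCanon (g • c) (n • B₀) Q₀ (g • E) := hE.smul g hgB hgQ
  rw [hgc] at h1
  have h2 : g • E = E := h1.unique hdeg hE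
  rw [smul_sub, h2, hgB]

/-- a function whose divisor is fixed by `g` is multiplied by a constant (given that functions
without zeros and poles are constant). -/
theorem exists_smul_eq_const_mul
    (hconst : ∀ y : F, y ≠ 0 → (∀ Q : Place k F, Q.ord y = 0) → ∃ a : k, y = algebraMap k F a)
    (g : SemilinearAut k F) {D : Divisor k F} (hgD : g • D = D) {m : ℤ} {f : F} (hf : f ≠ 0)
    (hfD : ∀ v : Place k F, v.ord f = m * D v) :
    ∃ a : k, a ≠ 0 ∧ g • f = algebraMap k F a * f := by
  have hgf : g • f ≠ 0 := by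
    rw [SemilinearAut.smul_def]
    exact (map_ne_zero _).2 hf
  have hord : ∀ Q : Place k F, Q.ord (g • f / f) = 0 := by
    intro Q
    rw [div_eq_mul_inv, Q.ord_mul hgf (inv_ne_zero hf), Q.ord_inv, place_ord_smul_eq, hfD, hfD]
    have h1 : D (g⁻¹ • Q) = D Q := by
      conv_rhs => rw [← hgD]
      rw [SemilinearAut.divisor_smul_apply]
    rw [h1]
    ring
  obtain ⟨a, ha⟩ := hconst _ (div_ne_zero hgf hf) hord
  refine ⟨a, ?_, ?_⟩
  · rintro rfl
    rw [map_zero] at ha
    exact div_ne_zero hgf hf ha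
  · rw [← ha, div_mul_cancel₀ _ hf]

/-- a place is determined by its order function. -/
theorem desc_place_ext {P Q : Place k F} (h : ∀ x : F, x ≠ 0 → P.ord x = Q.ord x) : P = Q := by
  apply Place.ext
  ext x
  by_cases hx : x = 0
  · subst hx
    exact ⟨fun _ => zero_mem _, fun _ => zero_mem _⟩
  · rw [PlaceAux.mem_iff_ord_nonneg' P hx, PlaceAux.mem_iff_ord_nonneg' Q hx, h x hx]

end Abstract

section JZero

/-- `Ω = AlgebraicClosure ℚ`. -/
local notation "Ω" => AlgebraicClosure ℚ

/-- the absolute Galois group. -/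
local notation "GQ" => (AlgebraicClosure ℚ ≃ₐ[ℚ] AlgebraicClosure ℚ)

variable (N : ℕ) [NeZero N]

/-- the coefficientwise Galois action preserves the `q`-order. -/
theorem desc_order_smul (σ : GQ) (x : ↥(modularFunctionFieldBar N)) :
    ((arithmeticGalois (modularFunctionFieldFull N) σ • x : ↥(modularFunctionFieldBar N)) :
      LaurentSeries Ω).order = (x : LaurentSeries Ω).order := by
  rw [coe_arithmeticGalois_smul]
  exact order_coeffMap_of_injective (f := (σ : Ω →+* Ω)) σ.injective _

/-- the coefficientwise Galois action on the leading `q`-coefficient. -/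
theorem desc_leadingCoeff_smul (σ : GQ) (x : ↥(modularFunctionFieldBar N)) :
    ((arithmeticGalois (modularFunctionFieldFull N) σ • x : ↥(modularFunctionFieldBar N)) :
      LaurentSeries Ω).leadingCoeff = σ ((x : LaurentSeries Ω).leadingCoeff) := by
  rw [coe_arithmeticGalois_smul]
  exact leadingCoeff_coeffMap_of_injective (f := (σ : Ω →+* Ω)) σ.injective _

/-- `j` is fixed by the coefficientwise Galois action. -/
theorem desc_smul_jBar (σ : GQ) :
    arithmeticGalois (modularFunctionFieldFull N) σ • jBar N = jBar N := by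
  apply Subtype.ext
  rw [coe_arithmeticGalois_smul, coe_jBar, coeffMap_coeffEmb]

/-- the cusp `∞` is fixed by the coefficientwise Galois action. -/
theorem desc_smul_cusp {P : Place Ω ↥(modularFunctionFieldBar N)}
    (hP : ∀ x : ↥(modularFunctionFieldBar N), x ≠ 0 → P.ord x = (x : LaurentSeries Ω).order)
    (σ : GQ) : arithmeticGalois (modularFunctionFieldFull N) σ • P = P := by
  refine desc_place_ext fun x hx => ?_
  set g := arithmeticGalois (modularFunctionFieldFull N) σ with hg
  have h1 : (g • P).ord x = P.ord (g⁻¹ • x) := by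
    have h := SemilinearAut.ord_smul g P (g⁻¹ • x)
    rwa [smul_inv_smul] at h
  have hx' : g⁻¹ • x ≠ 0 := by
    rw [SemilinearAut.smul_def]
    exact (map_ne_zero _).2 hx
  rw [h1, hP _ hx', hP x hx]
  have h2 := desc_order_smul N σ (g⁻¹ • x)
  rw [← hg, smul_inv_smul] at h2
  exact h2.symm

/-- multiplying by a constant multiplies the leading coefficient. -/
theorem desc_leadingCoeff_algebraMap_mul (a : Ω) (x : ↥(modularFunctionFieldBar N)) :
    ((algebraMap Ω ↥(modularFunctionFieldBar N) a * x : ↥(modularFunctionFieldBar N)) :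
      LaurentSeries Ω).leadingCoeff = a * (x : LaurentSeries Ω).leadingCoeff := by
  have h1 : ((algebraMap Ω ↥(modularFunctionFieldBar N) a * x : ↥(modularFunctionFieldBar N)) :
      LaurentSeries Ω) = HahnSeries.C a * (x : LaurentSeries Ω) := by
    show algebraMap Ω (LaurentSeries Ω) a * (x : LaurentSeries Ω) = _
    rw [HahnSeries.algebraMap_apply']
    simp
  rw [h1, HahnSeries.leadingCoeff_mul]
  congr 1
  exact HahnSeries.leadingCoeff_of_single

set_option maxHeartbeats 800000 in
/-- **(P2a) invariant pairs**: a class `x ∈ J₀(N)` with `m • x = 0` fixed by the elements of a set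
`S ⊆ G_ℚ` is represented by a divisor `D` of degree `0` with `m·D = div f`, where `D` and `f` are
fixed by all `σ ∈ S` and `f` has leading `q`-coefficient `1`. -/
theorem exists_invariant_pair (m : ℕ) (x : JZero N) (hx : m • x = 0) (S : Set GQ)
    (hS : ∀ σ ∈ S, σ • x = x) :
    ∃ (D : Divisor.degZero (K := Ω) (F := ↥(modularFunctionFieldBar N)))
      (f : ↥(modularFunctionFieldBar N)), f ≠ 0 ∧ Pic0.mk D = x ∧
      (∀ v : Place Ω ↥(modularFunctionFieldBar N),
        v.ord f = (m : ℤ) * (D : Divisor Ω ↥(modularFunctionFieldBar N)) v) ∧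
      ((f : ↥(modularFunctionFieldBar N)) : LaurentSeries Ω).leadingCoeff = 1 ∧
      (∀ σ ∈ S, arithmeticGalois (modularFunctionFieldFull N) σ •
        (D : Divisor Ω ↥(modularFunctionFieldBar N)) = D) ∧
      ∀ σ ∈ S, arithmeticGalois (modularFunctionFieldFull N) σ • f = f := by
  classical
  haveI : HasPrincipalDivisors Ω ↥(modularFunctionFieldBar N) :=
    (Fermat.Agent.X0N.jCoordBar N).hasPrincipalDivisors
  have hdeg : ∀ Q : Place Ω ↥(modularFunctionFieldBar N), Q.deg = 1 :=
    fun Q => (Fermat.Agent.X0N.jCoordBar N).deg_eq_one Q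
  have htr := transcendental_jBar N
  have hx₀ : ∀ a : Ω, jBar N ≠ algebraMap Ω ↥(modularFunctionFieldBar N) a := by
    intro a h
    apply htr
    rw [h]
    exact isAlgebraic_algebraMap a
  obtain ⟨Q₀, hQ₀⟩ := exists_place_ord_eq_order (keyFq Ω N) (jqModC_mem_keyFq N)
    order_jqModC_eq
  obtain ⟨D, hD, hDx, hinv⟩ := exists_invariant_divisor hdeg (jBar N) hx₀ Q₀ x
  -- `m • D` is principal
  have hmD : (m • (⟨D, hD⟩ : Divisor.degZero (K := Ω) (F := ↥(modularFunctionFieldBar N)))) ∈
      (Divisor.principal (K := Ω) (F := ↥(modularFunctionFieldBar N))).addSubgroupOf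
        (Divisor.degZero (K := Ω) (F := ↥(modularFunctionFieldBar N))) := by
    have h1 : (Pic0.mk (m • (⟨D, hD⟩ : Divisor.degZero (K := Ω)
        (F := ↥(modularFunctionFieldBar N)))) : Pic0 Ω ↥(modularFunctionFieldBar N)) =
        m • Pic0.mk ⟨D, hD⟩ := rfl
    rw [hDx, hx] at h1
    exact (QuotientAddGroup.eq_zero_iff _).1 h1
  rw [AddSubgroup.mem_addSubgroupOf] at hmD
  obtain ⟨f₁, hf₁, hf₁D⟩ := hmD
  have hf₁D' : ∀ v : Place Ω ↥(modularFunctionFieldBar N), v.ord f₁ = (m : ℤ) * D v := by
    intro v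
    rw [← hf₁D v]
    show ((m • D : Divisor Ω ↥(modularFunctionFieldBar N))) v = _
    rw [Finsupp.smul_apply, nsmul_eq_mul]
  -- normalise the leading coefficient
  have hf₁L : ((f₁ : ↥(modularFunctionFieldBar N)) : LaurentSeries Ω) ≠ 0 :=
    fun h => hf₁ (Subtype.ext h)
  set a₁ : Ω := ((f₁ : ↥(modularFunctionFieldBar N)) : LaurentSeries Ω).leadingCoeff with ha₁
  have ha₁0 : a₁ ≠ 0 := HahnSeries.leadingCoeff_ne_zero.mpr hf₁L
  set f : ↥(modularFunctionFieldBar N) := algebraMap Ω ↥(modularFunctionFieldBar N) a₁⁻¹ * f₁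
    with hf
  have hf0 : f ≠ 0 := mul_ne_zero ((map_ne_zero _).2 (inv_ne_zero ha₁0)) hf₁
  have hflc : ((f : ↥(modularFunctionFieldBar N)) : LaurentSeries Ω).leadingCoeff = 1 := by
    rw [hf, desc_leadingCoeff_algebraMap_mul, ← ha₁, inv_mul_cancel₀ ha₁0]
  have hfD : ∀ v : Place Ω ↥(modularFunctionFieldBar N), v.ord f = (m : ℤ) * D v := by
    intro v
    rw [hf, v.ord_mul ((map_ne_zero _).2 (inv_ne_zero ha₁0)) hf₁,
      place_ord_algebraMap_eq_zero v (inv_ne_zero ha₁0), zero_add, hf₁D']
  -- invariance of `D`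
  have hDinv : ∀ σ ∈ S, arithmeticGalois (modularFunctionFieldFull N) σ • D = D := by
    intro σ hσ
    exact hinv _ (desc_smul_jBar N σ) (desc_smul_cusp N hQ₀ σ) (hS σ hσ)
  refine ⟨⟨D, hD⟩, f, hf0, hDx, hfD, hflc, hDinv, fun σ hσ => ?_⟩
  -- invariance of `f`
  haveI : FiniteDimensional Ω⟮jBar N⟯ ↥(modularFunctionFieldBar N) :=
    (Fermat.Agent.X0N.jCoordBar N).fin
  have hconst : ∀ y : ↥(modularFunctionFieldBar N), y ≠ 0 →
      (∀ Q : Place Ω ↥(modularFunctionFieldBar N), Q.ord y = 0) →
      ∃ a : Ω, y = algebraMap Ω ↥(modularFunctionFieldBar N) a :=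
    fun y hy h => const_of_forall_ord_eq_zero (jBar N) htr y hy h
  obtain ⟨a, ha0, ha⟩ := exists_smul_eq_const_mul hconst
    (arithmeticGalois (modularFunctionFieldFull N) σ) (hDinv σ hσ) hf0 hfD
  have h1 := desc_leadingCoeff_smul N σ f
  rw [ha, desc_leadingCoeff_algebraMap_mul, hflc, mul_one, map_one] at h1
  rw [ha, h1, map_one, one_mul]

end JZero

end Fermat.Agent.S35
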