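/-
(S35)-(I3), package (P2) DESCENT — helper2.  Part 4: **the descent statement**.

`x ∈ J₀(N)[m]` fixed by the inertia group `I_A` (`A | q`): there are a base `K₀` inside the inertia
field (`q` a uniformizer of `R₀ = A ∩ K₀`) and a monic function `f₀ ∈ F(K₀)` such that
`div(f₀ ⊗ Ω) = m·D` with `[D] = x`; in particular all the orders of `f₀` at the places of
`F(K₀)/K₀` are divisible by `m`.
-/
import Mathlib
import Fermat.Agent.S35.DESC_helper2_Inv
import Fermat.Agent.S35.DESC_helper2_Unr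
import Fermat.Agent.SS.TOPB_lead_Gen
import Fermat.Agent.JA.BCD_helper9_HostRat

set_option autoImplicit false
set_option linter.unusedSectionVars false
set_option linter.unusedVariables false
set_option linter.style.haveILetI false

open HahnSeries IntermediateField AlgebraicCurve ModularCurve

namespace Fermat.Agent.S35

open Fermat.Agent.X0N Fermat.Agent.JA Fermat.Agent.SS Fermat.Agent.FF

/-- `Ω = AlgebraicClosure ℚ`. -/
local notation "Ω" => AlgebraicClosure ℚ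

/-- the absolute Galois group. -/
local notation "GQ" => (AlgebraicClosure ℚ ≃ₐ[ℚ] AlgebraicClosure ℚ)

section Main

variable (N : ℕ) [NeZero N] {q : ℕ} [hq : Fact q.Prime] {A : ValuationSubring Ω}

/-- orders at the places of `F(K₀)/K₀` of a function whose base change has divisor `m·D`. -/
theorem dvd_ord_of_keyFqBC (K₀ : IntermediateField ℚ Ω) {m : ℕ} (f₀ : ↥(keyFq ↥K₀ N))
    (D : Divisor Ω ↥(modularFunctionFieldBar N))
    (hD : ∀ v : Place Ω ↥(modularFunctionFieldBar N), v.ord (keyFqBC N K₀ f₀) = (m : ℤ) * D v)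
    (P : Place ↥K₀ ↥(keyFq ↥K₀ N)) : (m : ℤ) ∣ P.ord f₀ := by
  obtain ⟨Q, -, hQ⟩ := exists_place_restrictBC_eq_and_ord (keyFqBC N K₀)
    (keyFqBC_algebraMap N K₀) (closure_range_keyFqBC N K₀) P
  rw [hQ f₀, hD Q]
  exact dvd_mul_right _ _

set_option maxHeartbeats 800000 in
/-- **(P2) DESCENT.** -/
theorem exists_unramified_pair (hA : A.LiesOverPrime q) (m : ℕ) (x : JZero N) (hx : m • x = 0)
    (hfix : ∀ σ ∈ A.inertiaSubgroupIn ℚ, σ • x = x) :
    ∃ K₀ : IntermediateField ℚ Ω, IsBase q K₀ ∧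
      K₀ ≤ IntermediateField.fixedField (A.inertiaSubgroupIn ℚ) ∧
      Irreducible ((q : ℕ) : ↥(baseRing A K₀)) ∧
      ∃ (f₀ : ↥(keyFq ↥K₀ N))
        (D : Divisor.degZero (K := Ω) (F := ↥(modularFunctionFieldBar N))),
        f₀ ≠ 0 ∧ ((f₀ : ↥(keyFq ↥K₀ N)) : LaurentSeries ↥K₀).leadingCoeff = 1 ∧
        Pic0.mk D = x ∧
        (∀ v : Place Ω ↥(modularFunctionFieldBar N),
          v.ord (keyFqBC N K₀ f₀) = (m : ℤ) * (D : Divisor Ω ↥(modularFunctionFieldBar N)) v) ∧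
        (∀ σ ∈ A.inertiaSubgroupIn ℚ, arithmeticGalois (modularFunctionFieldFull N) σ •
          (D : Divisor Ω ↥(modularFunctionFieldBar N)) = D) ∧
        ∀ P : Place ↥K₀ ↥(keyFq ↥K₀ N), (m : ℤ) ∣ P.ord f₀ := by
  obtain ⟨D, f, hf0, hDx, hfD, hflc, hDinv, hfinv⟩ := exists_invariant_pair N m x hx
    ((A.inertiaSubgroupIn ℚ : Subgroup GQ) : Set GQ) hfix
  have hfix' : ∀ σ ∈ A.inertiaSubgroupIn ℚ,
      coeffMap ((σ : GQ) : Ω →+* Ω) ((f : ↥(modularFunctionFieldBar N)) : LaurentSeries Ω) = f := by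
    intro σ hσ
    have h := congrArg Subtype.val (hfinv σ hσ)
    rwa [coe_arithmeticGalois_smul] at h
  obtain ⟨K₀, hK₀, hK₀T, f₁, hf₁mem, hf₁⟩ := exists_unramified_descent hA
    (modularFunctionFieldFull N) f.2 hfix'
  refine ⟨K₀, hK₀, hK₀T, irreducible_prime_of_le_fixedField hA hK₀T, ⟨f₁, hf₁mem⟩, D, ?_, ?_, hDx,
    ?_, hDinv, ?_⟩
  · intro h
    apply hf0
    apply Subtype.ext
    rw [← hf₁, show f₁ = ((⟨f₁, hf₁mem⟩ : ↥(keyFq ↥K₀ N)) : LaurentSeries ↥K₀) from rfl, h]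
    simp
  · have h1 := leadingCoeff_coeffMap_of_injective (algebraMap ↥K₀ Ω).injective f₁
    rw [hf₁, hflc] at h1
    exact (algebraMap ↥K₀ Ω).injective (by rw [← h1, map_one])
  · have hBC : keyFqBC N K₀ ⟨f₁, hf₁mem⟩ = f := Subtype.ext hf₁
    intro v
    rw [hBC]
    exact hfD v
  · have hBC : keyFqBC N K₀ ⟨f₁, hf₁mem⟩ = f := Subtype.ext hf₁
    exact dvd_ord_of_keyFqBC N K₀ ⟨f₁, hf₁mem⟩ D (fun v => by rw [hBC]; exact hfD v)

end Main

end Fermat.Agent.S35
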