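/-
S35 — helper8 — **TOP-F, abstract form** (the analogue of lead's TOP-A for the Frobenius route):
over any function field `F / K` with a semilinear automorphism `g`: if for every representative
`(D, f)` (`m D = div f`) of a class `x ∈ Pic⁰(F)[m]` the function
`frobPolyMul q r g f = (g^r − q^r)(g² − 1)(g − 1) f` (multiplicative notation), raised to the power
`c`, is `(constant) · w^m`, then `c • (g^r − q^r)(g² − 1)(g − 1) x = 0`.
-/
import Mathlib
import Fermat.Agent.SS.TOPA_lead
import Fermat.Agent.S35.KEYFROB_helper8_Iface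
import Fermat.Agent.S35.FROBBASE_helper8_Iface

set_option autoImplicit false
set_option linter.unusedSectionVars false
set_option linter.unusedVariables false
set_option linter.style.haveILetI false

open AlgebraicCurve

namespace Fermat.Agent.S35

open Fermat.Agent.SS

section DivOf

variable {K F : Type*} [Field K] [Field F] [Algebra K F]

/-- `D` is the divisor of the nonzero function `f`. -/
def IsDivOf (f : F) (D : Divisor K F) : Prop := f ≠ 0 ∧ ∀ w : Place K F, D w = w.ord f

theorem IsDivOf.smul (g : SemilinearAut K F) {f : F} {D : Divisor K F} (h : IsDivOf f D) :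
    IsDivOf (g • f) (g • D) := by
  have hne : g • f ≠ 0 := by simpa using h.1
  refine ⟨hne, fun w => ?_⟩
  rw [SemilinearAut.divisor_smul_apply, h.2, place_ord_smul_eq]

theorem IsDivOf.div {f f' : F} {D D' : Divisor K F} (h : IsDivOf f D) (h' : IsDivOf f' D') :
    IsDivOf (f / f') (D - D') := by
  refine ⟨div_ne_zero h.1 h'.1, fun w => ?_⟩
  rw [Finsupp.sub_apply, h.2, h'.2, div_eq_mul_inv, w.ord_mul h.1 (inv_ne_zero h'.1), w.ord_inv]
  ring

theorem IsDivOf.pow {f : F} {D : Divisor K F} (h : IsDivOf f D) (n : ℕ) :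
    IsDivOf (f ^ n) (n • D) := by
  refine ⟨pow_ne_zero n h.1, fun w => ?_⟩
  rw [Finsupp.smul_apply, nsmul_eq_mul, h.2]
  have := w.ord_zpow f n
  rw [zpow_natCast] at this
  rw [this]

theorem IsDivOf.iterate (g : SemilinearAut K F) {f : F} {D : Divisor K F} (h : IsDivOf f D)
    (r : ℕ) : IsDivOf ((fun y : F => g • y)^[r] f) (g ^ r • D) := by
  rw [smul_iterate]
  exact h.smul (g ^ r)

/-- the divisor of `frobPolyMul q r g f`. -/
theorem IsDivOf.frobPoly (g : SemilinearAut K F) {f : F} {D : Divisor K F} (h : IsDivOf f D)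
    (q r : ℕ) : IsDivOf (frobPolyMul q r (fun y : F => g • y) f) (frobPolyAct q r g D) := by
  have h1 : IsDivOf (g • f / f) (frobSubOne g D) := (h.smul g).div h
  have h2 : IsDivOf (g • g • (g • f / f) / (g • f / f)) (frobSqSubOne g (frobSubOne g D)) :=
    ((h1.smul g).smul g).div h1
  exact (h2.iterate g r).div (h2.pow (q ^ r))

end DivOf

section Abstract

variable {K F : Type*} [Field K] [Field F] [Algebra K F]

/-- **TOP-F, abstract form.** -/
theorem pic0_frobPoly_eq_zero_of_kummer (g : SemilinearAut K F) {m c q r : ℕ} (hm : m ≠ 0)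
    (x : Pic0 K F) (hx : m • x = 0)
    (H : ∀ (D : Divisor.degZero (K := K) (F := F)) (f : F), f ≠ 0 → Pic0.mk D = x →
      (∀ v : Place K F, v.ord f = (m : ℤ) * (D : Divisor K F) v) →
      ∃ (a : K) (w : F), a ≠ 0 ∧ w ≠ 0 ∧
        frobPolyMul q r (fun y : F => g • y) f ^ c = algebraMap K F a * w ^ m) :
    c • frobPolyAct q r g x = 0 := by
  obtain ⟨D, rfl⟩ := Pic0.mk_surjective x
  -- `m • D` is principal
  have hmD : (m • D : Divisor.degZero (K := K) (F := F)) ∈
      (Divisor.principal (K := K) (F := F)).addSubgroupOf (Divisor.degZero (K := K) (F := F)) := by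
    have h1 : (Pic0.mk (m • D) : Pic0 K F) = m • Pic0.mk D := rfl
    rw [← h1] at hx
    exact (QuotientAddGroup.eq_zero_iff _).1 hx
  rw [AddSubgroup.mem_addSubgroupOf] at hmD
  obtain ⟨f, hf, hfD⟩ := hmD
  have hfD' : ∀ v : Place K F, v.ord f = (m : ℤ) * (D : Divisor K F) v := by
    intro v
    rw [← hfD v]
    show ((m • (D : Divisor K F)) : Divisor K F) v = _
    rw [Finsupp.smul_apply, nsmul_eq_mul]
  obtain ⟨a, w, ha, hw, hH⟩ := H D f hf rfl hfD'
  -- the divisors
  have hdiv : IsDivOf f (m • (D : Divisor K F)) := ⟨hf, fun v => by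
    rw [Finsupp.smul_apply, nsmul_eq_mul, hfD' v]⟩
  have hdivP := (hdiv.frobPoly g q r).pow c
  rw [frobPolyAct_nsmul] at hdivP
  -- the class
  set Y : Divisor.degZero (K := K) (F := F) := SemilinearAut.degZeroSMulHom g D - D with hY
  set Z : Divisor.degZero (K := K) (F := F) :=
    SemilinearAut.degZeroSMulHom g (SemilinearAut.degZeroSMulHom g Y) - Y with hZ
  set E₀ : Divisor.degZero (K := K) (F := F) :=
    SemilinearAut.degZeroSMulHom (g ^ r) Z - (q ^ r) • Z with hE₀
  have hcoe : (E₀ : Divisor K F) = frobPolyAct q r g (D : Divisor K F) := rfl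
  have hmk : frobPolyAct q r g (Pic0.mk D : Pic0 K F) = Pic0.mk E₀ := rfl
  rw [hmk]
  have hcE : (c • E₀ : Divisor.degZero (K := K) (F := F)) ∈
      (Divisor.principal (K := K) (F := F)).addSubgroupOf (Divisor.degZero (K := K) (F := F)) := by
    rw [AddSubgroup.mem_addSubgroupOf]
    refine ⟨w, hw, fun v => ?_⟩
    show ((c • (E₀ : Divisor K F)) : Divisor K F) v = _
    rw [hcoe]
    have h1 := hdivP.2 v
    rw [hH, v.ord_mul ((map_ne_zero _).2 ha) (pow_ne_zero m hw),
      place_ord_algebraMap_eq_zero v ha, zero_add] at h1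
    have h2 : v.ord (w ^ m) = (m : ℤ) * v.ord w := by
      have := v.ord_zpow w m
      rw [zpow_natCast] at this
      exact this
    rw [h2, Finsupp.smul_apply, Finsupp.smul_apply, nsmul_eq_mul, nsmul_eq_mul] at h1
    rw [Finsupp.smul_apply, nsmul_eq_mul]
    have hm' : (m : ℤ) ≠ 0 := by exact_mod_cast hm
    have h3 : (m : ℤ) * ((c : ℤ) * (frobPolyAct q r g (D : Divisor K F)) v) =
        (m : ℤ) * v.ord w := by
      rw [← h1]; ring
    exact mul_left_cancel₀ hm' h3
  have h4 : (c • Pic0.mk E₀ : Pic0 K F) = Pic0.mk (c • E₀) := rfl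
  rw [h4]
  exact (QuotientAddGroup.eq_zero_iff _).2 hcE

end Abstract

end Fermat.Agent.S35
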