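/-
S35 — helper8 — **TOP-F for `J₀(M q)`**: the Kummer form `FrobKummerAt` of the geometric input of
the Frobenius route (a statement about single functions on `X₀(M q)` over `Ω`) implies `KeyFrob`.

* `exists_norm_eq_of_pushforwardHom_eq_zero` : if the class of `D` (`m D = div f`) is killed by a
  pushforward of divisor classes, then the norm of `f` is a constant times an `m`-th power.
* `FrobKummerAt M q p c r φ` : for every `n` and every nonzero function `f` on `X₀(M q)` over `Ω` all
  of whose orders are divisible by `p ^ n` and whose norms along the two degeneracy maps are constants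
  times `p ^ n`-th powers, `frobPolyMul q r φ̄ f ^ c` is a constant times a `p ^ n`-th power.
* `keyFrob_of_frobKummerAt`.
-/
import Mathlib
import Fermat.Agent.S35.TOPF_helper8_Abs
import Fermat.Agent.GR.DESC_helper3_Gal
import Fermat.Agent.JA.ES_helper4_Main

set_option autoImplicit false
set_option linter.unusedSectionVars false
set_option linter.unusedVariables false
set_option linter.style.haveILetI false

open AlgebraicCurve ModularCurve

namespace Fermat.Agent.S35

open Fermat.Agent.SS Fermat.Agent.JA Fermat.Agent.X0N Fermat.Agent.GR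

section Push

variable {K F F' : Type*} [Field K] [Field F] [Field F'] [Algebra K F] [Algebra K F']
  [Algebra F F'] [IsScalarTower K F F'] [Algebra.IsIntegral F F'] [HasPrincipalDivisors K F']
  [Module.Finite F F']

/-- **a class killed by a pushforward**: the norm of its Kummer function is a constant times an
`m`-th power. -/
theorem exists_norm_eq_of_pushforwardHom_eq_zero
    (H : Divisor.PushforwardNormFormula K F F')
    (hconst : ∀ u : F, u ≠ 0 → (∀ v : Place K F, v.ord u = 0) → ∃ a : K, u = algebraMap K F a)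
    {m : ℕ} (D : Divisor.degZero (K := K) (F := F')) (f : F') (hf : f ≠ 0)
    (hfD : ∀ w : Place K F', w.ord f = (m : ℤ) * (D : Divisor K F') w)
    (h0 : Pic0.pushforwardHom K F F' H (Pic0.mk D) = 0) :
    ∃ (a : K) (h : F), a ≠ 0 ∧ h ≠ 0 ∧ Algebra.norm F f = algebraMap K F a * h ^ m := by
  rw [Pic0.pushforwardHom_mk] at h0
  have hprin := (QuotientAddGroup.eq_zero_iff _).1 h0
  rw [AddSubgroup.mem_addSubgroupOf] at hprin
  obtain ⟨h, hh, hhD⟩ := hprin
  rw [Pic0.coe_pushforwardDegZeroHom] at hhD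
  have hN0 : Algebra.norm F f ≠ 0 := Algebra.norm_ne_zero_iff.mpr hf
  have hNord : ∀ v : Place K F, v.ord (Algebra.norm F f) = (m : ℤ) * v.ord h := by
    intro v
    have h1 := H f hf (m • (D : Divisor K F')) (fun w => by
      rw [Finsupp.smul_apply, nsmul_eq_mul, hfD w]) v
    rw [map_nsmul, Finsupp.smul_apply, nsmul_eq_mul, hhD v] at h1
    exact h1.symm
  have hpow : ∀ v : Place K F, v.ord (h ^ m) = (m : ℤ) * v.ord h := by
    intro v
    have := v.ord_zpow h m
    rw [zpow_natCast] at this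
    exact this
  set u : F := Algebra.norm F f / h ^ m with hu
  have hu0 : u ≠ 0 := div_ne_zero hN0 (pow_ne_zero m hh)
  have huord : ∀ v : Place K F, v.ord u = 0 := by
    intro v
    rw [hu, div_eq_mul_inv, v.ord_mul hN0 (inv_ne_zero (pow_ne_zero m hh)), v.ord_inv, hNord,
      hpow]
    ring
  obtain ⟨a, ha⟩ := hconst u hu0 huord
  refine ⟨a, h, ?_, hh, ?_⟩
  · rintro rfl
    rw [map_zero] at ha
    exact hu0 ha
  · rw [← ha, hu, div_mul_cancel₀ _ (pow_ne_zero m hh)]

end Push

section Group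

/-- `frobPolyAct` along a homomorphism of acting groups. -/
theorem frobPolyAct_map_group {G G' J : Type*} [Group G] [Group G'] [AddCommGroup J]
    [DistribMulAction G J] [DistribMulAction G' J] (ψ : G →* G')
    (h : ∀ (g : G) (x : J), g • x = ψ g • x) (q r : ℕ) (g : G) (x : J) :
    frobPolyAct q r g x = frobPolyAct q r (ψ g) x := by
  unfold frobPolyAct frobPowSub frobSqSubOne frobSubOne
  rw [h (g ^ r), map_pow]
  simp only [h g]

end Group

section JZero

local notation "Ω" => AlgebraicClosure ℚ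
local notation "GQ" => (AlgebraicClosure ℚ ≃ₐ[ℚ] AlgebraicClosure ℚ)

variable (M q : ℕ) [NeZero M] [NeZero q] [NeZero (M * q)]

/-- **the Kummer form of the Frobenius route for one `φ`**, with exponents `c`, `r`. -/
def FrobKummerAt (p c r : ℕ) (φ : GQ) : Prop :=
  ∀ (n : ℕ) (f : ↥(modularFunctionFieldBar (M * q))), f ≠ 0 →
    (∀ v : Place Ω ↥(modularFunctionFieldBar (M * q)), ((p ^ n : ℕ) : ℤ) ∣ v.ord f) →
    (∃ (a : Ω) (h : ↥(modularFunctionFieldBar M)), a ≠ 0 ∧ h ≠ 0 ∧
      normAlong (heckeAlphaBar Ω M q) f = algebraMap Ω ↥(modularFunctionFieldBar M) a * h ^ (p ^ n)) →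
    (∃ (a : Ω) (h : ↥(modularFunctionFieldBar M)), a ≠ 0 ∧ h ≠ 0 ∧
      normAlong (heckeBetaBar Ω M q) f = algebraMap Ω ↥(modularFunctionFieldBar M) a * h ^ (p ^ n)) →
    ∃ (a : Ω) (w : ↥(modularFunctionFieldBar (M * q))), a ≠ 0 ∧ w ≠ 0 ∧
      frobPolyMul q r (fun y : ↥(modularFunctionFieldBar (M * q)) =>
        arithmeticGalois (modularFunctionFieldFull (M * q)) φ • y) f ^ c =
        algebraMap Ω ↥(modularFunctionFieldBar (M * q)) a * w ^ (p ^ n)

/-- a class killed by a degeneracy pushforward: the norm of its Kummer function. -/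
theorem exists_normAlong_eq_of_degPush_eq_zero
    (φ : ↥(modularFunctionFieldBar M) →ₐ[Ω] ↥(modularFunctionFieldBar (M * q)))
    {m : ℕ} (D : Divisor.degZero (K := Ω) (F := ↥(modularFunctionFieldBar (M * q))))
    (f : ↥(modularFunctionFieldBar (M * q))) (hf : f ≠ 0)
    (hfD : ∀ w : Place Ω ↥(modularFunctionFieldBar (M * q)),
      w.ord f = (m : ℤ) * (D : Divisor Ω ↥(modularFunctionFieldBar (M * q))) w)
    (h0 : degPush M q φ (Pic0.mk D) = 0) :
    ∃ (a : Ω) (h : ↥(modularFunctionFieldBar M)), a ≠ 0 ∧ h ≠ 0 ∧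
      normAlong φ f = algebraMap Ω ↥(modularFunctionFieldBar M) a * h ^ m := by
  letI := algebraAlong φ
  haveI := isScalarTower_along φ
  haveI hfin : Module.Finite ↥(modularFunctionFieldBar M) ↥(modularFunctionFieldBar (M * q)) :=
    finiteAlong_of_coord (jCoordBar M) (jCoordBar (M * q)) φ
  haveI : Algebra.IsIntegral ↥(modularFunctionFieldBar M) ↥(modularFunctionFieldBar (M * q)) :=
    Algebra.IsIntegral.of_finite _ _
  haveI : HasPrincipalDivisors Ω ↥(modularFunctionFieldBar (M * q)) :=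
    (jCoordBar (M * q)).hasPrincipalDivisors
  exact exists_norm_eq_of_pushforwardHom_eq_zero
    (normFormulaAlong_of_coord (jCoordBar M) (jCoordBar (M * q)) φ
      (finiteAlong_of_coord (jCoordBar M) (jCoordBar (M * q)) φ))
    (fun u _ hu => exists_const_of_forall_ord_eq_zero (jCoordBar M) u hu) D f hf hfD h0

theorem galois_smul_jzero_eq (N : ℕ) (φ : GQ) (x : JZero N) :
    φ • x = arithmeticGalois (modularFunctionFieldFull N) φ • x := rfl

/-- the Galois action on `J₀(N)` is the action of `arithmeticGalois`. -/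
theorem frobPolyAct_jzero_eq (N : ℕ) (r : ℕ) (φ : GQ) (x : JZero N) :
    frobPolyAct q r φ x =
      frobPolyAct (G := SemilinearAut Ω ↥(modularFunctionFieldBar N)) q r
        (arithmeticGalois (modularFunctionFieldFull N) φ) x :=
  frobPolyAct_map_group (G' := SemilinearAut Ω ↥(modularFunctionFieldBar N))
    (arithmeticGalois (modularFunctionFieldFull N)) (galois_smul_jzero_eq N) q r φ x

/-- **TOP-F for `J₀(M q)`, one `φ`.** -/
theorem jzero_frobPoly_eq_zero_of_frobKummerAt {p c r : ℕ} (hp : p ≠ 0) {φ : GQ}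
    (H : FrobKummerAt M q p c r φ) (x : JZero (M * q)) {n : ℕ} (hx : p ^ n • x = 0)
    (hα : degPushAlpha M q x = 0) (hβ : degPushBeta M q x = 0) :
    c • frobPolyAct q r φ x = 0 := by
  rw [frobPolyAct_jzero_eq]
  refine pic0_frobPoly_eq_zero_of_kummer (arithmeticGalois (modularFunctionFieldFull (M * q)) φ)
    (m := p ^ n) (c := c) (pow_ne_zero n hp) x hx ?_
  intro D f hf hDx hfD
  subst hDx
  exact H n f hf (fun v => ⟨_, hfD v⟩)
    (exists_normAlong_eq_of_degPush_eq_zero M q (heckeAlphaBar Ω M q) D f hf hfD hα)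
    (exists_normAlong_eq_of_degPush_eq_zero M q (heckeBetaBar Ω M q) D f hf hfD hβ)

/-- on `p`-power torsion, a multiple `c • y = 0` gives `p ^ a • y = 0` with `a` the `p`-adic
valuation of `c`. -/
theorem pow_padicValNat_smul_eq_zero {J : Type*} [AddCommGroup J] {p c : ℕ} (hp : p.Prime)
    (hc : c ≠ 0) {y : J} {n : ℕ} (hy : p ^ n • y = 0) (hcy : c • y = 0) :
    p ^ (padicValNat p c) • y = 0 := by
  haveI : Fact p.Prime := ⟨hp⟩
  obtain ⟨c', hc'⟩ : ∃ c', c = p ^ padicValNat p c * c' := pow_padicValNat_dvd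
  have hcop : Nat.Coprime (p ^ n) c' := by
    apply Nat.Coprime.pow_left
    rw [Nat.Prime.coprime_iff_not_dvd hp]
    intro hdvd
    have h1 : p ^ (padicValNat p c + 1) ∣ c := by
      rw [pow_succ]
      conv_rhs => rw [hc']
      exact Nat.mul_dvd_mul_left _ hdvd
    exact pow_succ_padicValNat_not_dvd hc h1
  -- `1 = u * p^n + v * c'` in `ℤ`
  have hgcd : Int.gcd (p ^ n : ℕ) c' = 1 := by exact_mod_cast hcop
  obtain ⟨u, v, huv⟩ : ∃ u v : ℤ, (1 : ℤ) = u * (p ^ n : ℕ) + v * c' := by
    refine ⟨Int.gcdA (p ^ n : ℕ) c', Int.gcdB (p ^ n : ℕ) c', ?_⟩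
    have := Int.gcd_eq_gcd_ab ((p ^ n : ℕ) : ℤ) (c' : ℤ)
    rw [hgcd] at this
    push_cast at this ⊢
    linarith
  set z := p ^ (padicValNat p c) • y with hz
  have h1 : (c' : ℤ) • z = 0 := by
    rw [hz, natCast_zsmul, ← mul_nsmul', mul_comm, ← hc']
    exact hcy
  have h2 : ((p ^ n : ℕ) : ℤ) • z = 0 := by
    rw [hz, natCast_zsmul, smul_comm, hy, smul_zero]
  calc z = (1 : ℤ) • z := (one_zsmul z).symm
    _ = (u * (p ^ n : ℕ) + v * c') • z := by rw [← huv]
    _ = u • (((p ^ n : ℕ) : ℤ) • z) + v • ((c' : ℤ) • z) := by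
        rw [add_smul, mul_smul, mul_smul]
    _ = 0 := by rw [h1, h2, smul_zero, smul_zero, add_zero]

/-- **`KeyFrob` from the Kummer form.** -/
theorem keyFrob_of_frobKummerAt {p c r : ℕ} (hp : p.Prime) (hc : c ≠ 0) (hr : 0 < r)
    (H : ∀ A : ValuationSubring Ω, A.LiesOverPrime q → ∀ φ : GQ, A.IsFrobeniusAt φ q →
      FrobKummerAt M q p c r φ) :
    KeyFrob M q p := by
  refine ⟨padicValNat p c, r, hr, fun A hA φ hφ k x hx hα hβ => ?_⟩
  have h1 := jzero_frobPoly_eq_zero_of_frobKummerAt M q hp.ne_zero (H A hA φ hφ) x hx hα hβ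
  have h2 : p ^ k • frobPolyAct q r φ x = 0 := by
    rw [← frobPolyAct_nsmul, hx]
    unfold frobPolyAct frobPowSub frobSqSubOne frobSubOne
    simp
  exact pow_padicValNat_smul_eq_zero hp hc h2 h1

end JZero

end Fermat.Agent.S35
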