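/-
(S35)-(I3), package (P2) DESCENT — helper2.  Part 2: **coefficient fields of definition**.

For `K ⊆ L` (`L` algebraic over `ℚ`) and a `K`-basis `(b_i)` of `K·F₀ ⊆ K((q))`, every element of
`L·F₀ ⊆ L((q))` is a unique finite sum `∑ ω_i · ι(b_i)`, `ω_i ∈ L`.  Consequently an element of
`L·F₀` fixed by a coefficientwise automorphism `σ` of `L` over `K` has all its coordinates `ω_i`
fixed by `σ`, and an element all of whose coordinates lie in an intermediate field `K₀` comes from
`K₀·F₀`.
-/
import Mathlib
import Fermat.Agent.X0N.LD_helper1_Laurent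
import Fermat.Agent.JA.G1OMEGA_helper5_Desc

set_option autoImplicit false
set_option linter.unusedSectionVars false
set_option linter.unusedVariables false
set_option linter.style.haveILetI false

open HahnSeries IntermediateField ModularCurve

namespace Fermat.Agent.S35

open Fermat.Agent.X0N Fermat.Agent.JA

section Sum

variable {L : Type*} [Field L] {I : Type*}

/-- `(ω_i) ↦ ∑ ω_i · v_i`. -/
noncomputable def iotaSum (v : I → LaurentSeries L) : (I →₀ L) →+ LaurentSeries L :=
  Finsupp.liftAddHom fun i =>
    (AddMonoidHom.mulRight (v i)).comp (algebraMap L (LaurentSeries L)).toAddMonoidHom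

theorem iotaSum_apply (v : I → LaurentSeries L) (c : I →₀ L) :
    iotaSum v c = c.sum fun i a => algebraMap L (LaurentSeries L) a * v i := rfl

@[simp]
theorem iotaSum_single (v : I → LaurentSeries L) (i : I) (a : L) :
    iotaSum v (Finsupp.single i a) = algebraMap L (LaurentSeries L) a * v i := by
  rw [iotaSum_apply, Finsupp.sum_single_index]
  rw [map_zero, zero_mul]

/-- the range of `iotaSum` is stable under multiplication by constants. -/
theorem algebraMap_mul_iotaSum (v : I → LaurentSeries L) (l : L) (c : I →₀ L) :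
    algebraMap L (LaurentSeries L) l * iotaSum v c = iotaSum v (l • c) := by
  induction c using Finsupp.induction_linear with
  | zero => rw [smul_zero, map_zero, mul_zero]
  | add f g hf hg => rw [smul_add, map_add, map_add, mul_add, hf, hg]
  | single i a =>
    rw [Finsupp.smul_single, iotaSum_single, iotaSum_single, smul_eq_mul, map_mul, mul_assoc]

/-- coefficientwise ring homomorphisms and `iotaSum`. -/
theorem coeffMap_iotaSum {L' : Type*} [Field L'] (σ : L →+* L') (v : I → LaurentSeries L)
    (c : I →₀ L) :
    coeffMap σ (iotaSum v c) =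
      iotaSum (fun i => coeffMap σ (v i)) (c.mapRange σ (map_zero σ)) := by
  induction c using Finsupp.induction_linear with
  | zero => rw [Finsupp.mapRange_zero, map_zero, map_zero, map_zero]
  | add f g hf hg =>
    rw [Finsupp.mapRange_add (map_add σ), map_add, map_add, map_add, hf, hg]
  | single i a =>
    rw [Finsupp.mapRange_single, iotaSum_single, iotaSum_single, map_mul,
      algebraMap_laurentSeries_eq_single, algebraMap_laurentSeries_eq_single, coeffMap_single]

end Sum

section Span

variable {K L : Type*} [Field K] [Field L] [Algebra K L] [Algebra ℚ K] [Algebra ℚ L]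
  [IsScalarTower ℚ K L]
  (F₀ : IntermediateField ℚ (LaurentSeries ℚ)) {I : Type*}
  (B : Module.Basis I K ↥(laurentBaseChange K F₀))

/-- the vectors `ι(b_i)`. -/
noncomputable def iotaVec (i : I) : LaurentSeries L :=
  iota K L ((B i : ↥(laurentBaseChange K F₀)) : LaurentSeries K)

/-- `ι` of a `K`-linear combination of the basis. -/
theorem iota_linearCombination (c : I →₀ K) :
    iota K L ((Finsupp.linearCombination K B c : ↥(laurentBaseChange K F₀)) : LaurentSeries K) =
      iotaSum (iotaVec (L := L) F₀ B) (c.mapRange (algebraMap K L) (map_zero _)) := by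
  induction c using Finsupp.induction_linear with
  | zero =>
    rw [Finsupp.mapRange_zero, map_zero, map_zero]
    exact map_zero _
  | add f g hf hg =>
    rw [Finsupp.mapRange_add (map_add (algebraMap K L)), map_add, map_add,
      IntermediateField.coe_add, map_add, hf, hg]
  | single i a =>
    rw [Finsupp.mapRange_single, iotaSum_single, Finsupp.linearCombination_single,
      Algebra.smul_def, IntermediateField.coe_mul, map_mul]
    congr 1
    exact iota_algebraMap a

/-- the image of `K·F₀` lies in the range of `iotaSum`. -/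
theorem iota_mem_range_iotaSum (w : ↥(laurentBaseChange K F₀)) :
    iota K L (w : LaurentSeries K) ∈ (iotaSum (iotaVec (L := L) F₀ B)).range := by
  refine ⟨(B.repr w).mapRange (algebraMap K L) (map_zero _), ?_⟩
  rw [← iota_linearCombination, B.linearCombination_repr]

/-- the range of `iotaSum` is stable under multiplication by `ι(K·F₀)`. -/
theorem iota_mul_mem_range_iotaSum (w : ↥(laurentBaseChange K F₀)) {y : LaurentSeries L}
    (hy : y ∈ (iotaSum (iotaVec (L := L) F₀ B)).range) :
    iota K L (w : LaurentSeries K) * y ∈ (iotaSum (iotaVec (L := L) F₀ B)).range := by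
  obtain ⟨c, rfl⟩ := hy
  induction c using Finsupp.induction_linear with
  | zero => rw [map_zero, mul_zero]; exact zero_mem _
  | add f g hf hg => rw [map_add, mul_add]; exact add_mem hf hg
  | single i a =>
    rw [iotaSum_single]
    obtain ⟨c', hc'⟩ := iota_mem_range_iotaSum (L := L) F₀ B (w * B i)
    refine ⟨a • c', ?_⟩
    rw [← algebraMap_mul_iotaSum, hc', IntermediateField.coe_mul, map_mul]
    unfold iotaVec
    ring

/-- the range of `iotaSum` is stable under multiplication. -/
theorem mul_mem_range_iotaSum {y z : LaurentSeries L}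
    (hy : y ∈ (iotaSum (iotaVec (L := L) F₀ B)).range)
    (hz : z ∈ (iotaSum (iotaVec (L := L) F₀ B)).range) :
    y * z ∈ (iotaSum (iotaVec (L := L) F₀ B)).range := by
  obtain ⟨c, rfl⟩ := hy
  induction c using Finsupp.induction_linear with
  | zero => rw [map_zero, zero_mul]; exact zero_mem _
  | add f g hf hg => rw [map_add, add_mul]; exact add_mem hf hg
  | single i a =>
    rw [iotaSum_single, mul_assoc]
    obtain ⟨c', hc'⟩ := iota_mul_mem_range_iotaSum (L := L) F₀ B (B i) hz
    refine ⟨a • c', ?_⟩
    rw [← algebraMap_mul_iotaSum, hc']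
    rfl

theorem one_mem_range_iotaSum :
    (1 : LaurentSeries L) ∈ (iotaSum (iotaVec (L := L) F₀ B)).range := by
  have h := iota_mem_range_iotaSum (L := L) F₀ B 1
  rwa [IntermediateField.coe_one, map_one] at h

theorem algebraMap_mem_range_iotaSum (l : L) :
    algebraMap L (LaurentSeries L) l ∈ (iotaSum (iotaVec (L := L) F₀ B)).range := by
  obtain ⟨c, hc⟩ := one_mem_range_iotaSum (L := L) F₀ B
  refine ⟨l • c, ?_⟩
  rw [← algebraMap_mul_iotaSum, hc, mul_one]

/-- the image of `K·F₀` in `L((q))`. -/
noncomputable def iotaField : Subfield (LaurentSeries L) :=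
  (laurentBaseChange K F₀).toSubfield.map (iota K L)

/-- the range of `iotaSum`, as a subalgebra over the image of `K·F₀`. -/
noncomputable def iotaSumAlg : Subalgebra ↥(iotaField (K := K) (L := L) F₀) (LaurentSeries L) where
  carrier := (iotaSum (iotaVec (L := L) F₀ B)).range
  mul_mem' := mul_mem_range_iotaSum F₀ B
  one_mem' := one_mem_range_iotaSum F₀ B
  add_mem' := add_mem
  zero_mem' := zero_mem _
  algebraMap_mem' := by
    rintro ⟨e, w, hw, rfl⟩
    exact iota_mem_range_iotaSum (L := L) F₀ B ⟨w, hw⟩

theorem mem_iotaSumAlg {y : LaurentSeries L} :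
    y ∈ iotaSumAlg (L := L) F₀ B ↔ y ∈ (iotaSum (iotaVec (L := L) F₀ B)).range := Iff.rfl

variable [Algebra.IsAlgebraic ℚ L]

theorem charZero_iotaField : CharZero ↥(iotaField (K := K) (L := L) F₀) := by
  haveI : CharZero L := algebraRat.charZero L
  haveI : CharZero (LaurentSeries L) :=
    charZero_of_injective_ringHom (algebraMap L (LaurentSeries L)).injective
  exact (iotaField (K := K) (L := L) F₀).subtype.charZero

/-- constants are algebraic over the image of `K·F₀`. -/
theorem isAlgebraic_algebraMap_iotaField (l : L) :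
    IsAlgebraic ↥(iotaField (K := K) (L := L) F₀) (algebraMap L (LaurentSeries L) l) := by
  haveI := charZero_iotaField (K := K) (L := L) F₀
  obtain ⟨p, hp0, hp⟩ := Algebra.IsAlgebraic.isAlgebraic (R := ℚ) l
  refine ⟨p.map (Rat.castHom ↥(iotaField (K := K) (L := L) F₀)), ?_, ?_⟩
  · exact (Polynomial.map_ne_zero_iff (Rat.castHom _).injective).mpr hp0
  · rw [Polynomial.aeval_def, Polynomial.eval₂_map]
    have h1 : (algebraMap ↥(iotaField (K := K) (L := L) F₀) (LaurentSeries L)).comp
        (Rat.castHom ↥(iotaField (K := K) (L := L) F₀)) =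
        (algebraMap L (LaurentSeries L)).comp (algebraMap ℚ L) := RingHom.ext_rat _ _
    rw [h1, ← Polynomial.hom_eval₂, ← Polynomial.aeval_def, hp, map_zero]

/-- every element of the range of `iotaSum` is algebraic over the image of `K·F₀`. -/
theorem isAlgebraic_iotaSum (c : I →₀ L) :
    IsAlgebraic ↥(iotaField (K := K) (L := L) F₀) (iotaSum (iotaVec (L := L) F₀ B) c) := by
  induction c using Finsupp.induction_linear with
  | zero => rw [map_zero]; exact isAlgebraic_zero
  | add f g hf hg => rw [map_add]; exact hf.add hg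
  | single i a =>
    rw [iotaSum_single]
    refine (isAlgebraic_algebraMap_iotaField F₀ a).mul ?_
    have h : iotaVec (L := L) F₀ B i = algebraMap ↥(iotaField (K := K) (L := L) F₀)
        (LaurentSeries L) ⟨iotaVec (L := L) F₀ B i, (B i : LaurentSeries K), (B i).2, rfl⟩ := rfl
    rw [h]
    exact isAlgebraic_algebraMap _

/-- **the span lemma**: every element of `L·F₀` is a finite sum `∑ ω_i · ι(b_i)`. -/
theorem mem_range_iotaSum_of_mem {x : LaurentSeries L} (hx : x ∈ laurentBaseChange L F₀) :
    x ∈ (iotaSum (iotaVec (L := L) F₀ B)).range := by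
  rw [mem_laurentBaseChange_iff] at hx
  induction hx using Subfield.closure_induction with
  | mem y hy =>
    rcases hy with ⟨l, rfl⟩ | ⟨z, hz, rfl⟩
    · exact algebraMap_mem_range_iotaSum F₀ B l
    · have h := iota_mem_range_iotaSum (L := L) F₀ B
        ⟨coeffEmb K z, coeffEmb_mem_laurentBaseChange K hz⟩
      rwa [iota_coeffEmb] at h
  | one => exact one_mem_range_iotaSum F₀ B
  | add y z _ _ hy hz => exact add_mem hy hz
  | neg y _ hy => exact neg_mem hy
  | inv y _ hy =>
    obtain ⟨c, rfl⟩ := hy
    have h := (iotaSumAlg (L := L) F₀ B).inv_mem_of_algebraic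
      (x := ⟨iotaSum (iotaVec (L := L) F₀ B) c, ⟨c, rfl⟩⟩) (isAlgebraic_iotaSum F₀ B c)
    exact h
  | mul y z _ _ hy hz => exact mul_mem_range_iotaSum F₀ B hy hz

end Span

section Unique

variable {K L : Type*} [Field K] [Field L] [Algebra K L] [Algebra ℚ K] [Algebra ℚ L]
  [IsScalarTower ℚ K L]
  (F₀ : IntermediateField ℚ (LaurentSeries ℚ)) {I : Type*}
  (B : Module.Basis I K ↥(laurentBaseChange K F₀))

attribute [-instance] HahnSeries.instModule in
/-- the basis vectors are `K`-linearly independent in `K((q))`. -/
theorem linIndep_basis_coe :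
    LinIndep K (fun i => ((B i : ↥(laurentBaseChange K F₀)) : LaurentSeries K)) :=
  @LinearIndependent.map' I K _ (LaurentSeries K) B _ _ _ _ Algebra.toModule B.linearIndependent
    (laurentBaseChange K F₀).val.toLinearMap (LinearMap.ker_eq_bot.mpr Subtype.val_injective)

/-- **uniqueness of the coordinates** (linear disjointness). -/
theorem iotaSum_eq_zero {c : I →₀ L} (h : iotaSum (iotaVec (L := L) F₀ B) c = 0) : c = 0 := by
  classical
  have h1 : LinIndep L (fun i => iota K L ((B i : ↥(laurentBaseChange K F₀)) : LaurentSeries K)) :=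
    linIndep_iota (linIndep_basis_coe F₀ B)
  replace h1 := (@linearIndependent_iff' I L (LaurentSeries L) _ _ Algebra.toModule _).mp h1
  simp only [Algebra.smul_def] at h1
  ext i
  by_cases hi : i ∈ c.support
  · exact h1 c.support (fun j => c j) h i hi
  · exact Finsupp.notMem_support_iff.mp hi

theorem iotaSum_injective : Function.Injective (iotaSum (iotaVec (L := L) F₀ B)) := by
  intro c c' h
  have h1 : iotaSum (iotaVec (L := L) F₀ B) (c - c') = 0 := by rw [map_sub, h, sub_self]
  exact sub_eq_zero.mp (iotaSum_eq_zero F₀ B h1)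

/-- coefficientwise ring homomorphisms over `K` fix the basis vectors. -/
theorem coeffMap_iotaVec (σ : L →+* L) (hσ : ∀ a : K, σ (algebraMap K L a) = algebraMap K L a)
    (i : I) : coeffMap σ (iotaVec (L := L) F₀ B i) = iotaVec (L := L) F₀ B i := by
  unfold iotaVec
  rw [coeffMap_coeffMap]
  exact coeffMap_congr (RingHom.ext hσ) _

/-- **the coordinates of a fixed element are fixed.** -/
theorem apply_coord_eq (σ : L →+* L) (hσ : ∀ a : K, σ (algebraMap K L a) = algebraMap K L a)
    (c : I →₀ L)
    (hfix : coeffMap σ (iotaSum (iotaVec (L := L) F₀ B) c) = iotaSum (iotaVec (L := L) F₀ B) c)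
    (i : I) : σ (c i) = c i := by
  rw [coeffMap_iotaSum] at hfix
  have h1 : (fun i => coeffMap σ (iotaVec (L := L) F₀ B i)) = iotaVec (L := L) F₀ B :=
    funext fun i => coeffMap_iotaVec F₀ B σ hσ i
  rw [h1] at hfix
  have h2 := iotaSum_injective F₀ B hfix
  have h3 := DFunLike.congr_fun h2 i
  rwa [Finsupp.mapRange_apply] at h3

end Unique

end Fermat.Agent.S35
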