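/-
(S35)-(I3), package (P2) DESCENT — helper2.  Part 3: **descent to an unramified base**.

An element `f` of `Ω·F₀ ⊆ Ω((q))` fixed (coefficientwise) by the inertia group `I_A` of a valuation
subring `A | q` of `Ω` is defined over a base `K₀ = K^♭ ⊔ F` contained in the inertia field
`Ω^{I_A}`; for such a base `q` is a uniformizer of `R₀ = A ∩ K₀` (helper5's value group of the
inertia field).
-/
import Mathlib
import Fermat.Agent.S35.DESC_helper2_Span
import Fermat.Agent.SS.IBASE_helper1_Core
import Fermat.Agent.EC.InertiaField_helper5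

set_option autoImplicit false
set_option linter.unusedSectionVars false
set_option linter.unusedVariables false
set_option linter.style.haveILetI false

open HahnSeries IntermediateField ModularCurve

namespace Fermat.Agent.S35

open Fermat.Agent.X0N Fermat.Agent.JA Fermat.Agent.SS

/-- `Ω = AlgebraicClosure ℚ`. -/
local notation "Ω" => AlgebraicClosure ℚ

/-- the absolute Galois group. -/
local notation "GQ" => (AlgebraicClosure ℚ ≃ₐ[ℚ] AlgebraicClosure ℚ)

section Mem

variable {L : Type*} [Field L] {I : Type*}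

/-- `iotaSum` of vectors in an intermediate field lies in it. -/
theorem iotaSum_mem (S : IntermediateField L (LaurentSeries L)) (v : I → LaurentSeries L)
    (hv : ∀ i, v i ∈ S) (c : I →₀ L) : iotaSum v c ∈ S := by
  induction c using Finsupp.induction_linear with
  | zero => rw [map_zero]; exact zero_mem _
  | add f g hf hg => rw [map_add]; exact add_mem hf hg
  | single i a =>
    rw [iotaSum_single]
    exact mul_mem (S.algebraMap_mem a) (hv i)

end Mem

section Unr

variable {q : ℕ} [hq : Fact q.Prime] {A : ValuationSubring Ω}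

/-- **`q` is a uniformizer of `A ∩ K₀`** for every subfield `K₀` of the inertia field. -/
theorem irreducible_prime_of_le_fixedField (hA : A.LiesOverPrime q)
    {K₀ : IntermediateField ℚ Ω}
    (hK₀ : K₀ ≤ IntermediateField.fixedField (A.inertiaSubgroupIn ℚ)) :
    Irreducible ((q : ℕ) : ↥(baseRing A K₀)) := by
  have hval : ∀ y ∈ K₀, y ≠ 0 → ∃ j : ℤ, A.valuation y = A.valuation (q : Ω) ^ j := by
    intro y hy hy0
    refine Fermat.Agent.EC.exists_zpow_valuation_eq_of_fixed hq.out hA y hy0 fun σ hσ => ?_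
    exact (IntermediateField.mem_fixedField_iff _ _).mp (hK₀ hy) σ hσ
  obtain ⟨p, hp, hirr, -⟩ := hasUnitMulPow_baseRing (K := K₀) (IntermediateField.natCast_mem K₀ q) prime_ne_zero
    (valuation_prime_lt_one hA) hval
  have : p = ((q : ℕ) : ↥(baseRing A K₀)) := by
    apply Subtype.ext
    apply Subtype.ext
    rw [hp]
    simp
  rw [← this]
  exact hirr

set_option maxHeartbeats 800000 in
/-- **(P2b) descent to an unramified base**: an element of `Ω·F₀` fixed by the inertia group at
`A` is defined over a base contained in the inertia field. -/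
theorem exists_unramified_descent (hA : A.LiesOverPrime q)
    (F₀ : IntermediateField ℚ (LaurentSeries ℚ)) {f : LaurentSeries Ω}
    (hf : f ∈ laurentBaseChange Ω F₀)
    (hfix : ∀ σ ∈ A.inertiaSubgroupIn ℚ, coeffMap ((σ : GQ) : Ω →+* Ω) f = f) :
    ∃ K₀ : IntermediateField ℚ Ω, IsBase q K₀ ∧
      K₀ ≤ IntermediateField.fixedField (A.inertiaSubgroupIn ℚ) ∧
      ∃ f₀ ∈ laurentBaseChange ↥K₀ F₀, coeffMap (algebraMap ↥K₀ Ω) f₀ = f := by
  classical
  set B := Module.Basis.ofVectorSpace ↥(flatBase q) ↥(laurentBaseChange ↥(flatBase q) F₀) with hB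
  obtain ⟨c, hc⟩ := mem_range_iotaSum_of_mem (K := ↥(flatBase q)) (L := Ω) F₀ B hf
  -- the coordinates are fixed by inertia
  have hcfix : ∀ σ ∈ A.inertiaSubgroupIn ℚ, ∀ i, σ (c i) = c i := by
    intro σ hσ i
    refine apply_coord_eq F₀ B ((σ : GQ) : Ω →+* Ω)
      (fun a => inertia_apply_of_mem_flatBase hA hσ a.2) c ?_ i
    rw [hc]
    exact hfix σ hσ
  -- the base
  set s : Finset Ω := c.support.image c with hs
  set F : IntermediateField ℚ Ω := IntermediateField.adjoin ℚ (s : Set Ω) with hF
  haveI : FiniteDimensional ℚ ↥F :=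
    IntermediateField.finiteDimensional_adjoin
      (fun x _ => (Algebra.IsAlgebraic.isAlgebraic x).isIntegral)
  set K₀ : IntermediateField ℚ Ω := flatBase q ⊔ F with hK₀
  have hle : flatBase q ≤ K₀ := le_sup_left
  have hcK₀ : ∀ i, c i ∈ K₀ := by
    intro i
    by_cases hi : i ∈ c.support
    · exact (le_sup_right : F ≤ K₀) (IntermediateField.subset_adjoin ℚ _
        (Finset.mem_coe.mpr (Finset.mem_image_of_mem c hi)))
    · rw [Finsupp.notMem_support_iff.mp hi]
      exact zero_mem _
  have hK₀T : K₀ ≤ IntermediateField.fixedField (A.inertiaSubgroupIn ℚ) := by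
    refine sup_le (flatBase_le_fixedField_inertia hA) ?_
    rw [hF, IntermediateField.adjoin_le_iff]
    intro y hy
    obtain ⟨i, -, rfl⟩ := Finset.mem_image.mp (Finset.mem_coe.mp hy)
    show c i ∈ IntermediateField.fixedField (A.inertiaSubgroupIn ℚ)
    rw [IntermediateField.mem_fixedField_iff]
    exact fun σ hσ => hcfix σ hσ i
  refine ⟨K₀, ⟨F, inferInstance, rfl⟩, hK₀T, ?_⟩
  -- the descended element
  set φ : ↥(flatBase q) →+* ↥K₀ := (IntermediateField.inclusion hle).toRingHom with hφ
  set c₀ : _ →₀ ↥K₀ := c.mapRange (fun a => if h : a ∈ K₀ then (⟨a, h⟩ : ↥K₀) else 0)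
    (by rw [dif_pos (zero_mem K₀)]; rfl) with hc₀
  set v₀ : _ → LaurentSeries ↥K₀ := fun i =>
    coeffMap φ ((B i : ↥(laurentBaseChange ↥(flatBase q) F₀)) : LaurentSeries ↥(flatBase q))
    with hv₀
  refine ⟨iotaSum v₀ c₀, iotaSum_mem _ v₀ (fun i =>
    coeffMap_hom_mem_laurentBaseChange φ F₀ (B i).2) c₀, ?_⟩
  rw [coeffMap_iotaSum, ← hc]
  have h1 : (fun i => coeffMap (algebraMap ↥K₀ Ω) (v₀ i)) = iotaVec (L := Ω) F₀ B := by
    funext i
    rw [hv₀]
    show coeffMap (algebraMap ↥K₀ Ω) (coeffMap φ _) = _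
    rw [coeffMap_coeffMap]
    rfl
  have h2 : c₀.mapRange (algebraMap ↥K₀ Ω) (map_zero _) = c := by
    ext i
    rw [Finsupp.mapRange_apply, hc₀, Finsupp.mapRange_apply, dif_pos (hcK₀ i)]
    rfl
  rw [h1, h2]

end Unr

end Fermat.Agent.S35
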