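/-
S35 — helper6 — package (EMB): **the full eigensystem of a normalized eigenform, embedded
`p`-adically**.  Given a normalized eigenform `g` whose eigencharacter `chig` of the Hecke algebra
`𝕋_S` (only the good primes outside `S`) is transported to a ring `O'` by `iota : chig.range →+* O'`
and then to an algebraically closed field `F ⊇ O'`, the whole system of `q`-coefficients
`ℓ ↦ a_ℓ(g)` (ALL primes) can be transported to `F` compatibly: the transported system `a`
agrees with `iota ∘ chig` at the good primes outside `S`, is integral, occurs in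
`Hom_par(Γ₀(N), F)`, and occurs at a level `M'` (at a set `σ` of primes) only if the complex
system of `g` does.

* `injective_of_isIntegral_int`: a ring hom from a domain integral over `ℤ` into a domain of
  characteristic `0` is injective;
* `exists_embedded_system`: the package.
-/
import Mathlib
import Fermat.Agent.GR.MULT1_helper2_Extra

set_option autoImplicit false
set_option linter.style.haveILetI false

namespace Fermat.Agent.S35

open Fermat.Agent.GR CongruenceSubgroup ModularFormClass

/-- a ring homomorphism from a domain which is integral over `ℤ` into a domain of characteristic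
`0` is injective. -/
theorem injective_of_isIntegral_int {R F : Type*} [CommRing R] [IsDomain R] [CommRing F]
    [IsDomain F] [CharZero F] (hR : ∀ x : R, IsIntegral ℤ x) (f : R →+* F) :
    Function.Injective f := by
  rw [RingHom.injective_iff_ker_eq_bot]
  haveI : Algebra.IsIntegral ℤ R := ⟨hR⟩
  apply Ideal.eq_bot_of_comap_eq_bot (R := ℤ)
  rw [eq_bot_iff]
  intro n hn
  rw [Ideal.mem_comap, RingHom.mem_ker] at hn
  have h1 : ((n : ℤ) : F) = 0 := by simpa using hn
  have h2 : n = 0 := by exact_mod_cast h1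
  rw [h2]
  exact Ideal.zero_mem _

/-- **(EMB)**: the full system of eigenvalues of a normalized eigenform, transported along an
embedding of its Hecke eigencharacter. -/
theorem exists_embedded_system {N : ℕ} [NeZero N] {g : CuspForm (CongruenceSubgroup.Gamma0 N) 2}
    (hg : g.IsNormalizedEigenform) (S : Finset ℕ)
    (O' : Type) [CommRing O'] [IsDomain O'] [CharZero O']
    (chig : CuspForm.heckeAlgebra N 2 (↑S : Set ℕ) →+* ℂ)
    (hchig : ∀ (ℓ : ℕ) (hℓ : ℓ.Prime) (hℓN : ¬ ℓ ∣ N) (hℓS : ℓ ∉ (↑S : Set ℕ)),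
      chig (CuspForm.heckeAlgebra.T hℓ hℓN hℓS) = ModularFormClass.qCoeff g ℓ)
    (iota : chig.range →+* O')
    (F : Type) [Field F] [IsAlgClosed F] [Algebra O' F]
    (hinj : Function.Injective (algebraMap O' F)) :
    ∃ a : Nat.Primes → F,
      (∀ ℓ, IsIntegral ℤ (a ℓ)) ∧
      (∀ (ℓ : ℕ) (hℓ : ℓ.Prime) (hℓN : ¬ ℓ ∣ N) (hℓS : ℓ ∉ (↑S : Set ℕ)),
        a ⟨ℓ, hℓ⟩ = algebraMap O' F
          (iota (chig.rangeRestrict (CuspForm.heckeAlgebra.T hℓ hℓN hℓS)))) ∧
      Fermat.Agent.GR.eigenPar N F a ≠ ⊥ ∧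
      ∀ (M' : ℕ) [NeZero M'] (σ : Set Nat.Primes), Fermat.Agent.GR.eigenParOn M' F σ a ≠ ⊥ →
        Fermat.Agent.GR.eigenParOn M' ℂ σ (Fermat.Agent.GR.qSystem g) ≠ ⊥ := by
  classical
  haveI : CharZero F := charZero_of_injective_algebraMap hinj
  -- the field of algebraic numbers inside `ℂ`
  let K : IntermediateField ℚ ℂ := algebraicClosure ℚ ℂ
  have hKmem : ∀ x : ℂ, IsIntegral ℤ x → x ∈ K := fun x hx =>
    mem_algebraicClosure_iff'.2 hx.tower_top
  -- the ring of values of the eigencharacter is integral over `ℤ`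
  have hR0int : ∀ x : chig.range, IsIntegral ℤ x := by
    rintro ⟨x, t, rfl⟩
    exact map_isIntegral_int chig.rangeRestrict (isIntegral_heckeAlgebra (↑S : Set ℕ) t)
  have hR0int' : ∀ x : chig.range, IsIntegral ℤ (x : ℂ) := fun x =>
    map_isIntegral_int chig.range.subtype (hR0int x)
  -- the two embeddings of the ring of values
  let j₀ : chig.range →+* F := (algebraMap O' F).comp iota
  have hj₀ : Function.Injective j₀ := injective_of_isIntegral_int hR0int j₀
  let incl : chig.range →+* K :=
    (chig.range.subtype).codRestrict K (fun x => hKmem _ (hR0int' x))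
  have hincl : Function.Injective incl := by
    intro x y hxy
    apply Subtype.ext
    exact congrArg (fun z : K => (z : ℂ)) hxy
  letI algK : Algebra chig.range K := incl.toAlgebra
  letI algF : Algebra chig.range F := j₀.toAlgebra
  haveI : Module.IsTorsionFree chig.range K :=
    Module.isTorsionFree_iff_algebraMap_injective.2 hincl
  haveI : Module.IsTorsionFree chig.range F :=
    Module.isTorsionFree_iff_algebraMap_injective.2 hj₀
  haveI : Algebra.IsAlgebraic chig.range K := by
    haveI : Algebra.IsAlgebraic ℚ K := algebraicClosure.isAlgebraic ℚ ℂ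
    refine ⟨fun x => ?_⟩
    have h1 : IsAlgebraic ℚ x := Algebra.IsAlgebraic.isAlgebraic x
    have h2 : IsAlgebraic ℤ x := (IsFractionRing.isAlgebraic_iff ℤ ℚ K).2 h1
    exact h2.extendScalars (S := chig.range) (algebraMap ℤ chig.range).injective_int
  let τ : K →ₐ[chig.range] F := IsAlgClosed.lift
  have hτ : ∀ x : chig.range, τ (incl x) = j₀ x := fun x => τ.commutes x
  -- the system of eigenvalues of `g`, as algebraic numbers
  have hgint : ∀ ℓ : Nat.Primes, IsIntegral ℤ (qSystem g ℓ) :=
    isIntegral_of_eigenPar_ne_bot (eigenPar_qSystem_ne_bot hg)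
  let a₀ : Nat.Primes → K := fun ℓ => ⟨qSystem g ℓ, hKmem _ (hgint ℓ)⟩
  have hocc : eigenPar N F (fun ℓ => τ (a₀ ℓ)) ≠ ⊥ := by
    rw [← eigenParOn_univ]
    refine eigenParOn_ne_bot_of_field (N := N) (K.val : K →+* ℂ) (τ : K →+* F) Set.univ a₀ ?_
    rw [eigenParOn_univ]
    exact eigenPar_qSystem_ne_bot hg
  refine ⟨fun ℓ => τ (a₀ ℓ), isIntegral_of_eigenPar_ne_bot hocc, ?_, hocc, ?_⟩
  · intro ℓ hℓ hℓN hℓS
    have h1 : a₀ ⟨ℓ, hℓ⟩ = incl (chig.rangeRestrict (CuspForm.heckeAlgebra.T hℓ hℓN hℓS)) := by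
      apply Subtype.ext
      show qCoeff g ℓ = chig (CuspForm.heckeAlgebra.T hℓ hℓN hℓS)
      exact (hchig ℓ hℓ hℓN hℓS).symm
    show τ (a₀ ⟨ℓ, hℓ⟩) = _
    rw [h1, hτ]
    rfl
  · intro M' _ σ h
    exact eigenParOn_ne_bot_of_field (N := M') (τ : K →+* F) (K.val : K →+* ℂ) σ a₀ h

end Fermat.Agent.S35
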