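/-
S35 — lead — package (P1), part 2: **the Kummer maps intertwine the degeneracy pushforwards with
the transfer of characters.**  Abstract form: if every Kummer root `u` over `Γ₀(M q)` has a
companion `u'` over `Γ₀(M)` with `u' ^ n = realN (N_φ f)` and `kummerChar u' = X (kummerChar u)`,
then `kap_M (φ_* x) = X (kap_{M q} x)` on `n`-torsion.
-/
import Mathlib
import Fermat.Agent.S35.KEY_lead_Iface
import Fermat.Agent.GR.ASM_helper8_Kap
import Fermat.Agent.JA.ES_helper4_Main
import Fermat.Agent.S35.P1_lead_Two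

set_option autoImplicit false
set_option linter.unusedSectionVars false
set_option linter.unusedVariables false
set_option linter.style.haveILetI false

open UpperHalfPlane hiding I
open ModularCurve AlgebraicCurve CongruenceSubgroup ModularCurve.Period
open scoped MatrixGroups

namespace Fermat.Agent.S35

open Fermat.Agent.JA Fermat.Agent.X0N Fermat.Agent.GR

local notation "Ω" => AlgebraicClosure ℚ

attribute [local instance] algebraQbarComplex isScalarTower_rat_qbar_complex

section Push

variable (M q : ℕ) [NeZero M] [NeZero q] [NeZero (M * q)]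
  (φ : ↥(modularFunctionFieldBar M) →ₐ[Ω] ↥(modularFunctionFieldBar (M * q)))

/-- the pushforward of divisors along `φ`. -/
noncomputable def degPushDiv :
    Divisor Ω ↥(modularFunctionFieldBar (M * q)) →+ Divisor Ω ↥(modularFunctionFieldBar M) :=
  letI := algebraAlong φ
  haveI := isScalarTower_along φ
  haveI hfin : Module.Finite ↥(modularFunctionFieldBar M) ↥(modularFunctionFieldBar (M * q)) :=
    finiteAlong_of_coord (jCoordBar M) (jCoordBar (M * q)) φ
  haveI : Algebra.IsIntegral ↥(modularFunctionFieldBar M) ↥(modularFunctionFieldBar (M * q)) :=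
    Algebra.IsIntegral.of_finite _ _
  Divisor.pushforward ↥(modularFunctionFieldBar M)

theorem degPushDiv_mem_degZero {D : Divisor Ω ↥(modularFunctionFieldBar (M * q))}
    (hD : D ∈ Divisor.degZero (K := Ω) (F := ↥(modularFunctionFieldBar (M * q)))) :
    degPushDiv M q φ D ∈ Divisor.degZero (K := Ω) (F := ↥(modularFunctionFieldBar M)) := by
  letI := algebraAlong φ
  haveI := isScalarTower_along φ
  haveI hfin : Module.Finite ↥(modularFunctionFieldBar M) ↥(modularFunctionFieldBar (M * q)) :=
    finiteAlong_of_coord (jCoordBar M) (jCoordBar (M * q)) φ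
  haveI : Algebra.IsIntegral ↥(modularFunctionFieldBar M) ↥(modularFunctionFieldBar (M * q)) :=
    Algebra.IsIntegral.of_finite _ _
  exact Divisor.pushforward_mem_degZero hD

theorem degPush_mk (D : ↥(Divisor.degZero (K := Ω) (F := ↥(modularFunctionFieldBar (M * q))))) :
    degPush M q φ (Pic0.mk D) =
      Pic0.mk ⟨degPushDiv M q φ (D : Divisor Ω _), degPushDiv_mem_degZero M q φ D.2⟩ := rfl

/-- **`n • D = div f → n • φ_* D = div (N_φ f)`.** -/
theorem degPushDiv_nsmul_apply_of_ord {n : ℕ} {f : ↥(modularFunctionFieldBar (M * q))}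
    (hf : f ≠ 0) {D : Divisor Ω ↥(modularFunctionFieldBar (M * q))}
    (hD : ∀ P, (n : ℤ) * D P = P.ord f) (P : Place Ω ↥(modularFunctionFieldBar M)) :
    (n : ℤ) * degPushDiv M q φ D P = P.ord (normAlong φ f) := by
  letI := algebraAlong φ
  haveI := isScalarTower_along φ
  haveI hfin : Module.Finite ↥(modularFunctionFieldBar M) ↥(modularFunctionFieldBar (M * q)) :=
    finiteAlong_of_coord (jCoordBar M) (jCoordBar (M * q)) φ
  haveI : Algebra.IsIntegral ↥(modularFunctionFieldBar M) ↥(modularFunctionFieldBar (M * q)) :=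
    Algebra.IsIntegral.of_finite _ _
  have H : Divisor.PushforwardNormFormula Ω ↥(modularFunctionFieldBar M)
      ↥(modularFunctionFieldBar (M * q)) :=
    normFormulaAlong_of_coord (jCoordBar M) (jCoordBar (M * q)) φ
      (finiteAlong_of_coord (jCoordBar M) (jCoordBar (M * q)) φ)
  have h1 := H f hf ((n : ℤ) • D) (fun w => by
    rw [Finsupp.smul_apply, smul_eq_mul, hD w]) P
  rw [map_zsmul, Finsupp.smul_apply, smul_eq_mul] at h1
  exact h1

end Push

section Kap

variable {M q : ℕ} [NeZero M] [NeZero q] [NeZero (M * q)]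
  (B' : DescData (M * q)) (B : DescData M)
  (φ : ↥(modularFunctionFieldBar M) →ₐ[Ω] ↥(modularFunctionFieldBar (M * q)))

/-- **the Kummer maps intertwine `φ_*` with a transfer `X` of characters**, from the analytic
statement on Kummer roots. -/
theorem kapOf_degPush (n : ℕ) [NeZero n]
    (X : (Additive ↥(Gamma0 (M * q)) →+ ZMod n) → (Additive ↥(Gamma0 M) →+ ZMod n))
    (hroot : ∀ (f : ↥(modularFunctionFieldBar (M * q))), f ≠ 0 → ∀ u : MerH,
      u ^ n = realN (algebraMap Ω ℂ) (M * q) f → IsKummerElt (Gamma0 (M * q)) n u →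
      ∃ u' : MerH, u' ^ n = realN (algebraMap Ω ℂ) M (normAlong φ f) ∧
        kummerChar (Gamma0 M) n u' = X (kummerChar (Gamma0 (M * q)) n u))
    (x : ↥(torsionNat (JZero (M * q)) n)) :
    B.kapOf n (torsionNatMap₂ n (degPush M q φ) x) = X (B'.kapOf n x) := by
  obtain ⟨D, f, u, hf, hfD, hx, hun, hK, hkap⟩ := B'.exists_rep_root n x
  obtain ⟨u', hu', hchar⟩ := hroot f hf u hun hK
  have hg0 : normAlong φ f ≠ 0 := by
    letI := algebraAlong φ
    haveI hfin : Module.Finite ↥(modularFunctionFieldBar M) ↥(modularFunctionFieldBar (M * q)) :=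
      finiteAlong_of_coord (jCoordBar M) (jCoordBar (M * q)) φ
    haveI : Module.Free ↥(modularFunctionFieldBar M) ↥(modularFunctionFieldBar (M * q)) :=
      Module.Free.of_divisionRing _ _
    exact Algebra.norm_ne_zero_iff.mpr hf
  have hTD : ∀ P : Place Ω ↥(modularFunctionFieldBar M),
      (n : ℤ) * degPushDiv M q φ (D : Divisor Ω _) P = P.ord (normAlong φ f) :=
    fun P => degPushDiv_nsmul_apply_of_ord M q φ hf hfD P
  have hx' : ((torsionNatMap₂ n (degPush M q φ) x : ↥(torsionNat (JZero M) n)) : JZero M) =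
      Pic0.mk ⟨degPushDiv M q φ (D : Divisor Ω _), degPushDiv_mem_degZero M q φ D.2⟩ := by
    rw [torsionNatMap₂_coe, hx]
    exact degPush_mk M q φ D
  rw [B.kapOf_eq_kummerChar n _ (normAlong φ f) hg0 hTD _ hx' hu', hchar, hkap]

end Kap

end Fermat.Agent.S35
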