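/-
S35 — lead — package (P1), part 3: `kap_M (φ_* x) = tr_X (kap_{M q} x)` for a transfer datum `X`
whose product of translates realises the norm along `φ`.
-/
import Mathlib
import Fermat.Agent.S35.P1_lead_Kap
import Fermat.Agent.GR.XFERD_helper4_Kummer

set_option autoImplicit false
set_option linter.unusedSectionVars false
set_option linter.unusedVariables false
set_option linter.style.haveILetI false

open UpperHalfPlane hiding I
open ModularCurve AlgebraicCurve CongruenceSubgroup ModularCurve.Period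
open scoped MatrixGroups

namespace Fermat.Agent.S35

open Fermat.Agent.JA Fermat.Agent.X0N Fermat.Agent.GR

local notation "Ω" => AlgebraicClosure ℚ

attribute [local instance] algebraQbarComplex isScalarTower_rat_qbar_complex

variable {M q : ℕ} [NeZero M] [NeZero q] [NeZero (M * q)]
  (B' : DescData (M * q)) (B : DescData M)
  (φ : ↥(modularFunctionFieldBar M) →ₐ[Ω] ↥(modularFunctionFieldBar (M * q)))
  {ι : Type*} [Fintype ι]
  (X : TransferDatum ↥(Gamma0 (M * q)) ↥(Gamma0 M) (GL (Fin 2) ℝ) ι)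
  (hdet : ∀ i, 0 < ((X.α i).det : ℝ))
  (hX' : ∀ γ : ↥(Gamma0 (M * q)), X.e' γ = ((γ : SL(2, ℤ)) : GL (Fin 2) ℝ))
  (hX : ∀ γ : ↥(Gamma0 M), X.e γ = ((γ : SL(2, ℤ)) : GL (Fin 2) ℝ))
  (hnorm : ∀ z : ↥(modularFunctionFieldBar (M * q)),
    realN (algebraMap Ω ℂ) M (normAlong φ z) =
      transferProd X hdet (realN (algebraMap Ω ℂ) (M * q) z))

include hX' hX hnorm in
/-- **`kap_M ∘ φ_* = tr_X ∘ kap_{M q}`** on `n`-torsion. -/
theorem kapOf_degPush_of_transfer (n : ℕ) [NeZero n] (x : ↥(torsionNat (JZero (M * q)) n)) :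
    B.kapOf n (torsionNatMap₂ n (degPush M q φ) x) = X.transferGrp (ZMod n) (B'.kapOf n x) := by
  refine kapOf_degPush B' B φ n (X.transferGrp (ZMod n)) ?_ x
  intro f hf u hun hK
  refine ⟨transferProd X hdet u, ?_, kummerChar_transferProd X hdet hX' hX hK⟩
  rw [transferProd_pow, hun, hnorm]

end Fermat.Agent.S35
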