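/-
S35 — lead — package (P1), part 1: **the analytic norm formula along `α`** (the inclusion
`F_N ⊆ F_{N ℓ}`, `ℓ ∤ N`): for `z ∈ F_{N ℓ}`

  `(N_{F_{Nℓ}/αF_N} z)(τ) = ∏_{b < ℓ} z(γ₁ T^b τ) · z(τ)`,

where `1, γ₁ T^b` (`b < ℓ`) are representatives of `Γ₀(N ℓ) \ Γ₀(N)`.  It is deduced from helper5's
formula along `β` through the Atkin–Lehner involution: `N_α z = N_β (W z)`.
-/
import Mathlib
import Fermat.Agent.GR.ANORM_helper5_Main

set_option autoImplicit false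
set_option linter.unusedSectionVars false
set_option linter.unusedVariables false
set_option linter.style.haveILetI false

open UpperHalfPlane hiding I
open ModularCurve AlgebraicCurve ModularForm Fermat.Agent.GR
open scoped MatrixGroups

namespace Fermat.Agent.X0N

section NormAlpha

variable {k : Type*} [Field k] [Algebra ℚ k] [Algebra k ℂ] [IsScalarTower ℚ k ℂ]
  (N ℓ : ℕ) [NeZero N] [NeZero ℓ] [NeZero (N * ℓ)]

/-- `N_α z = N_β (W z)`. -/
theorem norm_heckeAlphaBar_eq_norm_heckeBetaBar (hℓ : ℓ.Prime) {x y : ℤ}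
    (h : (ℓ : ℤ) * x + N * y = 1)
    (z : ↥(laurentBaseChange k (modularFunctionFieldFull (N * ℓ)))) :
    @Algebra.norm ↥(laurentBaseChange k (modularFunctionFieldFull N)) _ _ _
        (algebraAlong (heckeAlphaBar k N ℓ)) z =
      @Algebra.norm ↥(laurentBaseChange k (modularFunctionFieldFull N)) _ _ _
        (algebraAlong (heckeBetaBar k N ℓ)) (atkinLehnerN (algebraMap k ℂ) h hℓ z) := by
  let e₂ : ↥(laurentBaseChange k (modularFunctionFieldFull (N * ℓ))) ≃+*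
      ↥(laurentBaseChange k (modularFunctionFieldFull (N * ℓ))) :=
    RingEquiv.ofBijective (atkinLehnerN (algebraMap k ℂ) h hℓ)
      (atkinLehnerN_bijective (algebraMap k ℂ) h hℓ)
  have key := @Algebra.norm_eq_of_equiv_equiv
    ↥(laurentBaseChange k (modularFunctionFieldFull N))
    ↥(laurentBaseChange k (modularFunctionFieldFull (N * ℓ)))
    ↥(laurentBaseChange k (modularFunctionFieldFull N))
    ↥(laurentBaseChange k (modularFunctionFieldFull (N * ℓ))) _ _ _ _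
    (algebraAlong (heckeAlphaBar k N ℓ)) (algebraAlong (heckeBetaBar k N ℓ))
    (RingEquiv.refl _) e₂ (by
      refine RingHom.ext fun r => ?_
      show heckeBetaBar k N ℓ r = atkinLehnerN (algebraMap k ℂ) h hℓ (heckeAlphaBar k N ℓ r)
      rw [atkinLehnerN_alpha]) z
  rw [key]
  rfl

/-- `γ₁ γ₂ ∈ Γ₀(N ℓ)`. -/
theorem alGammaOne_mul_alGammaTwo_mem {x y : ℤ} (h : (ℓ : ℤ) * x + N * y = 1) :
    alGammaOne N ℓ x y h * alGammaTwo N ℓ x y h ∈ CongruenceSubgroup.Gamma0 (N * ℓ) := by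
  rw [CongruenceSubgroup.Gamma0_mem]
  have h1 : ((alGammaOne N ℓ x y h * alGammaTwo N ℓ x y h : SL(2, ℤ)) :
      Matrix (Fin 2) (Fin 2) ℤ) 1 0 = ((N * ℓ : ℕ) : ℤ) * (1 + x) := by
    rw [Matrix.SpecialLinearGroup.coe_mul, Matrix.mul_apply, Fin.sum_univ_two]
    show (N : ℤ) * (ℓ : ℤ) + (ℓ * x) * (N : ℤ) = _
    push_cast
    ring
  rw [h1]
  push_cast
  have : ((N : ZMod (N * ℓ)) * (ℓ : ZMod (N * ℓ))) = 0 := by
    have := ZMod.natCast_self (N * ℓ)
    push_cast at this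
    exact this
  rw [this, zero_mul]

/-- **the analytic norm formula along `α`** (`ℓ ∤ N`): for `z ∈ F_{N ℓ}`,
`(N_{F_{Nℓ}/αF_N} z)(τ) = ∏_{b < ℓ} z(γ₁ T^b τ) · z(τ)`. -/
theorem realN_norm_heckeAlphaBar_of_not_dvd (hℓ : ℓ.Prime) (hℓN : ¬ ℓ ∣ N) {x y : ℤ}
    (h : (ℓ : ℤ) * x + N * y = 1)
    (z : ↥(laurentBaseChange k (modularFunctionFieldFull (N * ℓ)))) :
    letI := algebraAlong (heckeAlphaBar k N ℓ)
    realN (algebraMap k ℂ) N
        (Algebra.norm ↥(laurentBaseChange k (modularFunctionFieldFull N)) z) =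
      (∏ b : Fin ℓ, MerH.comp (alGammaOne N ℓ x y h * ModularGroup.T ^ ((b : ℕ) : ℤ))
        (realN (algebraMap k ℂ) (N * ℓ) z)) * realN (algebraMap k ℂ) (N * ℓ) z := by
  show realN (algebraMap k ℂ) N
      (@Algebra.norm ↥(laurentBaseChange k (modularFunctionFieldFull N)) _ _ _
        (algebraAlong (heckeAlphaBar k N ℓ)) z) = _
  rw [norm_heckeAlphaBar_eq_norm_heckeBetaBar N ℓ hℓ h z]
  have hβ := realN_norm_heckeBetaBar_of_not_dvd (k := k) N ℓ hℓ hℓN h
    (atkinLehnerN (algebraMap k ℂ) h hℓ z)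
  rw [hβ, realN_atkinLehnerN]
  set u := realN (algebraMap k ℂ) (N * ℓ) z with hu
  congr 1
  · refine Finset.prod_congr rfl fun b _ => ?_
    rw [MerH.atkinLehner_apply, ← MerH.compGL_heckeDiagMatrix]
    have hdet : 0 < ((((ModularGroup.T ^ ((b : ℕ) : ℤ) : SL(2, ℤ)) : GL (Fin 2) ℝ)).det : ℝ) := by
      simp
    rw [MerH.compGL_compGL_of_smul (det_heckeMatrix_pos ℓ b) (det_heckeDiagMatrix_pos ℓ) hdet
      (heckeDiagMatrix_smul_heckeMatrix_smul (NeZero.ne ℓ) b), MerH.compGL_mapGL, MerH.comp_mul]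
  · rw [MerH.atkinLehner_apply h u, MerH.atkinLehner_dilate h (NeZero.ne N) (NeZero.ne ℓ),
      ← MerH.comp_mul, hu]
    exact comp_realN_of_mem_Gamma0 (algebraMap k ℂ) (N * ℓ)
      (alGammaOne_mul_alGammaTwo_mem N ℓ h) z

end NormAlpha

end Fermat.Agent.X0N
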