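/-
S35 — lead — package [T2], part 4: the concrete transfer data `xferAlpha`, `xferBeta` (helper4)
and the concrete stage-(I) data: **the Frobenius polynomial identity for the representation on the
eigenlattice of level `M₀ q`**, from (KEY-FROB) and newness at `q`.  The two "norm bridges"
(`normBridgeAlpha`, `normBridgeBeta`): the realisation of the norm along `α` / `β` is the product
of translates over the representatives of the transfer datum.
-/
import Mathlib
import Fermat.Agent.S35.T2_lead_Lattice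
import Fermat.Agent.S35.P1_lead_KapX
import Fermat.Agent.GR.XFERD_helper4_Gamma0
import Fermat.Agent.GR.XFERD_helper4_AlphaT
import Fermat.Agent.S35.P1_lead_Norm
import Fermat.Agent.GR.ASM_helper8_Done

set_option autoImplicit false
set_option linter.unusedSectionVars false
set_option linter.unusedVariables false
set_option linter.style.haveILetI false

open CongruenceSubgroup ModularCurve ModularCurve.Period AlgebraicCurve ModularForm

open scoped MatrixGroups

namespace Fermat.Agent.S35

open Fermat.Agent.GR Fermat.Agent.X0N Fermat.Agent.JA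

local notation "Ω" => AlgebraicClosure ℚ
local notation "GQ" => (AlgebraicClosure ℚ ≃ₐ[ℚ] AlgebraicClosure ℚ)

attribute [local instance] algebraQbarComplex isScalarTower_rat_qbar_complex

/-- **the norm bridge along `α`**. -/
def NormBridgeAlpha : Prop :=
  ∀ (M q : ℕ) [NeZero M] [NeZero q] [NeZero (M * q)] {x y : ℤ} (h : (q : ℤ) * x + M * y = 1)
    (hq : q.Prime) (z : ↥(modularFunctionFieldBar (M * q))),
    realN (algebraMap Ω ℂ) M (normAlong (heckeAlphaBar Ω M q) z) =
      transferProd (xferAlphaT M q h hq) (det_xferAlphaT_pos M q h hq)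
        (realN (algebraMap Ω ℂ) (M * q) z)

/-- **the norm bridge along `β`**. -/
def NormBridgeBeta : Prop :=
  ∀ (M q : ℕ) [NeZero M] [NeZero q] [NeZero (M * q)] {x y : ℤ} (h : (q : ℤ) * x + M * y = 1)
    (hq : q.Prime) (z : ↥(modularFunctionFieldBar (M * q))),
    realN (algebraMap Ω ℂ) M (normAlong (heckeBetaBar Ω M q) z) =
      transferProd (xferBeta M q h hq) (det_xferBeta_pos M q h hq)
        (realN (algebraMap Ω ℂ) (M * q) z)

/-- the norm bridge along `β` is helper5's analytic norm formula. -/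
theorem normBridgeBeta : NormBridgeBeta := by
  intro M q _ _ _ x y h hq z
  rw [transferProd_xferBeta]
  have hqM : ¬ q ∣ M := by
    intro hd
    exact xferd_not_dvd_of_bezout M q h hq (by exact_mod_cast hd)
  exact realN_norm_heckeBetaBar_of_not_dvd (k := Ω) M q hq hqM h z

/-- the norm bridge along `α`: the analytic norm formula along `α` (deduced from helper5's formula
along `β` through the Atkin–Lehner involution). -/
theorem normBridgeAlpha : NormBridgeAlpha := by
  intro M q _ _ _ x y h hq z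
  rw [transferProd_xferAlphaT]
  have hqM : ¬ q ∣ M := by
    intro hd
    exact xferd_not_dvd_of_bezout M q h hq (by exact_mod_cast hd)
  exact realN_norm_heckeAlphaBar_of_not_dvd (k := Ω) M q hq hqM h z

section Concrete

variable {M₀ q p : ℕ} [NeZero M₀] [NeZero q] [NeZero (M₀ * q)] [hp : Fact p.Prime]
  {x y : ℤ} (h : (q : ℤ) * x + M₀ * y = 1) (hq : q.Prime)

include h hq in
theorem stageIData_kap_degPushAlpha (k : ℕ)
    (z : ↥(torsionNat (JZero (M₀ * q)) (p ^ k))) :
    (stageIData M₀ p).D.kap k (torsionNatMap₂ (p ^ k) (degPushAlpha M₀ q) z) =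
      (xferAlphaT M₀ q h hq).transferGrp (ZMod (p ^ k)) ((stageIData (M₀ * q) p).D.kap k z) :=
  kapOf_degPush_of_transfer (descData (M₀ * q)) (descData M₀) (heckeAlphaBar Ω M₀ q)
    (xferAlphaT M₀ q h hq) (det_xferAlphaT_pos M₀ q h hq) (fun _ => rfl) (fun _ => rfl)
    (normBridgeAlpha M₀ q h hq) (p ^ k) z

include h hq in
theorem stageIData_kap_degPushBeta (k : ℕ)
    (z : ↥(torsionNat (JZero (M₀ * q)) (p ^ k))) :
    (stageIData M₀ p).D.kap k (torsionNatMap₂ (p ^ k) (degPushBeta M₀ q) z) =
      (xferBeta M₀ q h hq).transferGrp (ZMod (p ^ k)) ((stageIData (M₀ * q) p).D.kap k z) :=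
  kapOf_degPush_of_transfer (descData (M₀ * q)) (descData M₀) (heckeBetaBar Ω M₀ q)
    (xferBeta M₀ q h hq) (det_xferBeta_pos M₀ q h hq) (fun _ => rfl) (fun _ => rfl)
    (normBridgeBeta M₀ q h hq) (p ^ k) z

variable (B : Type) [CommRing B] [IsDomain B] [IsDiscreteValuationRing B] [CharZero B]
  [Algebra ℤ_[p] B] [Module.Flat ℤ_[p] B] (hpB : (p : B) ∈ IsLocalRing.maximalIdeal B)
  (a : Nat.Primes → B)
  (L : Type) [Field L] [Algebra B L] [IsFractionRing B L]
  (hrank : Module.finrank L ↥(eigenPar (M₀ * q) L (mapSys B L a)) = 2)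

include h hq in
/-- **the Frobenius polynomial identity on the eigenlattice, concrete data.** -/
theorem stageIData_rep_frobPoly_eq_zero
    (hnew : eigenParOn M₀ L (primesNotDvd (M₀ * q)) (mapSys B L a) = ⊥)
    {c r : ℕ} {φ : GQ}
    (hkey : ∀ (k : ℕ) (z : JZero (M₀ * q)), p ^ k • z = 0 → degPushAlpha M₀ q z = 0 →
      degPushBeta M₀ q z = 0 → p ^ c • frobPolyAct q r φ z = 0) :
    ((((stageIData (M₀ * q) p).rep B hpB a L hrank).ρ φ) ^ r -
        ((q : B) ^ r) • (1 : Module.End B ((stageIData (M₀ * q) p).rep B hpB a L hrank).V)) *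
      ((((stageIData (M₀ * q) p).rep B hpB a L hrank).ρ φ) ^ 2 - 1) *
      (((stageIData (M₀ * q) p).rep B hpB a L hrank).ρ φ - 1) = 0 :=
  rep_frobPoly_eq_zero (stageIData (M₀ * q) p) (stageIData M₀ p).D
    (xferAlphaT M₀ q h hq) (xferBeta M₀ q h hq) B hpB a L hrank
    (stageIData_kap_degPushAlpha h hq) (stageIData_kap_degPushBeta h hq)
    (fun R _ ψ hψ => xferAlphaT_mem_parabolicHoms M₀ q h hq R hψ)
    (fun R _ ψ hψ => xferBeta_mem_parabolicHoms M₀ q h hq R hψ)
    (fun ℓ hℓ ψ => xferAlphaT_transferGrp_heckeGrpP M₀ q h hq ℓ hℓ B ψ)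
    (fun ℓ hℓ ψ => xferBeta_transferGrp_heckeGrpP M₀ q h hq ℓ hℓ B ψ)
    hnew hkey

end Concrete

end Fermat.Agent.S35
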