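/-
S35 — helper8 — **S35TOP2, algebra**: a `2 × 2` matrix `Φ` over a domain of characteristic zero with
`det Φ = q ≥ 2` and `(Φ ^ r - q ^ r) (Φ ^ 2 - 1) (Φ - 1) = 0` (`r ≥ 1`) has characteristic polynomial
`X² ∓ (q + 1) X + q`.
-/
import Mathlib

set_option autoImplicit false
set_option linter.unusedSectionVars false
set_option linter.unusedVariables false

namespace Fermat.Agent.S35

open Polynomial Matrix

section Field

variable {K : Type*} [Field K]

theorem mat2frob_pow_mulVec {Φ : Matrix (Fin 2) (Fin 2) K} {μ : K} {v : Fin 2 → K}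
    (hv : Φ *ᵥ v = μ • v) (n : ℕ) : (Φ ^ n) *ᵥ v = μ ^ n • v := by
  induction n with
  | zero => simp
  | succ n ih =>
    rw [pow_succ, ← Matrix.mulVec_mulVec, hv, Matrix.mulVec_smul, ih, smul_smul, pow_succ,
      mul_comm]

/-- an eigenvalue of `Φ` is a root of every polynomial expression of the shape
`(X ^ r - c) (X ^ 2 - 1) (X - 1)` annihilating `Φ`. -/
theorem mat2frob_eigen_root {Φ : Matrix (Fin 2) (Fin 2) K} {μ c : K} {r : ℕ} {v : Fin 2 → K}
    (hv0 : v ≠ 0) (hv : Φ *ᵥ v = μ • v)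
    (hP : (Φ ^ r - c • (1 : Matrix (Fin 2) (Fin 2) K)) * (Φ ^ 2 - 1) * (Φ - 1) = 0) :
    (μ ^ r - c) * (μ ^ 2 - 1) * (μ - 1) = 0 := by
  have h1 : (Φ - 1) *ᵥ v = (μ - 1) • v := by
    rw [Matrix.sub_mulVec, hv, Matrix.one_mulVec, sub_smul, one_smul]
  have h2 : (Φ ^ 2 - 1) *ᵥ v = (μ ^ 2 - 1) • v := by
    rw [Matrix.sub_mulVec, mat2frob_pow_mulVec hv, Matrix.one_mulVec, sub_smul, one_smul]
  have h3 : (Φ ^ r - c • (1 : Matrix (Fin 2) (Fin 2) K)) *ᵥ v = (μ ^ r - c) • v := by
    rw [Matrix.sub_mulVec, mat2frob_pow_mulVec hv, Matrix.smul_mulVec, Matrix.one_mulVec,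
      sub_smul]
  have h4 : ((Φ ^ r - c • (1 : Matrix (Fin 2) (Fin 2) K)) * (Φ ^ 2 - 1) * (Φ - 1)) *ᵥ v =
      ((μ ^ r - c) * (μ ^ 2 - 1) * (μ - 1)) • v := by
    rw [← Matrix.mulVec_mulVec, h1, Matrix.mulVec_smul, ← Matrix.mulVec_mulVec, h2,
      Matrix.mulVec_smul, h3, smul_smul, smul_smul]
    congr 1
    ring
  rw [hP, Matrix.zero_mulVec] at h4
  by_contra hne
  apply hv0
  have := h4.symm
  rcases smul_eq_zero.1 this with h | h
  · exact absurd h hne
  · exact h

/-- a root of the characteristic polynomial has an eigenvector. -/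
theorem mat2frob_exists_eigenvector {Φ : Matrix (Fin 2) (Fin 2) K} {μ : K}
    (hμ : Φ.charpoly.IsRoot μ) : ∃ v : Fin 2 → K, v ≠ 0 ∧ Φ *ᵥ v = μ • v := by
  have h1 : (Matrix.scalar (Fin 2) μ - Φ).det = 0 := by
    rw [← Matrix.eval_charpoly]; exact hμ
  obtain ⟨v, hv0, hv⟩ := Matrix.exists_mulVec_eq_zero_iff.2 h1
  refine ⟨v, hv0, ?_⟩
  rw [Matrix.sub_mulVec, sub_eq_zero] at hv
  rw [← hv]
  ext i
  simp [Matrix.mulVec, dotProduct, Matrix.scalar_apply, Matrix.diagonal_apply]

/-- **the trace over an algebraically closed field of characteristic zero.** -/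
theorem mat2frob_trace_field [IsAlgClosed K] [CharZero K] {Φ : Matrix (Fin 2) (Fin 2) K}
    {q r : ℕ} (hq : 2 ≤ q) (hr : 0 < r) (hdet : Φ.det = (q : K))
    (hP : (Φ ^ r - ((q : K) ^ r) • (1 : Matrix (Fin 2) (Fin 2) K)) * (Φ ^ 2 - 1) * (Φ - 1) = 0) :
    Φ.trace = (q : K) + 1 ∨ Φ.trace = -((q : K) + 1) := by
  set t := Φ.trace with ht
  have hcp : Φ.charpoly = X ^ 2 - C t * X + C (q : K) := by
    rw [Matrix.charpoly_fin_two, hdet]
  -- a first root
  have hdeg : Φ.charpoly.degree ≠ 0 := by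
    rw [Matrix.charpoly_degree_eq_dim, Fintype.card_fin]; norm_num
  obtain ⟨l1, hl1⟩ := IsAlgClosed.exists_root Φ.charpoly hdeg
  have hl1' : l1 ^ 2 - t * l1 + (q : K) = 0 := by
    have := hl1
    rw [hcp] at this
    simpa using this
  set l2 := t - l1 with hl2
  have hsum : l1 + l2 = t := by rw [hl2]; ring
  have hprod : l1 * l2 = (q : K) := by
    rw [hl2]; linear_combination (-1 : K) * hl1'
  have hl2root : Φ.charpoly.IsRoot l2 := by
    rw [hcp]
    simp only [IsRoot.def, eval_add, eval_sub, eval_pow, eval_X, eval_mul, eval_C]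
    rw [hl2]; linear_combination hl1'
  have hl1root : Φ.charpoly.IsRoot l1 := hl1
  obtain ⟨v1, hv10, hv1⟩ := mat2frob_exists_eigenvector hl1root
  obtain ⟨v2, hv20, hv2⟩ := mat2frob_exists_eigenvector hl2root
  have e1 := mat2frob_eigen_root hv10 hv1 hP
  have e2 := mat2frob_eigen_root hv20 hv2 hP
  have hq0 : (q : K) ≠ 0 := by
    have : q ≠ 0 := by omega
    exact_mod_cast this
  -- the case of an eigenvalue of square one
  have key : ∀ a b : K, a * b = (q : K) → a + b = t → a ^ 2 = 1 →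
      t = (q : K) + 1 ∨ t = -((q : K) + 1) := by
    intro a b hab hsum' ha
    have hb : b = (q : K) * a := by
      have : b = b * a ^ 2 := by rw [ha, mul_one]
      rw [this]
      linear_combination a * hab
    have ha' : a = 1 ∨ a = -1 := by
      have h0 : (a - 1) * (a + 1) = 0 := by linear_combination ha
      rcases mul_eq_zero.1 h0 with h | h
      · left; exact sub_eq_zero.1 h
      · right; exact eq_neg_of_add_eq_zero_left h
    rcases ha' with h | h
    · left; rw [← hsum', hb, h]; ring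
    · right; rw [← hsum', hb, h]; ring
  have hsq : ∀ a : K, (a ^ r - (q : K) ^ r) * (a ^ 2 - 1) * (a - 1) = 0 →
      a ^ r = (q : K) ^ r ∨ a ^ 2 = 1 := by
    intro a ha
    rcases mul_eq_zero.1 ha with h | h
    · rcases mul_eq_zero.1 h with h' | h'
      · left; exact sub_eq_zero.1 h'
      · right; exact sub_eq_zero.1 h'
    · right
      have : a = 1 := sub_eq_zero.1 h
      rw [this]; ring
  rcases hsq l1 e1 with h1 | h1
  · rcases hsq l2 e2 with h2 | h2
    · exfalso
      have h3 : ((q : K) ^ r) * ((q : K) ^ r) = (q : K) ^ r := by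
        calc ((q : K) ^ r) * ((q : K) ^ r) = l1 ^ r * l2 ^ r := by rw [h1, h2]
          _ = (l1 * l2) ^ r := (mul_pow _ _ _).symm
          _ = (q : K) ^ r := by rw [hprod]
      have h4 : (q : K) ^ r = 1 := by
        have hne : (q : K) ^ r ≠ 0 := pow_ne_zero _ hq0
        exact mul_left_cancel₀ hne (by rw [h3, mul_one])
      have h5 : ((q ^ r : ℕ) : K) = ((1 : ℕ) : K) := by
        rw [Nat.cast_pow, h4, Nat.cast_one]
      have h6 : q ^ r = 1 := Nat.cast_injective h5
      have h7 : 2 ≤ q ^ r := by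
        calc 2 ≤ q := hq
          _ = q ^ 1 := (pow_one q).symm
          _ ≤ q ^ r := Nat.pow_le_pow_right (by omega) hr
      omega
    · exact key l2 l1 (by rw [mul_comm]; exact hprod) (by rw [add_comm]; exact hsum) h2
  · exact key l1 l2 hprod hsum h1

end Field

section Domain

variable {R : Type*} [CommRing R] [IsDomain R] [CharZero R]

/-- **the characteristic polynomial of a Frobenius matrix** from the polynomial identity and the
determinant. -/
theorem mat2_charpoly_of_frobPoly {Φ : Matrix (Fin 2) (Fin 2) R} {q r : ℕ} (hq : 2 ≤ q)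
    (hr : 0 < r) (hdet : Φ.det = (q : R))
    (hP : (Φ ^ r - ((q : R) ^ r) • (1 : Matrix (Fin 2) (Fin 2) R)) * (Φ ^ 2 - 1) * (Φ - 1) = 0) :
    Φ.charpoly = X ^ 2 - C ((q : R) + 1) * X + C (q : R) ∨
      Φ.charpoly = X ^ 2 + C ((q : R) + 1) * X + C (q : R) := by
  set K := AlgebraicClosure (FractionRing R) with hK
  set ι : R →+* K := algebraMap R K with hι
  have hinj : Function.Injective ι := by
    rw [hι, IsScalarTower.algebraMap_eq R (FractionRing R) K]
    exact (algebraMap (FractionRing R) K).injective.comp (IsFractionRing.injective R _)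
  have : CharZero K := charZero_of_injective_algebraMap (R := R) hinj
  set Ψ : Matrix (Fin 2) (Fin 2) K := ι.mapMatrix Φ with hΨ
  have hdetΨ : Ψ.det = (q : K) := by
    rw [hΨ, ← RingHom.map_det, hdet, map_natCast]
  have hPΨ : (Ψ ^ r - ((q : K) ^ r) • (1 : Matrix (Fin 2) (Fin 2) K)) * (Ψ ^ 2 - 1) * (Ψ - 1) = 0 := by
    have := congrArg ι.mapMatrix hP
    rw [map_mul, map_mul, map_sub, map_sub, map_sub, map_pow, map_pow, map_one, map_zero] at this
    rw [← this, hΨ]
    congr 3
    ext i j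
    simp [Matrix.smul_apply, Matrix.one_apply]
    split_ifs <;> simp
  have htr := mat2frob_trace_field hq hr hdetΨ hPΨ
  have htrΨ : Ψ.trace = ι Φ.trace := by
    rw [hΨ]
    simp [Matrix.trace, Fin.sum_univ_two]
  rw [Matrix.charpoly_fin_two, hdet]
  rcases htr with h | h
  · left
    have : Φ.trace = (q : R) + 1 := by
      apply hinj
      rw [← htrΨ, h, map_add, map_natCast, map_one]
    rw [this]
  · right
    have : Φ.trace = -((q : R) + 1) := by
      apply hinj
      rw [← htrΨ, h, map_neg, map_add, map_natCast, map_one]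
    rw [this, map_neg, neg_mul, sub_neg_eq_add]

end Domain

end Fermat.Agent.S35
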