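/-
S35 — helper8 — **(I4): the tame inertia relation `φ τ φ⁻¹ = τ ^ q`.**

`P` a valuation subring of `ℚ̄` over the prime `q`, `φ` a Frobenius element at `P`
(`P.IsFrobeniusAt φ q`), `τ ∈ I_P`.  For every homomorphism `f` from `G_ℚ` to a monoid which factors
through a finite level and whose values on `I_P` are killed by powers prime to `q`:
`f (φ * τ * φ⁻¹) = f τ ^ q`  (`map_conj_frobenius_eq_pow`).

On top of helper6's `TW/TameCyclic_helper6` (tame character, wild inertia is pro-`q`):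
* `conj_mem_inertia_of_mem_decomposition` : the inertia group is normalised by the decomposition group;
* `tameChar_conj_frobenius` : `ϑ(φ τ φ⁻¹) = ϑ(τ) ^ q` for the tame character `ϑ`;
* `map_eq_one_of_tameChar_eq_one` : the kernel of the tame character dies in every prime-to-`q`
  quotient of finite level.
-/
import Mathlib
import Fermat.Agent.TW.TameCyclic_helper6

set_option autoImplicit false
set_option linter.unusedSectionVars false
set_option linter.style.haveILetI false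

noncomputable section

namespace Fermat.Agent.S35

open Fermat.Agent.CFT.S14 Fermat.Agent.Tate Fermat.Agent.EC Fermat.Agent.TW IsLocalRing

variable {P : ValuationSubring Qbar} {q : ℕ}

/-- the congruence defining a Frobenius element, in elementwise form. -/
theorem frobenius_sub_pow_mem_nonunits {φ : GQ} (hφ : P.IsFrobeniusAt φ q) {a : Qbar}
    (ha : a ∈ P) : φ a - a ^ q ∈ P.nonunits := by
  have h := hφ.smul_residue_eq (IsLocalRing.residue P ⟨a, ha⟩)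
  rw [← IsLocalRing.ResidueField.residue_smul, ← map_pow, ← sub_eq_zero, ← map_sub,
    IsLocalRing.residue_eq_zero_iff, P.valuation_lt_one_iff] at h
  rw [P.mem_nonunits_iff]
  exact h

/-- the inertia group is normalised by the decomposition group. -/
theorem conj_mem_inertia_of_mem_decomposition {φ τ : GQ} (hφ : φ ∈ P.decompositionSubgroup ℚ)
    (hτ : τ ∈ P.inertiaSubgroupIn ℚ) : φ * τ * φ⁻¹ ∈ P.inertiaSubgroupIn ℚ := by
  obtain ⟨τ', hτ', rfl⟩ := hτ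
  refine ⟨(⟨φ, hφ⟩ : P.decompositionSubgroup ℚ) * τ' * (⟨φ, hφ⟩ : P.decompositionSubgroup ℚ)⁻¹,
    ?_, rfl⟩
  have hn : (P.inertiaSubgroup ℚ).Normal := by
    unfold ValuationSubring.inertiaSubgroup
    infer_instance
  exact hn.conj_mem τ' hτ' _

/-- `ϑ(φ τ φ⁻¹) = ϑ(τ) ^ q`. -/
theorem tameChar_conj_frobenius (hq : q.Prime) (hP : P.LiesOverPrime q) (ϖ : Qbar) (hϖ : ϖ ≠ 0)
    {φ : GQ} (hφ : P.IsFrobeniusAt φ q) (τ : P.inertiaSubgroupIn ℚ) :
    tameChar hq hP ϖ hϖ ⟨φ * (τ : GQ) * φ⁻¹,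
      conj_mem_inertia_of_mem_decomposition hφ.mem_decompositionSubgroup τ.2⟩ =
      tameChar hq hP ϖ hϖ τ ^ q := by
  have hφD := hφ.mem_decompositionSubgroup
  have hφinvD : φ⁻¹ ∈ P.decompositionSubgroup ℚ := inv_mem hφD
  set ϖ' : Qbar := φ⁻¹ ϖ with hϖ'
  have hϖ'0 : ϖ' ≠ 0 := (map_ne_zero _).mpr hϖ
  -- `a := τ ϖ' / ϖ'`, `b := τ ϖ / ϖ`
  set a : Qbar := (τ : GQ) ϖ' / ϖ' with ha
  have haP : a ∈ P := map_div_mem hq hP ϖ' τ.2
  have hbP : (τ : GQ) ϖ / ϖ ∈ P := map_div_mem hq hP ϖ τ.2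
  -- `a ≡ b`
  have hab : residue P ⟨a, haP⟩ = residue P ⟨(τ : GQ) ϖ / ϖ, hbP⟩ := by
    apply residue_eq_of_sub_mem
    show a - (τ : GQ) ϖ / ϖ ∈ P.nonunits
    set ζ : Qbar := ϖ' / ϖ with hζ
    have hζv : P.valuation ζ = 1 := by
      rw [hζ, map_div₀, hϖ', valuation_map_eq_of_mem_decompositionSubgroup hq hP hφinvD]
      exact div_self ((Valuation.ne_zero_iff _).mpr hϖ)
    have hone := isOneUnitAt_map_div_of_unit τ.2 hζv
    have hτϖ : (τ : GQ) ϖ ≠ 0 := (map_ne_zero _).mpr hϖ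
    have hζ0 : ζ ≠ 0 := div_ne_zero hϖ'0 hϖ
    have e : a - (τ : GQ) ϖ / ϖ = ((τ : GQ) ϖ / ϖ) * ((τ : GQ) ζ / ζ - 1) := by
      rw [ha, hζ, map_div₀]
      field_simp
    rw [e, P.mem_nonunits_iff, map_mul, mul_comm]
    exact mul_lt_one_of_lt_of_le hone ((P.valuation_le_one_iff _).mpr hbP)
  -- `φ a = (φ τ φ⁻¹) ϖ / ϖ`
  have hφa : φ a = (φ * (τ : GQ) * φ⁻¹) ϖ / ϖ := by
    rw [ha, map_div₀, hϖ']
    simp only [AlgEquiv.mul_apply]
    congr 1
    show φ (φ⁻¹ ϖ) = ϖ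
    rw [← AlgEquiv.mul_apply, mul_inv_cancel, AlgEquiv.one_apply]
  have hφaP : φ a ∈ P := by
    rw [hφa]
    exact map_div_mem hq hP ϖ (conj_mem_inertia_of_mem_decomposition hφD τ.2)
  have hfrob := frobenius_sub_pow_mem_nonunits hφ haP
  have h1 : residue P ⟨φ a, hφaP⟩ = residue P (⟨a, haP⟩ ^ q) := by
    apply residue_eq_of_sub_mem
    exact hfrob
  show residue P ⟨(φ * (τ : GQ) * φ⁻¹) ϖ / ϖ, _⟩ = (residue P ⟨(τ : GQ) ϖ / ϖ, _⟩) ^ q
  rw [← hab, ← map_pow, ← h1]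
  congr 2
  exact hφa.symm

/-- **the kernel of the tame character dies in every prime-to-`q` quotient of finite level**
(helper6's argument in `exists_generator_of_inertia`, isolated). -/
theorem map_eq_one_of_tameChar_eq_one (hq : q.Prime) (hP : P.LiesOverPrime q) {M : Type*}
    [Monoid M] (f : GQ →* M) (F : IntermediateField ℚ Qbar) [FiniteDimensional ℚ F]
    [Normal ℚ F] (hF : ∀ σ : GQ, (∀ x ∈ F, σ x = x) → f σ = 1)
    (hcop : ∀ σ ∈ P.inertiaSubgroupIn ℚ, ∃ m : ℕ, m.Coprime q ∧ f σ ^ m = 1)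
    (ϖ : Qbar) (hϖ : ϖ ≠ 0) (hϖN : ϖ ^ Nat.card (inertiaImage P F) = (q : Qbar))
    (w : P.inertiaSubgroupIn ℚ) (hw : tameChar hq hP ϖ hϖ w = 1) : f (w : GQ) = 1 := by
  classical
  obtain ⟨L, hL⟩ := exists_logVal P hq hP
  set d := orderOf (AlgEquiv.restrictNormalHom F (w : GQ)) with hd
  have hd0 : d ≠ 0 := (orderOf_pos _).ne'
  obtain ⟨a, m, hm, hdm⟩ := Nat.exists_eq_pow_mul_and_not_dvd hd0 q hq.ne_one
  set w' : P.inertiaSubgroupIn ℚ := w ^ q ^ a with hw'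
  have hw'1 : ∀ i : ℕ, tameChar hq hP ϖ hϖ (w' ^ i) = 1 := by
    intro i
    rw [map_pow, hw', map_pow, hw, one_pow, one_pow]
  have hone : ∀ i : ℕ, ∀ y ∈ F, y ≠ 0 → IsOneUnitAt P (((w' : GQ) ^ i) y / y) := by
    intro i y hy hy0
    have := isOneUnitAt_map_div_of_tameChar_eq_one hq hP L hL F ϖ hϖ hϖN (w' ^ i) (hw'1 i) hy hy0
    simpa using this
  have hfix : ∀ x ∈ F, ((w' : GQ) ^ m) x = x := by
    intro x hx
    have h1 : AlgEquiv.restrictNormalHom F ((w' : GQ) ^ m) = 1 := by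
      rw [hw']
      simp only [SubgroupClass.coe_pow]
      rw [← pow_mul, map_pow, ← hdm]
      exact pow_orderOf_eq_one _
    have h2 := coe_restrictNormalHom_apply F ((w' : GQ) ^ m) ⟨x, hx⟩
    rw [h1] at h2
    exact h2.symm
  have h3 := map_eq_of_pow_map_eq hq hP F hone hm hfix
  have h4 : f (w' : GQ) = 1 := hF _ h3
  have h5 : f (w : GQ) ^ q ^ a = 1 := by
    rw [← map_pow]
    have : ((w : GQ) ^ q ^ a) = (w' : GQ) := by rw [hw']; simp
    rw [this, h4]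
  obtain ⟨m', hm', h6⟩ := hcop w w.2
  have hcop' : Nat.Coprime (q ^ a) m' := (Nat.Coprime.pow_left a hm'.symm)
  have h7 := (pow_gcd_eq_one (a := f (w : GQ)) (m := q ^ a) (n := m')).mpr ⟨h5, h6⟩
  rw [hcop'.gcd_eq_one, pow_one] at h7
  exact h7

/-- **(I4) the tame inertia relation**: `f (φ τ φ⁻¹) = f τ ^ q` for a Frobenius element `φ` at `P`
and `τ ∈ I_P`, for every `f` of finite level whose values on `I_P` have order prime to `q`. -/
theorem map_conj_frobenius_eq_pow (hq : q.Prime) (hP : P.LiesOverPrime q) {M : Type*}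
    [Monoid M] (f : GQ →* M) (F : IntermediateField ℚ Qbar) [FiniteDimensional ℚ F]
    [Normal ℚ F] (hF : ∀ σ : GQ, (∀ x ∈ F, σ x = x) → f σ = 1)
    (hcop : ∀ σ ∈ P.inertiaSubgroupIn ℚ, ∃ m : ℕ, m.Coprime q ∧ f σ ^ m = 1)
    {φ : GQ} (hφ : P.IsFrobeniusAt φ q) {τ : GQ} (hτ : τ ∈ P.inertiaSubgroupIn ℚ) :
    f (φ * τ * φ⁻¹) = f τ ^ q := by
  classical
  set N := Nat.card (inertiaImage P F) with hNdef
  have hNpos : 0 < N := Nat.card_pos
  obtain ⟨ϖ, hϖN⟩ := IsAlgClosed.exists_pow_nat_eq (q : Qbar) hNpos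
  have hq0 : (q : Qbar) ≠ 0 := by exact_mod_cast hq.ne_zero
  have hϖ : ϖ ≠ 0 := by
    rintro rfl
    rw [zero_pow hNpos.ne'] at hϖN
    exact hq0 hϖN.symm
  set τI : P.inertiaSubgroupIn ℚ := ⟨τ, hτ⟩ with hτI
  set cI : P.inertiaSubgroupIn ℚ :=
    ⟨φ * τ * φ⁻¹, conj_mem_inertia_of_mem_decomposition hφ.mem_decompositionSubgroup hτ⟩ with hcI
  set w : P.inertiaSubgroupIn ℚ := cI * (τI ^ q)⁻¹ with hw
  have hc : tameChar hq hP ϖ hϖ cI = tameChar hq hP ϖ hϖ τI ^ q :=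
    tameChar_conj_frobenius hq hP ϖ hϖ hφ τI
  have hw1 : tameChar hq hP ϖ hϖ w = 1 := by
    have h1 : tameChar hq hP ϖ hϖ (τI ^ q) * tameChar hq hP ϖ hϖ (τI ^ q)⁻¹ = 1 := by
      rw [← map_mul, mul_inv_cancel, map_one]
    rw [hw, map_mul, hc, ← map_pow]
    exact h1
  have hfw := map_eq_one_of_tameChar_eq_one hq hP f F hF hcop ϖ hϖ hϖN w hw1
  have hceq : φ * τ * φ⁻¹ = (w : GQ) * τ ^ q := by
    rw [hw]
    simp [hcI, hτI]
  rw [hceq, map_mul, hfw, one_mul, map_pow]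

end Fermat.Agent.S35
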