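/-
S35 — helper8 — **S35TOP, part 1: the rank-two algebra.**

For `2 × 2` matrices `Φ`, `n` over a domain of characteristic zero with `n ≠ 0`,
`trace n = 0`, `Φ * n = q • (n * Φ)` (`q ≥ 2`) and `det Φ = q`:
`trace Φ ^ 2 = (q + 1) ^ 2`, hence `charpoly Φ = X² ∓ (q + 1) X + q`
(`charpoly_eq_of_mul_eq_smul_mul`).
-/
import Mathlib

set_option autoImplicit false
set_option linter.unusedSectionVars false
set_option linter.style.haveILetI false

namespace Fermat.Agent.S35

open Matrix Polynomial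

variable {R : Type*} [CommRing R]

/-- the polarised Cayley–Hamilton identity for `2 × 2` matrices. -/
theorem mat2_mul_add_mul (A B : Matrix (Fin 2) (Fin 2) R) :
    A * B + B * A = A.trace • B + B.trace • A +
      ((A * B).trace - A.trace * B.trace) • (1 : Matrix (Fin 2) (Fin 2) R) := by
  ext i j
  fin_cases i <;> fin_cases j <;>
    simp [Matrix.mul_apply, Matrix.trace, Fin.sum_univ_two] <;> ring

/-- Cayley–Hamilton for `2 × 2` matrices. -/
theorem mat2_mul_self (A : Matrix (Fin 2) (Fin 2) R) :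
    A * A = A.trace • A - A.det • (1 : Matrix (Fin 2) (Fin 2) R) := by
  ext i j
  fin_cases i <;> fin_cases j <;>
    simp [Matrix.mul_apply, Matrix.trace, Fin.sum_univ_two, Matrix.det_fin_two] <;> ring

/-- a unipotent `2 × 2` matrix: `(M - 1)² = 0` and `trace (M - 1) = 0` from the characteristic
polynomial `(X - 1)²`. -/
theorem mat2_sub_one_of_charpoly [Nontrivial R] {M : Matrix (Fin 2) (Fin 2) R}
    (h : M.charpoly = (X - 1) ^ 2) :
    (M - 1) * (M - 1) = 0 ∧ (M - 1).trace = 0 := by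
  have h2 := Matrix.charpoly_fin_two M
  rw [h] at h2
  have ht : M.trace = 2 := by
    have : ((X - 1 : R[X]) ^ 2).coeff 1 = (X ^ 2 - C M.trace * X + C M.det : R[X]).coeff 1 := by
      rw [h2]
    have e1 : ((X - 1 : R[X]) ^ 2).coeff 1 = -2 := by
      have : (X - 1 : R[X]) ^ 2 = X ^ 2 - C 2 * X + C 1 := by
        rw [map_one, map_ofNat]; ring
      rw [this]
      simp [coeff_X_pow, coeff_C, coeff_one]
    have e2 : (X ^ 2 - C M.trace * X + C M.det : R[X]).coeff 1 = -M.trace := by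
      simp [coeff_X_pow, coeff_C, coeff_one]
    rw [e1, e2] at this
    exact (neg_inj.mp this).symm
  have hd : M.det = 1 := by
    have : ((X - 1 : R[X]) ^ 2).coeff 0 = (X ^ 2 - C M.trace * X + C M.det : R[X]).coeff 0 := by
      rw [h2]
    have e1 : ((X - 1 : R[X]) ^ 2).coeff 0 = 1 := by
      have : (X - 1 : R[X]) ^ 2 = X ^ 2 - C 2 * X + C 1 := by
        rw [map_one, map_ofNat]; ring
      rw [this]
      simp [coeff_X_pow, coeff_C, coeff_one]
    have e2 : (X ^ 2 - C M.trace * X + C M.det : R[X]).coeff 0 = M.det := by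
      simp [coeff_X_pow, coeff_C, coeff_one]
    rw [e1, e2] at this
    exact this.symm
  constructor
  · have hMM := mat2_mul_self M
    rw [ht, hd] at hMM
    have : (M - 1) * (M - 1) = M * M - (2 : R) • M + 1 := by
      rw [two_smul]; noncomm_ring
    rw [this, hMM, one_smul]
    abel
  · rw [Matrix.trace_sub, ht, Matrix.trace_one, Fintype.card_fin]
    norm_num

/-- powers of a unipotent matrix. -/
theorem one_add_pow_eq_of_mul_self_eq_zero {S : Type*} [Ring S] {n : S} (hn : n * n = 0) (m : ℕ) :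
    (1 + n) ^ m = 1 + (m : S) * n := by
  induction m with
  | zero => simp
  | succ m ih =>
    rw [pow_succ, ih]
    have : (1 + (m : S) * n) * (1 + n) = 1 + ((m : S) + 1) * n + (m : S) * (n * n) := by
      noncomm_ring
    rw [this, hn, mul_zero, add_zero]
    push_cast
    rfl

section Main

variable [IsDomain R] [CharZero R]

/-- **the rank-two algebra of S35**: `trace Φ ^ 2 = (q + 1) ^ 2`. -/
theorem trace_sq_eq_of_mul_eq_smul_mul {Φ n : Matrix (Fin 2) (Fin 2) R} {q : ℕ} (hq : 2 ≤ q)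
    (hn0 : n ≠ 0) (hnt : n.trace = 0)
    (hΦn : Φ * n = (q : R) • (n * Φ)) (hdet : Φ.det = (q : R)) :
    Φ.trace ^ 2 = ((q : R) + 1) ^ 2 := by
  set t := Φ.trace with ht
  -- `trace (Φ n) = 0`
  have htr : (Φ * n).trace = 0 := by
    have h1 : (Φ * n).trace = (q : R) * (Φ * n).trace := by
      conv_lhs => rw [hΦn, Matrix.trace_smul, Matrix.trace_mul_comm, smul_eq_mul]
    have h2 : ((q : R) - 1) * (Φ * n).trace = 0 := by linear_combination -h1
    have h3 : (q : R) - 1 ≠ 0 := by
      have : ((q - 1 : ℕ) : R) ≠ 0 := Nat.cast_ne_zero.2 (by omega)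
      rwa [Nat.cast_sub (by omega), Nat.cast_one] at this
    exact (mul_eq_zero.mp h2).resolve_left h3
  -- `(q + 1) n Φ = t n`
  have h1 : ((q : R) + 1) • (n * Φ) = t • n := by
    have := mat2_mul_add_mul Φ n
    rw [hnt, htr, hΦn] at this
    rw [add_smul, one_smul, this, ← ht, zero_smul, add_zero, mul_zero, sub_zero, zero_smul,
      add_zero]
  -- Cayley–Hamilton
  have hCH := mat2_mul_self Φ
  rw [hdet] at hCH
  -- `(q+1)² n Φ² = t² n`
  have h2 : (((q : R) + 1) ^ 2) • (n * (Φ * Φ)) = (t ^ 2) • n := by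
    calc (((q : R) + 1) ^ 2) • (n * (Φ * Φ))
        = ((q : R) + 1) • ((((q : R) + 1) • (n * Φ)) * Φ) := by
          rw [smul_mul_assoc, smul_smul, mul_assoc, pow_two]
      _ = ((q : R) + 1) • ((t • n) * Φ) := by rw [h1]
      _ = t • (((q : R) + 1) • (n * Φ)) := by
          rw [smul_mul_assoc, smul_comm]
      _ = (t ^ 2) • n := by rw [h1, smul_smul, pow_two]
  have h3 : (((q : R) + 1) ^ 2) • (n * (Φ * Φ)) =
      (((q : R) + 1) * t ^ 2 - ((q : R) + 1) ^ 2 * (q : R)) • n := by
    rw [hCH, ← ht, Matrix.mul_sub, Matrix.mul_smul, Matrix.mul_smul, Matrix.mul_one, smul_sub,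
      smul_smul, smul_smul, sub_smul]
    congr 1
    · have : (((q : R) + 1) ^ 2 * t) • (n * Φ) = (((q : R) + 1) * t) • (((q : R) + 1) • (n * Φ)) := by
        rw [smul_smul]; congr 1; ring
      rw [this, h1, smul_smul]
      congr 1; ring
  have h4 : ((q : R) * (((q : R) + 1) ^ 2 - t ^ 2)) • n = 0 := by
    have : ((q : R) * (((q : R) + 1) ^ 2 - t ^ 2)) • n =
        (t ^ 2) • n - (((q : R) + 1) * t ^ 2 - ((q : R) + 1) ^ 2 * (q : R)) • n := by
      rw [← sub_smul]; congr 1; ring
    rw [this, ← h2, ← h3, sub_self]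
  -- `n ≠ 0`
  obtain ⟨i, j, hij⟩ : ∃ i j, n i j ≠ 0 := by
    by_contra hcon
    push Not at hcon
    apply hn0
    ext i j
    exact hcon i j
  have h5 := congrFun (congrFun h4 i) j
  rw [Matrix.smul_apply, Matrix.zero_apply, smul_eq_mul] at h5
  have h6 := (mul_eq_zero.mp h5).resolve_right hij
  have hq0 : (q : R) ≠ 0 := Nat.cast_ne_zero.2 (by omega)
  have h7 := (mul_eq_zero.mp h6).resolve_left hq0
  linear_combination -h7

/-- **the characteristic polynomial of a Frobenius lift at a Steinberg prime.** -/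
theorem charpoly_eq_of_mul_eq_smul_mul {Φ n : Matrix (Fin 2) (Fin 2) R} {q : ℕ} (hq : 2 ≤ q)
    (hn0 : n ≠ 0) (hnt : n.trace = 0)
    (hΦn : Φ * n = (q : R) • (n * Φ)) (hdet : Φ.det = (q : R)) :
    Φ.charpoly = X ^ 2 - C ((q : R) + 1) * X + C (q : R) ∨
      Φ.charpoly = X ^ 2 + C ((q : R) + 1) * X + C (q : R) := by
  have h := trace_sq_eq_of_mul_eq_smul_mul hq hn0 hnt hΦn hdet
  have h' : (Φ.trace - ((q : R) + 1)) * (Φ.trace + ((q : R) + 1)) = 0 := by
    linear_combination h
  rw [Matrix.charpoly_fin_two, hdet]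
  rcases mul_eq_zero.mp h' with h1 | h1
  · left
    rw [sub_eq_zero.mp h1]
  · right
    rw [eq_neg_of_add_eq_zero_left h1, map_neg, neg_mul, sub_neg_eq_add]

end Main

end Fermat.Agent.S35
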