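/-
S35 — helper8 — **S35TOP, part 2: `ρ(φ) ρ(τ) ρ(φ)⁻¹ = ρ(τ) ^ q`** for a Frobenius element `φ` at
`P ∣ q` and `τ ∈ I_P`, when `ρ` (a `GaloisRepAdic` over a noetherian local ring with residue
characteristic `lam ≠ q`) is unipotent on `I_P`.  From the tame inertia relation (I4) applied to
`ρ mod 𝔪 ^ k` for every `k`.
-/
import Mathlib
import Fermat.Agent.S35.TAME_helper8_Main
import Fermat.Agent.S35.TOP_helper8_Alg
import Fermat.Agent.GR.DET_lead_Main

set_option autoImplicit false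
set_option linter.unusedSectionVars false
set_option linter.style.haveILetI false

namespace Fermat.Agent.S35

open Polynomial IsLocalRing Fermat.Agent.GR

/-- `Ω = AlgebraicClosure ℚ`. -/
local notation "Ω" => AlgebraicClosure ℚ
/-- `GQ = Gal(Ω/ℚ)`. -/
local notation "GQ" => (AlgebraicClosure ℚ ≃ₐ[ℚ] AlgebraicClosure ℚ)

variable {R : Type} [CommRing R] [IsLocalRing R] (ρ : GaloisRepAdic R)

/-- the matrix of a unipotent `ρ(τ)`: `(M - 1)² = 0`, `trace (M - 1) = 0`. -/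
theorem matHom_sub_one_of_charpoly {τ : GQ} (h : (ρ.ρ τ).charpoly = (X - 1) ^ 2) :
    (matHom ρ τ - 1) * (matHom ρ τ - 1) = 0 ∧ (matHom ρ τ - 1).trace = 0 := by
  apply mat2_sub_one_of_charpoly
  rw [charpoly_matHom, h]

/-- a unipotent `ρ(τ)` has `lam`-power order modulo `𝔪 ^ k`. -/
theorem matModHom_pow_eq_one_of_charpoly {lam : ℕ} (hlamR : (lam : R) ∈ maximalIdeal R)
    {τ : GQ} (h : (ρ.ρ τ).charpoly = (X - 1) ^ 2) (k : ℕ) :
    matModHom ρ k τ ^ lam ^ k = 1 := by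
  obtain ⟨hnn, -⟩ := matHom_sub_one_of_charpoly ρ h
  set n := matHom ρ τ - 1 with hn
  have hM : matHom ρ τ = 1 + n := by rw [hn]; abel
  have hpow := one_add_pow_eq_of_mul_self_eq_zero hnn (lam ^ k)
  rw [← hM] at hpow
  rw [matModHom_apply, ← map_pow, hpow, map_add, map_one, add_eq_left, map_mul]
  have h0 : (Ideal.Quotient.mk (maximalIdeal R ^ k)).mapMatrix
      (((lam ^ k : ℕ) : Matrix (Fin 2) (Fin 2) R)) = 0 := by
    ext i j
    rw [RingHom.mapMatrix_apply, Matrix.map_apply, Matrix.zero_apply]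
    have : ((lam ^ k : ℕ) : Matrix (Fin 2) (Fin 2) R) i j = if i = j then ((lam ^ k : ℕ) : R) else 0 := by
      rw [Matrix.natCast_apply]
      split_ifs <;> simp
    rw [this]
    split_ifs
    · rw [Ideal.Quotient.eq_zero_iff_mem, Nat.cast_pow]
      exact Ideal.pow_mem_pow hlamR k
    · rw [map_zero]
  rw [h0, zero_mul]

variable [IsNoetherianRing R]

/-- **`ρ(φ τ φ⁻¹) = ρ(τ) ^ q`** in matrix form. -/
theorem matHom_conj_frobenius {lam q : ℕ} (hlam : lam.Prime)
    (hlamR : (lam : R) ∈ maximalIdeal R) (hq : q.Prime) (hql : q ≠ lam)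
    {P : ValuationSubring Ω} (hP : P.LiesOverPrime q)
    (hunip : ∀ τ ∈ P.inertiaSubgroupIn ℚ, (ρ.ρ τ).charpoly = (X - 1) ^ 2)
    {φ : GQ} (hφ : P.IsFrobeniusAt φ q) {τ : GQ} (hτ : τ ∈ P.inertiaSubgroupIn ℚ) :
    matHom ρ (φ * τ * φ⁻¹) = matHom ρ τ ^ q := by
  -- modulo `𝔪 ^ k`
  have hk : ∀ k : ℕ, matModHom ρ k (φ * τ * φ⁻¹) = matModHom ρ k τ ^ q := by
    intro k
    obtain ⟨L, hLfd, hL⟩ := ρ.isAdicContinuous k
    haveI := hLfd
    set F : IntermediateField ℚ Ω := IntermediateField.normalClosure ℚ L Ω with hF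
    haveI : Normal ℚ F := normalClosure.normal ℚ L Ω
    haveI : FiniteDimensional ℚ F := normalClosure.is_finiteDimensional ℚ L Ω
    have hLF : L ≤ F := IntermediateField.le_normalClosure L
    refine map_conj_frobenius_eq_pow hq hP (matModHom ρ k) F ?_ ?_ hφ hτ
    · intro σ hσ
      exact matModHom_eq_one_of_forall_mem ρ (hL σ fun x hx => hσ x (hLF hx))
    · intro σ hσ
      refine ⟨lam ^ k, ?_, matModHom_pow_eq_one_of_charpoly ρ hlamR (hunip σ hσ) k⟩
      exact Nat.Coprime.pow_left k ((Nat.coprime_primes hlam hq).mpr (Ne.symm hql))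
  -- pass to the limit
  ext i j
  rw [← sub_eq_zero]
  refine eq_zero_of_forall_exists_mem_pow fun k => ⟨k, le_rfl, ?_⟩
  have h1 := congrFun (congrFun (hk k) i) j
  rw [matModHom_apply, matModHom_apply, ← map_pow, RingHom.mapMatrix_apply, RingHom.mapMatrix_apply,
    Matrix.map_apply, Matrix.map_apply] at h1
  exact (Ideal.Quotient.eq (I := maximalIdeal R ^ k)).1 h1

end Fermat.Agent.S35
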