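/-
S35 — helper8 — **S35TOP: the S35 statement from "unipotent + ramified at `q ∥ M`".**

* `charpoly_frobenius_of_unipotent_ramified` : `ρ` over a noetherian local domain of characteristic
  zero and residue characteristic `lam`, unipotent on `I_P` (`P ∣ q ≠ lam`) with some `τ ∈ I_P`,
  `ρ(τ) ≠ 1`; then every Frobenius element `φ` at `P` with `det ρ(φ) = q` has characteristic
  polynomial `X² ∓ (q + 1) X + q`.
* `det_frobenius_eq_of_frobeniusQuadratic` : `det ρ(φ) = q` for Frobenius elements at ALL primes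
  `q ≠ lam` (from lead's DET package).
* `S35RamStatement`, `s35_of_ram` : the frozen S35 statement from the geometric input
  (SS-q) + (I3).
-/
import Mathlib
import Fermat.Agent.S35.TOP_helper8_Conj
import Fermat.Prelude.Def_CuspForm_Newforms
import Fermat.Prelude.Def_CuspForm_HeckeAlgebra

set_option autoImplicit false
set_option linter.unusedSectionVars false
set_option linter.unusedVariables false
set_option linter.style.haveILetI false

namespace Fermat.Agent.S35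

open Polynomial IsLocalRing Fermat.Agent.GR

/-- `Ω = AlgebraicClosure ℚ`. -/
local notation "Ω" => AlgebraicClosure ℚ
/-- `GQ = Gal(Ω/ℚ)`. -/
local notation "GQ" => (AlgebraicClosure ℚ ≃ₐ[ℚ] AlgebraicClosure ℚ)

section Core

variable {R : Type} [CommRing R] [IsLocalRing R] [IsDomain R] [IsNoetherianRing R] [CharZero R]
  (ρ : GaloisRepAdic R)

/-- **the characteristic polynomial of a Frobenius lift at a prime of unipotent, ramified
inertia.** -/
theorem charpoly_frobenius_of_unipotent_ramified {lam q : ℕ} (hlam : lam.Prime)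
    (hlamR : (lam : R) ∈ maximalIdeal R) (hq : q.Prime) (hql : q ≠ lam)
    {P : ValuationSubring Ω} (hP : P.LiesOverPrime q)
    (hunip : ∀ τ ∈ P.inertiaSubgroupIn ℚ, (ρ.ρ τ).charpoly = (X - 1) ^ 2)
    {τ : GQ} (hτ : τ ∈ P.inertiaSubgroupIn ℚ) (hτ1 : ρ.ρ τ ≠ 1)
    {φ : GQ} (hφ : P.IsFrobeniusAt φ q) (hdet : LinearMap.det (ρ.ρ φ) = (q : R)) :
    (ρ.ρ φ).charpoly = X ^ 2 - C ((q : R) + 1) * X + C (q : R) ∨
      (ρ.ρ φ).charpoly = X ^ 2 + C ((q : R) + 1) * X + C (q : R) := by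
  set Φ := matHom ρ φ with hΦ
  set Φ' := matHom ρ φ⁻¹ with hΦ'
  set M := matHom ρ τ with hM
  set n := M - 1 with hn
  obtain ⟨hnn, hnt⟩ := matHom_sub_one_of_charpoly ρ (hunip τ hτ)
  have hM1 : M = 1 + n := by rw [hn]; abel
  have hn0 : n ≠ 0 := by
    intro h0
    apply hτ1
    have h1 : M = 1 := by rw [hM1, h0, add_zero]
    apply (LinearMap.toMatrix (gBasis ρ) (gBasis ρ)).injective
    rw [← matHom_apply, ← hM, h1]
    exact (LinearMap.toMatrix_one (gBasis ρ)).symm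
  have hΦΦ' : Φ * Φ' = 1 := by rw [hΦ, hΦ', ← map_mul, mul_inv_cancel, map_one]
  have hΦ'Φ : Φ' * Φ = 1 := by rw [hΦ, hΦ', ← map_mul, inv_mul_cancel, map_one]
  have hconj : Φ * M * Φ' = M ^ q := by
    rw [hΦ, hΦ', hM, ← map_mul, ← map_mul]
    exact matHom_conj_frobenius ρ hlam hlamR hq hql hP hunip hφ hτ
  have hpow : M ^ q = 1 + (q : Matrix (Fin 2) (Fin 2) R) * n := by
    rw [hM1]; exact one_add_pow_eq_of_mul_self_eq_zero hnn q
  -- `Φ n = q n Φ`
  have hΦn : Φ * n = (q : R) • (n * Φ) := by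
    have h1 : Φ * n * Φ' = (q : Matrix (Fin 2) (Fin 2) R) * n := by
      have : Φ * M * Φ' = Φ * Φ' + Φ * n * Φ' := by rw [hM1]; noncomm_ring
      rw [this, hΦΦ', hpow] at hconj
      exact add_left_cancel hconj
    have h2 : Φ * n = (Φ * n * Φ') * Φ := by
      rw [mul_assoc (Φ * n), hΦ'Φ, mul_one]
    rw [h2, h1, mul_assoc]
    have h3 : (q : Matrix (Fin 2) (Fin 2) R) = (q : R) • (1 : Matrix (Fin 2) (Fin 2) R) := by
      ext i j
      rw [Matrix.natCast_apply, Matrix.smul_apply, Matrix.one_apply, smul_eq_mul]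
      split_ifs <;> simp
    rw [h3, smul_mul_assoc, one_mul]
  have hdetΦ : Φ.det = (q : R) := by rw [hΦ, det_matHom, hdet]
  have := charpoly_eq_of_mul_eq_smul_mul hq.two_le hn0 hnt hΦn hdetΦ
  rwa [hΦ, charpoly_matHom] at this

/-- `det ρ(φ) = q` for every Frobenius element at every prime `q ≠ lam`. -/
theorem det_frobenius_eq_of_frobeniusQuadratic (lam : ℕ) [Fact lam.Prime]
    (hlamR : (lam : R) ∈ maximalIdeal R) {T : Finset ℕ} {a : ℕ → R} (hlamT : lam ∈ T)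
    (hquad : FrobeniusQuadraticOutside ρ T a) {c : GQ} (hc : ¬ IsScalarEnd (ρ.ρ c))
    {q : ℕ} (hq : q.Prime) (hql : q ≠ lam) {P : ValuationSubring Ω} (hP : P.LiesOverPrime q)
    {φ : GQ} (hφ : P.IsFrobeniusAt φ q) : LinearMap.det (ρ.ρ φ) = (q : R) := by
  have hφmem : φ ∈ detCycSubgroup ρ lam := by
    rw [detCycSubgroup_eq_top hlamR hlamT hquad hc]; exact Subgroup.mem_top φ
  rw [← sub_eq_zero]
  refine eq_zero_of_forall_exists_mem_pow fun n₀ => ⟨n₀, le_rfl, ?_⟩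
  have h1 := hφmem n₀
  have h2 := natCast_sub_natCast_mem_span (R := R) (cycVal_frobenius lam n₀ hq hql hP hφ)
  have : LinearMap.det (ρ.ρ φ) - (q : R) =
      (LinearMap.det (ρ.ρ φ) - ((cycVal lam n₀ φ : ℕ) : R)) -
        ((q : R) - ((cycVal lam n₀ φ : ℕ) : R)) := by ring
  rw [this]
  exact span_pow_le_maximalIdeal_pow lam hlamR n₀ (Ideal.sub_mem _ h1 h2)

/-- a non-trivial unipotent endomorphism is not scalar. -/
theorem not_isScalarEnd_of_charpoly {τ : GQ} (h : (ρ.ρ τ).charpoly = (X - 1) ^ 2)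
    (hτ1 : ρ.ρ τ ≠ 1) : ¬ IsScalarEnd (ρ.ρ τ) := by
  intro hs
  obtain ⟨r, hr⟩ := (isScalarEnd_iff_matHom ρ τ).1 hs
  obtain ⟨hnn, hnt⟩ := matHom_sub_one_of_charpoly ρ h
  rw [hr] at hnt
  have h1 : (r • (1 : Matrix (Fin 2) (Fin 2) R) - 1).trace = 2 * (r - 1) := by
    rw [Matrix.trace_sub, Matrix.trace_smul, Matrix.trace_one, Fintype.card_fin]
    simp; ring
  rw [h1] at hnt
  have h2 : r = 1 := by
    have h3 : (2 : R) ≠ 0 := two_ne_zero
    have := (mul_eq_zero.mp hnt).resolve_left h3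
    exact sub_eq_zero.mp this
  apply hτ1
  apply (LinearMap.toMatrix (gBasis ρ) (gBasis ρ)).injective
  rw [← matHom_apply, hr, h2, one_smul]
  exact (LinearMap.toMatrix_one (gBasis ρ)).symm

end Core

section Statement

/-- **the geometric input of S35**: the representation attached to a newform of level `M` is
unipotent (SS-q) and RAMIFIED (I3) at the primes `q ≠ lam` exactly dividing `M`. -/
def S35RamStatement : Prop :=
  ∀ {M : ℕ} [NeZero M] {g : CuspForm (CongruenceSubgroup.Gamma0 M) 2} (_hg : g.IsNewform)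
    (lam : ℕ) [Fact lam.Prime] (S : Finset ℕ)
    (O' : Type) [CommRing O'] [IsDomain O'] [IsDiscreteValuationRing O']
    [IsAdicComplete (IsLocalRing.maximalIdeal O') O'] [Finite (IsLocalRing.ResidueField O')]
    [CharZero O'] (_hlamO' : (lam : O') ∈ IsLocalRing.maximalIdeal O')
    (chig : CuspForm.heckeAlgebra M 2 (↑S : Set ℕ) →+* ℂ)
    (_hchig : ∀ (ℓ : ℕ) (hℓ : ℓ.Prime) (hℓM : ¬ ℓ ∣ M) (hℓS : ℓ ∉ (↑S : Set ℕ)),
      chig (CuspForm.heckeAlgebra.T hℓ hℓM hℓS) = ModularFormClass.qCoeff g ℓ)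
    (iota : chig.range →+* O')
    (_hlamS : lam ∈ S) (_hMS : ∀ q : ℕ, q.Prime → q ∣ M → q ∈ S),
    ∃ (O'' : Type) (_ : CommRing O'') (_ : IsDomain O'') (_ : IsDiscreteValuationRing O'')
      (_ : IsAdicComplete (IsLocalRing.maximalIdeal O'') O'')
      (_ : Finite (IsLocalRing.ResidueField O''))
      (_ : CharZero O'') (_ : Algebra O' O'') (_ : Module.Finite O' O'')
      (_ : IsLocalHom (algebraMap O' O'')),
      Function.Injective (algebraMap O' O'') ∧
      ∃ ρ : GaloisRepAdic O'',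
        (∀ (ℓ : ℕ) (hℓ : ℓ.Prime) (hℓM : ¬ ℓ ∣ M) (hℓS : ℓ ∉ (↑S : Set ℕ)),
          ∀ A : ValuationSubring (AlgebraicClosure ℚ), A.LiesOverPrime ℓ →
            ∀ σ : AlgebraicClosure ℚ ≃ₐ[ℚ] AlgebraicClosure ℚ, A.IsFrobeniusAt σ ℓ →
              LinearMap.charpoly (ρ.ρ σ) =
                X ^ 2 - C (algebraMap O' O'' ((iota.comp chig.rangeRestrict)
                  (CuspForm.heckeAlgebra.T hℓ hℓM hℓS))) * X + C ((ℓ : O''))) ∧
        (∀ q : ℕ, q.Prime → q ≠ lam → q ∣ M → ¬ q ^ 2 ∣ M →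
          ρ.IsUnipotentOnInertiaAt q ∧
          ∀ A : ValuationSubring (AlgebraicClosure ℚ), A.LiesOverPrime q →
            ∃ τ ∈ A.inertiaSubgroupIn ℚ, ρ.ρ τ ≠ 1)

/-- **S35 from (SS-q) + (I3).** -/
theorem s35_of_ram (hram : S35RamStatement)
    {M : ℕ} [NeZero M] {g : CuspForm (CongruenceSubgroup.Gamma0 M) 2} (hg : g.IsNewform)
    (lam : ℕ) [Fact lam.Prime]
    (S : Finset ℕ)
    (O' : Type) [CommRing O'] [IsDomain O'] [IsDiscreteValuationRing O']
    [IsAdicComplete (IsLocalRing.maximalIdeal O') O'] [Finite (IsLocalRing.ResidueField O')]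
    [CharZero O'] (hlamO' : (lam : O') ∈ IsLocalRing.maximalIdeal O')
    (chig : CuspForm.heckeAlgebra M 2 (↑S : Set ℕ) →+* ℂ)
    (hchig : ∀ (ℓ : ℕ) (hℓ : ℓ.Prime) (hℓM : ¬ ℓ ∣ M) (hℓS : ℓ ∉ (↑S : Set ℕ)),
      chig (CuspForm.heckeAlgebra.T hℓ hℓM hℓS) = ModularFormClass.qCoeff g ℓ)
    (iota : chig.range →+* O')
    (hlamS : lam ∈ S) (hMS : ∀ q : ℕ, q.Prime → q ∣ M → q ∈ S) :
    ∃ (O'' : Type) (_ : CommRing O'') (_ : IsDomain O'') (_ : IsDiscreteValuationRing O'')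
      (_ : IsAdicComplete (IsLocalRing.maximalIdeal O'') O'') (_ : Finite (IsLocalRing.ResidueField O''))
      (_ : CharZero O'') (_ : Algebra O' O'') (_ : Module.Finite O' O'') (_ : IsLocalHom (algebraMap O' O'')),
      Function.Injective (algebraMap O' O'') ∧
      ∃ ρ : GaloisRepAdic O'',
        (∀ (ℓ : ℕ) (hℓ : ℓ.Prime) (hℓM : ¬ ℓ ∣ M) (hℓS : ℓ ∉ (↑S : Set ℕ)),
          ∀ A : ValuationSubring (AlgebraicClosure ℚ), A.LiesOverPrime ℓ →
            ∀ σ : AlgebraicClosure ℚ ≃ₐ[ℚ] AlgebraicClosure ℚ, A.IsFrobeniusAt σ ℓ →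
              LinearMap.charpoly (ρ.ρ σ) =
                X ^ 2 - C (algebraMap O' O'' ((iota.comp chig.rangeRestrict) (CuspForm.heckeAlgebra.T hℓ hℓM hℓS))) * X
                  + C ((ℓ : O''))) ∧
        (∀ q : ℕ, q.Prime → q ≠ lam → q ∣ M → ¬ q ^ 2 ∣ M →
          ∀ A : ValuationSubring (AlgebraicClosure ℚ), A.LiesOverPrime q →
            ∀ σ : AlgebraicClosure ℚ ≃ₐ[ℚ] AlgebraicClosure ℚ, A.IsFrobeniusAt σ q →
              LinearMap.charpoly (ρ.ρ σ) = X ^ 2 - C ((q : O'') + 1) * X + C ((q : O'')) ∨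
              LinearMap.charpoly (ρ.ρ σ) = X ^ 2 + C ((q : O'') + 1) * X + C ((q : O''))) := by
  classical
  obtain ⟨O'', i1, i2, i3, i4, i5, i6, i7, i8, i9, hinj, ρ, hgood, hbad⟩ :=
    hram hg lam S O' hlamO' chig hchig iota hlamS hMS
  refine ⟨O'', i1, i2, i3, i4, i5, i6, i7, i8, i9, hinj, ρ, hgood, ?_⟩
  intro q hq hql hqM hq2 A hA σ hσ
  obtain ⟨hunip, hramq⟩ := hbad q hq hql hqM hq2
  obtain ⟨τ, hτ, hτ1⟩ := hramq A hA
  have hlamO'' : (lam : O'') ∈ maximalIdeal O'' := by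
    have h1 : (lam : O'') = algebraMap O' O'' (lam : O') := by rw [map_natCast]
    rw [h1]
    exact map_nonunit (algebraMap O' O'') _ hlamO'
  -- the quadratic relations at the good primes
  set a : ℕ → O'' := fun ℓ =>
    if h : ℓ.Prime ∧ ¬ ℓ ∣ M ∧ ℓ ∉ (↑S : Set ℕ) then
      algebraMap O' O'' ((iota.comp chig.rangeRestrict) (CuspForm.heckeAlgebra.T h.1 h.2.1 h.2.2))
    else 0 with ha
  have hquad : FrobeniusQuadraticOutside ρ S a := by
    intro ℓ hℓ hℓS P hP φ hφ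
    have hℓS' : ℓ ∉ (↑S : Set ℕ) := by simpa using hℓS
    have hℓM : ¬ ℓ ∣ M := fun h => hℓS (hMS ℓ hℓ h)
    have hcp := hgood ℓ hℓ hℓM hℓS' P hP φ hφ
    have haℓ : a ℓ = algebraMap O' O'' ((iota.comp chig.rangeRestrict)
        (CuspForm.heckeAlgebra.T hℓ hℓM hℓS')) := by
      rw [ha]
      exact dif_pos ⟨hℓ, hℓM, hℓS'⟩
    have hCH := LinearMap.aeval_self_charpoly (ρ.ρ φ)
    rw [hcp, ← haℓ] at hCH
    simp only [map_add, map_sub, map_mul, map_pow, aeval_X, aeval_C] at hCH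
    rw [← hCH, pow_two, Algebra.algebraMap_eq_smul_one, Algebra.algebraMap_eq_smul_one,
      smul_mul_assoc, one_mul]
  have hc : ¬ IsScalarEnd (ρ.ρ τ) := not_isScalarEnd_of_charpoly ρ (hunip A hA τ hτ) hτ1
  have hdet := det_frobenius_eq_of_frobeniusQuadratic ρ lam hlamO'' hlamS hquad hc hq hql hA hσ
  exact charpoly_frobenius_of_unipotent_ramified ρ (Fact.out : lam.Prime) hlamO'' hq hql hA
    (hunip A hA) hτ hτ1 hσ hdet

end Statement

end Fermat.Agent.S35
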