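/-
S35 — helper8 — **S35TOP2: the S35 statement from the Frobenius polynomial identity.**

* `charpoly_frobenius_of_frobPoly` : `ρ` over a local domain of characteristic zero; if
  `det ρ(φ) = q ≥ 2` and `(ρ(φ) ^ r - q ^ r) (ρ(φ) ^ 2 - 1) (ρ(φ) - 1) = 0` with `r ≥ 1`, then the
  characteristic polynomial of `ρ(φ)` is `X² ∓ (q + 1) X + q`.
* `S35FrobStatement`, `s35_of_frob` : the frozen S35 statement from the geometric input in the
  Frobenius form (no ramification statement, no unipotence).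
-/
import Mathlib
import Fermat.Agent.S35.TOP_helper8_Main
import Fermat.Agent.S35.TOP2_helper8_Alg

set_option autoImplicit false
set_option linter.unusedSectionVars false
set_option linter.unusedVariables false
set_option linter.style.haveILetI false

namespace Fermat.Agent.S35

open Polynomial IsLocalRing Fermat.Agent.GR

/-- `Ω = AlgebraicClosure ℚ`. -/
local notation "Ω" => AlgebraicClosure ℚ
/-- `GQ = Gal(Ω/ℚ)`. -/
local notation "GQ" => (AlgebraicClosure ℚ ≃ₐ[ℚ] AlgebraicClosure ℚ)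

section Core

variable {R : Type} [CommRing R] [IsLocalRing R] [IsDomain R] [CharZero R]
  (ρ : GaloisRepAdic R)

/-- **the characteristic polynomial of a Frobenius lift from the polynomial identity.** -/
theorem charpoly_frobenius_of_frobPoly {q r : ℕ} (hq : 2 ≤ q) (hr : 0 < r) {φ : GQ}
    (hdet : LinearMap.det (ρ.ρ φ) = (q : R))
    (hP : ((ρ.ρ φ) ^ r - ((q : R) ^ r) • (1 : Module.End R ρ.V)) * ((ρ.ρ φ) ^ 2 - 1) *
      (ρ.ρ φ - 1) = 0) :
    (ρ.ρ φ).charpoly = X ^ 2 - C ((q : R) + 1) * X + C (q : R) ∨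
      (ρ.ρ φ).charpoly = X ^ 2 + C ((q : R) + 1) * X + C (q : R) := by
  set Φ := matHom ρ φ with hΦ
  have hdetΦ : Φ.det = (q : R) := by rw [hΦ, det_matHom, hdet]
  have hPΦ : (Φ ^ r - ((q : R) ^ r) • (1 : Matrix (Fin 2) (Fin 2) R)) * (Φ ^ 2 - 1) * (Φ - 1) = 0 := by
    have h := congrArg (LinearMap.toMatrixAlgEquiv (gBasis ρ)) hP
    rw [map_mul, map_mul, map_sub, map_sub, map_sub, map_pow, map_pow, map_smul, map_one,
      map_zero] at h
    have e : LinearMap.toMatrixAlgEquiv (gBasis ρ) (ρ.ρ φ) = Φ := by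
      rw [hΦ, matHom_apply]; rfl
    rw [e] at h
    exact h
  have := mat2_charpoly_of_frobPoly hq hr hdetΦ hPΦ
  rwa [hΦ, charpoly_matHom] at this

end Core

section Statement

/-- **the geometric input of S35, Frobenius form**: the representation attached to a newform of level
`M` has a non-scalar element, and at the primes `q ≠ lam` exactly dividing `M` every Frobenius lift
satisfies `(φ ^ r - q ^ r) (φ ^ 2 - 1) (φ - 1) = 0` for some `r ≥ 1`. -/
def S35FrobStatement : Prop :=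
  ∀ {M : ℕ} [NeZero M] {g : CuspForm (CongruenceSubgroup.Gamma0 M) 2} (_hg : g.IsNewform)
    (lam : ℕ) [Fact lam.Prime] (S : Finset ℕ)
    (O' : Type) [CommRing O'] [IsDomain O'] [IsDiscreteValuationRing O']
    [IsAdicComplete (IsLocalRing.maximalIdeal O') O'] [Finite (IsLocalRing.ResidueField O')]
    [CharZero O'] (_hlamO' : (lam : O') ∈ IsLocalRing.maximalIdeal O')
    (chig : CuspForm.heckeAlgebra M 2 (↑S : Set ℕ) →+* ℂ)
    (_hchig : ∀ (ℓ : ℕ) (hℓ : ℓ.Prime) (hℓM : ¬ ℓ ∣ M) (hℓS : ℓ ∉ (↑S : Set ℕ)),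
      chig (CuspForm.heckeAlgebra.T hℓ hℓM hℓS) = ModularFormClass.qCoeff g ℓ)
    (iota : chig.range →+* O')
    (_hlamS : lam ∈ S) (_hMS : ∀ q : ℕ, q.Prime → q ∣ M → q ∈ S),
    ∃ (O'' : Type) (_ : CommRing O'') (_ : IsDomain O'') (_ : IsDiscreteValuationRing O'')
      (_ : IsAdicComplete (IsLocalRing.maximalIdeal O'') O'')
      (_ : Finite (IsLocalRing.ResidueField O''))
      (_ : CharZero O'') (_ : Algebra O' O'') (_ : Module.Finite O' O'')
      (_ : IsLocalHom (algebraMap O' O'')),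
      Function.Injective (algebraMap O' O'') ∧
      ∃ ρ : GaloisRepAdic O'',
        (∀ (ℓ : ℕ) (hℓ : ℓ.Prime) (hℓM : ¬ ℓ ∣ M) (hℓS : ℓ ∉ (↑S : Set ℕ)),
          ∀ A : ValuationSubring (AlgebraicClosure ℚ), A.LiesOverPrime ℓ →
            ∀ σ : AlgebraicClosure ℚ ≃ₐ[ℚ] AlgebraicClosure ℚ, A.IsFrobeniusAt σ ℓ →
              LinearMap.charpoly (ρ.ρ σ) =
                X ^ 2 - C (algebraMap O' O'' ((iota.comp chig.rangeRestrict)
                  (CuspForm.heckeAlgebra.T hℓ hℓM hℓS))) * X + C ((ℓ : O''))) ∧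
        (∃ c : AlgebraicClosure ℚ ≃ₐ[ℚ] AlgebraicClosure ℚ, ¬ IsScalarEnd (ρ.ρ c)) ∧
        (∀ q : ℕ, q.Prime → q ≠ lam → q ∣ M → ¬ q ^ 2 ∣ M →
          ∀ A : ValuationSubring (AlgebraicClosure ℚ), A.LiesOverPrime q →
            ∀ σ : AlgebraicClosure ℚ ≃ₐ[ℚ] AlgebraicClosure ℚ, A.IsFrobeniusAt σ q →
              ∃ r : ℕ, 0 < r ∧
                ((ρ.ρ σ) ^ r - ((q : O'') ^ r) • (1 : Module.End O'' ρ.V)) * ((ρ.ρ σ) ^ 2 - 1) *
                  (ρ.ρ σ - 1) = 0)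

/-- **S35 from the Frobenius form of the geometric input.** -/
theorem s35_of_frob (hfrob : S35FrobStatement)
    {M : ℕ} [NeZero M] {g : CuspForm (CongruenceSubgroup.Gamma0 M) 2} (hg : g.IsNewform)
    (lam : ℕ) [Fact lam.Prime]
    (S : Finset ℕ)
    (O' : Type) [CommRing O'] [IsDomain O'] [IsDiscreteValuationRing O']
    [IsAdicComplete (IsLocalRing.maximalIdeal O') O'] [Finite (IsLocalRing.ResidueField O')]
    [CharZero O'] (hlamO' : (lam : O') ∈ IsLocalRing.maximalIdeal O')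
    (chig : CuspForm.heckeAlgebra M 2 (↑S : Set ℕ) →+* ℂ)
    (hchig : ∀ (ℓ : ℕ) (hℓ : ℓ.Prime) (hℓM : ¬ ℓ ∣ M) (hℓS : ℓ ∉ (↑S : Set ℕ)),
      chig (CuspForm.heckeAlgebra.T hℓ hℓM hℓS) = ModularFormClass.qCoeff g ℓ)
    (iota : chig.range →+* O')
    (hlamS : lam ∈ S) (hMS : ∀ q : ℕ, q.Prime → q ∣ M → q ∈ S) :
    ∃ (O'' : Type) (_ : CommRing O'') (_ : IsDomain O'') (_ : IsDiscreteValuationRing O'')
      (_ : IsAdicComplete (IsLocalRing.maximalIdeal O'') O'') (_ : Finite (IsLocalRing.ResidueField O''))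
      (_ : CharZero O'') (_ : Algebra O' O'') (_ : Module.Finite O' O'') (_ : IsLocalHom (algebraMap O' O'')),
      Function.Injective (algebraMap O' O'') ∧
      ∃ ρ : GaloisRepAdic O'',
        (∀ (ℓ : ℕ) (hℓ : ℓ.Prime) (hℓM : ¬ ℓ ∣ M) (hℓS : ℓ ∉ (↑S : Set ℕ)),
          ∀ A : ValuationSubring (AlgebraicClosure ℚ), A.LiesOverPrime ℓ →
            ∀ σ : AlgebraicClosure ℚ ≃ₐ[ℚ] AlgebraicClosure ℚ, A.IsFrobeniusAt σ ℓ →
              LinearMap.charpoly (ρ.ρ σ) =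
                X ^ 2 - C (algebraMap O' O'' ((iota.comp chig.rangeRestrict) (CuspForm.heckeAlgebra.T hℓ hℓM hℓS))) * X
                  + C ((ℓ : O''))) ∧
        (∀ q : ℕ, q.Prime → q ≠ lam → q ∣ M → ¬ q ^ 2 ∣ M →
          ∀ A : ValuationSubring (AlgebraicClosure ℚ), A.LiesOverPrime q →
            ∀ σ : AlgebraicClosure ℚ ≃ₐ[ℚ] AlgebraicClosure ℚ, A.IsFrobeniusAt σ q →
              LinearMap.charpoly (ρ.ρ σ) = X ^ 2 - C ((q : O'') + 1) * X + C ((q : O'')) ∨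
              LinearMap.charpoly (ρ.ρ σ) = X ^ 2 + C ((q : O'') + 1) * X + C ((q : O''))) := by
  classical
  obtain ⟨O'', i1, i2, i3, i4, i5, i6, i7, i8, i9, hinj, ρ, hgood, ⟨c, hc⟩, hbad⟩ :=
    hfrob hg lam S O' hlamO' chig hchig iota hlamS hMS
  refine ⟨O'', i1, i2, i3, i4, i5, i6, i7, i8, i9, hinj, ρ, hgood, ?_⟩
  intro q hq hql hqM hq2 A hA σ hσ
  obtain ⟨r, hr, hP⟩ := hbad q hq hql hqM hq2 A hA σ hσ
  have hlamO'' : (lam : O'') ∈ maximalIdeal O'' := by
    have h1 : (lam : O'') = algebraMap O' O'' (lam : O') := by rw [map_natCast]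
    rw [h1]
    exact map_nonunit (algebraMap O' O'') _ hlamO'
  -- the quadratic relations at the good primes
  set a : ℕ → O'' := fun ℓ =>
    if h : ℓ.Prime ∧ ¬ ℓ ∣ M ∧ ℓ ∉ (↑S : Set ℕ) then
      algebraMap O' O'' ((iota.comp chig.rangeRestrict) (CuspForm.heckeAlgebra.T h.1 h.2.1 h.2.2))
    else 0 with ha
  have hquad : FrobeniusQuadraticOutside ρ S a := by
    intro ℓ hℓ hℓS P hP φ hφ
    have hℓS' : ℓ ∉ (↑S : Set ℕ) := by simpa using hℓS
    have hℓM : ¬ ℓ ∣ M := fun h => hℓS (hMS ℓ hℓ h)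
    have hcp := hgood ℓ hℓ hℓM hℓS' P hP φ hφ
    have haℓ : a ℓ = algebraMap O' O'' ((iota.comp chig.rangeRestrict)
        (CuspForm.heckeAlgebra.T hℓ hℓM hℓS')) := by
      rw [ha]
      exact dif_pos ⟨hℓ, hℓM, hℓS'⟩
    have hCH := LinearMap.aeval_self_charpoly (ρ.ρ φ)
    rw [hcp, ← haℓ] at hCH
    simp only [map_add, map_sub, map_mul, map_pow, aeval_X, aeval_C] at hCH
    rw [← hCH, pow_two, Algebra.algebraMap_eq_smul_one, Algebra.algebraMap_eq_smul_one,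
      smul_mul_assoc, one_mul]
  have hdet := det_frobenius_eq_of_frobeniusQuadratic ρ lam hlamO'' hlamS hquad hc hq hql hA hσ
  exact charpoly_frobenius_of_frobPoly ρ hq.two_le hr hdet hP

end Statement

end Fermat.Agent.S35
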