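/-
S35 — lead — package [T2], part 5: **`S35FrobStatement` from (KEY-FROB)**, modulo the embedded
eigensystem of the newform (EMB, helper6).
-/
import Mathlib
import Fermat.Agent.S35.T2_lead_Concrete
import Fermat.Agent.S35.TOP2_helper8_Main
import Fermat.Agent.GR.S30TOP_lead

set_option autoImplicit false
set_option linter.unusedSectionVars false
set_option linter.unusedVariables false
set_option linter.style.haveILetI false

open CongruenceSubgroup ModularCurve ModularCurve.Period Polynomial IsLocalRing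

open scoped MatrixGroups

namespace Fermat.Agent.S35

open Fermat.Agent.GR Fermat.Agent.X0N Fermat.Agent.JA

local notation "Ω" => AlgebraicClosure ℚ
local notation "GQ" => (AlgebraicClosure ℚ ≃ₐ[ℚ] AlgebraicClosure ℚ)

/-- a domain of characteristic zero is flat over `ℤ_p`. -/
theorem flat_padic_of_charZero {p : ℕ} [hp : Fact p.Prime] (B : Type*) [CommRing B] [IsDomain B]
    [CharZero B] [Algebra ℤ_[p] B] : Module.Flat ℤ_[p] B := by
  rw [Module.Flat.flat_iff_torsion_eq_bot_of_isBezout]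
  rw [Submodule.eq_bot_iff]
  intro x hx
  rw [Submodule.mem_torsion_iff] at hx
  obtain ⟨⟨a, ha⟩, hax⟩ := hx
  have ha0 : a ≠ 0 := nonZeroDivisors.ne_zero ha
  have h1 : algebraMap ℤ_[p] B a * x = 0 := by
    rw [← Algebra.smul_def]; exact hax
  rcases mul_eq_zero.mp h1 with h2 | h2
  · exfalso
    have hspec := PadicInt.unitCoeff_spec ha0
    rw [hspec, map_mul, map_pow, map_natCast] at h2
    rcases mul_eq_zero.mp h2 with h3 | h3
    · exact ((PadicInt.unitCoeff ha0).isUnit.map (algebraMap ℤ_[p] B)).ne_zero h3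
    · have : (p : B) = 0 := eq_zero_of_pow_eq_zero h3
      exact hp.out.ne_zero (by exact_mod_cast this)
  · exact h2

section Main

variable {N : ℕ} [NeZero N] {p : ℕ} [hp : Fact p.Prime]

/-- the core: a complete DVR `B` with fraction field `L`, a system `a : Nat.Primes → B` occurring
over `L` and new at the primes exactly dividing `N`. -/
theorem exists_rep_of_system_frob (hkey : KeyFrobStatement)
    (B : Type) [CommRing B] [IsDomain B] [IsDiscreteValuationRing B] [CharZero B]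
    [IsAdicComplete (maximalIdeal B) B] (hpB : (p : B) ∈ maximalIdeal B)
    (L : Type) [Field L] [Algebra B L] [IsFractionRing B L]
    (a : Nat.Primes → B) (hocc : eigenPar N L (mapSys B L a) ≠ ⊥)
    (hnew : ∀ (q M₀ : ℕ), q.Prime → N = M₀ * q → ¬ q ∣ M₀ →
      eigenParOn M₀ L (primesNotDvd N) (mapSys B L a) = ⊥) :
    ∃ ρ : GaloisRepAdic B,
      (∀ (q : ℕ) (hq : q.Prime), ¬ q ∣ N * p →
        ∀ A : ValuationSubring Ω, A.LiesOverPrime q → ∀ σ : GQ, A.IsFrobeniusAt σ q →
          LinearMap.charpoly (ρ.ρ σ) = X ^ 2 - C (a ⟨q, hq⟩) * X + C (q : B)) ∧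
      (∃ c : GQ, ¬ IsScalarEnd (ρ.ρ c)) ∧
      (∀ q : ℕ, q.Prime → q ≠ p → q ∣ N → ¬ q ^ 2 ∣ N →
        ∀ A : ValuationSubring Ω, A.LiesOverPrime q → ∀ σ : GQ, A.IsFrobeniusAt σ q →
          ∃ r : ℕ, 0 < r ∧
            ((ρ.ρ σ) ^ r - ((q : B) ^ r) • (1 : Module.End B ρ.V)) * ((ρ.ρ σ) ^ 2 - 1) *
              (ρ.ρ σ - 1) = 0) := by
  letI : Algebra ℤ_[p] B := (padicToComplete p (maximalIdeal B) hpB).toAlgebra
  haveI : Module.Flat ℤ_[p] B := flat_padic_of_charZero B
  haveI : CharZero L := charZero_of_injective_algebraMap (IsFractionRing.injective B L)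
  obtain ⟨_, _, hrank⟩ := mult1_field hocc
  obtain ⟨hplus, hminus⟩ := exists_plus_minus_of_occ L (mapSys B L a) hocc
  refine ⟨(stageIData N p).rep B hpB a L hrank, ?_, ?_, ?_⟩
  · intro q hq hqNp A hA σ hσ
    exact (stageIData N p).rep_charpoly_frobenius B hpB a L hrank hplus hminus hq hqNp hA hσ
  · exact ⟨(stageIData N p).c0,
      (stageIData N p).rep_c0_not_isScalarEnd B hpB a L hrank hplus hminus⟩
  · intro q hq hqp hqN hq2 A hA σ hσ
    obtain ⟨M₀, hM₀⟩ := hqN
    have hN : N = M₀ * q := by rw [hM₀, mul_comm]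
    have hqM₀ : ¬ q ∣ M₀ := by
      rintro ⟨m, rfl⟩
      apply hq2
      rw [hM₀]
      exact ⟨m, by ring⟩
    have hnew' := hnew q M₀ hq hN hqM₀
    haveI : NeZero M₀ := ⟨by
      rintro rfl
      exact NeZero.ne N (by rw [hN, zero_mul])⟩
    haveI : NeZero q := ⟨hq.ne_zero⟩
    subst hN
    obtain ⟨c, r, hr, H⟩ := hkey M₀ q p hq hp.out hqp hqM₀
    obtain ⟨x, y, hxy⟩ := exists_bezout_of_coprime M₀ q
      ((Nat.Prime.coprime_iff_not_dvd hq).mpr hqM₀)
    exact ⟨r, hr, stageIData_rep_frobPoly_eq_zero hxy hq B hpB a L hrank hnew'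
      (H A hA σ hσ)⟩

/-- Stage A: a finite extension `L` of the fraction field of a complete DVR `A` over which a
system of integral eigenvalues occurs and is new at the primes exactly dividing `N`. -/
theorem exists_ext_rep_of_finite_frob (hkey : KeyFrobStatement)
    (A : Type) [CommRing A] [IsDomain A] [IsDiscreteValuationRing A]
    [IsAdicComplete (maximalIdeal A) A] [Finite (ResidueField A)] [CharZero A]
    (hpA : (p : A) ∈ maximalIdeal A)
    (K : Type) [Field K] [Algebra A K] [IsFractionRing A K]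
    (L : Type) [Field L] [Algebra K L] [FiniteDimensional K L] [Algebra A L] [IsScalarTower A K L]
    (aL : Nat.Primes → L) (hint : ∀ ℓ, IsIntegral A (aL ℓ)) (hocc : eigenPar N L aL ≠ ⊥)
    (hnew : ∀ (q M₀ : ℕ), q.Prime → N = M₀ * q → ¬ q ∣ M₀ →
      eigenParOn M₀ L (primesNotDvd N) aL = ⊥) :
    ∃ (B : Type) (_ : CommRing B) (_ : IsDomain B) (_ : IsDiscreteValuationRing B)
      (_ : IsAdicComplete (maximalIdeal B) B) (_ : Finite (ResidueField B)) (_ : CharZero B)
      (_ : Algebra A B) (_ : Module.Finite A B) (_ : IsLocalHom (algebraMap A B)),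
      Function.Injective (algebraMap A B) ∧
      ∃ ρ : GaloisRepAdic B,
        (∀ (q : ℕ) (hq : q.Prime), ¬ q ∣ N * p → ∀ x : A, algebraMap A L x = aL ⟨q, hq⟩ →
          ∀ V : ValuationSubring Ω, V.LiesOverPrime q → ∀ σ : GQ, V.IsFrobeniusAt σ q →
            LinearMap.charpoly (ρ.ρ σ) = X ^ 2 - C (algebraMap A B x) * X + C (q : B)) ∧
        (∃ c : GQ, ¬ IsScalarEnd (ρ.ρ c)) ∧
        (∀ q : ℕ, q.Prime → q ≠ p → q ∣ N → ¬ q ^ 2 ∣ N →
          ∀ V : ValuationSubring Ω, V.LiesOverPrime q → ∀ σ : GQ, V.IsFrobeniusAt σ q →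
            ∃ r : ℕ, 0 < r ∧
              ((ρ.ρ σ) ^ r - ((q : B) ^ r) • (1 : Module.End B ρ.V)) * ((ρ.ρ σ) ^ 2 - 1) *
                (ρ.ρ σ - 1) = 0) := by
  haveI : CharZero K := charZero_of_injective_algebraMap (IsFractionRing.injective A K)
  haveI : Algebra.IsSeparable K L := Algebra.IsAlgebraic.isSeparable_of_perfectField
  obtain ⟨i1, i2, i3, i4, i5, i6, i7⟩ :=
    Fermat.Agent.CFT.Local.exists_localExt_instances A K L ↥(integralClosure A L)
  haveI := i1
  haveI := i2
  haveI := i3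
  haveI := i4
  haveI := i5
  haveI := i6
  haveI hfinres : Finite (ResidueField ↥(integralClosure A L)) := i7 inferInstance
  have hinjL : Function.Injective (algebraMap A L) := by
    rw [IsScalarTower.algebraMap_eq A K L]
    exact (algebraMap K L).injective.comp (IsFractionRing.injective A K)
  have hinj : Function.Injective (algebraMap A ↥(integralClosure A L)) := by
    intro x y hxy
    apply hinjL
    exact congrArg Subtype.val hxy
  haveI : CharZero ↥(integralClosure A L) := charZero_of_injective_algebraMap hinj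
  have hpB : (p : ↥(integralClosure A L)) ∈ maximalIdeal ↥(integralClosure A L) := by
    have h1 : (p : ↥(integralClosure A L)) = algebraMap A ↥(integralClosure A L) (p : A) := by
      rw [map_natCast]
    rw [h1]
    exact map_nonunit (algebraMap A ↥(integralClosure A L)) _ hpA
  let a'' : Nat.Primes → ↥(integralClosure A L) := fun ℓ => ⟨aL ℓ, hint ℓ⟩
  have hsys : mapSys ↥(integralClosure A L) L a'' = aL := rfl
  obtain ⟨ρ, h1, h2, h3⟩ := exists_rep_of_system_frob hkey ↥(integralClosure A L) hpB L a''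
    (by rw [hsys]; exact hocc) (by rw [hsys]; exact hnew)
  refine ⟨↥(integralClosure A L), inferInstance, inferInstance, inferInstance, inferInstance,
    hfinres, inferInstance, inferInstance, inferInstance, inferInstance, hinj, ρ, ?_, h2, h3⟩
  intro q hq hqNp x hx V hV σ hσ
  rw [h1 q hq hqNp V hV σ hσ]
  have : a'' ⟨q, hq⟩ = algebraMap A ↥(integralClosure A L) x := Subtype.ext hx.symm
  rw [this]

end Main

/-- **(EMB)**: the full eigensystem of a normalised eigenform, embedded in an algebraically closed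
field `F` over `O'` compatibly with `iota` (helper6's `exists_embedded_system`). -/
def EmbStatement : Prop :=
  ∀ {N : ℕ} [NeZero N] {g : CuspForm (CongruenceSubgroup.Gamma0 N) 2}
    (_hg : g.IsNormalizedEigenform) (S : Finset ℕ)
    (O' : Type) [CommRing O'] [IsDomain O'] [CharZero O']
    (chig : CuspForm.heckeAlgebra N 2 (↑S : Set ℕ) →+* ℂ)
    (_hchig : ∀ (ℓ : ℕ) (hℓ : ℓ.Prime) (hℓN : ¬ ℓ ∣ N) (hℓS : ℓ ∉ (↑S : Set ℕ)),
      chig (CuspForm.heckeAlgebra.T hℓ hℓN hℓS) = ModularFormClass.qCoeff g ℓ)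
    (iota : chig.range →+* O')
    (F : Type) [Field F] [IsAlgClosed F] [Algebra O' F]
    (_hinj : Function.Injective (algebraMap O' F)),
    ∃ a : Nat.Primes → F,
      (∀ ℓ, IsIntegral ℤ (a ℓ)) ∧
      (∀ (ℓ : ℕ) (hℓ : ℓ.Prime) (hℓN : ¬ ℓ ∣ N) (hℓS : ℓ ∉ (↑S : Set ℕ)),
        a ⟨ℓ, hℓ⟩ =
          algebraMap O' F (iota (chig.rangeRestrict (CuspForm.heckeAlgebra.T hℓ hℓN hℓS)))) ∧
      eigenPar N F a ≠ ⊥ ∧
      ∀ (M' : ℕ) [NeZero M'] (σ : Set Nat.Primes), eigenParOn M' F σ a ≠ ⊥ →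
        eigenParOn M' ℂ σ (qSystem g) ≠ ⊥

/-- a system of eigenvalues (on a set of primes) which occurs over `K` occurs over every
extension of `K`. -/
theorem eigenParOn_ne_bot_map' {N : ℕ} [NeZero N] (K F : Type*) [Field K] [Field F] [CharZero K]
    [Algebra K F] (σ : Set Nat.Primes) (a : Nat.Primes → K) (h : eigenParOn N K σ a ≠ ⊥) :
    eigenParOn N F σ (fun ℓ => algebraMap K F (a ℓ)) ≠ ⊥ := by
  haveI : CharZero F := charZero_of_injective_algebraMap (algebraMap K F).injective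
  have h1 := finrank_eigenParOn_map K F (N := N) σ a
  intro hbot
  rw [hbot, finrank_bot] at h1
  exact h (Submodule.finrank_eq_zero.1 h1.symm)

/-- Stage B: **`S35FrobStatement` from (KEY-FROB) and (EMB).** -/
theorem s35Frob_of_keyFrob (hkey : KeyFrobStatement)
    (hemb : EmbStatement) : S35FrobStatement := by
  intro N _ g hg lam _ S O' _ _ _ _ _ _ hlamO' chig hchig iota hlamS hNS
  haveI : CharZero (FractionRing O') :=
    charZero_of_injective_algebraMap (IsFractionRing.injective O' (FractionRing O'))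
  have hinjF : Function.Injective (algebraMap O' (AlgebraicClosure (FractionRing O'))) := by
    rw [IsScalarTower.algebraMap_eq O' (FractionRing O') (AlgebraicClosure (FractionRing O'))]
    exact (algebraMap (FractionRing O') (AlgebraicClosure (FractionRing O'))).injective.comp
      (IsFractionRing.injective O' (FractionRing O'))
  obtain ⟨aF, hintF, haT, hoccF, hrefl⟩ := hemb hg.1 S O' chig hchig iota
    (AlgebraicClosure (FractionRing O')) hinjF
  have hint𝒪 : ∀ ℓ, IsIntegral O' (aF ℓ) := fun ℓ => isIntegral_of_isIntegral_int (hintF ℓ)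
  have hintK : ∀ ℓ, IsIntegral (FractionRing O') (aF ℓ) := fun ℓ =>
    isIntegral_of_isIntegral_int (hintF ℓ)
  -- the finite extension generated by the eigenvalues at the primes in `S`
  have hfinset : ({ℓ : Nat.Primes | (ℓ : ℕ) ∈ S}).Finite := by
    refine Set.Finite.of_finite_image (f := fun ℓ : Nat.Primes => (ℓ : ℕ)) ?_
      (fun x _ y _ hxy => Subtype.ext hxy)
    refine S.finite_toSet.subset ?_
    rintro _ ⟨ℓ, hℓ, rfl⟩
    exact hℓ
  haveI : Finite ↑(aF '' {ℓ : Nat.Primes | (ℓ : ℕ) ∈ S}) := (hfinset.image aF).to_subtype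
  haveI hfd : FiniteDimensional (FractionRing O')
      ↥(IntermediateField.adjoin (FractionRing O') (aF '' {ℓ : Nat.Primes | (ℓ : ℕ) ∈ S})) :=
    IntermediateField.finiteDimensional_adjoin (by
      rintro _ ⟨ℓ, _, rfl⟩
      exact hintK ℓ)
  haveI : IsScalarTower O' (FractionRing O')
      ↥(IntermediateField.adjoin (FractionRing O') (aF '' {ℓ : Nat.Primes | (ℓ : ℕ) ∈ S})) :=
    IsScalarTower.of_algebraMap_eq fun x => Subtype.ext (by
      show algebraMap O' (AlgebraicClosure (FractionRing O')) x = _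
      rw [IsScalarTower.algebraMap_apply O' (FractionRing O')
        (AlgebraicClosure (FractionRing O'))]
      rfl)
  have hmem : ∀ ℓ : Nat.Primes, aF ℓ ∈
      IntermediateField.adjoin (FractionRing O') (aF '' {ℓ : Nat.Primes | (ℓ : ℕ) ∈ S}) := by
    intro ℓ
    by_cases hℓS : (ℓ : ℕ) ∈ S
    · exact IntermediateField.subset_adjoin _ _ ⟨ℓ, hℓS, rfl⟩
    · have hℓN : ¬ (ℓ : ℕ) ∣ N := fun h => hℓS (hNS _ ℓ.2 h)
      have h := haT ℓ.1 ℓ.2 hℓN (by simpa using hℓS)
      have h' : aF ℓ = aF ⟨ℓ.1, ℓ.2⟩ := rfl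
      rw [h', h,
        IsScalarTower.algebraMap_apply O' (FractionRing O') (AlgebraicClosure (FractionRing O'))]
      exact IntermediateField.algebraMap_mem _ _
  let aL : Nat.Primes →
      ↥(IntermediateField.adjoin (FractionRing O') (aF '' {ℓ : Nat.Primes | (ℓ : ℕ) ∈ S})) :=
    fun ℓ => ⟨aF ℓ, hmem ℓ⟩
  haveI : IsScalarTower O'
      ↥(IntermediateField.adjoin (FractionRing O') (aF '' {ℓ : Nat.Primes | (ℓ : ℕ) ∈ S}))
      (AlgebraicClosure (FractionRing O')) :=
    IsScalarTower.of_algebraMap_eq fun x => rfl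
  have hintL : ∀ ℓ, IsIntegral O' (aL ℓ) := by
    intro ℓ
    have h := hint𝒪 ℓ
    have h2 : aF ℓ = algebraMap
      ↥(IntermediateField.adjoin (FractionRing O') (aF '' {ℓ : Nat.Primes | (ℓ : ℕ) ∈ S}))
      (AlgebraicClosure (FractionRing O')) (aL ℓ) := rfl
    rw [h2] at h
    exact (isIntegral_algebraMap_iff (RingHom.injective _)).1 h
  have hoccL : eigenPar N
      ↥(IntermediateField.adjoin (FractionRing O') (aF '' {ℓ : Nat.Primes | (ℓ : ℕ) ∈ S}))
      aL ≠ ⊥ := by
    rw [← eigenPar_ne_bot_map_iff _ (AlgebraicClosure (FractionRing O'))]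
    exact hoccF
  have hnewL : ∀ (q M₀ : ℕ), q.Prime → N = M₀ * q → ¬ q ∣ M₀ →
      eigenParOn M₀
        ↥(IntermediateField.adjoin (FractionRing O') (aF '' {ℓ : Nat.Primes | (ℓ : ℕ) ∈ S}))
        (primesNotDvd N) aL = ⊥ := by
    intro q M₀ hq hN hqM₀
    by_contra hne
    haveI : NeZero M₀ := ⟨by
      rintro rfl
      exact NeZero.ne N (by rw [hN, zero_mul])⟩
    have h1 := eigenParOn_ne_bot_map' (N := M₀) _ (AlgebraicClosure (FractionRing O'))
      (primesNotDvd N) aL hne
    have h2 := hrefl M₀ (primesNotDvd N) h1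
    have h3 := goodEigensystemOccursAt_of_eigenParOn g M₀ h2
    refine hg.2 M₀ ⟨q, hN⟩ ?_ h3
    intro hM
    have hq1 : q = 1 := by
      have hM0 : 0 < M₀ := Nat.pos_of_ne_zero (NeZero.ne M₀)
      have : M₀ * q = M₀ * 1 := by rw [mul_one, ← hN, hM]
      exact Nat.eq_of_mul_eq_mul_left hM0 this
    exact hq.one_lt.ne' hq1
  obtain ⟨B, i1, i2, i3, i4, i5, i6, i7, i8, i9, hinj, ρ, h1, h2, h3⟩ :=
    exists_ext_rep_of_finite_frob (N := N) (p := lam) hkey O' hlamO' (FractionRing O')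
      ↥(IntermediateField.adjoin (FractionRing O') (aF '' {ℓ : Nat.Primes | (ℓ : ℕ) ∈ S}))
      aL hintL hoccL hnewL
  refine ⟨B, i1, i2, i3, i4, i5, i6, i7, i8, i9, hinj, ρ, ?_, h2, h3⟩
  intro ℓ hℓ hℓN hℓS A hA σ hσ
  have hℓp : ℓ ≠ lam := fun h => hℓS (by rw [h]; exact hlamS)
  have hℓNp : ¬ ℓ ∣ N * lam := by
    intro h
    rcases (Nat.Prime.dvd_mul hℓ).1 h with h | h
    · exact hℓN h
    · exact hℓp ((Nat.prime_dvd_prime_iff_eq hℓ (Fact.out : lam.Prime)).1 h)
  refine h1 ℓ hℓ hℓNp ((iota.comp chig.rangeRestrict) (CuspForm.heckeAlgebra.T hℓ hℓN hℓS)) ?_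
    A hA σ hσ
  apply Subtype.ext
  show algebraMap O' (AlgebraicClosure (FractionRing O')) _ = aF ⟨ℓ, hℓ⟩
  rw [haT ℓ hℓ hℓN hℓS]
  rfl

end Fermat.Agent.S35
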