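/-
S35 — lead — package [T2], final: **`S35FrobStatement` from (KEY-FROB)**, and the frozen S35
statement from (KEY-FROB).
-/
import Mathlib
import Fermat.Agent.S35.T2_lead_Top
import Fermat.Agent.S35.EMB_helper6

set_option autoImplicit false

namespace Fermat.Agent.S35

/-- (EMB) holds (helper6). -/
theorem embStatement : EmbStatement :=
  fun hg S O' _ _ _ chig hchig iota F _ _ _ hinj =>
    exists_embedded_system hg S O' chig hchig iota F hinj

/-- **[T2]: `S35FrobStatement` from (KEY-FROB).** -/
theorem s35FrobStatement_of_keyFrobStatement (hkey : KeyFrobStatement) : S35FrobStatement :=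
  s35Frob_of_keyFrob hkey embStatement

end Fermat.Agent.S35
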