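/-
S35 — helper8 — **the Frobenius action on a semistable model** (`SSModelFrob`), the companion of
helper7's `SSModel`/`SSModelAut` for a Frobenius lift instead of an inertia element.

`sR : R →+* R`, `sM : E_M →+* E_M`, `sN : E_N →+* E_N` are the coefficientwise actions of (the
restriction to the base of) a Frobenius lift `φ` at `A ∣ q`: `sR` is the `q`-th power map modulo
`π`, the coordinates are fixed, the sheets are preserved, the degeneracy maps commute with the
actions, and the **Frobenius–Kronecker congruences** hold for EVERY `c ∈ V_M`: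
`A(c)^q ≡ B(sM c)` on `C_∞` and `B(c)^q ≡ A(sM c)` on `C_0`
(on Laurent series: `c(x)^q ≡ (φ̄ c)(x^q)` coefficientwise modulo `π`; the second congruence is the
Atkin–Lehner transform of the first).
-/
import Mathlib
import Fermat.Agent.SS.MODEL_helper7_Iface

set_option autoImplicit false
set_option linter.unusedSectionVars false

namespace Fermat.Agent.S35

open Fermat.Agent.JA Fermat.Agent.SS

section Iface

variable {R : Type*} [CommRing R] [IsDomain R]
  {EM : Type*} [Field EM] [Algebra R EM]
  {KN : Type*} [Field KN] [Algebra R KN]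
  {EN : Type*} [Field EN] [Algebra KN EN] [Algebra R EN] [IsScalarTower R KN EN]

/-- **the Frobenius action on a model** (see the file header). -/
structure SSModelFrob (π : R) (q : ℕ) (j : KN) (A B : EM →+* EN)
    (VM : ValuationSubring EM) (Winf W0 : ValuationSubring EN)
    (sR : R →+* R) (sM : EM →+* EM) (sN : EN →+* EN) : Prop where
  /-- `sR` is the `q`-th power map modulo `π` -/
  frob_R : ∀ r : R, sR r - r ^ q ∈ Ideal.span {π}
  map_R_M : ∀ r : R, sM (algebraMap R EM r) = algebraMap R EM (sR r)
  map_R_N : ∀ r : R, sN (algebraMap R EN r) = algebraMap R EN (sR r)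
  /-- the coordinate is fixed -/
  map_j : sN (algebraMap KN EN j) = algebraMap KN EN j
  bij_R : Function.Bijective sR
  bij_M : Function.Bijective sM
  bij_N : Function.Bijective sN
  /-- the degeneracy maps commute with the actions -/
  comm_A : ∀ x : EM, sN (A x) = A (sM x)
  comm_B : ∀ x : EM, sN (B x) = B (sM x)
  /-- the valuation rings are preserved -/
  mem_VM : ∀ x : EM, x ∈ VM ↔ sM x ∈ VM
  mem_inf : ∀ x : EN, x ∈ Winf ↔ sN x ∈ Winf
  mem_zero : ∀ x : EN, x ∈ W0 ↔ sN x ∈ W0
  /-- the Frobenius–Kronecker congruences -/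
  kron_inf : ∀ c ∈ VM, Winf.valuation (A c ^ q - B (sM c)) < 1
  kron_zero : ∀ c ∈ VM, W0.valuation (B c ^ q - A (sM c)) < 1

variable {π : R} {q : ℕ} {j : KN} {A B : EM →+* EN} {VM : ValuationSubring EM}
  {Winf W0 : ValuationSubring EN} {sR : R →+* R} {sM : EM →+* EM} {sN : EN →+* EN}

/-- a ring endomorphism preserving a valuation subring (in both directions) preserves the
valuation-one elements. -/
theorem valuation_map_eq_one_iff {E : Type*} [Field E] (V : ValuationSubring E) (s : E →+* E)
    (hs : ∀ x : E, x ∈ V ↔ s x ∈ V) (x : E) : V.valuation (s x) = 1 ↔ V.valuation x = 1 := by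
  have key : ∀ y : E, V.valuation y = 1 ↔ (y ∈ V ∧ y⁻¹ ∈ V ∧ y ≠ 0) := by
    intro y
    constructor
    · intro h
      have hy0 : y ≠ 0 := by
        rintro rfl
        simp at h
      refine ⟨(V.valuation_le_one_iff y).1 h.le, ?_, hy0⟩
      rw [← V.valuation_le_one_iff, map_inv₀, h, inv_one]
    · rintro ⟨h1, h2, h0⟩
      rw [← V.valuation_le_one_iff] at h1 h2
      rw [map_inv₀] at h2
      have hv0 : V.valuation y ≠ 0 := (Valuation.ne_zero_iff _).2 h0
      exact le_antisymm h1 ((inv_le_one₀ (zero_lt_iff.2 hv0)).1 h2)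
  rw [key, key, ← hs x, ← map_inv₀, ← hs x⁻¹, map_ne_zero]

/-- a ring endomorphism preserving a valuation subring (in both directions) preserves its maximal
ideal. -/
theorem valuation_map_lt_one_iff {E : Type*} [Field E] (V : ValuationSubring E) (s : E →+* E)
    (hs : ∀ x : E, x ∈ V ↔ s x ∈ V) (x : E) : V.valuation (s x) < 1 ↔ V.valuation x < 1 := by
  have h1 : V.valuation (s x) ≤ 1 ↔ V.valuation x ≤ 1 := by
    rw [V.valuation_le_one_iff, V.valuation_le_one_iff, ← hs x]
  have h2 := valuation_map_eq_one_iff V s hs x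
  rw [lt_iff_le_and_ne, lt_iff_le_and_ne, h1, Ne, Ne, h2]

theorem SSModelFrob.valuation_inf_eq_one_iff
    (hF : SSModelFrob π q j A B VM Winf W0 sR sM sN) (x : EN) :
    Winf.valuation (sN x) = 1 ↔ Winf.valuation x = 1 :=
  valuation_map_eq_one_iff Winf sN hF.mem_inf x

theorem SSModelFrob.valuation_zero_eq_one_iff
    (hF : SSModelFrob π q j A B VM Winf W0 sR sM sN) (x : EN) :
    W0.valuation (sN x) = 1 ↔ W0.valuation x = 1 :=
  valuation_map_eq_one_iff W0 sN hF.mem_zero x

theorem SSModelFrob.valuation_VM_eq_one_iff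
    (hF : SSModelFrob π q j A B VM Winf W0 sR sM sN) (x : EM) :
    VM.valuation (sM x) = 1 ↔ VM.valuation x = 1 :=
  valuation_map_eq_one_iff VM sM hF.mem_VM x

theorem SSModelFrob.valuation_inf_lt_one_iff
    (hF : SSModelFrob π q j A B VM Winf W0 sR sM sN) (x : EN) :
    Winf.valuation (sN x) < 1 ↔ Winf.valuation x < 1 :=
  valuation_map_lt_one_iff Winf sN hF.mem_inf x

theorem SSModelFrob.valuation_zero_lt_one_iff
    (hF : SSModelFrob π q j A B VM Winf W0 sR sM sN) (x : EN) :
    W0.valuation (sN x) < 1 ↔ W0.valuation x < 1 :=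
  valuation_map_lt_one_iff W0 sN hF.mem_zero x

theorem SSModelFrob.valuation_VM_lt_one_iff
    (hF : SSModelFrob π q j A B VM Winf W0 sR sM sN) (x : EM) :
    VM.valuation (sM x) < 1 ↔ VM.valuation x < 1 :=
  valuation_map_lt_one_iff VM sM hF.mem_VM x

end Iface

end Fermat.Agent.S35
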