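/-
S35 — helper8 — **`SSFrobAut`: a Frobenius-type automorphism of the level-`N` model** (the part of
`SSModelFrob` that concerns `E_N` only; the companion of helper7's `SSModelAut` for the toric step):
a bijective ring endomorphism `s` of `E_N` fixing the coordinate `j`, inducing on `R` an endomorphism
`sR` which is the `Q`-th power map modulo `π`, and preserving the two sheets.  Iterates.
-/
import Mathlib
import Fermat.Agent.S35.FROBIF_helper8

set_option autoImplicit false
set_option linter.unusedSectionVars false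

namespace Fermat.Agent.S35

open Fermat.Agent.JA Fermat.Agent.SS

section

variable {R : Type*} [CommRing R] [IsDomain R]
  {EM : Type*} [Field EM] [Algebra R EM]
  {KN : Type*} [Field KN] [Algebra R KN]
  {EN : Type*} [Field EN] [Algebra KN EN] [Algebra R EN] [IsScalarTower R KN EN]

/-- **a Frobenius-type automorphism of the model of level `N`.** -/
structure SSFrobAut (π : R) (Q : ℕ) (j : KN) (Winf W0 : ValuationSubring EN)
    (sR : R →+* R) (s : EN →+* EN) : Prop where
  frob_R : ∀ r : R, sR r - r ^ Q ∈ Ideal.span {π}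
  map_R : ∀ r : R, s (algebraMap R EN r) = algebraMap R EN (sR r)
  map_j : s (algebraMap KN EN j) = algebraMap KN EN j
  bij_R : Function.Bijective sR
  bij : Function.Bijective s
  mem_inf : ∀ x : EN, x ∈ Winf ↔ s x ∈ Winf
  mem_zero : ∀ x : EN, x ∈ W0 ↔ s x ∈ W0

variable {π : R} {q : ℕ} {j : KN} {A B : EM →+* EN} {VM : ValuationSubring EM}
  {Winf W0 : ValuationSubring EN} {sR : R →+* R} {sM : EM →+* EM} {sN : EN →+* EN}

theorem SSModelFrob.frobAut (hF : SSModelFrob π q j A B VM Winf W0 sR sM sN) :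
    SSFrobAut π q j Winf W0 sR sN where
  frob_R := hF.frob_R
  map_R := hF.map_R_N
  map_j := hF.map_j
  bij_R := hF.bij_R
  bij := hF.bij_N
  mem_inf := hF.mem_inf
  mem_zero := hF.mem_zero

theorem ringHom_pow_apply {S : Type*} [Semiring S] (f : S →+* S) (n : ℕ) (x : S) :
    (f ^ n) x = f^[n] x := by
  induction n generalizing x with
  | zero => rfl
  | succ n ih =>
    rw [pow_succ, Function.iterate_succ_apply]
    exact ih (f x)

theorem ringHom_pow_succ_apply {S : Type*} [Semiring S] (f : S →+* S) (n : ℕ) (x : S) :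
    (f ^ (n + 1)) x = f ((f ^ n) x) := by
  rw [pow_succ']; rfl

/-- the identity is a Frobenius-type automorphism with `Q = 1`. -/
theorem SSFrobAut.one (π : R) (j : KN) (Winf W0 : ValuationSubring EN) :
    SSFrobAut π 1 j Winf W0 (RingHom.id R) (RingHom.id EN) where
  frob_R r := by simp
  map_R _ := rfl
  map_j := rfl
  bij_R := Function.bijective_id
  bij := Function.bijective_id
  mem_inf _ := Iff.rfl
  mem_zero _ := Iff.rfl

/-- composition of Frobenius-type automorphisms. -/
theorem SSFrobAut.comp {Q₁ Q₂ : ℕ} {sR₁ sR₂ : R →+* R} {s₁ s₂ : EN →+* EN}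
    (h₁ : SSFrobAut π Q₁ j Winf W0 sR₁ s₁) (h₂ : SSFrobAut π Q₂ j Winf W0 sR₂ s₂)
    (hQ₁ : 0 < Q₁) :
    SSFrobAut π (Q₂ * Q₁) j Winf W0 (sR₁.comp sR₂) (s₁.comp s₂) where
  frob_R r := by
    have e : (sR₁.comp sR₂) r - r ^ (Q₂ * Q₁) =
        sR₁ (sR₂ r - r ^ Q₂) + (sR₁ (r ^ Q₂) - (r ^ Q₂) ^ Q₁) := by
      rw [pow_mul, map_sub, RingHom.comp_apply]; ring
    rw [e]
    refine Ideal.add_mem _ ?_ (h₁.frob_R _)
    obtain ⟨c, hc⟩ := Ideal.mem_span_singleton'.1 (h₂.frob_R r)
    rw [← hc, map_mul]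
    have hπQ : π ^ Q₁ ∈ Ideal.span {π} :=
      Ideal.pow_mem_of_mem _ (Ideal.mem_span_singleton_self π) _ hQ₁
    have hπ : sR₁ π ∈ Ideal.span {π} :=
      (Submodule.sub_mem_iff_left _ hπQ).1 (h₁.frob_R π)
    exact Ideal.mul_mem_left _ _ hπ
  map_R r := by
    rw [RingHom.comp_apply, h₂.map_R, h₁.map_R]; rfl
  map_j := by rw [RingHom.comp_apply, h₂.map_j, h₁.map_j]
  bij_R := h₁.bij_R.comp h₂.bij_R
  bij := h₁.bij.comp h₂.bij
  mem_inf x := (h₂.mem_inf x).trans (h₁.mem_inf _)
  mem_zero x := (h₂.mem_zero x).trans (h₁.mem_zero _)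

/-- iterates of a Frobenius-type automorphism. -/
theorem SSFrobAut.pow {Q : ℕ} {sR : R →+* R} {s : EN →+* EN}
    (h : SSFrobAut π Q j Winf W0 sR s) (hQ : 0 < Q) (r : ℕ) :
    SSFrobAut π (Q ^ r) j Winf W0 (sR ^ r) (s ^ r) := by
  induction r with
  | zero =>
    rw [pow_zero, pow_zero, pow_zero]
    exact SSFrobAut.one π j Winf W0
  | succ r ih =>
    have := h.comp ih hQ
    rw [pow_succ' sR, pow_succ' s, pow_succ]
    exact this

end

end Fermat.Agent.S35
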