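/-
S35 — helper8 — **[BASE-abs], part 3: algebra of `frobPolyMul`** (multiplicative form of
`(s^r − q^r)(s² − 1)(s − 1)`).

For a multiplicative `s : E → E` (a ring endomorphism, or `x ↦ g • x` for a semilinear automorphism):
`frobPolyMul_mul`, `frobPolyMul_div`, `frobPolyMul_pow`, `frobPolyMul_one`; naturality
`map_frobPolyMul` along a ring homomorphism intertwining `s` and `s'`; the ring-hom form
`frobPolyMul_ringHom` (`s^[r] = ⇑(s ^ r)`); the semilinear forms.
-/
import Mathlib
import Fermat.Agent.SS.TOPB_lead_Gen
import Fermat.Agent.S35.FROBBASE_helper8_Iface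
import Fermat.Agent.S35.FROBAUT_helper8

set_option autoImplicit false
set_option linter.unusedSectionVars false
set_option linter.style.haveILetI false

open AlgebraicCurve

namespace Fermat.Agent.S35

open Fermat.Agent.JA Fermat.Agent.SS

section Alg

variable {E : Type*} [Field E]

/-- `s : E → E` is multiplicative (commutes with products and quotients). -/
structure IsMulMap (s : E → E) : Prop where
  map_mul : ∀ x y : E, s (x * y) = s x * s y
  map_div : ∀ x y : E, s (x / y) = s x / s y

theorem IsMulMap.map_pow {s : E → E} (hs : IsMulMap s) (hs1 : s 1 = 1) (x : E) (n : ℕ) :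
    s (x ^ n) = s x ^ n := by
  induction n with
  | zero => rw [pow_zero, pow_zero, hs1]
  | succ n ih => rw [pow_succ, pow_succ, hs.map_mul, ih]

theorem IsMulMap.iterate {s : E → E} (hs : IsMulMap s) (r : ℕ) : IsMulMap (s^[r]) := by
  induction r with
  | zero => exact ⟨fun _ _ => rfl, fun _ _ => rfl⟩
  | succ r ih =>
    refine ⟨fun x y => ?_, fun x y => ?_⟩
    · rw [Function.iterate_succ_apply', Function.iterate_succ_apply', Function.iterate_succ_apply',
        ih.map_mul, hs.map_mul]
    · rw [Function.iterate_succ_apply', Function.iterate_succ_apply', Function.iterate_succ_apply',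
        ih.map_div, hs.map_div]

theorem isMulMap_ringHom (s : E →+* E) : IsMulMap (s : E → E) :=
  ⟨fun x y => map_mul s x y, fun x y => map_div₀ s x y⟩

theorem isMulMap_semilinear {K : Type*} [Field K] [Algebra K E] (g : SemilinearAut K E) :
    IsMulMap (fun x : E => g • x) :=
  ⟨fun x y => semilinear_smul_mul g x y, fun x y => semilinear_smul_div g x y⟩

theorem frobPolyMul_mul {s : E → E} (hs : IsMulMap s) (q r : ℕ) (x y : E) :
    frobPolyMul q r s (x * y) = frobPolyMul q r s x * frobPolyMul q r s y := by
  unfold frobPolyMul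
  have h1 : s (x * y) / (x * y) = s x / x * (s y / y) := by
    rw [hs.map_mul, mul_div_mul_comm]
  have h2 : s (s (s (x * y) / (x * y))) / (s (x * y) / (x * y)) =
      s (s (s x / x)) / (s x / x) * (s (s (s y / y)) / (s y / y)) := by
    rw [h1, hs.map_mul, hs.map_mul, mul_div_mul_comm]
  rw [h2, (hs.iterate r).map_mul, mul_pow, mul_div_mul_comm]

theorem frobPolyMul_one {s : E → E} (hs1 : s 1 = 1) (q r : ℕ) : frobPolyMul q r s 1 = 1 := by
  unfold frobPolyMul
  have h1 : s^[r] 1 = 1 := by
    induction r with
    | zero => rfl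
    | succ r ih => rw [Function.iterate_succ_apply', ih, hs1]
  simp only [hs1, div_one, one_pow, h1]

theorem frobPolyMul_div {s : E → E} (hs : IsMulMap s) (q r : ℕ) (x y : E) :
    frobPolyMul q r s (x / y) = frobPolyMul q r s x / frobPolyMul q r s y := by
  unfold frobPolyMul
  have h1 : s (x / y) / (x / y) = s x / x / (s y / y) := by
    rw [hs.map_div, div_div_div_comm]
  have h2 : s (s (s (x / y) / (x / y))) / (s (x / y) / (x / y)) =
      s (s (s x / x)) / (s x / x) / (s (s (s y / y)) / (s y / y)) := by
    rw [h1, hs.map_div, hs.map_div, div_div_div_comm]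
  rw [h2, (hs.iterate r).map_div, div_pow, div_div_div_comm]

theorem frobPolyMul_pow {s : E → E} (hs : IsMulMap s) (hs1 : s 1 = 1) (q r : ℕ) (x : E) (n : ℕ) :
    frobPolyMul q r s (x ^ n) = frobPolyMul q r s x ^ n := by
  induction n with
  | zero => rw [pow_zero, pow_zero, frobPolyMul_one hs1]
  | succ n ih => rw [pow_succ, pow_succ, frobPolyMul_mul hs, ih]

/-- naturality of `frobPolyMul` along a ring homomorphism intertwining `s` and `s'`. -/
theorem map_frobPolyMul {E' : Type*} [Field E'] (φ : E →+* E') (s : E → E) (s' : E' → E')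
    (h : ∀ x : E, φ (s x) = s' (φ x)) (q r : ℕ) (f : E) :
    φ (frobPolyMul q r s f) = frobPolyMul q r s' (φ f) := by
  unfold frobPolyMul
  have hit : ∀ (n : ℕ) (x : E), φ (s^[n] x) = s'^[n] (φ x) := by
    intro n
    induction n with
    | zero => intro x; rfl
    | succ n ih =>
      intro x
      rw [Function.iterate_succ_apply', Function.iterate_succ_apply', h, ih]
  simp only [map_div₀, map_pow, hit, h]

/-- the ring-hom form: `s^[r] = ⇑(s ^ r)`. -/
theorem frobPolyMul_ringHom (s : E →+* E) (q r : ℕ) (f : E) :
    frobPolyMul q r (s : E → E) f =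
      (s ^ r) (s (s (s f / f)) / (s f / f)) / (s (s (s f / f)) / (s f / f)) ^ (q ^ r) := by
  unfold frobPolyMul
  rw [ringHom_pow_apply]

/-- `frobPolyMul` of a constant is a constant (semilinear form). -/
theorem frobPolyMul_algebraMap {K : Type*} [Field K] [Algebra K E] (g : SemilinearAut K E)
    (q r : ℕ) (a : K) :
    ∃ b : K, frobPolyMul q r (fun x : E => g • x) (algebraMap K E a) = algebraMap K E b := by
  have hit : ∀ (n : ℕ) (c : K), ∃ d : K,
      (fun x : E => g • x)^[n] (algebraMap K E c) = algebraMap K E d := by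
    intro n
    induction n with
    | zero => intro c; exact ⟨c, rfl⟩
    | succ n ih =>
      intro c
      obtain ⟨d, hd⟩ := ih c
      refine ⟨SemilinearAut.baseAut g d, ?_⟩
      rw [Function.iterate_succ_apply', hd, SemilinearAut.smul_algebraMap]
  unfold frobPolyMul
  simp only [SemilinearAut.smul_algebraMap, ← map_div₀]
  obtain ⟨d, hd⟩ := hit r (SemilinearAut.baseAut g (SemilinearAut.baseAut g
    (SemilinearAut.baseAut g a / a)) / (SemilinearAut.baseAut g a / a))
  refine ⟨d / (SemilinearAut.baseAut g (SemilinearAut.baseAut g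
    (SemilinearAut.baseAut g a / a)) / (SemilinearAut.baseAut g a / a)) ^ (q ^ r), ?_⟩
  rw [hd, ← map_pow, ← map_div₀]

end Alg

end Fermat.Agent.S35
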