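/-
S35 — helper8 — **[BASE-abs], part 2: leading coefficients** for the Frobenius route.

`HostMonic x` : the leading coefficient of `x ∈ E ⊂ L⸨x⸩` is `1`; closed under coefficientwise
endomorphisms, quotients, powers, iterates; hence `frobPolyMul q r σ f` is monic for monic `f`
(`hostMonic_frobPolyMul`, `hostLc_frobPolyMul`).
-/
import Mathlib
import Fermat.Agent.SS.LC_helper5
import Fermat.Agent.S35.FROBBASE_helper8_Iface

set_option autoImplicit false
set_option linter.unusedSectionVars false
set_option linter.style.haveILetI false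

open ModularCurve

namespace Fermat.Agent.S35

open Fermat.Agent.JA Fermat.Agent.SS

section Lc

variable {L : Type*} [Field L] {E : IntermediateField L (LaurentSeries L)}

/-- the leading coefficient of `x ∈ E ⊂ L⸨x⸩` is `1`. -/
def HostMonic (x : ↥E) : Prop := ((x : ↥E) : LaurentSeries L).leadingCoeff = 1

theorem HostMonic.ne_zero {x : ↥E} (h : HostMonic x) : x ≠ 0 := by
  rintro rfl
  have h' : ((0 : ↥E) : LaurentSeries L).leadingCoeff = 1 := h
  rw [IntermediateField.coe_zero, HahnSeries.leadingCoeff_zero] at h'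
  exact zero_ne_one h'

theorem HostMonic.div {x y : ↥E} (hx : HostMonic x) (hy : HostMonic y) : HostMonic (x / y) := by
  unfold HostMonic at *
  rw [IntermediateField.coe_div, leadingCoeff_div_laurent, hx, hy, div_one]

theorem HostMonic.mul {x y : ↥E} (hx : HostMonic x) (hy : HostMonic y) : HostMonic (x * y) := by
  unfold HostMonic at *
  rw [IntermediateField.coe_mul, HahnSeries.leadingCoeff_mul, hx, hy, mul_one]

theorem HostMonic.one : HostMonic (1 : ↥E) := by
  unfold HostMonic
  rw [IntermediateField.coe_one, HahnSeries.leadingCoeff_one]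

theorem HostMonic.pow {x : ↥E} (hx : HostMonic x) (n : ℕ) : HostMonic (x ^ n) := by
  induction n with
  | zero => rw [pow_zero]; exact HostMonic.one
  | succ n ih => rw [pow_succ]; exact ih.mul hx

theorem HostMonic.map {x : ↥E} (hx : HostMonic x) (σ : ↥E → ↥E) (s : L →+* L)
    (hσ : ∀ x : ↥E, ((σ x : ↥E) : LaurentSeries L) = coeffMap s (x : LaurentSeries L)) :
    HostMonic (σ x) := by
  unfold HostMonic at *
  rw [hσ, leadingCoeff_coeffMap_of_injective s.injective, hx, map_one]

theorem HostMonic.iterate {x : ↥E} (hx : HostMonic x) (σ : ↥E → ↥E) (s : L →+* L)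
    (hσ : ∀ x : ↥E, ((σ x : ↥E) : LaurentSeries L) = coeffMap s (x : LaurentSeries L)) (r : ℕ) :
    HostMonic (σ^[r] x) := by
  induction r with
  | zero => exact hx
  | succ r ih =>
    rw [Function.iterate_succ_apply']
    exact ih.map σ s hσ

/-- **`frobPolyMul q r σ f` is monic** for monic `f` and `σ` acting coefficientwise. -/
theorem hostMonic_frobPolyMul (σ : ↥E → ↥E) (s : L →+* L)
    (hσ : ∀ x : ↥E, ((σ x : ↥E) : LaurentSeries L) = coeffMap s (x : LaurentSeries L))
    {f : ↥E} (hf : HostMonic f) (q r : ℕ) : HostMonic (frobPolyMul q r σ f) := by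
  have hg : HostMonic (σ f / f) := (hf.map σ s hσ).div hf
  have hg' : HostMonic (σ (σ (σ f / f)) / (σ f / f)) :=
    ((hg.map σ s hσ).map σ s hσ).div hg
  exact (hg'.iterate σ s hσ r).div (hg'.pow _)

/-- the `hlc1`-form. -/
theorem hostLc_eq_one_of_hostMonic {x : ↥E} (hx : HostMonic x) (u : (↥E)ˣ) (hu : (u : ↥E) = x) :
    hostLc E u = 1 := by
  apply Units.ext
  rw [coe_hostLc, hu, Units.val_one]
  exact hx

end Lc

end Fermat.Agent.S35
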