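/-
S35 — helper8 — **[BASE-abs], part 1: divisor bookkeeping** for the Frobenius route.

* `OrdGood m x` : every order of `x` is divisible by `m`, and `x` has zeros / poles at rational places
  only (the hypothesis `hord` of the base statements, as a predicate closed under the operations of
  `frobPolyMul`): `OrdGood.smul`, `.div`, `.pow`, `.iterate`, `.hord`, `ordGood_of_hord`;
* `OrdGood.frobPolyMul_*` : the intermediate elements `g = s f / f`, `g' = s (s g) / g`,
  `G = s^[r] g' / g' ^ Q` of `frobPolyMul` are `OrdGood`.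
-/
import Mathlib
import Fermat.Agent.SS.TOPB_lead_Gen
import Fermat.Agent.S35.FROBBASE_helper8_Iface

set_option autoImplicit false
set_option linter.unusedSectionVars false
set_option linter.style.haveILetI false

open AlgebraicCurve

namespace Fermat.Agent.S35

open Fermat.Agent.JA Fermat.Agent.SS

section OrdGood

variable {K F : Type*} [Field K] [Field F] [Algebra K F]

/-- every order of `x` is divisible by `m`, and the zeros and poles of `x` are rational places. -/
def OrdGood (m : ℕ) (x : F) : Prop :=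
  ∀ Q : Place K F, (m : ℤ) ∣ Q.ord x ∧ (Q.ord x ≠ 0 → IsRationalPlace Q)

/-- the hypothesis `hord` of the base statements is `OrdGood`. -/
theorem ordGood_of_hord {m : ℕ} {x : F}
    (h : ∀ P : Place K F, P.ord x = 0 ∨ (IsRationalPlace P ∧ (m : ℤ) ∣ P.ord x)) :
    OrdGood (K := K) m x := by
  intro Q
  rcases h Q with h0 | ⟨h1, h2⟩
  · exact ⟨by rw [h0]; exact dvd_zero _, fun h' => absurd h0 h'⟩
  · exact ⟨h2, fun _ => h1⟩

/-- `OrdGood` gives back the hypothesis `hord`. -/
theorem OrdGood.hord {m : ℕ} {x : F} (h : OrdGood (K := K) m x) (P : Place K F) :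
    P.ord x = 0 ∨ (IsRationalPlace P ∧ (m : ℤ) ∣ P.ord x) := by
  by_cases h0 : P.ord x = 0
  · exact Or.inl h0
  · exact Or.inr ⟨(h P).2 h0, (h P).1⟩

theorem OrdGood.smul {m : ℕ} {x : F} (h : OrdGood (K := K) m x) (g : SemilinearAut K F) :
    OrdGood (K := K) m (g • x) := by
  intro Q
  rw [place_ord_smul_eq]
  refine ⟨(h (g⁻¹ • Q)).1, fun h0 => ?_⟩
  have h1 := isRationalPlace_smul g (g⁻¹ • Q) ((h (g⁻¹ • Q)).2 h0)
  rwa [smul_inv_smul] at h1

theorem OrdGood.mul {m : ℕ} {x y : F} (hx : OrdGood (K := K) m x) (hy : OrdGood (K := K) m y)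
    (hx0 : x ≠ 0) (hy0 : y ≠ 0) : OrdGood (K := K) m (x * y) := by
  intro Q
  rw [Q.ord_mul hx0 hy0]
  refine ⟨dvd_add (hx Q).1 (hy Q).1, fun h0 => ?_⟩
  by_cases h1 : Q.ord x = 0
  · refine (hy Q).2 fun h2 => h0 ?_
    rw [h1, h2, add_zero]
  · exact (hx Q).2 h1

theorem OrdGood.inv {m : ℕ} {x : F} (hx : OrdGood (K := K) m x) : OrdGood (K := K) m x⁻¹ := by
  intro Q
  rw [Q.ord_inv]
  exact ⟨(dvd_neg).2 (hx Q).1, fun h0 => (hx Q).2 fun h1 => h0 (by rw [h1, neg_zero])⟩

theorem OrdGood.div {m : ℕ} {x y : F} (hx : OrdGood (K := K) m x) (hy : OrdGood (K := K) m y)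
    (hx0 : x ≠ 0) (hy0 : y ≠ 0) : OrdGood (K := K) m (x / y) := by
  rw [div_eq_mul_inv]
  exact hx.mul hy.inv hx0 (inv_ne_zero hy0)

theorem OrdGood.one {m : ℕ} : OrdGood (K := K) m (1 : F) := by
  intro Q
  rw [Q.ord_one]
  exact ⟨dvd_zero _, fun h => absurd rfl h⟩

theorem OrdGood.pow {m : ℕ} {x : F} (hx : OrdGood (K := K) m x) (hx0 : x ≠ 0) (n : ℕ) :
    OrdGood (K := K) m (x ^ n) := by
  induction n with
  | zero => rw [pow_zero]; exact OrdGood.one
  | succ n ih => rw [pow_succ]; exact ih.mul hx (pow_ne_zero n hx0) hx0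

theorem OrdGood.iterate {m : ℕ} {x : F} (hx : OrdGood (K := K) m x) (g : SemilinearAut K F)
    (r : ℕ) : OrdGood (K := K) m ((fun y => g • y)^[r] x) := by
  induction r with
  | zero => exact hx
  | succ r ih =>
    rw [Function.iterate_succ_apply']
    exact ih.smul g

end OrdGood

end Fermat.Agent.S35
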