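/-
S35 — helper8 — **[BASE-abs], part 4: the formal core of the base statement.**

On a coefficient-stable host `E ⊂ K⸨x⸩` with the coefficientwise action `s` of `τ ∈ Aut(K/ℚ)`:
if the TORIC statement holds for `Ψ = s ^ r`, `Q = q ^ r` (every nonzero `g'` with good divisor, toric
sheet data `u`, `v` and monic `Ψ g' / g' ^ Q` has `Ψ g' / g' ^ Q` an `m`-th power), and the NORM step
provides the sheet data for `g' = s (s g) / g`, `g = s f / f`, then
`frobPolyMul q r s f` is an `m`-th power for every monic `f` with good divisor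
(`frobPolyMul_pow_of_toric`).
-/
import Mathlib
import Fermat.Agent.S35.BASEF_helper8_Ord
import Fermat.Agent.S35.BASEF_helper8_Lc
import Fermat.Agent.S35.BASEF_helper8_Alg
import Fermat.Agent.SS.IBASE_helper1_Act

set_option autoImplicit false
set_option linter.unusedSectionVars false
set_option linter.style.haveILetI false

open AlgebraicCurve ModularCurve

namespace Fermat.Agent.S35

open Fermat.Agent.JA Fermat.Agent.SS

section Core

variable {K : Type*} [Field K] [Algebra ℚ K] {E : IntermediateField K (LaurentSeries K)}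
  (hE : CoeffStable E) (τ : K ≃ₐ[ℚ] K)

/-- the coefficientwise action as a ring endomorphism. -/
noncomputable def coeffRingEnd : ↥E →+* ↥E := (coeffRingAut hE τ : ↥E →+* ↥E)

theorem coeffRingEnd_apply (x : ↥E) : coeffRingEnd hE τ x = coeffGalois hE τ • x := rfl

theorem coe_coeffRingEnd (x : ↥E) :
    ((coeffRingEnd hE τ x : ↥E) : LaurentSeries K) =
      coeffMap ((τ : K ≃ₐ[ℚ] K) : K →+* K) (x : LaurentSeries K) := rfl

theorem coe_coeffRingEnd_pow (r : ℕ) (x : ↥E) :
    (((coeffRingEnd hE τ ^ r) x : ↥E) : LaurentSeries K) =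
      coeffMap (((τ ^ r : K ≃ₐ[ℚ] K)) : K →+* K) (x : LaurentSeries K) := by
  induction r generalizing x with
  | zero =>
    rw [pow_zero, pow_zero]
    show (x : LaurentSeries K) = _
    rw [show (((1 : K ≃ₐ[ℚ] K)) : K →+* K) = RingHom.id K from RingHom.ext fun _ => rfl,
      coeffMap_id]
  | succ r ih =>
    rw [ringHom_pow_succ_apply, coe_coeffRingEnd, ih, coeffMap_coeffMap]
    exact coeffMap_congr (RingHom.ext fun a => by
      show τ ((τ ^ r) a) = (τ ^ (r + 1)) a
      rw [pow_succ']; rfl) _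

theorem coeffRingEnd_pow_apply (r : ℕ) (x : ↥E) :
    (coeffRingEnd hE τ ^ r) x = coeffGalois hE (τ ^ r) • x :=
  Subtype.ext (by rw [coe_coeffRingEnd_pow]; rfl)

/-- **the formal core of the base statement**: TORIC for `Ψ = s ^ r` + the NORM step for
`g' = s (s g) / g` ⇒ `frobPolyMul q r s f` is an `m`-th power. -/
theorem frobPolyMul_pow_of_toric (q r m : ℕ) {EM : Type*} [Field EM]
    (Ad Bd : EM →+* ↥E) (VM : ValuationSubring EM) (Winf W0 : ValuationSubring ↥E)
    (Htoric : ∀ g : ↥E, g ≠ 0 →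
      (∀ P : Place K ↥E, P.ord g = 0 ∨ (IsRationalPlace P ∧ (m : ℤ) ∣ P.ord g)) →
      (∀ P : Place K ↥E, P.ord ((coeffRingEnd hE τ ^ r) g / g ^ (q ^ r)) = 0 ∨
        (IsRationalPlace P ∧ (m : ℤ) ∣ P.ord ((coeffRingEnd hE τ ^ r) g / g ^ (q ^ r)))) →
      (∃ u v : EM, VM.valuation u = 1 ∧ VM.valuation v = 1 ∧
        Winf.valuation (g - Ad u ^ m) < 1 ∧ W0.valuation (g - Bd v ^ m) < 1) →
      (∀ w : (↥E)ˣ, (w : ↥E) = (coeffRingEnd hE τ ^ r) g / g ^ (q ^ r) → hostLc E w = 1) →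
      ∃ w : ↥E, (coeffRingEnd hE τ ^ r) g / g ^ (q ^ r) = w ^ m)
    (f : ↥E) (hf : f ≠ 0) (hlead : ((f : ↥E) : LaurentSeries K).leadingCoeff = 1)
    (hord : ∀ P : Place K ↥E, P.ord f = 0 ∨ (IsRationalPlace P ∧ (m : ℤ) ∣ P.ord f))
    (hnorm : ∃ u v : EM, VM.valuation u = 1 ∧ VM.valuation v = 1 ∧
      Winf.valuation (coeffRingEnd hE τ (coeffRingEnd hE τ (coeffRingEnd hE τ f / f)) /
        (coeffRingEnd hE τ f / f) - Ad u ^ m) < 1 ∧
      W0.valuation (coeffRingEnd hE τ (coeffRingEnd hE τ (coeffRingEnd hE τ f / f)) /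
        (coeffRingEnd hE τ f / f) - Bd v ^ m) < 1) :
    ∃ w : ↥E, frobPolyMul q r (fun x => coeffGalois hE τ • x) f = w ^ m := by
  set s : ↥E →+* ↥E := coeffRingEnd hE τ with hs
  set γ : SemilinearAut K ↥E := coeffGalois hE τ with hγ
  have hsγ : ∀ x : ↥E, s x = γ • x := fun _ => rfl
  -- the intermediate elements
  have hsf : s f ≠ 0 := (map_ne_zero s).mpr hf
  have hg0 : s f / f ≠ 0 := div_ne_zero hsf hf
  have hg'0 : s (s (s f / f)) / (s f / f) ≠ 0 :=
    div_ne_zero ((map_ne_zero s).mpr ((map_ne_zero s).mpr hg0)) hg0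
  -- divisors
  have hOf : OrdGood (K := K) m f := ordGood_of_hord hord
  have hOg : OrdGood (K := K) m (s f / f) := by
    rw [hsγ]; exact (hOf.smul γ).div hOf (by rw [← hsγ]; exact hsf) hf
  have hOg' : OrdGood (K := K) m (s (s (s f / f)) / (s f / f)) := by
    have h1 : OrdGood (K := K) m (s (s (s f / f))) := by
      rw [hsγ (s (s f / f)), hsγ (s f / f)]; exact (hOg.smul γ).smul γ
    exact h1.div hOg ((map_ne_zero s).mpr ((map_ne_zero s).mpr hg0)) hg0
  have hOG : OrdGood (K := K) m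
      ((s ^ r) (s (s (s f / f)) / (s f / f)) / (s (s (s f / f)) / (s f / f)) ^ (q ^ r)) := by
    have h1 : OrdGood (K := K) m ((s ^ r) (s (s (s f / f)) / (s f / f))) := by
      rw [coeffRingEnd_pow_apply]; exact hOg'.smul _
    exact h1.div (hOg'.pow hg'0 _) ((map_ne_zero _).mpr hg'0) (pow_ne_zero _ hg'0)
  -- leading coefficients
  have hσ : ∀ x : ↥E, ((s x : ↥E) : LaurentSeries K) =
      coeffMap ((τ : K ≃ₐ[ℚ] K) : K →+* K) (x : LaurentSeries K) := fun _ => rfl
  have hMon : HostMonic (frobPolyMul q r (s : ↥E → ↥E) f) :=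
    hostMonic_frobPolyMul (s : ↥E → ↥E) _ hσ hlead q r
  have hfp : frobPolyMul q r (s : ↥E → ↥E) f =
      (s ^ r) (s (s (s f / f)) / (s f / f)) / (s (s (s f / f)) / (s f / f)) ^ (q ^ r) :=
    frobPolyMul_ringHom s q r f
  have hfun : (fun x : ↥E => γ • x) = (s : ↥E → ↥E) := rfl
  rw [hfun, hfp]
  rw [hfp] at hMon
  exact Htoric _ hg'0 hOg'.hord hOG.hord hnorm
    (fun w hw => hostLc_eq_one_of_hostMonic hMon w hw)

end Core

end Fermat.Agent.S35
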