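/-
S35 [NODECOUNT] — helper2 — abstract part.

* `nodecount_card_primes_over_le` : `A` an integrally closed domain with fraction field `K`,
  `E / K` finite, `B ↪ E` an `A`-algebra integral over `A`, `𝔭` a maximal ideal of `A` with
  infinitely many residues (an infinite sequence of pairwise incongruent elements): at most
  `[E : K]` maximal ideals of `B` lie over `𝔭` (CRT + the minimal polynomial has coefficients in
  `A`; no Galois closure needed).
* `nodecount_iterate_eq_self` : an injective self-map `T` of a type preserving a predicate `P` whose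
  finite families have at most `N` members satisfies `T^[N!] a = a` for every `a` with `P a`.
-/
import Mathlib

set_option autoImplicit false
set_option linter.unusedSectionVars false
set_option linter.style.haveILetI false

namespace Fermat.Agent.S35

open Polynomial

section PrimesOver

variable {A K E : Type*} [CommRing A] [IsDomain A] [IsIntegrallyClosed A] [Field K] [Algebra A K]
  [IsFractionRing A K] [Field E] [Algebra K E] [Algebra A E] [IsScalarTower A K E]
  [FiniteDimensional K E]

/-- **at most `[E : K]` maximal ideals of an `A`-algebra `B ⊆ E` integral over `A` lie over a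
maximal ideal `𝔭` of `A`** with infinitely many residues. -/
theorem nodecount_card_primes_over_le {B : Type*} [CommRing B] [Algebra A B] (ι : B →ₐ[A] E)
    (hι : Function.Injective ι) (hB : ∀ x : B, IsIntegral A (ι x))
    (𝔭 : Ideal A) [h𝔭 : 𝔭.IsMaximal] (c : ℕ → A) (hc : ∀ i j, i ≠ j → c i - c j ∉ 𝔭)
    (s : Finset (Ideal B))
    (hs : ∀ 𝔓 ∈ s, 𝔓.IsMaximal ∧ 𝔓.comap (algebraMap A B) = 𝔭) :
    s.card ≤ Module.finrank K E := by
  classical
  by_contra hlt
  rw [not_le] at hlt
  let e : Fin s.card ≃ {x // x ∈ s} := s.equivFin.symm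
  let I : Fin s.card → Ideal B := fun i => ((e i : {x // x ∈ s}) : Ideal B)
  have hImax : ∀ i, (I i).IsMaximal := fun i => (hs _ (e i).2).1
  have hIcomap : ∀ i, (I i).comap (algebraMap A B) = 𝔭 := fun i => (hs _ (e i).2).2
  have hIinj : Function.Injective I := fun i i' h => e.injective (Subtype.ext h)
  have hI : Pairwise (Function.onFun IsCoprime I) := by
    intro i i' hii'
    show IsCoprime (I i) (I i')
    rw [Ideal.isCoprime_iff_sup_eq]
    exact Ideal.IsMaximal.coprime_of_ne (hImax i) (hImax i') (fun h => hii' (hIinj h))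
  obtain ⟨x, hx⟩ := Ideal.exists_forall_sub_mem_ideal hI (fun i => algebraMap A B (c i))
  -- the minimal polynomial of `x` over `A`
  have hxint : IsIntegral A (ι x) := hB x
  set f : A[X] := minpoly A (ι x) with hf
  have hmonic : f.Monic := minpoly.monic hxint
  have hdeg : f.natDegree ≤ Module.finrank K E := by
    have h1 : minpoly K (ι x) = f.map (algebraMap A K) :=
      minpoly.isIntegrallyClosed_eq_field_fractions' K hxint
    have h2 : (minpoly K (ι x)).natDegree ≤ Module.finrank K E := minpoly.natDegree_le _
    rwa [h1, hmonic.natDegree_map] at h2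
  have hroot : aeval x f = 0 := by
    apply hι
    rw [map_zero, ← Polynomial.aeval_algHom_apply]
    exact minpoly.aeval A (ι x)
  -- the values at the `c i` lie in `𝔭`
  have hval : ∀ i : Fin s.card, f.eval (c i) ∈ 𝔭 := by
    intro i
    rw [← hIcomap i, Ideal.mem_comap]
    have h1 : algebraMap A B (f.eval (c i)) = aeval (algebraMap A B (c i)) f :=
      (aeval_algebraMap_apply B (c i) f).symm
    have h2 : x - algebraMap A B (c i) ∣ aeval x f - aeval (algebraMap A B (c i)) f := by
      rw [aeval_def, aeval_def, eval₂_eq_eval_map, eval₂_eq_eval_map]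
      exact sub_dvd_eval_sub _ _ _
    rw [hroot, zero_sub, dvd_neg] at h2
    rw [h1]
    exact Ideal.mem_of_dvd _ h2 (hx i)
  -- reduce modulo `𝔭`
  letI : Field (A ⧸ 𝔭) := Ideal.Quotient.field 𝔭
  have hzero : f.map (Ideal.Quotient.mk 𝔭) = 0 := by
    refine eq_zero_of_natDegree_lt_card_of_eval_eq_zero (f.map (Ideal.Quotient.mk 𝔭))
      (f := fun i : Fin s.card => Ideal.Quotient.mk 𝔭 (c i)) ?_ ?_ ?_
    · intro i i' h
      by_contra hne
      have h' : Ideal.Quotient.mk 𝔭 (c i) = Ideal.Quotient.mk 𝔭 (c i') := h
      rw [Ideal.Quotient.eq] at h'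
      exact hc i i' (fun h'' => hne (Fin.ext h'')) h'
    · intro i
      rw [eval_map, eval₂_hom]
      exact Ideal.Quotient.eq_zero_iff_mem.mpr (hval i)
    · rw [Fintype.card_fin]
      exact lt_of_le_of_lt (natDegree_map_le) (lt_of_le_of_lt hdeg hlt)
  exact (hmonic.map (Ideal.Quotient.mk 𝔭)).ne_zero hzero

end PrimesOver

section Iterate

variable {α : Type*}

/-- **periodicity**: an injective self-map preserving a predicate with at most `N` members fixes
every member after `N!` steps. -/
theorem nodecount_iterate_eq_self (T : α → α) (hT : Function.Injective T) (P : α → Prop)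
    (hP : ∀ a, P a → P (T a)) (N : ℕ)
    (hN : ∀ s : Finset α, (∀ a ∈ s, P a) → s.card ≤ N) (a : α) (ha : P a) :
    T^[N.factorial] a = a := by
  classical
  have hPi : ∀ i : ℕ, P (T^[i] a) := by
    intro i
    induction i with
    | zero => exact ha
    | succ i ih =>
      rw [Function.iterate_succ_apply']
      exact hP _ ih
  -- pigeonhole
  set u : Finset α := (Finset.range (N + 1)).image (fun i => T^[i] a) with hu
  have hcard : u.card ≤ N := hN u (by
    intro b hb
    rw [hu, Finset.mem_image] at hb
    obtain ⟨i, -, rfl⟩ := hb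
    exact hPi i)
  have hlt : u.card < (Finset.range (N + 1)).card := by
    rw [Finset.card_range]
    exact Nat.lt_succ_of_le hcard
  obtain ⟨i, hi, i', hi', hne, heq⟩ := Finset.exists_ne_map_eq_of_card_lt_of_maps_to hlt
    (f := fun i => T^[i] a) (fun i hi => Finset.mem_image_of_mem _ hi)
  -- a period
  have key : ∀ i i' : ℕ, i < i' → i' < N + 1 → T^[i] a = T^[i'] a → T^[N.factorial] a = a := by
    intro i i' hlt' hi' heq
    obtain ⟨d, rfl⟩ := Nat.exists_eq_add_of_lt hlt'
    have h1 : T^[i] a = T^[i] (T^[d + 1] a) := by
      rw [← Function.iterate_add_apply]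
      have : i + (d + 1) = i + d + 1 := by ring
      rw [this]
      exact heq
    have h2 : T^[d + 1] a = a := ((hT.iterate i) h1).symm
    have hper : Function.IsPeriodicPt T (d + 1) a := h2
    have hdvd : d + 1 ∣ N.factorial := Nat.dvd_factorial (Nat.succ_pos d) (by omega)
    exact hper.trans_dvd hdvd
  rw [Finset.mem_range] at hi hi'
  rcases lt_or_gt_of_ne hne with h | h
  · exact key i i' h hi' heq
  · exact key i' i h hi heq.symm

end Iterate

end Fermat.Agent.S35
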