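/-
S35 [NODECOUNT] — helper2 — chart part: closed points of the special fibre of a chart
`chartOne R E u` (`R` a DVR with algebraically closed residue field `k`) with prescribed value of
the coordinate.

* `chartCoordElt u` : the coordinate as an element of the chart;
* `algebraMap_mem_iff_of_isMaximal` : `𝔫 ∩ R = (π)` for a closed point `𝔫 ∋ π`;
* `aeval_chartCoordElt_mem_iff` : `f(u) ∈ 𝔫 ↔ f(c) ∈ (π)` if `u ≡ c` at `𝔫`;
* `chartAdjoinHom u` : `R[u] → chartOne R E u`, and `comap_chartAdjoinHom_eq` : two closed points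
  with the same value of the coordinate lie over the same prime of `R[u]`;
* `card_le_of_forall_coord` : at most `[E : K]` closed points have a given value of the coordinate.
-/
import Mathlib
import Fermat.Agent.S35.NODECOUNT_helper2_Abs
import Fermat.Agent.SS.VERT_helper4_Closed

set_option autoImplicit false
set_option linter.unusedSectionVars false
set_option linter.style.haveILetI false

namespace Fermat.Agent.S35

open Fermat.Agent.JA Fermat.Agent.SS Polynomial

section Chart

variable {R : Type*} [CommRing R] [IsDomain R] [IsDiscreteValuationRing R] [CharZero R]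
  {K₁ : Type*} [Field K₁] [Algebra R K₁] [IsFractionRing R K₁]
  {K : Type*} [Field K] [Algebra K₁ K] [Algebra R K] [IsScalarTower R K₁ K]
  {E : Type*} [Field E] [Algebra K E] [Algebra R E] [IsScalarTower R K E] [FiniteDimensional K E]
  {π : R}

/-- the coordinate as an element of the chart. -/
def chartCoordElt (u : K) : ↥(chartOne R E u) :=
  ⟨algebraMap K E u, algebraMap_coord_mem_chartOne u⟩

@[simp] theorem coe_chartCoordElt (u : K) : ((chartCoordElt (R := R) (E := E) u : ↥(chartOne R E u)) : E) =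
    algebraMap K E u := rfl

variable {u : K}

/-- `𝔫 ∩ R = (π)` for a closed point of the special fibre. -/
theorem algebraMap_mem_iff_of_isMaximal (hπ : Irreducible π) (𝔫 : Ideal ↥(chartOne R E u))
    [h𝔫 : 𝔫.IsMaximal] (hπ𝔫 : algebraMap R ↥(chartOne R E u) π ∈ 𝔫) (r : R) :
    algebraMap R ↥(chartOne R E u) r ∈ 𝔫 ↔ r ∈ Ideal.span {π} := by
  constructor
  · intro hr
    by_contra hne
    rw [← hπ.maximalIdeal_eq, IsLocalRing.mem_maximalIdeal, mem_nonunits_iff, not_not] at hne
    exact h𝔫.ne_top (Ideal.eq_top_of_isUnit_mem _ hr (hne.map _))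
  · intro hr
    obtain ⟨a, rfl⟩ := Ideal.mem_span_singleton'.mp hr
    rw [map_mul]
    exact Ideal.mul_mem_left _ _ hπ𝔫

/-- `f(u) ∈ 𝔫 ↔ f(c) ∈ (π)` if `u ≡ c` at the closed point `𝔫`. -/
theorem aeval_chartCoordElt_mem_iff (hπ : Irreducible π) (𝔫 : Ideal ↥(chartOne R E u))
    [h𝔫 : 𝔫.IsMaximal] (hπ𝔫 : algebraMap R ↥(chartOne R E u) π ∈ 𝔫) (c : R)
    (hc : chartCoordElt u - algebraMap R ↥(chartOne R E u) c ∈ 𝔫) (p : R[X]) :
    aeval (chartCoordElt (R := R) (E := E) u) p ∈ 𝔫 ↔ p.eval c ∈ Ideal.span {π} := by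
  rw [← algebraMap_mem_iff_of_isMaximal hπ 𝔫 hπ𝔫]
  have h1 : algebraMap R ↥(chartOne R E u) (p.eval c) =
      aeval (algebraMap R ↥(chartOne R E u) c) p := (aeval_algebraMap_apply _ c p).symm
  have h2 : chartCoordElt u - algebraMap R ↥(chartOne R E u) c ∣
      aeval (chartCoordElt (R := R) (E := E) u) p - aeval (algebraMap R ↥(chartOne R E u) c) p := by
    rw [aeval_def, aeval_def, eval₂_eq_eval_map, eval₂_eq_eval_map]
    exact sub_dvd_eval_sub _ _ _
  have h3 : aeval (chartCoordElt (R := R) (E := E) u) p - aeval (algebraMap R ↥(chartOne R E u) c) p ∈ 𝔫 :=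
    Ideal.mem_of_dvd _ h2 hc
  rw [h1]
  constructor
  · intro h
    have := 𝔫.sub_mem h h3
    rwa [sub_sub_cancel] at this
  · intro h
    have := 𝔫.add_mem h3 h
    rwa [sub_add_cancel] at this

variable (R E) in
/-- the structure map `R[u] → chartOne R E u`. -/
def chartAdjoinHom (u : K) : ↥(Algebra.adjoin R {u}) →+* ↥(chartOne R E u) where
  toFun a := ⟨algebraMap ↥(Algebra.adjoin R {u}) E a, by
    rw [mem_chartOne_iff]; exact isIntegral_algebraMap⟩
  map_one' := Subtype.ext (map_one _)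
  map_mul' a b := Subtype.ext (map_mul _ a b)
  map_zero' := Subtype.ext (map_zero _)
  map_add' a b := Subtype.ext (map_add _ a b)

theorem coe_chartAdjoinHom (a : ↥(Algebra.adjoin R {u})) :
    ((chartAdjoinHom R E u a : ↥(chartOne R E u)) : E) = algebraMap K E (a : K) := rfl

theorem chartAdjoinHom_algebraMap (r : R) :
    chartAdjoinHom R E u (algebraMap R ↥(Algebra.adjoin R {u}) r) =
      algebraMap R ↥(chartOne R E u) r := by
  apply Subtype.ext
  rw [coe_chartAdjoinHom]
  show algebraMap K E (algebraMap R K r) = algebraMap R E r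
  rw [← IsScalarTower.algebraMap_apply]

theorem chartAdjoinHom_aeval (p : R[X]) :
    chartAdjoinHom R E u
        (aeval (⟨u, Algebra.self_mem_adjoin_singleton R u⟩ : ↥(Algebra.adjoin R {u})) p) =
      aeval (chartCoordElt (R := R) (E := E) u) p := by
  rw [aeval_def, aeval_def, hom_eval₂]
  congr 1
  exact RingHom.ext fun r => chartAdjoinHom_algebraMap r

/-- two closed points of the special fibre with the same value of the coordinate lie over the same
prime of `R[u]`. -/
theorem comap_chartAdjoinHom_eq (hπ : Irreducible π) (𝔫 𝔫' : Ideal ↥(chartOne R E u))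
    [h𝔫 : 𝔫.IsMaximal] [h𝔫' : 𝔫'.IsMaximal]
    (hπ𝔫 : algebraMap R ↥(chartOne R E u) π ∈ 𝔫) (hπ𝔫' : algebraMap R ↥(chartOne R E u) π ∈ 𝔫')
    (c : R) (hc : chartCoordElt u - algebraMap R ↥(chartOne R E u) c ∈ 𝔫)
    (hc' : chartCoordElt u - algebraMap R ↥(chartOne R E u) c ∈ 𝔫') :
    𝔫.comap (chartAdjoinHom R E u) = 𝔫'.comap (chartAdjoinHom R E u) := by
  ext a
  obtain ⟨a, ha⟩ := a
  have ha' := ha
  rw [Algebra.adjoin_singleton_eq_range_aeval] at ha'
  obtain ⟨p, hp⟩ := ha'
  have hap : (⟨a, ha⟩ : ↥(Algebra.adjoin R {u})) =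
      aeval (⟨u, Algebra.self_mem_adjoin_singleton R u⟩ : ↥(Algebra.adjoin R {u})) p := by
    apply Subtype.ext
    rw [coe_aeval_adjoin_gen]
    exact hp.symm
  rw [Ideal.mem_comap, Ideal.mem_comap, hap, chartAdjoinHom_aeval,
    aeval_chartCoordElt_mem_iff hπ 𝔫 hπ𝔫 c hc, aeval_chartCoordElt_mem_iff hπ 𝔫' hπ𝔫' c hc']

/-- **at most `[E : K]` closed points of the special fibre have a given value of the coordinate.** -/
theorem card_le_of_forall_coord (hπ : Irreducible π) (hu : Transcendental K₁ u)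
    (hK : IntermediateField.adjoin K₁ {u} = ⊤) [Infinite (IsLocalRing.ResidueField R)]
    (c : R) (s : Finset (Ideal ↥(chartOne R E u)))
    (hs : ∀ 𝔫 ∈ s, 𝔫.IsMaximal ∧ algebraMap R ↥(chartOne R E u) π ∈ 𝔫 ∧
      chartCoordElt u - algebraMap R ↥(chartOne R E u) c ∈ 𝔫) :
    s.card ≤ Module.finrank K E := by
  classical
  rcases s.eq_empty_or_nonempty with rfl | ⟨𝔫₀, h𝔫₀⟩
  · simp
  haveI : IsFractionRing ↥(Algebra.adjoin R {u}) K := isFractionRing_adjoin (R := R) u hK
  haveI : IsIntegrallyClosed ↥(Algebra.adjoin R {u}) := isIntegrallyClosed_adjoin (R := R) u hu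
  letI : Algebra ↥(Algebra.adjoin R {u}) ↥(chartOne R E u) := (chartAdjoinHom R E u).toAlgebra
  let ι : ↥(chartOne R E u) →ₐ[↥(Algebra.adjoin R {u})] E :=
    { toFun := fun x => (x : E)
      map_one' := rfl
      map_mul' := fun _ _ => rfl
      map_zero' := rfl
      map_add' := fun _ _ => rfl
      commutes' := fun _ => rfl }
  have hι : Function.Injective ι := fun x y h => Subtype.ext h
  have hint : ∀ x : ↥(chartOne R E u), IsIntegral ↥(Algebra.adjoin R {u}) (ι x) := fun x => x.2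
  haveI : Algebra.IsIntegral ↥(Algebra.adjoin R {u}) ↥(chartOne R E u) := by
    refine ⟨fun x => ?_⟩
    exact (isIntegral_algHom_iff ι hι).mp (hint x)
  obtain ⟨hmax₀, hπ₀, hc₀⟩ := hs 𝔫₀ h𝔫₀
  haveI := hmax₀
  set 𝔭 : Ideal ↥(Algebra.adjoin R {u}) :=
    𝔫₀.comap (algebraMap ↥(Algebra.adjoin R {u}) ↥(chartOne R E u)) with h𝔭
  haveI : 𝔭.IsMaximal := Ideal.isMaximal_comap_of_isIntegral_of_isMaximal 𝔫₀
  -- infinitely many residues
  have hex : ∀ i : ℕ, ∃ r : R, IsLocalRing.residue R r =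
      Infinite.natEmbedding (IsLocalRing.ResidueField R) i :=
    fun i => IsLocalRing.residue_surjective _
  choose r hr using hex
  have hrne : ∀ i i', i ≠ i' → r i - r i' ∉ Ideal.span {π} := by
    intro i i' hii' hmem
    rw [← hπ.maximalIdeal_eq, ← IsLocalRing.residue_eq_zero_iff, map_sub, hr, hr, sub_eq_zero] at hmem
    exact hii' ((Infinite.natEmbedding (IsLocalRing.ResidueField R)).injective hmem)
  refine nodecount_card_primes_over_le (K := K) ι hι hint 𝔭
    (fun i => algebraMap R ↥(Algebra.adjoin R {u}) (r i)) ?_ s ?_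
  · intro i i' hii' hmem
    apply hrne i i' hii'
    rw [← map_sub, h𝔭, Ideal.mem_comap] at hmem
    have h1 : algebraMap ↥(Algebra.adjoin R {u}) ↥(chartOne R E u)
        (algebraMap R ↥(Algebra.adjoin R {u}) (r i - r i')) =
        algebraMap R ↥(chartOne R E u) (r i - r i') := chartAdjoinHom_algebraMap _
    rw [h1] at hmem
    exact (algebraMap_mem_iff_of_isMaximal hπ 𝔫₀ hπ₀ _).mp hmem
  · intro 𝔫 h𝔫
    obtain ⟨hmax, hπ𝔫, hc𝔫⟩ := hs 𝔫 h𝔫
    haveI := hmax
    exact ⟨hmax, comap_chartAdjoinHom_eq hπ 𝔫 𝔫₀ hπ𝔫 hπ₀ c hc𝔫 hc₀⟩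

end Chart

end Fermat.Agent.S35
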