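/-
S35 [NODECOUNT] — helper2 — **a uniform iterate of a Frobenius-type automorphism fixes every
node**.

In helper7's `SSModel` (two sheets `Winf`, `W0` of the chart `chartOne R E_N j`), a *node* is a
maximal ideal of the chart containing both sheet ideals.  A node contains `π` and `j^{q²} − j`
(Kronecker congruences), has residue field `k` (helper4's (V6)), hence lies over one of the at most
`q²` primes `(π, j − c)`, `c̄ ∈ F_{q²}`, of `R[j]`; over each of them there are at most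
`[E_N : K_N]` maximal ideals of the chart.  So there are at most `q² D` nodes (`D ≥ [E_N : K_N]`),
a Frobenius-type automorphism (`SSFrobAut`) permutes them, and its `(q² D)!`-th power fixes each.

* `nodePeriod q D = (q ^ 2 * D)!`, `nodePeriod_pos`;
* `IsNode`, `nodecount_card_nodes_le`;
* `SSFrobAut.map_mem_chartOne`, `SSFrobAut.pow_map_mem_chartOne`;
* **`nodecount_pow_nodePeriod_mem_iff`**.
-/
import Mathlib
import Fermat.Agent.S35.NODECOUNT_helper2_Chart
import Fermat.Agent.S35.FROBAUT_helper8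
import Fermat.Agent.SS.EXPORT_helper4_Model
import Fermat.Agent.SS.GSIGMA_helper5_Abs

set_option autoImplicit false
set_option linter.unusedSectionVars false
set_option linter.style.haveILetI false

namespace Fermat.Agent.S35

open Fermat.Agent.JA Fermat.Agent.SS Polynomial

/-- **the uniform exponent**: `(q² D)!`. -/
def nodePeriod (q D : ℕ) : ℕ := (q ^ 2 * D).factorial

theorem nodePeriod_pos (q D : ℕ) : 0 < nodePeriod q D := Nat.factorial_pos _

section Model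

variable {R : Type*} [CommRing R] [IsDomain R] [IsDiscreteValuationRing R] [CharZero R]
  {K₁ : Type*} [Field K₁] [Algebra R K₁] [IsFractionRing R K₁]
  {KM : Type*} [Field KM] [Algebra K₁ KM] [Algebra R KM] [IsScalarTower R K₁ KM]
  {EM : Type*} [Field EM] [Algebra KM EM] [Algebra K₁ EM] [IsScalarTower K₁ KM EM] [Algebra R EM]
  [IsScalarTower R KM EM]
  {KN : Type*} [Field KN] [Algebra K₁ KN] [Algebra R KN] [IsScalarTower R K₁ KN]
  {EN : Type*} [Field EN] [Algebra KN EN] [Algebra K₁ EN] [IsScalarTower K₁ KN EN] [Algebra R EN]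
  [IsScalarTower R KN EN] [FiniteDimensional KN EN]
  {π : R} {q n : ℕ} {S : Finset R} {t : KM} {jM : EM} {j : KN} {A B : EM →+* EN}
  {VM : ValuationSubring EM} {Winf W0 : ValuationSubring EN}

/-- a **node** of a two-sheeted chart: a closed point lying on both sheets. -/
def IsNode (h2 : IsTwoSheet π j Winf W0) (𝔫 : Ideal ↥(chartOne R EN j)) : Prop :=
  𝔫.IsMaximal ∧ sheetIdeal j Winf h2.chart_le_inf ≤ 𝔫 ∧ sheetIdeal j W0 h2.chart_le_zero ≤ 𝔫

include K₁ in
theorem IsNode.pi_mem {h2 : IsTwoSheet π j Winf W0} {𝔫 : Ideal ↥(chartOne R EN j)}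
    (h𝔫 : IsNode h2 𝔫) (hπ : Irreducible π) : algebraMap R ↥(chartOne R EN j) π ∈ 𝔫 :=
  h𝔫.2.1 (h2.pi_mem_inf (K₁ := K₁) hπ)

/-- `j^{q²} ≡ j` at a node. -/
theorem nodecount_coord_pow_sub_mem (h : SSModel K₁ π q n S t jM j A B VM Winf W0)
    (hπ : Irreducible π) {𝔫 : Ideal ↥(chartOne R EN j)} (h𝔫 : IsNode h.two 𝔫) :
    chartCoordElt (R := R) (E := EN) j ^ (q ^ 2) - chartCoordElt j ∈ 𝔫 := by
  set jq : ↥(chartOne R EN j) := ⟨B jM, h.jq_mem_chartOne hπ⟩ with hjq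
  have h1 : jq - chartCoordElt j ^ q ∈ 𝔫 := by
    apply h𝔫.2.1
    rw [mem_sheetIdeal_iff]
    have := h.kron_j_inf
    rw [h.A_j] at this
    exact this
  have h2 : chartCoordElt j - jq ^ q ∈ 𝔫 := by
    apply h𝔫.2.2
    rw [mem_sheetIdeal_iff]
    have := h.kron_j_zero
    rw [h.A_j] at this
    exact this
  have h3 : jq ^ q - (chartCoordElt j ^ q) ^ q ∈ 𝔫 :=
    Ideal.mem_of_dvd _ (sub_dvd_pow_sub_pow _ _ q) h1
  have h4 : chartCoordElt (R := R) (E := EN) j ^ (q ^ 2) - chartCoordElt j =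
      -((chartCoordElt j - jq ^ q) + (jq ^ q - (chartCoordElt j ^ q) ^ q)) := by
    rw [pow_two, pow_mul]
    ring
  rw [h4]
  exact 𝔫.neg_mem (𝔫.add_mem h2 h3)

/-- **there are at most `q² D` nodes.** -/
theorem nodecount_card_nodes_le (h : SSModel K₁ π q n S t jM j A B VM Winf W0)
    (hπ : Irreducible π) [IsAlgClosed (IsLocalRing.ResidueField R)] {D : ℕ}
    (hD : Module.finrank KN EN ≤ D) (s : Finset (Ideal ↥(chartOne R EN j)))
    (hs : ∀ 𝔫 ∈ s, IsNode h.two 𝔫) : s.card ≤ q ^ 2 * D := by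
  classical
  by_contra hlt
  rw [not_le] at hlt
  have hu := h.j_transcendental
  have hK := h.j_adjoin
  -- the value of the coordinate at a node
  have hex : ∀ 𝔫 ∈ s, ∃ c : R, chartCoordElt j - algebraMap R ↥(chartOne R EN j) c ∈ 𝔫 := by
    intro 𝔫 h𝔫
    haveI := (hs 𝔫 h𝔫).1
    exact exists_sub_mem_of_isMaximal_chartOne hπ hu hK 𝔫 ((hs 𝔫 h𝔫).pi_mem (K₁ := K₁) hπ) _
  let cval : Ideal ↥(chartOne R EN j) → R := fun 𝔫 =>
    Classical.epsilon (fun c : R => chartCoordElt j - algebraMap R ↥(chartOne R EN j) c ∈ 𝔫)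
  have hcval : ∀ 𝔫 ∈ s, chartCoordElt j - algebraMap R ↥(chartOne R EN j) (cval 𝔫) ∈ 𝔫 :=
    fun 𝔫 h𝔫 => Classical.epsilon_spec (hex 𝔫 h𝔫)
  let φ : Ideal ↥(chartOne R EN j) → IsLocalRing.ResidueField R :=
    fun 𝔫 => IsLocalRing.residue R (cval 𝔫)
  have hq1 : 1 < q ^ 2 := by
    have := h.q_prime.two_le
    nlinarith
  set P : (IsLocalRing.ResidueField R)[X] := X ^ (q ^ 2) - X with hP
  have hP0 : P ≠ 0 := FiniteField.X_pow_card_sub_X_ne_zero _ hq1
  have hPdeg : P.natDegree = q ^ 2 := FiniteField.X_pow_card_sub_X_natDegree_eq _ hq1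
  set T : Finset (IsLocalRing.ResidueField R) := P.roots.toFinset with hT
  have hTcard : T.card ≤ q ^ 2 := by
    rw [← hPdeg]
    exact le_trans (Multiset.toFinset_card_le _) (Polynomial.card_roots' P)
  have hmaps : ∀ 𝔫 ∈ s, φ 𝔫 ∈ T := by
    intro 𝔫 h𝔫
    haveI := (hs 𝔫 h𝔫).1
    have hπ𝔫 := (hs 𝔫 h𝔫).pi_mem (K₁ := K₁) hπ
    rw [hT, Multiset.mem_toFinset, mem_roots hP0, IsRoot.def, hP, eval_sub, eval_pow, eval_X]
    show IsLocalRing.residue R (cval 𝔫) ^ (q ^ 2) - IsLocalRing.residue R (cval 𝔫) = 0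
    rw [← map_pow, ← map_sub, IsLocalRing.residue_eq_zero_iff, hπ.maximalIdeal_eq,
      ← algebraMap_mem_iff_of_isMaximal hπ 𝔫 hπ𝔫]
    -- `c^{q²} − c ≡ j^{q²} − j ≡ 0`
    have h1 := nodecount_coord_pow_sub_mem h hπ (hs 𝔫 h𝔫)
    have h2 := hcval 𝔫 h𝔫
    have h3 : chartCoordElt (R := R) (E := EN) j ^ (q ^ 2) -
        (algebraMap R ↥(chartOne R EN j) (cval 𝔫)) ^ (q ^ 2) ∈ 𝔫 :=
      Ideal.mem_of_dvd _ (sub_dvd_pow_sub_pow _ _ _) h2
    have h4 : algebraMap R ↥(chartOne R EN j) (cval 𝔫 ^ (q ^ 2) - cval 𝔫) =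
        (chartCoordElt (R := R) (E := EN) j ^ (q ^ 2) - chartCoordElt j) -
          (chartCoordElt (R := R) (E := EN) j ^ (q ^ 2) -
            (algebraMap R ↥(chartOne R EN j) (cval 𝔫)) ^ (q ^ 2)) +
          (chartCoordElt j - algebraMap R ↥(chartOne R EN j) (cval 𝔫)) := by
      rw [map_sub, map_pow]
      ring
    rw [h4]
    exact 𝔫.add_mem (𝔫.sub_mem h1 h3) h2
  -- pigeonhole
  have hlt' : T.card * D < s.card :=
    lt_of_le_of_lt (Nat.mul_le_mul_right D hTcard) hlt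
  obtain ⟨y, -, hy⟩ := Finset.exists_lt_card_fiber_of_mul_lt_card_of_maps_to hmaps hlt'
  obtain ⟨c, rfl⟩ := IsLocalRing.residue_surjective y
  have hle : (s.filter fun 𝔫 => φ 𝔫 = IsLocalRing.residue R c).card ≤ Module.finrank KN EN := by
    refine card_le_of_forall_coord (K₁ := K₁) hπ hu hK c _ ?_
    intro 𝔫 h𝔫
    rw [Finset.mem_filter] at h𝔫
    obtain ⟨h𝔫s, h𝔫c⟩ := h𝔫
    haveI := (hs 𝔫 h𝔫s).1
    have hπ𝔫 := (hs 𝔫 h𝔫s).pi_mem (K₁ := K₁) hπ
    refine ⟨(hs 𝔫 h𝔫s).1, hπ𝔫, ?_⟩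
    have h1 : cval 𝔫 - c ∈ Ideal.span {π} := by
      rw [← hπ.maximalIdeal_eq, ← IsLocalRing.residue_eq_zero_iff, map_sub, sub_eq_zero]
      exact h𝔫c
    have h2 := (algebraMap_mem_iff_of_isMaximal hπ 𝔫 hπ𝔫 _).mpr h1
    have h3 : chartCoordElt j - algebraMap R ↥(chartOne R EN j) c =
        (chartCoordElt j - algebraMap R ↥(chartOne R EN j) (cval 𝔫)) +
          algebraMap R ↥(chartOne R EN j) (cval 𝔫 - c) := by
      rw [map_sub]
      ring
    rw [h3]
    exact 𝔫.add_mem (hcval 𝔫 h𝔫s) h2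
  exact absurd (lt_of_lt_of_le hy (le_trans hle hD)) (lt_irrefl _)

section Aut

variable {Q : ℕ} {sR : R →+* R} {s : EN →+* EN}

/-- a Frobenius-type automorphism maps the chart into itself. -/
theorem SSFrobAut.map_mem_chartOne (hs : SSFrobAut π Q j Winf W0 sR s) {x : EN}
    (hx : x ∈ chartOne R EN j) : s x ∈ chartOne R EN j :=
  map_mem_chartOne_of_ringHom j s hs.map_j (fun r => ⟨sR r, hs.map_R r⟩) hx

/-- a Frobenius-type automorphism maps the chart onto itself. -/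
theorem SSFrobAut.exists_map_eq (hs : SSFrobAut π Q j Winf W0 sR s) {y : EN}
    (hy : y ∈ chartOne R EN j) : ∃ x ∈ chartOne R EN j, s x = y := by
  let σ : EN ≃+* EN := RingEquiv.ofBijective s hs.bij
  refine ⟨σ.symm y, ?_, σ.apply_symm_apply y⟩
  refine map_mem_chartOne_of_ringHom j (σ.symm : EN →+* EN) ?_ ?_ hy
  · show σ.symm (algebraMap KN EN j) = algebraMap KN EN j
    rw [RingEquiv.symm_apply_eq]
    exact hs.map_j.symm
  · intro r
    obtain ⟨r', rfl⟩ := hs.bij_R.2 r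
    refine ⟨r', ?_⟩
    show σ.symm (algebraMap R EN (sR r')) = algebraMap R EN r'
    rw [RingEquiv.symm_apply_eq]
    exact (hs.map_R r').symm

/-- the restriction of a Frobenius-type automorphism to the chart. -/
def SSFrobAut.chartHom (hs : SSFrobAut π Q j Winf W0 sR s) :
    ↥(chartOne R EN j) →+* ↥(chartOne R EN j) :=
  transportHom s (chartOne R EN j) (chartOne R EN j) (fun _ he => hs.map_mem_chartOne he)

@[simp] theorem SSFrobAut.coe_chartHom (hs : SSFrobAut π Q j Winf W0 sR s)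
    (x : ↥(chartOne R EN j)) : ((hs.chartHom x : ↥(chartOne R EN j)) : EN) = s (x : EN) := rfl

theorem SSFrobAut.chartHom_surjective (hs : SSFrobAut π Q j Winf W0 sR s) :
    Function.Surjective hs.chartHom := by
  rintro ⟨y, hy⟩
  obtain ⟨x, hx, hxy⟩ := hs.exists_map_eq hy
  exact ⟨⟨x, hx⟩, Subtype.ext hxy⟩

theorem SSFrobAut.coe_chartHom_iterate (hs : SSFrobAut π Q j Winf W0 sR s) (r : ℕ)
    (x : ↥(chartOne R EN j)) :
    (((hs.chartHom)^[r] x : ↥(chartOne R EN j)) : EN) = (s ^ r) (x : EN) := by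
  induction r with
  | zero => rfl
  | succ r ih =>
    rw [Function.iterate_succ_apply', hs.coe_chartHom, ih, ringHom_pow_succ_apply]

/-- iterates map the chart into itself. -/
theorem SSFrobAut.pow_map_mem_chartOne (hs : SSFrobAut π Q j Winf W0 sR s) (r : ℕ) {x : EN}
    (hx : x ∈ chartOne R EN j) : (s ^ r) x ∈ chartOne R EN j := by
  have := hs.coe_chartHom_iterate r ⟨x, hx⟩
  rw [← this]
  exact ((hs.chartHom)^[r] ⟨x, hx⟩).2

/-- the preimage of a node under a Frobenius-type automorphism is a node. -/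
theorem IsNode.comap_chartHom (hs : SSFrobAut π Q j Winf W0 sR s) {h2 : IsTwoSheet π j Winf W0}
    {𝔫 : Ideal ↥(chartOne R EN j)} (h𝔫 : IsNode h2 𝔫) : IsNode h2 (𝔫.comap hs.chartHom) := by
  haveI := h𝔫.1
  refine ⟨Ideal.comap_isMaximal_of_surjective hs.chartHom hs.chartHom_surjective, ?_, ?_⟩
  · intro x hx
    rw [Ideal.mem_comap]
    apply h𝔫.2.1
    rw [mem_sheetIdeal_iff] at hx ⊢
    exact (valuation_map_lt_one_iff Winf s hs.mem_inf (x : EN)).mpr hx
  · intro x hx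
    rw [Ideal.mem_comap]
    apply h𝔫.2.2
    rw [mem_sheetIdeal_iff] at hx ⊢
    exact (valuation_map_lt_one_iff W0 s hs.mem_zero (x : EN)).mpr hx

theorem mem_iterate_comap_iff {B' : Type*} [CommRing B'] (σ : B' →+* B') (r : ℕ) (𝔫 : Ideal B')
    (x : B') : x ∈ (Ideal.comap σ)^[r] 𝔫 ↔ σ^[r] x ∈ 𝔫 := by
  induction r generalizing x with
  | zero => rfl
  | succ r ih =>
    rw [Function.iterate_succ_apply', Ideal.mem_comap, ih, ← Function.iterate_succ_apply]

/-- **[NODECOUNT]: the `(q² D)!`-th power of a Frobenius-type automorphism fixes every node**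
(`D ≥ [E_N : K_N]`). -/
theorem nodecount_pow_nodePeriod_mem_iff (h : SSModel K₁ π q n S t jM j A B VM Winf W0)
    (hπ : Irreducible π) [IsAlgClosed (IsLocalRing.ResidueField R)] {D : ℕ}
    (hD : Module.finrank KN EN ≤ D) (hs : SSFrobAut π Q j Winf W0 sR s)
    {𝔫 : Ideal ↥(chartOne R EN j)} (h𝔫 : IsNode h.two 𝔫) (x : ↥(chartOne R EN j)) :
    ∃ hx : (s ^ nodePeriod q D) (x : EN) ∈ chartOne R EN j,
      (x ∈ 𝔫 ↔ (⟨(s ^ nodePeriod q D) (x : EN), hx⟩ : ↥(chartOne R EN j)) ∈ 𝔫) := by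
  have hfix : (Ideal.comap hs.chartHom)^[nodePeriod q D] 𝔫 = 𝔫 :=
    nodecount_iterate_eq_self (Ideal.comap hs.chartHom)
      (Ideal.comap_injective_of_surjective hs.chartHom hs.chartHom_surjective)
      (IsNode h.two) (fun _ ha => ha.comap_chartHom hs) (q ^ 2 * D)
      (fun s' hs' => nodecount_card_nodes_le h hπ hD s' hs') 𝔫 h𝔫
  refine ⟨hs.pow_map_mem_chartOne _ x.2, ?_⟩
  have h1 := mem_iterate_comap_iff hs.chartHom (nodePeriod q D) 𝔫 x
  rw [hfix] at h1
  rw [h1]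
  have h2 : (hs.chartHom)^[nodePeriod q D] x =
      (⟨(s ^ nodePeriod q D) (x : EN), hs.pow_map_mem_chartOne _ x.2⟩ : ↥(chartOne R EN j)) :=
    Subtype.ext (hs.coe_chartHom_iterate _ x)
  rw [h2]

/-- **[NODECOUNT], in the form consumed by helper5's `SSModel.toricDatumAt_one/_two` (`hnode`).** -/
theorem nodecount_hnode (h : SSModel K₁ π q n S t jM j A B VM Winf W0)
    (hπ : Irreducible π) [IsAlgClosed (IsLocalRing.ResidueField R)] {D : ℕ}
    (hD : Module.finrank KN EN ≤ D) (hs : SSFrobAut π Q j Winf W0 sR s) :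
    ∀ 𝔫 : Ideal ↥(chartOne R EN j), 𝔫.IsMaximal →
      sheetIdeal j Winf h.two.chart_le_inf ≤ 𝔫 → sheetIdeal j W0 h.two.chart_le_zero ≤ 𝔫 →
      ∀ x : ↥(chartOne R EN j),
        (x ∈ 𝔫 ↔ (s ^ nodePeriod q D) (x : EN) ∈ locMax (chartOne R EN j) 𝔫) := by
  intro 𝔫 hmax hinf hzero x
  haveI : 𝔫.IsPrime := hmax.isPrime
  obtain ⟨hx, hiff⟩ := nodecount_pow_nodePeriod_mem_iff h hπ hD hs
    (𝔫 := 𝔫) ⟨hmax, hinf, hzero⟩ x
  rw [hiff, ← coe_mem_locMax_iff]

/-- the iterate is again a Frobenius-type automorphism, with `Q ^ nodePeriod q D`. -/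
theorem nodecount_ssFrobAut_pow (hs : SSFrobAut π Q j Winf W0 sR s) (hQ : 0 < Q) (D : ℕ) :
    SSFrobAut π (Q ^ nodePeriod q D) j Winf W0 (sR ^ nodePeriod q D) (s ^ nodePeriod q D) :=
  hs.pow hQ _

end Aut

end Model

end Fermat.Agent.S35
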