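/-
S35 [TORIC], local part — helper5 — part 3: **the toric closed data on a chart.**

`B = chartOne R E u` a chart of the two-sheeted model (`IsTwoSheet π u Winf W0`, `IsModelChart`).
A function `G` is *toric* if it is congruent to `m`-th powers `Λ_∞ ^ m`, `Λ_0 ^ m` of units on the two
sheets.  For a toric `G` with rational `m`-divisible horizontal divisor:

* `IsTwoSheet.isKummerOnChart_of_toric` : `IsKummerOnChart` (so `IsModelChart.closed_datum` applies);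
* `ToricDatumAt` : the closed datum at a closed point `𝔫` (a local root `Γ` of `G`, and units
  `w_∞`, `w_0` of the local ring congruent to `Λ_∞ / Γ`, `Λ_0 / Γ` along the sheets through `𝔫`,
  congruent to each other modulo `𝔫` at a crossing point);
* `IsTwoSheet.toricDatumAt_of_not_crossing` : it exists at every closed point which is not a crossing
  point;
* `toricDatumAt_of_fixed_crossing` : it exists at a crossing point fixed by the Frobenius-type
  endomorphism `s` for `G = s g / g ^ Q`, `Λ_W = s λ_W / λ_W ^ Q`.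
-/
import Mathlib
import Fermat.Agent.S35.NODEFROB_helper5_Frob
import Fermat.Agent.SS.GLUE_helper3_C
import Fermat.Agent.S35.FROBAUT_helper8

set_option autoImplicit false
set_option linter.unusedSectionVars false
set_option linter.style.haveILetI false

open AlgebraicCurve

namespace Fermat.Agent.SS

open Fermat.Agent.JA Polynomial

section Def

variable {R : Type*} [CommRing R] {E : Type*} [Field E] [Algebra R E]

/-- **the toric closed datum at the closed point `𝔫`** of the chart `B`: a local root `Γ` of `G`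
(`G / Γ ^ m` a unit at `𝔫`) and units `w_∞`, `w_0` of the local ring at `𝔫`, congruent to `Λ_∞ / Γ`
on the sheet `W_∞` (if it passes through `𝔫`), to `Λ_0 / Γ` on `W_0` (if it passes through `𝔫`), and
to each other modulo `𝔫` at a crossing point. -/
def ToricDatumAt (B : Subalgebra R E) (𝔭inf 𝔭0 𝔫 : Ideal ↥B) [𝔫.IsPrime]
    (Winf W0 : ValuationSubring E) (m : ℕ) (G Linf L0 : E) : Prop :=
  ∃ Γ winf w0 : E, Γ ≠ 0 ∧
    (∃ c d : ↥B, c ∉ 𝔫 ∧ d ∉ 𝔫 ∧ G * (d : E) = Γ ^ m * (c : E)) ∧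
    (𝔭inf ≤ 𝔫 → winf ∈ locRing B 𝔫 ∧ winf ∉ locMax B 𝔫 ∧
      Winf.valuation (Linf / Γ - winf) < 1) ∧
    (𝔭0 ≤ 𝔫 → w0 ∈ locRing B 𝔫 ∧ w0 ∉ locMax B 𝔫 ∧ W0.valuation (L0 / Γ - w0) < 1) ∧
    (𝔭inf ≤ 𝔫 → 𝔭0 ≤ 𝔫 → winf - w0 ∈ locMax B 𝔫)

end Def

section Chart

variable {R : Type*} [CommRing R] [IsDomain R] [IsDiscreteValuationRing R] [CharZero R]
  {K₁ : Type*} [Field K₁] [Algebra R K₁] [IsFractionRing R K₁]
  {K : Type*} [Field K] [Algebra K₁ K] [Algebra R K] [IsScalarTower R K₁ K]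
  {E : Type*} [Field E] [Algebra K E] [Algebra K₁ E] [IsScalarTower K₁ K E] [Algebra R E]
  [IsScalarTower R K E] [FiniteDimensional K E]
  {π : R} {u : K} {Winf W0 : ValuationSubring E}

/-- an element of a sheet as a fraction of chart elements, the denominator a unit of the sheet. -/
theorem exists_mul_eq_of_valuation_eq_one {W : ValuationSubring E}
    {𝔭 : Ideal ↥(chartOne R E u)}
    (h𝔭 : ∀ b : ↥(chartOne R E u), b ∈ 𝔭 ↔ W.valuation (b : E) < 1)
    (hloc : ∀ x ∈ W, ∃ r s : ↥(chartOne R E u), s ∉ 𝔭 ∧ x * (s : E) = (r : E))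
    {x : E} (hx : W.valuation x = 1) :
    ∃ r s : ↥(chartOne R E u), r ∉ 𝔭 ∧ s ∉ 𝔭 ∧ x * (s : E) = (r : E) := by
  obtain ⟨r, s, hs, hrs⟩ := hloc x ((ValuationSubring.valuation_le_one_iff _ _).mp hx.le)
  refine ⟨r, s, ?_, hs, hrs⟩
  intro hr
  have h1 := (h𝔭 r).mp hr
  rw [← hrs, map_mul, hx, one_mul] at h1
  exact hs ((h𝔭 s).mpr h1)

/-- **a toric function with rational `m`-divisible horizontal divisor is Kummer on the chart.** -/
theorem IsTwoSheet.isKummerOnChart_of_toric (h2 : IsTwoSheet π u Winf W0) (hπ : Irreducible π)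
    (hu : Transcendental K₁ u) (hK : IntermediateField.adjoin K₁ {u} = ⊤)
    {m : ℕ} {G Linf : E} (hG : G ≠ 0)
    (hordG : ∀ P : Place K₁ E, P.ord G = 0 ∨ (IsRationalPlace P ∧ (m : ℤ) ∣ P.ord G))
    (hLinf : Winf.valuation Linf = 1) (hGinf : Winf.valuation (G - Linf ^ m) < 1)
    (hG0 : W0.valuation G = 1) :
    IsKummerOnChart π (sheetIdeal u Winf h2.chart_le_inf) (sheetIdeal u W0 h2.chart_le_zero)
      m G := by
  haveI : IsScalarTower R K₁ E := isScalarTower_base_const R K₁ K E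
  haveI : IsIntegrallyClosed ↥(chartOne R E u) := isIntegrallyClosed_chartOne (K₁ := K₁) u hK
  haveI : IsNoetherianRing ↥(chartOne R E u) := isNoetherianRing_chartOne (K₁ := K₁) u hu hK
  haveI : IsFractionRing ↥(chartOne R E u) E := isFractionRing_chartOne (K₁ := K₁) u hK
  have hGinf1 : Winf.valuation G = 1 := by
    refine valuation_eq_one_of_sub_lt_one Winf (a := Linf ^ m) ?_ hGinf
    rw [map_pow, hLinf, one_pow]
  refine ⟨?_, ?_, ?_⟩
  · intro 𝔪 h𝔪 hπ𝔪 𝔮 h𝔮 hht hπ𝔮 hle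
    haveI := h𝔪
    haveI := h𝔮
    exact isKummerAtPrime_of_place (K₁ := K₁) hπ 𝔪 hπ𝔪 𝔮 hht hπ𝔮 hle hG (fun P _ _ => hordG P)
  · obtain ⟨a, b, ha, hb, hab⟩ := exists_mul_eq_of_valuation_eq_one
      (mem_sheetIdeal_iff u Winf h2.chart_le_inf) (h2.exists_mul_eq_of_mem_inf hπ hu hK) hGinf1
    obtain ⟨c, d, hc, hd, hcd⟩ := exists_mul_eq_of_valuation_eq_one
      (mem_sheetIdeal_iff u Winf h2.chart_le_inf) (h2.exists_mul_eq_of_mem_inf hπ hu hK) hLinf
    refine ⟨a, b, c, d, ha, hb, hc, hd, hab, ?_⟩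
    rw [mem_sheetIdeal_iff]
    have h1 : ((a * d ^ m - b * c ^ m : ↥(chartOne R E u)) : E) =
        (G - Linf ^ m) * ((b : E) * (d : E) ^ m) := by
      show (a : E) * (d : E) ^ m - (b : E) * (c : E) ^ m = _
      rw [← hcd, ← hab]; ring
    rw [h1, map_mul]
    have h3 : Winf.valuation ((b : E) * (d : E) ^ m) ≤ 1 :=
      (ValuationSubring.valuation_le_one_iff _ _).mpr
        (Winf.mul_mem _ _ (h2.chart_le_inf _ b.2) (pow_mem (h2.chart_le_inf _ d.2) m))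
    calc Winf.valuation (G - Linf ^ m) * Winf.valuation ((b : E) * (d : E) ^ m)
        ≤ Winf.valuation (G - Linf ^ m) * 1 := mul_le_mul_right h3 _
      _ < 1 := by rw [mul_one]; exact hGinf
  · refine ⟨0, ?_⟩
    obtain ⟨a, b, ha, hb, hab⟩ := exists_mul_eq_of_valuation_eq_one
      (mem_sheetIdeal_iff u W0 h2.chart_le_zero) (h2.exists_mul_eq_of_mem_zero hπ hu hK) hG0
    refine ⟨a, b, ha, hb, ?_⟩
    rw [mul_zero, zpow_zero, inv_one, mul_one]
    exact hab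

/-- **the toric closed datum at a closed point which is not a crossing point.** -/
theorem IsTwoSheet.toricDatumAt_of_not_crossing (h2 : IsTwoSheet π u Winf W0)
    (hπ : Irreducible π) (hu : Transcendental K₁ u) (hK : IntermediateField.adjoin K₁ {u} = ⊤)
    (hmod : IsModelChart E π (sheetIdeal u Winf h2.chart_le_inf)
      (sheetIdeal u W0 h2.chart_le_zero))
    {m : ℕ} (hm : m ≠ 0) {G Linf L0 : E} (hG : G ≠ 0)
    (hordG : ∀ P : Place K₁ E, P.ord G = 0 ∨ (IsRationalPlace P ∧ (m : ℤ) ∣ P.ord G))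
    (hLinf : Winf.valuation Linf = 1) (hGinf : Winf.valuation (G - Linf ^ m) < 1)
    (hL0 : W0.valuation L0 = 1) (hG0 : W0.valuation (G - L0 ^ m) < 1)
    (𝔫 : Ideal ↥(chartOne R E u)) [h𝔫 : 𝔫.IsMaximal]
    (hπ𝔫 : algebraMap R ↥(chartOne R E u) π ∈ 𝔫)
    (hnc : ¬ (sheetIdeal u Winf h2.chart_le_inf ≤ 𝔫 ∧ sheetIdeal u W0 h2.chart_le_zero ≤ 𝔫)) :
    ToricDatumAt (chartOne R E u) (sheetIdeal u Winf h2.chart_le_inf)
      (sheetIdeal u W0 h2.chart_le_zero) 𝔫 Winf W0 m G Linf L0 := by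
  haveI : IsIntegrallyClosed ↥(chartOne R E u) := isIntegrallyClosed_chartOne (K₁ := K₁) u hK
  haveI : IsNoetherianRing ↥(chartOne R E u) := isNoetherianRing_chartOne (K₁ := K₁) u hu hK
  haveI : IsFractionRing ↥(chartOne R E u) E := isFractionRing_chartOne (K₁ := K₁) u hK
  haveI : 𝔫.IsPrime := h𝔫.isPrime
  have hG01 : W0.valuation G = 1 := by
    refine valuation_eq_one_of_sub_lt_one W0 (a := L0 ^ m) ?_ hG0
    rw [map_pow, hL0, one_pow]
  have hk := h2.isKummerOnChart_of_toric hπ hu hK hG hordG hLinf hGinf hG01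
  have hinjE : Function.Injective (algebraMap R E) := by
    rw [IsScalarTower.algebraMap_eq R K E, IsScalarTower.algebraMap_eq R K₁ K]
    exact (algebraMap K E).injective.comp
      ((algebraMap K₁ K).injective.comp (IsFractionRing.injective R K₁))
  have hπne : algebraMap R ↥(chartOne R E u) π ≠ 0 := by
    intro h0
    have := congrArg (fun w : ↥(chartOne R E u) => (w : E)) h0
    exact hπ.ne_zero (hinjE (by rw [map_zero]; exact this))
  obtain ⟨γ, hγ, c, d, hc, hd, hgd⟩ := hmod.closed_datum hπ hπne hm hG hk 𝔫 h𝔫 hπ𝔫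
  have hgd' : G * (d : E) = γ ^ m * (c : E) := hgd
  obtain ⟨hv, hv'⟩ := div_pow_mem_locRing_of_closed_datum hγ hc hd hgd'
  by_cases hinf : sheetIdeal u Winf h2.chart_le_inf ≤ 𝔫
  · have hn0 : ¬ sheetIdeal u W0 h2.chart_le_zero ≤ 𝔫 := fun h0 => hnc ⟨hinf, h0⟩
    obtain ⟨z, hz⟩ := hmod.branch_inf 𝔫 h𝔫 hπ𝔫 hinf hn0
    obtain ⟨-, r, hr, hr', hρr⟩ := exists_div_cong_of_closed_datum h2.chart_le_inf
      (mem_sheetIdeal_iff u Winf h2.chart_le_inf) (h2.exists_mul_eq_of_mem_inf hπ hu hK) hinf hz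
      hm hγ hv hv' hLinf hGinf
    exact ⟨γ, r, 1, hγ, ⟨c, d, hc, hd, hgd'⟩, fun _ => ⟨hr, hr', hρr⟩,
      fun h0 => absurd h0 hn0, fun _ h0 => absurd h0 hn0⟩
  · have h0 : sheetIdeal u W0 h2.chart_le_zero ≤ 𝔫 :=
      (le_or_le_of_mem (h2.pi_mem_inf (K₁ := K₁) hπ) (h2.pi_mem_zero (K₁ := K₁) hπ)
        (h2.inf_le_span hπ hu hK) 𝔫 hπ𝔫).resolve_left hinf
    obtain ⟨z, hz⟩ := hmod.branch_zero 𝔫 h𝔫 hπ𝔫 h0 hinf
    obtain ⟨-, r, hr, hr', hρr⟩ := exists_div_cong_of_closed_datum h2.chart_le_zero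
      (mem_sheetIdeal_iff u W0 h2.chart_le_zero) (h2.exists_mul_eq_of_mem_zero hπ hu hK) h0 hz
      hm hγ hv hv' hL0 hG0
    exact ⟨γ, 1, r, hγ, ⟨c, d, hc, hd, hgd'⟩, fun h => absurd h hinf,
      fun _ => ⟨hr, hr', hρr⟩, fun h _ => absurd h hinf⟩

/-- **the toric closed datum of `G = s g / g ^ Q` at a crossing point fixed by `s`.** -/
theorem IsTwoSheet.toricDatumAt_of_fixed_crossing (h2 : IsTwoSheet π u Winf W0)
    (hπ : Irreducible π) (hu : Transcendental K₁ u) (hK : IntermediateField.adjoin K₁ {u} = ⊤)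
    (hmod : IsModelChart E π (sheetIdeal u Winf h2.chart_le_inf)
      (sheetIdeal u W0 h2.chart_le_zero))
    [IsAlgClosed (IsLocalRing.ResidueField R)]
    {m : ℕ} (hm : m ≠ 0) {g linf l0 : E} (hg : g ≠ 0)
    (hordg : ∀ P : Place K₁ E, P.ord g = 0 ∨ (IsRationalPlace P ∧ (m : ℤ) ∣ P.ord g))
    (hlinf : Winf.valuation linf = 1) (hginf : Winf.valuation (g - linf ^ m) < 1)
    (hl0 : W0.valuation l0 = 1) (hg0 : W0.valuation (g - l0 ^ m) < 1)
    (s : E →+* E) (sR : R →+* R) (Q : ℕ)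
    (hsR : ∀ r : R, s (algebraMap R E r) = algebraMap R E (sR r))
    (hfrob : ∀ r : R, sR r - r ^ Q ∈ Ideal.span {π})
    (hsinf : ∀ x : E, x ∈ Winf ↔ s x ∈ Winf) (hs0 : ∀ x : E, x ∈ W0 ↔ s x ∈ W0)
    (𝔫 : Ideal ↥(chartOne R E u)) [h𝔫 : 𝔫.IsMaximal]
    (hinf : sheetIdeal u Winf h2.chart_le_inf ≤ 𝔫) (h0 : sheetIdeal u W0 h2.chart_le_zero ≤ 𝔫)
    (hsO : ∀ e ∈ locRing (chartOne R E u) 𝔫, s e ∈ locRing (chartOne R E u) 𝔫)
    (hsM : ∀ e ∈ locMax (chartOne R E u) 𝔫, s e ∈ locMax (chartOne R E u) 𝔫) :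
    ToricDatumAt (chartOne R E u) (sheetIdeal u Winf h2.chart_le_inf)
      (sheetIdeal u W0 h2.chart_le_zero) 𝔫 Winf W0 m (s g / g ^ Q)
      (s linf / linf ^ Q) (s l0 / l0 ^ Q) := by
  haveI : IsIntegrallyClosed ↥(chartOne R E u) := isIntegrallyClosed_chartOne (K₁ := K₁) u hK
  haveI : IsNoetherianRing ↥(chartOne R E u) := isNoetherianRing_chartOne (K₁ := K₁) u hu hK
  haveI : IsFractionRing ↥(chartOne R E u) E := isFractionRing_chartOne (K₁ := K₁) u hK
  haveI : 𝔫.IsPrime := h𝔫.isPrime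
  have hπ𝔫 : algebraMap R ↥(chartOne R E u) π ∈ 𝔫 := hinf (h2.pi_mem_inf (K₁ := K₁) hπ)
  have hg01 : W0.valuation g = 1 := by
    refine valuation_eq_one_of_sub_lt_one W0 (a := l0 ^ m) ?_ hg0
    rw [map_pow, hl0, one_pow]
  have hk := h2.isKummerOnChart_of_toric hπ hu hK hg hordg hlinf hginf hg01
  have hinjE : Function.Injective (algebraMap R E) := by
    rw [IsScalarTower.algebraMap_eq R K E, IsScalarTower.algebraMap_eq R K₁ K]
    exact (algebraMap K E).injective.comp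
      ((algebraMap K₁ K).injective.comp (IsFractionRing.injective R K₁))
  have hπne : algebraMap R ↥(chartOne R E u) π ≠ 0 := by
    intro h0
    have := congrArg (fun w : ↥(chartOne R E u) => (w : E)) h0
    exact hπ.ne_zero (hinjE (by rw [map_zero]; exact this))
  obtain ⟨γ, hγ, c, d, hc, hd, hgd⟩ := hmod.closed_datum hπ hπne hm hg hk 𝔫 h𝔫 hπ𝔫
  have hgd' : g * (d : E) = γ ^ m * (c : E) := hgd
  obtain ⟨hv, hv'⟩ := div_pow_mem_locRing_of_closed_datum hγ hc hd hgd'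
  obtain ⟨x, y, hx, -, hy, -, -⟩ := hmod.node 𝔫 h𝔫 hinf h0
  have hres := h2.exists_sub_mem_of_isMaximal hπ hu hK 𝔫 hπ𝔫
  have hcong : ∀ e ∈ locRing (chartOne R E u) 𝔫, s e - e ^ Q ∈ locMax (chartOne R E u) 𝔫 :=
    fun e he => map_sub_pow_mem_locMax hres hπ𝔫 s sR Q hsR hfrob hsM he
  have hsγ : s γ ≠ 0 := (map_ne_zero s).mpr hγ
  have hΓ : s γ / γ ^ Q ≠ 0 := div_ne_zero hsγ (pow_ne_zero _ hγ)
  obtain ⟨hG1, hG2⟩ := frob_closed_datum s Q hsO hcong hg hγ hv hv'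
  obtain ⟨winf, hwinf, hwinf1, hwinf2⟩ := exists_frob_root_at_fixed_point h2.chart_le_inf
    (mem_sheetIdeal_iff u Winf h2.chart_le_inf) (h2.exists_mul_eq_of_mem_inf hπ hu hK) hinf hx
    s Q (fun e he => (Fermat.Agent.S35.valuation_map_lt_one_iff Winf s hsinf e).mpr he)
    (fun e he => (Fermat.Agent.S35.valuation_map_eq_one_iff Winf s hsinf e).mpr he)
    hsO hcong hm hγ hv hv' hlinf hginf
  obtain ⟨w0, hw0, hw01, hw02⟩ := exists_frob_root_at_fixed_point h2.chart_le_zero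
    (mem_sheetIdeal_iff u W0 h2.chart_le_zero) (h2.exists_mul_eq_of_mem_zero hπ hu hK) h0 hy
    s Q (fun e he => (Fermat.Agent.S35.valuation_map_lt_one_iff W0 s hs0 e).mpr he)
    (fun e he => (Fermat.Agent.S35.valuation_map_eq_one_iff W0 s hs0 e).mpr he)
    hsO hcong hm hγ hv hv' hl0 hg0
  refine ⟨s γ / γ ^ Q, winf, w0, hΓ,
    exists_closed_datum_of_div_pow_mem hΓ hG1 (notMem_locMax_of_sub_one_mem hG2),
    fun _ => ⟨hwinf, notMem_locMax_of_sub_one_mem hwinf1, hwinf2⟩,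
    fun _ => ⟨hw0, notMem_locMax_of_sub_one_mem hw01, hw02⟩, fun _ _ => ?_⟩
  have : winf - w0 = (winf - 1) - (w0 - 1) := by ring
  rw [this]
  exact sub_mem_locMax hwinf1 hw01

end Chart

end Fermat.Agent.SS
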