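/-
S35 [TORIC], local part — helper5 — part 4: **the toric closed data of `G = Ψ g / g ^ Q` on both
charts of a semistable model** (`SSModel`), for a Frobenius-type automorphism `Ψ` (`SSFrobAut`)
fixing every crossing point of the chart `j`.

* `toric_frob` : if `g ≡ λ ^ m` on a sheet `W` (`λ` a unit), then `Ψ g / g ^ Q ≡ (Ψ λ / λ ^ Q) ^ m`;
* `SSModel.toricDatumAt_one`, `SSModel.toricDatumAt_two` : `ToricDatumAt` at EVERY closed point of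
  the special fibre of the charts `j`, `j⁻¹` (the crossing points of the chart `j⁻¹` are crossing
  points of the chart `j`: `SSModel.not_crossing_of_cusp`).
-/
import Mathlib
import Fermat.Agent.S35.NODEFROB_helper5_Chart
import Fermat.Agent.SS.EXPORT_helper4_Two

set_option autoImplicit false
set_option linter.unusedSectionVars false
set_option linter.style.haveILetI false

open AlgebraicCurve

namespace Fermat.Agent.SS

open Fermat.Agent.JA Fermat.Agent.S35 Polynomial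

section Gen

variable {R : Type*} [CommRing R] {E : Type*} [Field E] [Algebra R E] {B : Subalgebra R E}

/-- `map_mem_locRing_of_fix` with the fixedness hypothesis in the local currency. -/
theorem map_mem_locRing_of_fix' {𝔪 : Ideal ↥B} [h𝔪 : 𝔪.IsPrime] (s : E →+* E)
    (hsB : ∀ e ∈ B, s e ∈ B)
    (hfix : ∀ x : ↥B, x ∈ 𝔪 ↔ s (x : E) ∈ locMax B 𝔪) :
    (∀ e ∈ locRing B 𝔪, s e ∈ locRing B 𝔪) ∧ (∀ e ∈ locMax B 𝔪, s e ∈ locMax B 𝔪) :=
  map_mem_locRing_of_fix s hsB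
    (fun x => (hfix x).trans (coe_mem_locMax_iff (⟨s x, hsB x x.2⟩ : ↥B)))

/-- **the toric datum of `s g / g ^ Q` on a sheet preserved by `s`.** -/
theorem toric_frob (W : ValuationSubring E) (s : E →+* E) (hsW : ∀ x : E, x ∈ W ↔ s x ∈ W)
    (Q m : ℕ) {g lam : E} (hlam : W.valuation lam = 1) (hglam : W.valuation (g - lam ^ m) < 1) :
    W.valuation (s lam / lam ^ Q) = 1 ∧
      W.valuation (s g / g ^ Q - (s lam / lam ^ Q) ^ m) < 1 := by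
  have hslam : W.valuation (s lam) = 1 := (valuation_map_eq_one_iff W s hsW lam).mpr hlam
  have hlm : W.valuation (lam ^ m) = 1 := by rw [map_pow, hlam, one_pow]
  have hg1 : W.valuation g = 1 := valuation_eq_one_of_sub_lt_one W hlm hglam
  refine ⟨by rw [map_div₀, hslam, map_pow, hlam, one_pow, div_one], ?_⟩
  have h1 : (s lam / lam ^ Q) ^ m = s (lam ^ m) / (lam ^ m) ^ Q := by
    rw [div_pow, map_pow, ← pow_mul, ← pow_mul, mul_comm]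
  rw [h1]
  refine valuation_div_sub_div_lt_one W ?_ ?_ ?_ ?_ ?_
  · exact ((valuation_map_eq_one_iff W s hsW _).mpr hlm).le
  · rw [map_pow, hg1, one_pow]
  · rw [map_pow, hlm, one_pow]
  · rw [← map_sub]; exact (valuation_map_lt_one_iff W s hsW _).mpr hglam
  · exact valuation_pow_sub_pow_lt_one W hg1.le hlm.le hglam Q

end Gen

section Model

variable {R : Type*} [CommRing R] [IsDomain R] [IsDiscreteValuationRing R] [CharZero R]
  {K₁ : Type*} [Field K₁] [Algebra R K₁] [IsFractionRing R K₁]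
  {KM : Type*} [Field KM] [Algebra K₁ KM] [Algebra R KM] [IsScalarTower R K₁ KM]
  {EM : Type*} [Field EM] [Algebra KM EM] [Algebra K₁ EM] [IsScalarTower K₁ KM EM] [Algebra R EM]
  [IsScalarTower R KM EM]
  {KN : Type*} [Field KN] [Algebra K₁ KN] [Algebra R KN] [IsScalarTower R K₁ KN]
  {EN : Type*} [Field EN] [Algebra KN EN] [Algebra K₁ EN] [IsScalarTower K₁ KN EN] [Algebra R EN]
  [IsScalarTower R KN EN] [FiniteDimensional KN EN]
  {π : R} {q n : ℕ} {S : Finset R} {t : KM} {jM : EM} {j : KN} {A B : EM →+* EN}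
  {VM : ValuationSubring EM} {Winf W0 : ValuationSubring EN}

/-- **the toric closed data of `Ψ g / g ^ Q` on the chart `j`.** -/
theorem SSModel.toricDatumAt_one [IsAlgClosed (IsLocalRing.ResidueField R)]
    (h : SSModel K₁ π q n S t jM j A B VM Winf W0) (hπ : Irreducible π)
    {Q : ℕ} {ΨR : R →+* R} {Ψ : EN →+* EN} (hΨ : SSFrobAut π Q j Winf W0 ΨR Ψ)
    (hnode : ∀ 𝔫 : Ideal ↥(chartOne R EN j), 𝔫.IsMaximal →
      sheetIdeal j Winf h.two.chart_le_inf ≤ 𝔫 → sheetIdeal j W0 h.two.chart_le_zero ≤ 𝔫 →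
      ∀ x : ↥(chartOne R EN j), (x ∈ 𝔫 ↔ Ψ (x : EN) ∈ locMax (chartOne R EN j) 𝔫))
    {m : ℕ} (hm : m ≠ 0) {g linf l0 : EN} (hg : g ≠ 0)
    (hordg : ∀ P : Place K₁ EN, P.ord g = 0 ∨ (IsRationalPlace P ∧ (m : ℤ) ∣ P.ord g))
    (hordG : ∀ P : Place K₁ EN, P.ord (Ψ g / g ^ Q) = 0 ∨
      (IsRationalPlace P ∧ (m : ℤ) ∣ P.ord (Ψ g / g ^ Q)))
    (hlinf : Winf.valuation linf = 1) (hginf : Winf.valuation (g - linf ^ m) < 1)
    (hl0 : W0.valuation l0 = 1) (hg0 : W0.valuation (g - l0 ^ m) < 1)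
    (𝔫 : Ideal ↥(chartOne R EN j)) [h𝔫 : 𝔫.IsMaximal]
    (hπ𝔫 : algebraMap R ↥(chartOne R EN j) π ∈ 𝔫) :
    ToricDatumAt (chartOne R EN j) (sheetIdeal j Winf h.two.chart_le_inf)
      (sheetIdeal j W0 h.two.chart_le_zero) 𝔫 Winf W0 m (Ψ g / g ^ Q)
      (Ψ linf / linf ^ Q) (Ψ l0 / l0 ^ Q) := by
  haveI : 𝔫.IsPrime := h𝔫.isPrime
  have hu := h.j_transcendental
  have hK := h.j_adjoin
  have hmod := h.isModelChart_one hπ
  have hG : Ψ g / g ^ Q ≠ 0 := div_ne_zero ((map_ne_zero Ψ).mpr hg) (pow_ne_zero _ hg)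
  by_cases hc : sheetIdeal j Winf h.two.chart_le_inf ≤ 𝔫 ∧ sheetIdeal j W0 h.two.chart_le_zero ≤ 𝔫
  · have hΨB : ∀ e ∈ chartOne R EN j, Ψ e ∈ chartOne R EN j := fun e he =>
      map_mem_chartOne_of_ringHom j Ψ hΨ.map_j (fun r => ⟨ΨR r, hΨ.map_R r⟩) he
    obtain ⟨hsO, hsM⟩ := map_mem_locRing_of_fix' Ψ hΨB (hnode 𝔫 h𝔫 hc.1 hc.2)
    exact h.two.toricDatumAt_of_fixed_crossing hπ hu hK hmod hm hg hordg hlinf hginf hl0 hg0
      Ψ ΨR Q hΨ.map_R hΨ.frob_R hΨ.mem_inf hΨ.mem_zero 𝔫 hc.1 hc.2 hsO hsM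
  · obtain ⟨hL1, hL2⟩ := toric_frob Winf Ψ hΨ.mem_inf Q m hlinf hginf
    obtain ⟨hL3, hL4⟩ := toric_frob W0 Ψ hΨ.mem_zero Q m hl0 hg0
    exact h.two.toricDatumAt_of_not_crossing hπ hu hK hmod hm hG hordG hL1 hL2 hL3 hL4 𝔫 hπ𝔫 hc

/-- **the toric closed data of `Ψ g / g ^ Q` on the chart `j⁻¹`.** -/
theorem SSModel.toricDatumAt_two [IsAlgClosed (IsLocalRing.ResidueField R)]
    (h : SSModel K₁ π q n S t jM j A B VM Winf W0) (hπ : Irreducible π)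
    (hjint : IsIntegral ↥(Algebra.adjoin R {B jM}) (A jM))
    {Q : ℕ} {ΨR : R →+* R} {Ψ : EN →+* EN} (hΨ : SSFrobAut π Q j Winf W0 ΨR Ψ)
    (hnode : ∀ 𝔫 : Ideal ↥(chartOne R EN j), 𝔫.IsMaximal →
      sheetIdeal j Winf h.two.chart_le_inf ≤ 𝔫 → sheetIdeal j W0 h.two.chart_le_zero ≤ 𝔫 →
      ∀ x : ↥(chartOne R EN j), (x ∈ 𝔫 ↔ Ψ (x : EN) ∈ locMax (chartOne R EN j) 𝔫))
    {m : ℕ} (hm : m ≠ 0) {g linf l0 : EN} (hg : g ≠ 0)
    (hordg : ∀ P : Place K₁ EN, P.ord g = 0 ∨ (IsRationalPlace P ∧ (m : ℤ) ∣ P.ord g))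
    (hordG : ∀ P : Place K₁ EN, P.ord (Ψ g / g ^ Q) = 0 ∨
      (IsRationalPlace P ∧ (m : ℤ) ∣ P.ord (Ψ g / g ^ Q)))
    (hlinf : Winf.valuation linf = 1) (hginf : Winf.valuation (g - linf ^ m) < 1)
    (hl0 : W0.valuation l0 = 1) (hg0 : W0.valuation (g - l0 ^ m) < 1)
    (𝔫 : Ideal ↥(chartOne R EN j⁻¹)) [h𝔫 : 𝔫.IsMaximal]
    (hπ𝔫 : algebraMap R ↥(chartOne R EN j⁻¹) π ∈ 𝔫) :
    ToricDatumAt (chartOne R EN j⁻¹) (sheetIdeal j⁻¹ Winf (h.two.inv hπ).chart_le_inf)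
      (sheetIdeal j⁻¹ W0 (h.two.inv hπ).chart_le_zero) 𝔫 Winf W0 m (Ψ g / g ^ Q)
      (Ψ linf / linf ^ Q) (Ψ l0 / l0 ^ Q) := by
  haveI : 𝔫.IsPrime := h𝔫.isPrime
  have hu := h.j_transcendental
  have hK := h.j_adjoin
  have hu' := transcendental_inv_of_transcendental hu
  have hK' := adjoin_inv_eq_top hK
  have h2 := h.two.inv hπ
  have hmod := h.isModelChart_two hπ hjint h2
  have hG : Ψ g / g ^ Q ≠ 0 := div_ne_zero ((map_ne_zero Ψ).mpr hg) (pow_ne_zero _ hg)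
  have hj0 : j ≠ 0 := by
    rintro rfl
    exact hu isAlgebraic_zero
  by_cases hc : sheetIdeal j⁻¹ Winf h2.chart_le_inf ≤ 𝔫 ∧ sheetIdeal j⁻¹ W0 h2.chart_le_zero ≤ 𝔫
  · -- the crossing point lies in the chart `j`
    have hx : (⟨algebraMap KN EN j⁻¹, algebraMap_coord_mem_chartOne j⁻¹⟩ :
        ↥(chartOne R EN j⁻¹)) ∉ 𝔫 := fun hx => h.not_crossing_of_cusp hπ h2 𝔫 hx hc.1 hc.2
    obtain ⟨hLeq, hMeq⟩ := locRing_chartOne_inv_eq (R := R) (E := EN) j hj0 𝔫 hx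
    have hres := h2.exists_sub_mem_of_isMaximal hπ hu' hK' 𝔫 hπ𝔫
    obtain ⟨hmax₁, -⟩ := locComap_isMaximal hres (chartOne_le_locRing_inv (R := R) (E := EN) j hj0 𝔫 hx)
    set 𝔫₁ := locComap (chartOne R EN j⁻¹) 𝔫 (chartOne R EN j)
      (chartOne_le_locRing_inv (R := R) (E := EN) j hj0 𝔫 hx) with h𝔫₁
    haveI : 𝔫₁.IsMaximal := hmax₁
    haveI : 𝔫₁.IsPrime := hmax₁.isPrime
    have hinf₁ : sheetIdeal j Winf h.two.chart_le_inf ≤ 𝔫₁ := by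
      rw [sheet_le_iff h.two.chart_le_inf (mem_sheetIdeal_iff j Winf h.two.chart_le_inf),
        hLeq, hMeq]
      exact (sheet_le_iff h2.chart_le_inf (mem_sheetIdeal_iff j⁻¹ Winf h2.chart_le_inf)).mp hc.1
    have h0₁ : sheetIdeal j W0 h.two.chart_le_zero ≤ 𝔫₁ := by
      rw [sheet_le_iff h.two.chart_le_zero (mem_sheetIdeal_iff j W0 h.two.chart_le_zero),
        hLeq, hMeq]
      exact (sheet_le_iff h2.chart_le_zero (mem_sheetIdeal_iff j⁻¹ W0 h2.chart_le_zero)).mp hc.2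
    have hΨB : ∀ e ∈ chartOne R EN j, Ψ e ∈ chartOne R EN j := fun e he =>
      map_mem_chartOne_of_ringHom j Ψ hΨ.map_j (fun r => ⟨ΨR r, hΨ.map_R r⟩) he
    obtain ⟨hsO, hsM⟩ := map_mem_locRing_of_fix' Ψ hΨB (hnode 𝔫₁ hmax₁ hinf₁ h0₁)
    rw [hLeq] at hsO
    rw [hMeq] at hsM
    exact h2.toricDatumAt_of_fixed_crossing hπ hu' hK' hmod hm hg hordg hlinf hginf hl0 hg0
      Ψ ΨR Q hΨ.map_R hΨ.frob_R hΨ.mem_inf hΨ.mem_zero 𝔫 hc.1 hc.2 hsO hsM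
  · obtain ⟨hL1, hL2⟩ := toric_frob Winf Ψ hΨ.mem_inf Q m hlinf hginf
    obtain ⟨hL3, hL4⟩ := toric_frob W0 Ψ hΨ.mem_zero Q m hl0 hg0
    exact h2.toricDatumAt_of_not_crossing hπ hu' hK' hmod hm hG hordG hL1 hL2 hL3 hL4 𝔫 hπ𝔫 hc

end Model

end Fermat.Agent.SS
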