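/-
S35 [TORIC], gluing part — helper5 — part 1: **the algebraic core** (no valuations).

`F ⊆ L` function fields over `K = K₁(t)`, `G ∈ F`, `α ∈ L` with `α ^ m = G`.

* `exists_congAt_of_toric` : if `G = λ ^ m · (c / d)` with `c ≡ d` modulo the sheet `𝔓` of `L`, then
  `α / λ` is congruent on `𝔓` to an `m`-th root of unity;
* `toric_point_cong` : at a closed point `𝔑` of a chart of `L` on the sheet `𝔓`: if `Γ` is a local root
  of `G` (`G = Γ ^ m · (c / d)`, `c, d` units at `𝔑`), `λ / Γ = a / b ≡ p / r` on `𝔓` with `p, r` units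
  at `𝔑`, and `α / λ ≡ ξ` on `𝔓`, then `β r - ξ d p ∈ 𝔑` for `β = (α / Γ) d` (a unit at `𝔑`);
* `incidence_toric` : hence two sheets through `𝔑` whose data `p / r`, `p' / r'` agree modulo `𝔑` have
  the same constant.
-/
import Mathlib
import Fermat.Agent.SS.KUM_helper3_Main
import Fermat.Agent.SS.EXPORT_helper4_Charts

set_option autoImplicit false
set_option linter.unusedSectionVars false
set_option linter.style.haveILetI false

namespace Fermat.Agent.SS

open Fermat.Agent.JA Polynomial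

section Core

variable {R : Type*} [CommRing R] [IsDomain R] {K : Type*} [Field K] [Algebra R K]
  {F : Type*} [Field F] [Algebra K F] [Algebra R F] [IsScalarTower R K F]
  {L : Type*} [Field L] [Algebra K L] [Algebra R L] [IsScalarTower R K L] [Algebra F L]
  [IsScalarTower K F L]

/-- an `m`-th root of an element of the chart of `F` lies in the chart of `L`. -/
theorem mem_chartOne_of_pow_eq_algebraMap (τ : K) {m : ℕ} (hm : 0 < m) (x : L)
    (y : ↥(chartOne R F τ)) (hxy : x ^ m = algebraMap F L (y : F)) : x ∈ chartOne R L τ := by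
  apply mem_chartOne_of_isIntegral
  apply IsIntegral.of_pow hm
  rw [hxy]
  have : algebraMap F L (y : F) =
      algebraMap ↥(chartOne R L τ) L (chartMap (L := L) τ y) := rfl
  rw [this]
  exact isIntegral_algebraMap

/-- the element `β = (α / Γ) d` attached to a local root `Γ` of `G`. -/
theorem toric_beta_pow (τ : K) {m : ℕ} (hm : 0 < m) (G : F) (α : L)
    (hα : α ^ m = algebraMap F L G) (Γ : F) (hΓ : Γ ≠ 0) (c d : ↥(chartOne R F τ))
    (hgd : G * (d : F) = Γ ^ m * (c : F)) :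
    (α / algebraMap F L Γ * algebraMap F L (d : F)) ^ m =
      algebraMap F L ((c * d ^ (m - 1) : ↥(chartOne R F τ)) : F) := by
  have hΓL : algebraMap F L Γ ≠ 0 := (_root_.map_ne_zero _).mpr hΓ
  have hΓm : algebraMap F L Γ ^ m ≠ 0 := pow_ne_zero _ hΓL
  obtain ⟨k, rfl⟩ : ∃ k, m = k + 1 := ⟨m - 1, by omega⟩
  have h1 : algebraMap F L G * algebraMap F L (d : F) =
      algebraMap F L Γ ^ (k + 1) * algebraMap F L (c : F) := by
    rw [← map_mul, hgd, map_mul, map_pow]
  rw [mul_pow, div_pow, hα, Nat.add_sub_cancel]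
  show _ = algebraMap F L ((c : F) * (d : F) ^ k)
  rw [map_mul, map_pow, div_mul_eq_mul_div, div_eq_iff hΓm, pow_succ (algebraMap F L (d : F)) k]
  linear_combination (algebraMap F L (d : F) ^ k) * h1

/-- **the constant of a sheet of `L` from a toric datum.** -/
theorem exists_congAt_of_toric (t : K) {m : ℕ} (hm : 0 < m) (ζ : R)
    (hζ' : IsPrimitiveRoot (algebraMap R ↥(chartMid R L t) ζ) m) (G : F) (α : L)
    (hα : α ^ m = algebraMap F L G) (𝔓 : Ideal ↥(chartMid R L t)) [h𝔓 : 𝔓.IsPrime]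
    (lam : F) (hlam : lam ≠ 0) (c d : ↥(chartOne R F t)) (hd : midMap (L := L) t d ∉ 𝔓)
    (hcd : midMap (L := L) t (c - d) ∈ 𝔓) (hG : G * (d : F) = lam ^ m * (c : F)) :
    ∃ i < m, CongAt (chartMid R L t) 𝔓 (α / algebraMap F L lam) (ζ ^ i) := by
  haveI : IsDomain ↥(chartMid R L t) := inferInstance
  have hpow := toric_beta_pow (L := L) t hm G α hα lam hlam c d hG
  have ha : α / algebraMap F L lam * algebraMap F L (d : F) ∈ chartOne R L t :=
    mem_chartOne_of_pow_eq_algebraMap t hm _ _ hpow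
  set a : ↥(chartOne R L t) := ⟨_, ha⟩ with hadef
  set A : ↥(chartMid R L t) := Subalgebra.inclusion (chartOne_le_chartMid t) a with hA
  set Ee : ↥(chartMid R L t) := midMap (L := L) t d with hEe
  have hmem : A ^ m - Ee ^ m ∈ 𝔓 := by
    have h1 : A ^ m - Ee ^ m = midMap (L := L) t (d ^ (m - 1)) * midMap (L := L) t (c - d) := by
      apply Subtype.ext
      show (α / algebraMap F L lam * algebraMap F L (d : F)) ^ m - algebraMap F L (d : F) ^ m =
        algebraMap F L ((d : F) ^ (m - 1)) * algebraMap F L ((c : F) - (d : F))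
      rw [hpow]
      show algebraMap F L ((c : F) * (d : F) ^ (m - 1)) - _ = _
      obtain ⟨k, rfl⟩ : ∃ k, m = k + 1 := ⟨m - 1, by omega⟩
      rw [Nat.add_sub_cancel, map_mul, map_pow, map_sub]
      ring
    rw [h1]
    exact 𝔓.mul_mem_left _ hcd
  obtain ⟨i, hi, hmem'⟩ := exists_sub_pow_mul_mem_of_pow_sub_pow_mem hm hζ' 𝔓 A Ee hmem
  refine ⟨i, hi, CongAt.of_mem A Ee hd rfl ?_⟩
  rw [map_pow]
  exact hmem'

/-- **the congruence at a closed point of a sheet.** -/
theorem toric_point_cong (t τ : K) (hle : chartOne R L τ ≤ chartMid R L t) (α : L)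
    (𝔑 : Ideal ↥(chartOne R L τ))
    (𝔓 : Ideal ↥(chartMid R L t)) [h𝔓 : 𝔓.IsPrime]
    (h𝔓𝔑 : 𝔓.comap (Subalgebra.inclusion hle) ≤ 𝔑)
    (Γ : F) (hΓ : Γ ≠ 0) (d : ↥(chartOne R F τ))
    (β : ↥(chartOne R L τ))
    (hβ : (β : L) = α / algebraMap F L Γ * algebraMap F L (d : F))
    (lam : F) (hlam : lam ≠ 0) (p r a b : ↥(chartOne R F τ))
    (hb : Subalgebra.inclusion hle (chartMap (L := L) τ b) ∉ 𝔓)
    (hlamb : lam * (b : F) = Γ * (a : F))
    (hmem : Subalgebra.inclusion hle (chartMap (L := L) τ (a * r - b * p)) ∈ 𝔓)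
    (ξ : R) (hξ : CongAt (chartMid R L t) 𝔓 (α / algebraMap F L lam) ξ) :
    β * chartMap (L := L) τ r - algebraMap R ↥(chartOne R L τ) ξ * chartMap (L := L) τ (d * p) ∈
      𝔑 := by
  set J := Subalgebra.inclusion hle with hJ
  have hΓL : algebraMap F L Γ ≠ 0 := (_root_.map_ne_zero _).mpr hΓ
  have hlamL : algebraMap F L lam ≠ 0 := (_root_.map_ne_zero _).mpr hlam
  -- the congruence read on the fraction `(β b) / (d a)`
  have hY := hξ.mem_of_mul_eq (J β * J (chartMap (L := L) τ b)) (J (chartMap (L := L) τ (d * a))) (by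
    show α / algebraMap F L lam * algebraMap F L ((d : F) * (a : F)) =
      (β : L) * algebraMap F L (b : F)
    rw [hβ, map_mul]
    have h1 : algebraMap F L lam * algebraMap F L (b : F) =
        algebraMap F L Γ * algebraMap F L (a : F) := by
      rw [← map_mul, hlamb, map_mul]
    field_simp
    linear_combination (-(α * algebraMap F L (d : F))) * h1)
  -- hence `J b * J X ∈ 𝔓`
  have hJR : ∀ x : R, J (algebraMap R ↥(chartOne R L τ) x) = algebraMap R ↥(chartMid R L t) x :=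
    fun x => rfl
  have hZ : J (chartMap (L := L) τ b) *
      J (β * chartMap (L := L) τ r - algebraMap R ↥(chartOne R L τ) ξ *
        chartMap (L := L) τ (d * p)) ∈ 𝔓 := by
    have h2 : J (chartMap (L := L) τ b) *
        J (β * chartMap (L := L) τ r - algebraMap R ↥(chartOne R L τ) ξ *
          chartMap (L := L) τ (d * p)) =
        (J β * J (chartMap (L := L) τ b) - algebraMap R ↥(chartMid R L t) ξ *
          J (chartMap (L := L) τ (d * a))) * J (chartMap (L := L) τ r) +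
        algebraMap R ↥(chartMid R L t) ξ * J (chartMap (L := L) τ d) *
          J (chartMap (L := L) τ (a * r - b * p)) := by
      simp only [map_sub, map_mul, hJR]
      ring
    rw [h2]
    exact 𝔓.add_mem (𝔓.mul_mem_right _ hY) (𝔓.mul_mem_left _ hmem)
  have hX := (h𝔓.mem_or_mem hZ).resolve_left hb
  exact h𝔓𝔑 hX

/-- **incidence**: two sheets through a closed point with compatible toric data have the same
constant. -/
theorem incidence_toric (t τ : K) (hle : chartOne R L τ ≤ chartMid R L t) {m : ℕ} (hm : 0 < m)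
    (G : F) (α : L) (hα : α ^ m = algebraMap F L G)
    (𝔑 : Ideal ↥(chartOne R L τ)) [h𝔑 : 𝔑.IsPrime]
    (𝔓 𝔓' : Ideal ↥(chartMid R L t)) [h𝔓 : 𝔓.IsPrime] [h𝔓' : 𝔓'.IsPrime]
    (h𝔓𝔑 : 𝔓.comap (Subalgebra.inclusion hle) ≤ 𝔑)
    (h𝔓'𝔑 : 𝔓'.comap (Subalgebra.inclusion hle) ≤ 𝔑)
    (Γ : F) (hΓ : Γ ≠ 0) (c d : ↥(chartOne R F τ)) (hd : chartMap (L := L) τ d ∉ 𝔑)
    (hgd : G * (d : F) = Γ ^ m * (c : F))
    (lam : F) (hlam : lam ≠ 0) (p r a b : ↥(chartOne R F τ))
    (hp : chartMap (L := L) τ p ∉ 𝔑)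
    (hb : Subalgebra.inclusion hle (chartMap (L := L) τ b) ∉ 𝔓)
    (hlamb : lam * (b : F) = Γ * (a : F))
    (hmem : Subalgebra.inclusion hle (chartMap (L := L) τ (a * r - b * p)) ∈ 𝔓)
    (lam' : F) (hlam' : lam' ≠ 0) (p' r' a' b' : ↥(chartOne R F τ))
    (hr' : chartMap (L := L) τ r' ∉ 𝔑)
    (hb' : Subalgebra.inclusion hle (chartMap (L := L) τ b') ∉ 𝔓')
    (hlamb' : lam' * (b' : F) = Γ * (a' : F))
    (hmem' : Subalgebra.inclusion hle (chartMap (L := L) τ (a' * r' - b' * p')) ∈ 𝔓')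
    (hcross : chartMap (L := L) τ (p * r' - p' * r) ∈ 𝔑)
    (ξ ξ' : R) (hξ : CongAt (chartMid R L t) 𝔓 (α / algebraMap F L lam) ξ)
    (hξ' : CongAt (chartMid R L t) 𝔓' (α / algebraMap F L lam') ξ') :
    algebraMap R ↥(chartOne R L τ) (ξ - ξ') ∈ 𝔑 := by
  have hpow := toric_beta_pow (L := L) τ hm G α hα Γ hΓ c d hgd
  have hβmem : α / algebraMap F L Γ * algebraMap F L (d : F) ∈ chartOne R L τ :=
    mem_chartOne_of_pow_eq_algebraMap τ hm _ _ hpow
  set β : ↥(chartOne R L τ) := ⟨_, hβmem⟩ with hβdef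
  have hX := toric_point_cong t τ hle α 𝔑 𝔓 h𝔓𝔑 Γ hΓ d β rfl lam hlam p r a b hb
    hlamb hmem ξ hξ
  have hX' := toric_point_cong t τ hle α 𝔑 𝔓' h𝔓'𝔑 Γ hΓ d β rfl lam' hlam' p' r' a' b'
    hb' hlamb' hmem' ξ' hξ'
  have hkey : algebraMap R ↥(chartOne R L τ) (ξ - ξ') * chartMap (L := L) τ (d * p * r') ∈ 𝔑 := by
    have h1 : algebraMap R ↥(chartOne R L τ) (ξ - ξ') * chartMap (L := L) τ (d * p * r') =
        chartMap (L := L) τ r *
          (β * chartMap (L := L) τ r' - algebraMap R ↥(chartOne R L τ) ξ' *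
            chartMap (L := L) τ (d * p')) -
        chartMap (L := L) τ r' *
          (β * chartMap (L := L) τ r - algebraMap R ↥(chartOne R L τ) ξ *
            chartMap (L := L) τ (d * p)) -
        algebraMap R ↥(chartOne R L τ) ξ' * chartMap (L := L) τ d *
          chartMap (L := L) τ (p * r' - p' * r) := by
      simp only [map_sub, map_mul]
      ring
    rw [h1]
    exact 𝔑.sub_mem (𝔑.sub_mem (𝔑.mul_mem_left _ hX') (𝔑.mul_mem_left _ hX))
      (𝔑.mul_mem_left _ hcross)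
  refine (h𝔑.mem_or_mem hkey).resolve_right ?_
  intro h
  rw [map_mul, map_mul] at h
  rcases h𝔑.mem_or_mem h with h | h
  · rcases h𝔑.mem_or_mem h with h | h
    · exact hd h
    · exact hp h
  · exact hr' h

end Core

end Fermat.Agent.SS
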