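/-
S35 [TORIC], gluing part — helper5 — part 2: **from the valuation currency to the elementwise
currency**, and the sheets of `L` over the sheets of `F`.

* `exists_toric_elem` : `G ≡ λ ^ m` on the sheet `W` (`λ` a unit) in elementwise form
  `G d = λ ^ m c`, `d ∉ 𝔭`, `c - d ∈ 𝔭`;
* `exists_datum_elem` : `λ / Γ ≡ w` on `W`, `w` a unit of the local ring at `𝔫`, in elementwise form;
* `incidence_of_sheets` : `incidence_toric` in the valuation currency;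
* `SheetOver`, `IsTwoSheet.sheetOver_inf_or_zero` : every sheet of `L` lies over `W_∞` or `W_0`;
  `SheetOver.inv` : the same in the chart `t⁻¹`.
-/
import Mathlib
import Fermat.Agent.S35.TORICKUM_helper5_Core
import Fermat.Agent.S35.NODEFROB_helper5_Chart

set_option autoImplicit false
set_option linter.unusedSectionVars false
set_option linter.style.haveILetI false

namespace Fermat.Agent.SS

open Fermat.Agent.JA Polynomial

section Elem

variable {R : Type*} [CommRing R] {E : Type*} [Field E] [Algebra R E] {B : Subalgebra R E}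

/-- **the toric datum of a sheet, elementwise.** -/
theorem exists_toric_elem {W : ValuationSubring E} (hBW : ∀ b ∈ B, b ∈ W) {𝔭 : Ideal ↥B}
    (h𝔭 : ∀ b : ↥B, b ∈ 𝔭 ↔ W.valuation (b : E) < 1)
    (hloc : ∀ x ∈ W, ∃ r s : ↥B, s ∉ 𝔭 ∧ x * (s : E) = (r : E))
    {m : ℕ} {G lam : E} (hlam : W.valuation lam = 1) (hG : W.valuation (G - lam ^ m) < 1) :
    ∃ c d : ↥B, d ∉ 𝔭 ∧ c - d ∈ 𝔭 ∧ G * (d : E) = lam ^ m * (c : E) := by
  have hlm : W.valuation (lam ^ m) = 1 := by rw [map_pow, hlam, one_pow]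
  have hlm0 : lam ^ m ≠ 0 := fun h => by rw [h, map_zero] at hlm; exact zero_ne_one hlm
  have hx1 : W.valuation (G / lam ^ m - 1) < 1 := by
    have : G / lam ^ m - 1 = (G - lam ^ m) / lam ^ m := by field_simp
    rw [this, map_div₀, hlm, div_one]
    exact hG
  have hx : G / lam ^ m ∈ W := by
    rw [← ValuationSubring.valuation_le_one_iff]
    have : G / lam ^ m = (G / lam ^ m - 1) + 1 := by ring
    rw [this]
    exact le_trans (Valuation.map_add _ _ _) (max_le hx1.le (by rw [map_one]))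
  obtain ⟨c, d, hd, hcd⟩ := hloc _ hx
  refine ⟨c, d, hd, ?_, ?_⟩
  · rw [h𝔭]
    have h1 : ((c - d : ↥B) : E) = (G / lam ^ m - 1) * (d : E) := by
      show (c : E) - (d : E) = _
      rw [← hcd]; ring
    rw [h1, map_mul]
    calc W.valuation (G / lam ^ m - 1) * W.valuation (d : E)
        ≤ W.valuation (G / lam ^ m - 1) * 1 :=
          mul_le_mul_right ((ValuationSubring.valuation_le_one_iff _ _).mpr (hBW _ d.2)) _
      _ < 1 := by rw [mul_one]; exact hx1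
  · rw [← hcd]
    field_simp

/-- **the datum of a sheet at a closed point, elementwise.** -/
theorem exists_datum_elem {W : ValuationSubring E} (hBW : ∀ b ∈ B, b ∈ W) {𝔭 : Ideal ↥B}
    (h𝔭 : ∀ b : ↥B, b ∈ 𝔭 ↔ W.valuation (b : E) < 1)
    (hloc : ∀ x ∈ W, ∃ r s : ↥B, s ∉ 𝔭 ∧ x * (s : E) = (r : E))
    {𝔫 : Ideal ↥B} [h𝔫 : 𝔫.IsPrime] (hle : 𝔭 ≤ 𝔫) {lam Γ w : E} (hΓ : Γ ≠ 0)
    (hw : w ∈ locRing B 𝔫) (hw' : w ∉ locMax B 𝔫) (hlw : W.valuation (lam / Γ - w) < 1) :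
    ∃ p r a b : ↥B, p ∉ 𝔫 ∧ r ∉ 𝔫 ∧ b ∉ 𝔭 ∧ lam * (b : E) = Γ * (a : E) ∧ a * r - b * p ∈ 𝔭 ∧
      w * (r : E) = (p : E) := by
  have hwW : W.valuation w ≤ 1 := valuation_le_one_of_mem_locRing hBW h𝔭 hle hw
  obtain ⟨p, r, hr, hpr⟩ := hw
  have hp : p ∉ 𝔫 := fun hp => hw' ⟨p, r, hp, hr, hpr⟩
  have hx : lam / Γ ∈ W := by
    rw [← ValuationSubring.valuation_le_one_iff]
    have : lam / Γ = (lam / Γ - w) + w := by ring
    rw [this]
    exact le_trans (Valuation.map_add _ _ _) (max_le hlw.le hwW)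
  obtain ⟨a, b, hb, hab⟩ := hloc _ hx
  refine ⟨p, r, a, b, hp, hr, hb, ?_, ?_, hpr⟩
  · rw [← hab]
    field_simp
  · rw [h𝔭]
    have h1 : ((a * r - b * p : ↥B) : E) = (lam / Γ - w) * ((b : E) * (r : E)) := by
      show (a : E) * (r : E) - (b : E) * (p : E) = _
      rw [← hab, ← hpr]; ring
    rw [h1, map_mul]
    have h2 : W.valuation ((b : E) * (r : E)) ≤ 1 :=
      (ValuationSubring.valuation_le_one_iff _ _).mpr (W.mul_mem _ _ (hBW _ b.2) (hBW _ r.2))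
    calc W.valuation (lam / Γ - w) * W.valuation ((b : E) * (r : E))
        ≤ W.valuation (lam / Γ - w) * 1 := mul_le_mul_right h2 _
      _ < 1 := by rw [mul_one]; exact hlw

end Elem

section Sheets

variable {R : Type*} [CommRing R] [IsDomain R] {K : Type*} [Field K] [Algebra R K]
  {F : Type*} [Field F] [Algebra K F] [Algebra R F] [IsScalarTower R K F]
  {L : Type*} [Field L] [Algebra K L] [Algebra R L] [IsScalarTower R K L] [Algebra F L]
  [IsScalarTower K F L]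

/-- **incidence in the valuation currency**: two sheets `𝔓`, `𝔓'` of `L` through the closed point
`𝔑` of the chart `τ`, lying over the sheets `W`, `W'` of `F`; `Γ` a local root of `G` at the point
`𝔫` below `𝔑`; `λ / Γ ≡ w` on `W`, `λ' / Γ ≡ w'` on `W'` with `w ≡ w'` modulo `𝔫`. Then the
constants of `α / λ` on `𝔓` and of `α / λ'` on `𝔓'` agree modulo `𝔑`. -/
theorem incidence_of_sheets (t τ : K) (hle : chartOne R L τ ≤ chartMid R L t) {m : ℕ} (hm : 0 < m)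
    (G : F) (α : L) (hα : α ^ m = algebraMap F L G)
    (𝔑 : Ideal ↥(chartOne R L τ)) [h𝔑 : 𝔑.IsPrime]
    (𝔓 𝔓' : Ideal ↥(chartMid R L t)) [h𝔓 : 𝔓.IsPrime] [h𝔓' : 𝔓'.IsPrime]
    (h𝔓𝔑 : 𝔓.comap (Subalgebra.inclusion hle) ≤ 𝔑)
    (h𝔓'𝔑 : 𝔓'.comap (Subalgebra.inclusion hle) ≤ 𝔑)
    (Γ : F) (hΓ : Γ ≠ 0) (c d : ↥(chartOne R F τ))
    (hd : d ∉ 𝔑.comap (chartMap (L := L) τ)) (hgd : G * (d : F) = Γ ^ m * (c : F))
    {W W' : ValuationSubring F} (hBW : ∀ b ∈ chartOne R F τ, b ∈ W)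
    (hBW' : ∀ b ∈ chartOne R F τ, b ∈ W') {𝔭 𝔭' : Ideal ↥(chartOne R F τ)}
    (h𝔭 : ∀ b : ↥(chartOne R F τ), b ∈ 𝔭 ↔ W.valuation (b : F) < 1)
    (h𝔭' : ∀ b : ↥(chartOne R F τ), b ∈ 𝔭' ↔ W'.valuation (b : F) < 1)
    (hloc : ∀ x ∈ W, ∃ r s : ↥(chartOne R F τ), s ∉ 𝔭 ∧ x * (s : F) = (r : F))
    (hloc' : ∀ x ∈ W', ∃ r s : ↥(chartOne R F τ), s ∉ 𝔭' ∧ x * (s : F) = (r : F))
    (hover : ∀ y : ↥(chartOne R F τ),
      Subalgebra.inclusion hle (chartMap (L := L) τ y) ∈ 𝔓 ↔ y ∈ 𝔭)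
    (hover' : ∀ y : ↥(chartOne R F τ),
      Subalgebra.inclusion hle (chartMap (L := L) τ y) ∈ 𝔓' ↔ y ∈ 𝔭')
    {lam lam' w w' : F} (hlam : lam ≠ 0) (hlam' : lam' ≠ 0)
    (hw : w ∈ locRing (chartOne R F τ) (𝔑.comap (chartMap (L := L) τ)))
    (hwM : w ∉ locMax (chartOne R F τ) (𝔑.comap (chartMap (L := L) τ)))
    (hlw : W.valuation (lam / Γ - w) < 1)
    (hw' : w' ∈ locRing (chartOne R F τ) (𝔑.comap (chartMap (L := L) τ)))
    (hwM' : w' ∉ locMax (chartOne R F τ) (𝔑.comap (chartMap (L := L) τ)))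
    (hlw' : W'.valuation (lam' / Γ - w') < 1)
    (hcross : w - w' ∈ locMax (chartOne R F τ) (𝔑.comap (chartMap (L := L) τ)))
    (ξ ξ' : R) (hξ : CongAt (chartMid R L t) 𝔓 (α / algebraMap F L lam) ξ)
    (hξ' : CongAt (chartMid R L t) 𝔓' (α / algebraMap F L lam') ξ') :
    algebraMap R ↥(chartOne R L τ) (ξ - ξ') ∈ 𝔑 := by
  set 𝔫 := 𝔑.comap (chartMap (R := R) (F := F) (L := L) τ) with h𝔫def
  haveI : 𝔫.IsPrime := Ideal.comap_isPrime _ _
  have h𝔭𝔫 : 𝔭 ≤ 𝔫 := fun y hy => h𝔓𝔑 ((hover y).mpr hy)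
  have h𝔭'𝔫 : 𝔭' ≤ 𝔫 := fun y hy => h𝔓'𝔑 ((hover' y).mpr hy)
  obtain ⟨p, r, a, b, hp, hr, hb, hlamb, hmem, hwr⟩ :=
    exists_datum_elem hBW h𝔭 hloc h𝔭𝔫 hΓ hw hwM hlw
  obtain ⟨p', r', a', b', hp', hr', hb', hlamb', hmem', hwr'⟩ :=
    exists_datum_elem hBW' h𝔭' hloc' h𝔭'𝔫 hΓ hw' hwM' hlw'
  have hcr : p * r' - p' * r ∈ 𝔫 := by
    have h1 := mul_mem_locMax (B := chartOne R F τ) (𝔪 := 𝔫) (coe_mem_locRing (r * r')) hcross
    have h2 : ((r * r' : ↥(chartOne R F τ)) : F) * (w - w') =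
        ((p * r' - p' * r : ↥(chartOne R F τ)) : F) := by
      show (r : F) * (r' : F) * (w - w') = (p : F) * (r' : F) - (p' : F) * (r : F)
      rw [← hwr, ← hwr']; ring
    rw [h2] at h1
    exact (coe_mem_locMax_iff _).mp h1
  exact incidence_toric t τ hle hm G α hα 𝔑 𝔓 𝔓' h𝔓𝔑 h𝔓'𝔑 Γ hΓ c d hd hgd lam hlam p r a b hp
    (fun h => hb ((hover b).mp h)) hlamb ((hover _).mpr hmem) lam' hlam' p' r' a' b' hr'
    (fun h => hb' ((hover' b').mp h)) hlamb' ((hover' _).mpr hmem') hcr ξ ξ' hξ hξ'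

/-- the sheet `𝔓` of `L` lies over the sheet `W` of `F` (in the chart `t`). -/
def SheetOver (t : K) (𝔓 : Ideal ↥(chartMid R L t)) (W : ValuationSubring F) : Prop :=
  ∀ x : ↥(chartOne R F t), midMap (L := L) t x ∈ 𝔓 ↔ W.valuation (x : F) < 1

/-- the same in the chart `t⁻¹`. -/
theorem SheetOver.inv {t : K} (ht0 : t ≠ 0) {𝔓 : Ideal ↥(chartMid R L t)} [h𝔓 : 𝔓.IsPrime]
    {W : ValuationSubring F} (h : SheetOver t 𝔓 W) (hWt : W.valuation (algebraMap K F t) = 1)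
    (y : ↥(chartOne R F t⁻¹)) :
    Subalgebra.inclusion (chartOne_inv_le_chartMid t ht0) (chartMap (L := L) t⁻¹ y) ∈ 𝔓 ↔
      W.valuation (y : F) < 1 := by
  obtain ⟨n, hn⟩ := chartOne_inv_le_chartMid (R := R) (E := F) t ht0 y.2
  have htL : algebraMap K L t ≠ 0 := by rw [Ne, map_eq_zero]; exact ht0
  set tm : ↥(chartMid R L t) :=
    ⟨algebraMap K L t, chartOne_le_chartMid t (algebraMap_coord_mem_chartOne t)⟩ with htm
  have htm𝔓 : tm ^ n ∉ 𝔓 := by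
    intro h1
    have h2 := h𝔓.mem_of_pow_mem _ h1
    apply h𝔓.ne_top
    rw [Ideal.eq_top_iff_one]
    have h3 : (1 : ↥(chartMid R L t)) =
        tm * ⟨(algebraMap K L t)⁻¹, inv_coord_mem_chartMid t ht0⟩ := by
      apply Subtype.ext
      change (1 : L) = algebraMap K L t * (algebraMap K L t)⁻¹
      rw [mul_inv_cancel₀ htL]
    rw [h3]
    exact 𝔓.mul_mem_right _ h2
  have h1 : midMap (L := L) t ⟨_, hn⟩ =
      tm ^ n * Subalgebra.inclusion (chartOne_inv_le_chartMid t ht0) (chartMap (L := L) t⁻¹ y) := by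
    apply Subtype.ext
    change algebraMap F L (algebraMap K F t ^ n * (y : F)) =
      algebraMap K L t ^ n * algebraMap F L (y : F)
    rw [map_mul, map_pow, ← IsScalarTower.algebraMap_apply K F L]
  have h2 : W.valuation (algebraMap K F t ^ n * (y : F)) = W.valuation (y : F) := by
    rw [map_mul, map_pow, hWt, one_pow, one_mul]
  rw [← h2, ← h (⟨_, hn⟩ : ↥(chartOne R F t)), h1]
  constructor
  · intro h3
    exact 𝔓.mul_mem_left _ h3
  · intro h3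
    exact (h𝔓.mem_or_mem h3).resolve_left htm𝔓

end Sheets

end Fermat.Agent.SS
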