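/-
S35 [TORIC], gluing part — helper5 — part 3: **the main argument for a toric function.**

`G ∈ F` toric (`G ≡ Λ_∞ ^ m` on `W_∞`, `G ≡ Λ_0 ^ m` on `W_0`), with a toric closed datum
(`ToricDatumAt`) at every closed point of the special fibre of both charts; `L ⊇ F`, `α ∈ L`,
`α ^ m = G`.  On every sheet `𝔓` of `L` the element `α / Λ_{W(𝔓)}` is congruent to a well defined
`m`-th root of unity `Φ(𝔓)`; `Φ` agrees on sheets through a common closed point, hence is constant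
(SS-CONN2), hence every `F`-automorphism of `L` fixes `α`.

* `IsTwoSheet.sheetOver_inf_or_zero` : every sheet of `L` lies over `W_∞` or over `W_0`;
* `incidence_of_toricDatum` : the incidence step at a closed point of a chart;
* `ToricKumData`, `ToricKumData.fixed`.
-/
import Mathlib
import Fermat.Agent.S35.TORICKUM_helper5_Sheet
import Fermat.Agent.SS.HART_helper4

set_option autoImplicit false
set_option linter.unusedSectionVars false
set_option linter.style.haveILetI false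

namespace Fermat.Agent.SS

open Fermat.Agent.JA Polynomial

section Main

variable {R : Type*} [CommRing R] [IsDomain R] [IsDiscreteValuationRing R] [CharZero R]
  {K₁ : Type*} [Field K₁] [Algebra R K₁] [IsFractionRing R K₁]
  {K : Type*} [Field K] [Algebra K₁ K] [Algebra R K] [IsScalarTower R K₁ K]
  {F : Type*} [Field F] [Algebra K F] [Algebra R F] [IsScalarTower R K F] [FiniteDimensional K F]
  {L : Type*} [Field L] [Algebra K L] [Algebra K₁ L] [IsScalarTower K₁ K L] [Algebra R L]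
  [IsScalarTower R K L] [Algebra F L] [IsScalarTower K F L] [FiniteDimensional K L]
  {π : R} {t : K} {Winf W0 : ValuationSubring F}

/-- the coordinate is a unit of a Gauss valuation subring. -/
theorem valuation_coord_eq_one_of_isGaussAt {W : ValuationSubring F}
    (hG : IsGaussAt R π t (W.comap (algebraMap K F))) (hπ : Irreducible π) (ht0 : t ≠ 0) :
    W.valuation (algebraMap K F t) = 1 := by
  have h1 : algebraMap K F t ∈ W := by
    have := hG.1 X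
    rwa [aeval_X] at this
  have h2 : (algebraMap K F t)⁻¹ ∈ W := by
    have := hG.2.2 X (by
      intro hdvd
      have hc := (Polynomial.C_dvd_iff_dvd_coeff π X).mp hdvd 1
      rw [coeff_X_one] at hc
      exact hπ.not_isUnit (isUnit_of_dvd_one hc))
    rw [aeval_X] at this
    have h3 : algebraMap K F t⁻¹ ∈ W := this
    rwa [map_inv₀] at h3
  rw [← ValuationSubring.valuation_le_one_iff] at h1 h2
  rw [map_inv₀] at h2
  have h0 : W.valuation (algebraMap K F t) ≠ 0 := by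
    rw [Valuation.ne_zero_iff, Ne, map_eq_zero]
    exact ht0
  exact le_antisymm h1 ((inv_le_one₀ (zero_lt_iff.2 h0)).1 h2)

/-- **every sheet of `L` lies over one of the two sheets of `F`.** -/
theorem IsTwoSheet.sheetOver_inf_or_zero (h2 : IsTwoSheet π t Winf W0) (hπ : Irreducible π)
    (ht : Transcendental K₁ t) (hK : IntermediateField.adjoin K₁ {t} = ⊤)
    (s : SheetOf R L t π) :
    SheetOver (F := F) t s.1 Winf ∨ SheetOver (F := F) t s.1 W0 := by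
  have ht0 : t ≠ 0 := fun h => ht (h ▸ isAlgebraic_zero)
  have htL : algebraMap K L t ≠ 0 := by rw [Ne, map_eq_zero]; exact ht0
  have hinjL : Function.Injective (algebraMap R L) :=
    algebraMap_injective_of_tower (K₁ := K₁) (K := K)
  have hπL : algebraMap R L π ≠ 0 := by
    rw [Ne, map_eq_zero_iff _ hinjL]; exact hπ.ne_zero
  have hinjF : Function.Injective (algebraMap R F) := by
    rw [IsScalarTower.algebraMap_eq R K F, IsScalarTower.algebraMap_eq R K₁ K]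
    exact (algebraMap K F).injective.comp
      ((algebraMap K₁ K).injective.comp (IsFractionRing.injective R K₁))
  have hπF : algebraMap R F π ≠ 0 := by
    rw [Ne, map_eq_zero_iff _ hinjF]; exact hπ.ne_zero
  have h𝔔 := pair_comap_mem_minimalPrimes (chartOne_le_chartMid (R := R) (E := L) t)
    (algebraMap K L t) (algebraMap_coord_mem_chartOne t) htL (inv_coord_mem_chartMid t ht0)
    (fun x hx => hx) π s.1 s.2
  set 𝔔 := (s.1).comap (Subalgebra.inclusion (chartOne_le_chartMid (R := R) (E := L) t)) with h𝔔def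
  haveI : 𝔔.IsPrime := h𝔔.1.1
  have hh := height_eq_one_of_mem_minimalPrimes_chartOne (K₁ := K₁) t ht hK π hπL 𝔔 h𝔔
  have hπ𝔔 : algebraMap R ↥(chartOne R L t) π ∈ 𝔔 :=
    h𝔔.1.2 (Ideal.subset_span (Set.mem_singleton _))
  have hmin := comap_chartMap_mem_minimalPrimes (K₁ := K₁) (F := F) t ht hK π hπL 𝔔 hh hπ𝔔
  set 𝔭 := 𝔔.comap (chartMap (R := R) (F := F) (L := L) t) with h𝔭def
  haveI : 𝔭.IsPrime := hmin.1.1
  have hh' := height_eq_one_of_mem_minimalPrimes_chartOne (K₁ := K₁) (L := F) t ht hK π hπF 𝔭 hmin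
  have hπ𝔭 : algebraMap R ↥(chartOne R F t) π ∈ 𝔭 :=
    hmin.1.2 (Ideal.subset_span (Set.mem_singleton _))
  rcases h2.eq_or_eq_of_height_one hπ ht hK 𝔭 hh' hπ𝔭 with h | h
  · left
    intro x
    rw [← mem_sheetIdeal_iff t Winf h2.chart_le_inf, ← h]
    rfl
  · right
    intro x
    rw [← mem_sheetIdeal_iff t W0 h2.chart_le_zero, ← h]
    rfl

/-- **the incidence step at a closed point of a chart** (`τ = t` or `τ = t⁻¹`). -/
theorem incidence_of_toricDatum (t τ : K) (hle : chartOne R L τ ≤ chartMid R L t)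
    (h2 : IsTwoSheet π τ Winf W0) (hπ : Irreducible π)
    (hτ : Transcendental K₁ τ) (hKτ : IntermediateField.adjoin K₁ {τ} = ⊤)
    {m : ℕ} (hm : 0 < m) (hmR : IsUnit (m : R)) (G : F) (α : L)
    (hα : α ^ m = algebraMap F L G) {Linf L0 : F} (hLinf : Linf ≠ 0) (hL0 : L0 ≠ 0)
    (𝔑 : Ideal ↥(chartOne R L τ)) [h𝔑 : 𝔑.IsPrime]
    (hdat : ToricDatumAt (chartOne R F τ) (sheetIdeal τ Winf h2.chart_le_inf)
      (sheetIdeal τ W0 h2.chart_le_zero) (𝔑.comap (chartMap (L := L) τ)) Winf W0 m G Linf L0)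
    (𝔓 𝔓' : Ideal ↥(chartMid R L t)) [h𝔓 : 𝔓.IsPrime] [h𝔓' : 𝔓'.IsPrime]
    (h𝔓𝔑 : 𝔓.comap (Subalgebra.inclusion hle) ≤ 𝔑)
    (h𝔓'𝔑 : 𝔓'.comap (Subalgebra.inclusion hle) ≤ 𝔑)
    (lam lam' : F)
    (hs : (lam = Linf ∧ ∀ y : ↥(chartOne R F τ),
        Subalgebra.inclusion hle (chartMap (L := L) τ y) ∈ 𝔓 ↔ Winf.valuation (y : F) < 1) ∨
      (lam = L0 ∧ ∀ y : ↥(chartOne R F τ),
        Subalgebra.inclusion hle (chartMap (L := L) τ y) ∈ 𝔓 ↔ W0.valuation (y : F) < 1))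
    (hs' : (lam' = Linf ∧ ∀ y : ↥(chartOne R F τ),
        Subalgebra.inclusion hle (chartMap (L := L) τ y) ∈ 𝔓' ↔ Winf.valuation (y : F) < 1) ∨
      (lam' = L0 ∧ ∀ y : ↥(chartOne R F τ),
        Subalgebra.inclusion hle (chartMap (L := L) τ y) ∈ 𝔓' ↔ W0.valuation (y : F) < 1))
    (ξ ξ' : R) (hξ1 : ξ ^ m = 1) (hξ'1 : ξ' ^ m = 1)
    (hξ : CongAt (chartMid R L t) 𝔓 (α / algebraMap F L lam) ξ)
    (hξ' : CongAt (chartMid R L t) 𝔓' (α / algebraMap F L lam') ξ') : ξ = ξ' := by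
  set 𝔫 := 𝔑.comap (chartMap (R := R) (F := F) (L := L) τ) with h𝔫def
  haveI : 𝔫.IsPrime := Ideal.comap_isPrime _ _
  obtain ⟨Γ, winf, w0, hΓ, ⟨c, d, -, hd, hgd⟩, hinf, h0, hcross⟩ := hdat
  have hVinf := h2.exists_mul_eq_of_mem_inf hπ hτ hKτ
  have hV0 := h2.exists_mul_eq_of_mem_zero hπ hτ hKτ
  have hiinf := mem_sheetIdeal_iff τ Winf h2.chart_le_inf
  have hi0 := mem_sheetIdeal_iff τ W0 h2.chart_le_zero
  -- the sheet ideals lie in `𝔫`
  have hle_inf : ∀ 𝔔 : Ideal ↥(chartMid R L t), 𝔔.comap (Subalgebra.inclusion hle) ≤ 𝔑 →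
      (∀ y : ↥(chartOne R F τ), Subalgebra.inclusion hle (chartMap (L := L) τ y) ∈ 𝔔 ↔
        Winf.valuation (y : F) < 1) → sheetIdeal τ Winf h2.chart_le_inf ≤ 𝔫 :=
    fun 𝔔 h𝔔 hov y hy => h𝔔 ((hov y).mpr ((hiinf y).mp hy))
  have hle_zero : ∀ 𝔔 : Ideal ↥(chartMid R L t), 𝔔.comap (Subalgebra.inclusion hle) ≤ 𝔑 →
      (∀ y : ↥(chartOne R F τ), Subalgebra.inclusion hle (chartMap (L := L) τ y) ∈ 𝔔 ↔
        W0.valuation (y : F) < 1) → sheetIdeal τ W0 h2.chart_le_zero ≤ 𝔫 :=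
    fun 𝔔 h𝔔 hov y hy => h𝔔 ((hov y).mpr ((hi0 y).mp hy))
  have hmem : algebraMap R ↥(chartOne R L τ) (ξ - ξ') ∈ 𝔑 := by
    rcases hs with ⟨rfl, hov⟩ | ⟨rfl, hov⟩ <;> rcases hs' with ⟨rfl, hov'⟩ | ⟨rfl, hov'⟩
    · obtain ⟨hw, hwM, hlw⟩ := hinf (hle_inf 𝔓 h𝔓𝔑 hov)
      exact incidence_of_sheets t τ hle hm G α hα 𝔑 𝔓 𝔓' h𝔓𝔑 h𝔓'𝔑 Γ hΓ c d hd hgd
        h2.chart_le_inf h2.chart_le_inf hiinf hiinf hVinf hVinf
        (fun y => (hov y).trans (hiinf y).symm) (fun y => (hov' y).trans (hiinf y).symm)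
        hLinf hLinf hw hwM hlw hw hwM hlw (by rw [sub_self]; exact zero_mem_locMax) ξ ξ' hξ hξ'
    · obtain ⟨hw, hwM, hlw⟩ := hinf (hle_inf 𝔓 h𝔓𝔑 hov)
      obtain ⟨hw', hwM', hlw'⟩ := h0 (hle_zero 𝔓' h𝔓'𝔑 hov')
      exact incidence_of_sheets t τ hle hm G α hα 𝔑 𝔓 𝔓' h𝔓𝔑 h𝔓'𝔑 Γ hΓ c d hd hgd
        h2.chart_le_inf h2.chart_le_zero hiinf hi0 hVinf hV0
        (fun y => (hov y).trans (hiinf y).symm) (fun y => (hov' y).trans (hi0 y).symm)
        hLinf hL0 hw hwM hlw hw' hwM' hlw'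
        (hcross (hle_inf 𝔓 h𝔓𝔑 hov) (hle_zero 𝔓' h𝔓'𝔑 hov')) ξ ξ' hξ hξ'
    · obtain ⟨hw, hwM, hlw⟩ := h0 (hle_zero 𝔓 h𝔓𝔑 hov)
      obtain ⟨hw', hwM', hlw'⟩ := hinf (hle_inf 𝔓' h𝔓'𝔑 hov')
      have hcr := hcross (hle_inf 𝔓' h𝔓'𝔑 hov') (hle_zero 𝔓 h𝔓𝔑 hov)
      exact incidence_of_sheets t τ hle hm G α hα 𝔑 𝔓 𝔓' h𝔓𝔑 h𝔓'𝔑 Γ hΓ c d hd hgd
        h2.chart_le_zero h2.chart_le_inf hi0 hiinf hV0 hVinf
        (fun y => (hov y).trans (hi0 y).symm) (fun y => (hov' y).trans (hiinf y).symm)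
        hL0 hLinf hw hwM hlw hw' hwM' hlw'
        (by
          have : w0 - winf = -(winf - w0) := by ring
          rw [this]
          exact neg_mem_locMax hcr) ξ ξ' hξ hξ'
    · obtain ⟨hw, hwM, hlw⟩ := h0 (hle_zero 𝔓 h𝔓𝔑 hov)
      exact incidence_of_sheets t τ hle hm G α hα 𝔑 𝔓 𝔓' h𝔓𝔑 h𝔓'𝔑 Γ hΓ c d hd hgd
        h2.chart_le_zero h2.chart_le_zero hi0 hi0 hV0 hV0
        (fun y => (hov y).trans (hi0 y).symm) (fun y => (hov' y).trans (hi0 y).symm)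
        hL0 hL0 hw hwM hlw hw hwM hlw (by rw [sub_self]; exact zero_mem_locMax) ξ ξ' hξ hξ'
  exact eq_of_pow_eq_one_of_sub_mem hm hmR (𝔑.comap (algebraMap R ↥(chartOne R L τ)))
    (Ideal.comap_isPrime _ _).ne_top ξ ξ' hξ1 hξ'1 hmem

end Main

end Fermat.Agent.SS
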