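/-
S35 [TORIC], gluing part — helper5 — part 4: **`ToricKumData.fixed`**: every `F`-automorphism of `L`
fixes the `m`-th root `α` of a toric function `G` with toric closed data on both charts.
-/
import Mathlib
import Fermat.Agent.S35.TORICKUM_helper5_Main

set_option autoImplicit false
set_option linter.unusedSectionVars false
set_option linter.style.haveILetI false

namespace Fermat.Agent.SS

open Fermat.Agent.JA Polynomial

section Fixed

variable {R : Type*} [CommRing R] [IsDomain R] [IsDiscreteValuationRing R] [CharZero R]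
  {K₁ : Type*} [Field K₁] [Algebra R K₁] [IsFractionRing R K₁]
  {K : Type*} [Field K] [Algebra K₁ K] [Algebra R K] [IsScalarTower R K₁ K]
  {F : Type*} [Field F] [Algebra K F] [Algebra R F] [IsScalarTower R K F] [FiniteDimensional K F]
  {L : Type*} [Field L] [Algebra K L] [Algebra K₁ L] [IsScalarTower K₁ K L] [Algebra R L]
  [IsScalarTower R K L] [Algebra F L] [IsScalarTower K F L] [FiniteDimensional K L]

/-- the data of the main argument for a toric function. -/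
structure ToricKumData (K₁ : Type*) [Field K₁] [Algebra R K₁] [IsFractionRing R K₁] [Algebra K₁ K]
    [IsScalarTower R K₁ K] [Algebra K₁ L] [IsScalarTower K₁ K L]
    (t : K) (π : R) (m : ℕ) (ζ : R) (Winf W0 : ValuationSubring F) (G Linf L0 : F) (α : L) :
    Prop where
  ht : Transcendental K₁ t
  hK : IntermediateField.adjoin K₁ {t} = ⊤
  hπ : Irreducible π
  hm : 0 < m
  hmR : IsUnit (m : R)
  hζ : IsPrimitiveRoot ζ m
  two : IsTwoSheet π t Winf W0
  hLinf : Winf.valuation Linf = 1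
  hGinf : Winf.valuation (G - Linf ^ m) < 1
  hL0 : W0.valuation L0 = 1
  hG0 : W0.valuation (G - L0 ^ m) < 1
  hd₁ : ∀ (𝔫 : Ideal ↥(chartOne R F t)) (h𝔫 : 𝔫.IsMaximal),
    algebraMap R ↥(chartOne R F t) π ∈ 𝔫 →
    @ToricDatumAt R _ F _ _ (chartOne R F t) (sheetIdeal t Winf two.chart_le_inf)
      (sheetIdeal t W0 two.chart_le_zero) 𝔫 h𝔫.isPrime Winf W0 m G Linf L0
  hd₂ : ∀ (𝔫 : Ideal ↥(chartOne R F t⁻¹)) (h𝔫 : 𝔫.IsMaximal),
    algebraMap R ↥(chartOne R F t⁻¹) π ∈ 𝔫 →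
    @ToricDatumAt R _ F _ _ (chartOne R F t⁻¹) (sheetIdeal t⁻¹ Winf (two.inv hπ).chart_le_inf)
      (sheetIdeal t⁻¹ W0 (two.inv hπ).chart_le_zero) 𝔫 h𝔫.isPrime Winf W0 m G Linf L0
  hα : α ^ m = algebraMap F L G
  hM4 : ∀ x : L, IsAlgebraic K₁ x → x ∈ Set.range (algebraMap K₁ L)
  hRED₁ : ∀ x ∈ chartOne R L t, ∀ (N : ℕ), ∀ y ∈ chartOne R L t,
    x ^ N = algebraMap R L π * y → ∃ z ∈ chartOne R L t, x = algebraMap R L π * z
  hRED₂ : ∀ x ∈ chartOne R L t⁻¹, ∀ (N : ℕ), ∀ y ∈ chartOne R L t⁻¹,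
    x ^ N = algebraMap R L π * y → ∃ z ∈ chartOne R L t⁻¹, x = algebraMap R L π * z
  hT₁ : ∀ 𝔮 ∈ (Ideal.span {algebraMap R ↥(chartOne R L t) π}).minimalPrimes,
    (⟨algebraMap K L t, algebraMap_coord_mem_chartOne t⟩ : ↥(chartOne R L t)) ∉ 𝔮
  hT₂ : ∀ 𝔮 ∈ (Ideal.span {algebraMap R ↥(chartOne R L t⁻¹) π}).minimalPrimes,
    (⟨algebraMap K L t⁻¹, algebraMap_coord_mem_chartOne t⁻¹⟩ : ↥(chartOne R L t⁻¹)) ∉ 𝔮

variable {t : K} {π : R} {m : ℕ} {ζ : R} {Winf W0 : ValuationSubring F} {G Linf L0 : F} {α : L}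

theorem ToricKumData.ht0 (D : ToricKumData K₁ t π m ζ Winf W0 G Linf L0 α) : t ≠ 0 :=
  fun h => D.ht (h ▸ isAlgebraic_zero)

theorem ToricKumData.injective_mid (_D : ToricKumData K₁ t π m ζ Winf W0 G Linf L0 α) :
    Function.Injective (algebraMap R ↥(chartMid R L t)) := by
  intro x y h
  have hinj : Function.Injective (algebraMap R L) :=
    algebraMap_injective_of_tower (K₁ := K₁) (K := K)
  apply hinj
  have := congrArg (fun z : ↥(chartMid R L t) => (z : L)) h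
  exact this

/-- **the constant of a sheet.** -/
theorem ToricKumData.exists_const (D : ToricKumData K₁ t π m ζ Winf W0 G Linf L0 α)
    (s : SheetOf R L t π) {W : ValuationSubring F} {lam : F}
    (hW : (W = Winf ∧ lam = Linf) ∨ (W = W0 ∧ lam = L0)) (hs : SheetOver (F := F) t s.1 W) :
    ∃ ξ : R, ξ ^ m = 1 ∧ CongAt (chartMid R L t) s.1 (α / algebraMap F L lam) ξ := by
  haveI : (s.1).IsPrime := s.2.1.1
  have hζ' : IsPrimitiveRoot (algebraMap R ↥(chartMid R L t) ζ) m :=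
    D.hζ.map_of_injective D.injective_mid
  have key : ∀ (W : ValuationSubring F) (hBW : ∀ b ∈ chartOne R F t, b ∈ W) (lam : F),
      (∀ x ∈ W, ∃ r s' : ↥(chartOne R F t), s' ∉ sheetIdeal t W hBW ∧ x * (s' : F) = (r : F)) →
      W.valuation lam = 1 → W.valuation (G - lam ^ m) < 1 → SheetOver (F := F) t s.1 W →
      ∃ ξ : R, ξ ^ m = 1 ∧ CongAt (chartMid R L t) s.1 (α / algebraMap F L lam) ξ := by
    intro W hBW lam hloc hlam hG hs
    have hlam0 : lam ≠ 0 := fun h => by rw [h, map_zero] at hlam; exact zero_ne_one hlam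
    obtain ⟨c, d, hd, hcd, hGd⟩ := exists_toric_elem hBW (mem_sheetIdeal_iff t W hBW) hloc hlam hG
    obtain ⟨i, -, hi⟩ := exists_congAt_of_toric (L := L) t D.hm ζ hζ' G α D.hα s.1 lam hlam0 c d
      (fun h => hd ((mem_sheetIdeal_iff t W hBW d).mpr ((hs d).mp h)))
      ((hs _).mpr ((mem_sheetIdeal_iff t W hBW _).mp hcd)) hGd
    exact ⟨ζ ^ i, by rw [← pow_mul, mul_comm, pow_mul, D.hζ.pow_eq_one, one_pow], hi⟩
  rcases hW with ⟨rfl, rfl⟩ | ⟨rfl, rfl⟩
  · exact key _ D.two.chart_le_inf _ (D.two.exists_mul_eq_of_mem_inf D.hπ D.ht D.hK) D.hLinf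
      D.hGinf hs
  · exact key _ D.two.chart_le_zero _ (D.two.exists_mul_eq_of_mem_zero D.hπ D.ht D.hK) D.hL0
      D.hG0 hs

/-- **main theorem of the toric gluing (abstract `L`)**: every `F`-automorphism of `L` fixes
`α`. -/
theorem ToricKumData.fixed (D : ToricKumData K₁ t π m ζ Winf W0 G Linf L0 α) (τ : L ≃ₐ[F] L) :
    τ α = α := by
  classical
  haveI : NeZero m := ⟨D.hm.ne'⟩
  have ht0 := D.ht0
  have hπp : Prime π := D.hπ.prime
  have hinjL : Function.Injective (algebraMap R L) :=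
    algebraMap_injective_of_tower (K₁ := K₁) (K := K)
  have h2' := D.two.inv D.hπ
  have ht' : Transcendental K₁ t⁻¹ := transcendental_inv_of_transcendental D.ht
  have hK' : IntermediateField.adjoin K₁ {t⁻¹} = ⊤ := adjoin_inv_eq_top D.hK
  have hWt_inf : Winf.valuation (algebraMap K F t) = 1 :=
    valuation_coord_eq_one_of_isGaussAt D.two.gauss_inf D.hπ ht0
  have hWt_0 : W0.valuation (algebraMap K F t) = 1 :=
    valuation_coord_eq_one_of_isGaussAt D.two.gauss_zero D.hπ ht0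
  have hLinf0 : Linf ≠ 0 := fun h => by
    have := D.hLinf; rw [h, map_zero] at this; exact zero_ne_one this
  have hL00 : L0 ≠ 0 := fun h => by
    have := D.hL0; rw [h, map_zero] at this; exact zero_ne_one this
  have hsp : ∀ s : SheetOf R L t π, (s.1).IsPrime := fun s => s.2.1.1
  have hπs : ∀ s : SheetOf R L t π, algebraMap R ↥(chartMid R L t) π ∈ s.1 :=
    fun s => s.2.1.2 (Ideal.subset_span (Set.mem_singleton _))
  -- the root attached to a sheet
  let lamOf : SheetOf R L t π → F := fun s => if SheetOver (F := F) t s.1 Winf then Linf else L0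
  have hlamOf : ∀ s : SheetOf R L t π,
      (lamOf s = Linf ∧ SheetOver (F := F) t s.1 Winf) ∨
      (lamOf s = L0 ∧ SheetOver (F := F) t s.1 W0) := by
    intro s
    by_cases h : SheetOver (F := F) t s.1 Winf
    · left; exact ⟨if_pos h, h⟩
    · right
      exact ⟨if_neg h, (D.two.sheetOver_inf_or_zero D.hπ D.ht D.hK s).resolve_left h⟩
  have hex : ∀ s : SheetOf R L t π, ∃ ξ : R, ξ ^ m = 1 ∧
      CongAt (chartMid R L t) s.1 (α / algebraMap F L (lamOf s)) ξ := by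
    intro s
    rcases hlamOf s with ⟨h1, h2⟩ | ⟨h1, h2⟩
    · exact D.exists_const s (Or.inl ⟨rfl, h1⟩) h2
    · exact D.exists_const s (Or.inr ⟨rfl, h1⟩) h2
  choose Φ hΦ1 hΦ using hex
  have hconst : ∀ s s' : SheetOf R L t π, Φ s = Φ s' := by
    refine chart_sheet_const t D.ht D.hK π hπp D.hM4 D.hRED₁ D.hRED₂ D.hT₁ D.hT₂ Φ ?_ ?_
    · intro 𝔑 h𝔑 s s' hs hs'
      haveI := h𝔑
      haveI := hsp s
      haveI := hsp s'
      have hπ𝔑 : algebraMap R ↥(chartOne R L t) π ∈ 𝔑 := by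
        apply hs
        rw [Ideal.mem_comap]
        exact hπs s
      have hmax := comap_chartMap_isMaximal (F := F) t 𝔑
      have hdat := D.hd₁ _ hmax (by
        rw [Ideal.mem_comap, chartMap_algebraMap]
        exact hπ𝔑)
      refine incidence_of_toricDatum t t (chartOne_le_chartMid t) D.two D.hπ D.ht D.hK D.hm D.hmR G α
        D.hα hLinf0 hL00 𝔑 hdat s.1 s'.1 hs hs' (lamOf s) (lamOf s') ?_ ?_ (Φ s) (Φ s') (hΦ1 s)
        (hΦ1 s') (hΦ s) (hΦ s')
      · rcases hlamOf s with ⟨h1, h2⟩ | ⟨h1, h2⟩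
        · exact Or.inl ⟨h1, h2⟩
        · exact Or.inr ⟨h1, h2⟩
      · rcases hlamOf s' with ⟨h1, h2⟩ | ⟨h1, h2⟩
        · exact Or.inl ⟨h1, h2⟩
        · exact Or.inr ⟨h1, h2⟩
    · intro 𝔑 h𝔑 s s' hs hs'
      haveI := h𝔑
      haveI := hsp s
      haveI := hsp s'
      have hπ𝔑 : algebraMap R ↥(chartOne R L t⁻¹) π ∈ 𝔑 := by
        apply hs
        rw [Ideal.mem_comap]
        exact hπs s
      have hmax := comap_chartMap_isMaximal (F := F) t⁻¹ 𝔑
      have hdat := D.hd₂ _ hmax (by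
        rw [Ideal.mem_comap, chartMap_algebraMap]
        exact hπ𝔑)
      refine incidence_of_toricDatum t t⁻¹ (chartOne_inv_le_chartMid t ht0) h2' D.hπ ht' hK' D.hm
        D.hmR G α D.hα hLinf0 hL00 𝔑 hdat s.1 s'.1 hs hs' (lamOf s) (lamOf s') ?_ ?_ (Φ s) (Φ s')
        (hΦ1 s) (hΦ1 s') (hΦ s) (hΦ s')
      · rcases hlamOf s with ⟨h1, h2⟩ | ⟨h1, h2⟩
        · exact Or.inl ⟨h1, h2.inv ht0 hWt_inf⟩
        · exact Or.inr ⟨h1, h2.inv ht0 hWt_0⟩
      · rcases hlamOf s' with ⟨h1, h2⟩ | ⟨h1, h2⟩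
        · exact Or.inl ⟨h1, h2.inv ht0 hWt_inf⟩
        · exact Or.inr ⟨h1, h2.inv ht0 hWt_0⟩
  -- the Galois step
  obtain ⟨s₀⟩ := nonempty_sheetOf t D.ht D.hK π hπp D.hM4 D.hRED₁ D.hRED₂ D.hT₁ D.hT₂
  haveI := hsp s₀
  have hmin : (s₀.1).comap (midAut (R := R) t τ) ∈
      (Ideal.span {algebraMap R ↥(chartMid R L t) π}).minimalPrimes :=
    comap_mem_minimalPrimes_of_inverse (midAut (R := R) t τ) (midAut (R := R) t τ⁻¹)
      (midAut_inv t τ) (midAut_inv' t τ) _ (midAut_algebraMap t τ π) (midAut_algebraMap t τ⁻¹ π)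
      s₀.1 s₀.2
  set s' : SheetOf R L t π := ⟨_, hmin⟩ with hs'
  have hso : SheetOver (F := F) t s'.1 Winf ↔ SheetOver (F := F) t s₀.1 Winf := by
    unfold SheetOver
    refine forall_congr' fun x => ?_
    rw [hs', Ideal.mem_comap, midAut_midMap]
  have hlam : lamOf s' = lamOf s₀ := by
    show (if SheetOver (F := F) t s'.1 Winf then Linf else L0) =
      (if SheetOver (F := F) t s₀.1 Winf then Linf else L0)
    simp only [hso]
  have h1 := hΦ s'
  rw [hconst s' s₀, hlam] at h1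
  set lam := lamOf s₀ with hlamdef
  have hlam0 : lam ≠ 0 := by
    rcases hlamOf s₀ with ⟨h, -⟩ | ⟨h, -⟩
    · rw [hlamdef, h]; exact hLinf0
    · rw [hlamdef, h]; exact hL00
  have h2 : CongAt (chartMid R L t) s₀.1 ((τ : L →+* L) (α / algebraMap F L lam)) (Φ s₀) :=
    CongAt.map (τ : L →+* L) (midAut (R := R) t τ) (coe_midAut t τ) (midAut_algebraMap t τ) h1
  have h3 := hΦ s₀
  have hG0 : G ≠ 0 := by
    intro h
    have := D.hGinf
    rw [h, zero_sub, Valuation.map_neg, map_pow, D.hLinf, one_pow] at this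
    exact lt_irrefl _ this
  have hα0 : α ≠ 0 := by
    intro h
    have h' := D.hα
    rw [h, zero_pow D.hm.ne'] at h'
    exact hG0 ((map_eq_zero_iff _ (algebraMap F L).injective).1 h'.symm)
  have hω : (τ α / α) ^ m = 1 := by
    rw [div_pow, ← map_pow, D.hα, τ.commutes, div_self]
    rw [← D.hα]
    exact pow_ne_zero _ hα0
  obtain ⟨i, -, hωi⟩ := (D.hζ.map_of_injective hinjL).eq_pow_of_pow_eq_one hω
  have hlamL : algebraMap F L lam ≠ 0 := (_root_.map_ne_zero _).mpr hlam0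
  have h4 : (τ : L →+* L) (α / algebraMap F L lam) =
      algebraMap R L (ζ ^ i) * (α / algebraMap F L lam) := by
    change τ (α / algebraMap F L lam) = _
    rw [map_div₀, τ.commutes, map_pow, hωi]
    field_simp
  rw [h4] at h2
  have h5 := h3.const_mul (ζ ^ i)
  have h6 := h5.sub_mem h2
  have h7 : ζ ^ i * Φ s₀ = Φ s₀ := by
    refine eq_of_pow_eq_one_of_sub_mem D.hm D.hmR
      ((s₀.1).comap (algebraMap R ↥(chartMid R L t))) (Ideal.comap_isPrime _ _).ne_top _ _ ?_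
      (hΦ1 s₀) h6
    rw [mul_pow, hΦ1 s₀, mul_one, ← pow_mul, mul_comm, pow_mul, D.hζ.pow_eq_one, one_pow]
  have hΦ0 : Φ s₀ ≠ 0 := by
    intro h
    have := hΦ1 s₀
    rw [h, zero_pow D.hm.ne'] at this
    exact zero_ne_one this
  have h8 : ζ ^ i = 1 := mul_right_cancel₀ hΦ0 (by rw [h7, one_mul])
  rw [← map_pow, h8, map_one] at hωi
  have := hωi.symm
  rw [div_eq_one_iff_eq hα0] at this
  exact this

end Fixed

end Fermat.Agent.SS
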