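/-
S35 [TORIC], gluing part — helper5 — part 5: **the final theorem of the toric gluing.**

In the two-chart model of `F / K₁(t)` (`IsTwoSheet`, `IsModelChart` on both charts), a toric function
`G` (`G ≡ Λ_∞ ^ m` on `W_∞`, `G ≡ Λ_0 ^ m` on `W_0`) with a toric closed datum at every closed point
of the special fibre of both charts is an `m`-th power in `F`, as soon as its leading coefficient
is `1`.

* `IsTwoSheet.sheet_datum_of_toric` : the sheet datum needed for the reducedness of the Kummer cover;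
* `toric_final_aux` : the theorem for an abstract splitting field of `X ^ m - G`;
* `toric_pow_of_model` : the theorem.
-/
import Mathlib
import Fermat.Agent.S35.TORICKUM_helper5_Fixed

set_option autoImplicit false
set_option linter.unusedSectionVars false
set_option linter.style.haveILetI false

namespace Fermat.Agent.SS

open Fermat.Agent.JA Polynomial

section Final

variable {R : Type*} [CommRing R] [IsDomain R] [IsDiscreteValuationRing R] [CharZero R]
  {K₁ : Type*} [Field K₁] [Algebra R K₁] [IsFractionRing R K₁]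
  {K : Type*} [Field K] [Algebra K₁ K] [Algebra R K] [IsScalarTower R K₁ K]
  {F : Type*} [Field F] [Algebra K F] [Algebra K₁ F] [IsScalarTower K₁ K F] [Algebra R F]
  [IsScalarTower R K F] [FiniteDimensional K F]
  {π : R} {t : K} {Winf W0 : ValuationSubring F}

/-- the sheet datum of a toric function at the primes of the chart minimal over `π`. -/
theorem IsTwoSheet.sheet_datum_of_toric (h2 : IsTwoSheet π t Winf W0) (hπ : Irreducible π)
    (ht : Transcendental K₁ t) (hK : IntermediateField.adjoin K₁ {t} = ⊤)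
    {m : ℕ} {G Linf L0 : F}
    (hLinf : Winf.valuation Linf = 1) (hGinf : Winf.valuation (G - Linf ^ m) < 1)
    (hL0 : W0.valuation L0 = 1) (hG0 : W0.valuation (G - L0 ^ m) < 1)
    (𝔭 : Ideal ↥(chartOne R F t))
    (h𝔭 : 𝔭 ∈ (Ideal.span {algebraMap R ↥(chartOne R F t) π}).minimalPrimes) :
    ∃ s : F, s ≠ 0 ∧ ∃ c d : ↥(chartOne R F t), c ∉ 𝔭 ∧ d ∉ 𝔭 ∧
      G * (d : F) = s ^ m * (c : F) := by
  have hinjF : Function.Injective (algebraMap R F) := by
    rw [IsScalarTower.algebraMap_eq R K F, IsScalarTower.algebraMap_eq R K₁ K]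
    exact (algebraMap K F).injective.comp
      ((algebraMap K₁ K).injective.comp (IsFractionRing.injective R K₁))
  have hπF : algebraMap R F π ≠ 0 := by
    rw [Ne, map_eq_zero_iff _ hinjF]; exact hπ.ne_zero
  haveI : 𝔭.IsPrime := h𝔭.1.1
  have hh := height_eq_one_of_mem_minimalPrimes_chartOne (K₁ := K₁) (L := F) t ht hK π hπF 𝔭 h𝔭
  have hπ𝔭 : algebraMap R ↥(chartOne R F t) π ∈ 𝔭 :=
    h𝔭.1.2 (Ideal.subset_span (Set.mem_singleton _))
  have key : ∀ (W : ValuationSubring F) (hBW : ∀ b ∈ chartOne R F t, b ∈ W) (lam : F),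
      (∀ x ∈ W, ∃ r s' : ↥(chartOne R F t), s' ∉ sheetIdeal t W hBW ∧ x * (s' : F) = (r : F)) →
      W.valuation lam = 1 → W.valuation (G - lam ^ m) < 1 → 𝔭 = sheetIdeal t W hBW →
      ∃ s : F, s ≠ 0 ∧ ∃ c d : ↥(chartOne R F t), c ∉ 𝔭 ∧ d ∉ 𝔭 ∧
        G * (d : F) = s ^ m * (c : F) := by
    intro W hBW lam hloc hlam hG h𝔭W
    have hlam0 : lam ≠ 0 := fun h => by rw [h, map_zero] at hlam; exact zero_ne_one hlam
    obtain ⟨c, d, hd, hcd, hGd⟩ := exists_toric_elem hBW (mem_sheetIdeal_iff t W hBW) hloc hlam hG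
    refine ⟨lam, hlam0, c, d, ?_, by rw [h𝔭W]; exact hd, hGd⟩
    intro hc
    rw [h𝔭W] at hc
    apply hd
    have : d = c - (c - d) := by ring
    rw [this]
    exact Ideal.sub_mem _ hc hcd
  rcases h2.eq_or_eq_of_height_one hπ ht hK 𝔭 hh hπ𝔭 with h | h
  · exact key Winf h2.chart_le_inf Linf (h2.exists_mul_eq_of_mem_inf hπ ht hK) hLinf hGinf h
  · exact key W0 h2.chart_le_zero L0 (h2.exists_mul_eq_of_mem_zero hπ ht hK) hL0 hG0 h

/-- the final theorem, for an abstract splitting field `L` of `X ^ m - G`. -/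
theorem toric_final_aux {L : Type*} [Field L] [Algebra K L] [Algebra K₁ L] [IsScalarTower K₁ K L]
    [Algebra R L] [IsScalarTower R K L] [Algebra F L] [IsScalarTower K F L] [IsScalarTower K₁ F L]
    [FiniteDimensional K L]
    (t : K) (ht : Transcendental K₁ t) (hK : IntermediateField.adjoin K₁ {t} = ⊤)
    (π : R) (hπ : Irreducible π) {m : ℕ} (hm : 0 < m) (hmR : IsUnit (m : R)) (ζ : R)
    (hζ : IsPrimitiveRoot ζ m)
    (hM4 : ∀ x : F, IsAlgebraic K₁ x → x ∈ Set.range (algebraMap K₁ F))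
    (lc : Fˣ →* K₁ˣ) (hlc : ∀ c : K₁ˣ, lc (Units.map (algebraMap K₁ F).toMonoidHom c) = c)
    {Winf W0 : ValuationSubring F} (two : IsTwoSheet π t Winf W0)
    (hRED₁ : ∀ x ∈ chartOne R F t, ∀ (N : ℕ), ∀ y ∈ chartOne R F t,
      x ^ N = algebraMap R F π * y → ∃ z ∈ chartOne R F t, x = algebraMap R F π * z)
    (hRED₂ : ∀ x ∈ chartOne R F t⁻¹, ∀ (N : ℕ), ∀ y ∈ chartOne R F t⁻¹,
      x ^ N = algebraMap R F π * y → ∃ z ∈ chartOne R F t⁻¹, x = algebraMap R F π * z)
    (G Linf L0 : F)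
    (hLinf : Winf.valuation Linf = 1) (hGinf : Winf.valuation (G - Linf ^ m) < 1)
    (hL0 : W0.valuation L0 = 1) (hG0 : W0.valuation (G - L0 ^ m) < 1)
    (hd₁ : ∀ (𝔫 : Ideal ↥(chartOne R F t)) (h𝔫 : 𝔫.IsMaximal),
      algebraMap R ↥(chartOne R F t) π ∈ 𝔫 →
      @ToricDatumAt R _ F _ _ (chartOne R F t) (sheetIdeal t Winf two.chart_le_inf)
        (sheetIdeal t W0 two.chart_le_zero) 𝔫 h𝔫.isPrime Winf W0 m G Linf L0)
    (hd₂ : ∀ (𝔫 : Ideal ↥(chartOne R F t⁻¹)) (h𝔫 : 𝔫.IsMaximal),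
      algebraMap R ↥(chartOne R F t⁻¹) π ∈ 𝔫 →
      @ToricDatumAt R _ F _ _ (chartOne R F t⁻¹) (sheetIdeal t⁻¹ Winf (two.inv hπ).chart_le_inf)
        (sheetIdeal t⁻¹ W0 (two.inv hπ).chart_le_zero) 𝔫 h𝔫.isPrime Winf W0 m G Linf L0)
    (hlc1 : ∀ u : Fˣ, (u : F) = G → lc u = 1)
    [IsSplittingField F L (X ^ m - C G)] :
    ∃ u : F, G = u ^ m := by
  have hπp : Prime π := hπ.prime
  have hG : G ≠ 0 := by
    intro h
    rw [h, zero_sub, Valuation.map_neg, map_pow, hLinf, one_pow] at hGinf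
    exact lt_irrefl _ hGinf
  have hinjF : Function.Injective (algebraMap R F) :=
    algebraMap_injective_of_tower (K₁ := K₁) (K := K)
  have hinjL : Function.Injective (algebraMap R L) :=
    algebraMap_injective_of_tower (K₁ := K₁) (K := K)
  have hπL : algebraMap R L π ≠ 0 := by
    rw [Ne, map_eq_zero_iff _ hinjL]; exact hπp.ne_zero
  have hζF : IsPrimitiveRoot (algebraMap R F ζ) m := hζ.map_of_injective hinjF
  have hζK₁ : IsPrimitiveRoot (algebraMap R K₁ ζ) m :=
    hζ.map_of_injective (IsFractionRing.injective R K₁)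
  haveI : FiniteDimensional F L := IsSplittingField.finiteDimensional L (X ^ m - C G)
  have hmF : (m : F) ≠ 0 := by
    haveI : NeZero m := ⟨hm.ne'⟩
    exact (hζF.neZero' (R := F)).out
  haveI : IsGalois F L := IsGalois.of_separable_splitting_field
    (p := X ^ m - C G) (separable_X_pow_sub_C _ hmF hG)
  obtain ⟨α, hα, hfix⟩ := exists_root_fixing (L := L) hm (algebraMap R F ζ) hζF G hG
  have ht' : Transcendental K₁ t⁻¹ := transcendental_inv_of_transcendental ht
  have hK' : IntermediateField.adjoin K₁ {t⁻¹} = ⊤ := adjoin_inv_eq_top hK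
  have two' := two.inv hπ
  have D : ToricKumData K₁ t π m ζ Winf W0 G Linf L0 α :=
    { ht := ht
      hK := hK
      hπ := hπ
      hm := hm
      hmR := hmR
      hζ := hζ
      two := two
      hLinf := hLinf
      hGinf := hGinf
      hL0 := hL0
      hG0 := hG0
      hd₁ := hd₁
      hd₂ := hd₂
      hα := hα
      hM4 := fun x hx => mem_range_of_isAlgebraic_kummer hM4 lc hlc (algebraMap R K₁ ζ) hζK₁ hm α
        (Units.mk0 G hG) hα (hlc1 _ rfl) hfix x hx
      hRED₁ := fun x hx N y hy hxy => chartOne_reduced_of_kummer (K₁ := K₁) (F := F) t ht hK π hπL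
        hm hmR α G hα hG hfix hRED₁
        (two.sheet_datum_of_toric hπ ht hK hLinf hGinf hL0 hG0) x hx N y hy hxy
      hRED₂ := fun x hx N y hy hxy => chartOne_reduced_of_kummer (K₁ := K₁) (F := F) t⁻¹ ht' hK' π
        hπL hm hmR α G hα hG hfix hRED₂
        (two'.sheet_datum_of_toric hπ ht' hK' hLinf hGinf hL0 hG0) x hx N y hy hxy
      hT₁ := coord_not_mem_minimalPrimes_lift (K₁ := K₁) (F := F) t ht hK π hπL
        (coord_not_mem_of_mem_minimalPrimes (K₁ := K₁) t ht hK π hπp)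
      hT₂ := coord_not_mem_minimalPrimes_lift (K₁ := K₁) (F := F) t⁻¹ ht' hK' π hπL
        (coord_not_mem_of_mem_minimalPrimes (K₁ := K₁) t⁻¹ ht' hK' π hπp) }
  have hmem : α ∈ (⊥ : IntermediateField F L) :=
    (IsGalois.mem_bot_iff_fixed α).2 (fun τ => D.fixed τ)
  obtain ⟨u, hu⟩ := IntermediateField.mem_bot.1 hmem
  refine ⟨u, (algebraMap F L).injective ?_⟩
  rw [map_pow, hu, hα]

/-- **the toric gluing theorem.** -/
theorem toric_pow_of_model
    (t : K) (ht : Transcendental K₁ t) (hK : IntermediateField.adjoin K₁ {t} = ⊤)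
    (π : R) (hπ : Irreducible π) {m : ℕ} (hm : 0 < m) (hmR : IsUnit (m : R)) (ζ : R)
    (hζ : IsPrimitiveRoot ζ m)
    (hM4 : ∀ x : F, IsAlgebraic K₁ x → x ∈ Set.range (algebraMap K₁ F))
    (lc : Fˣ →* K₁ˣ) (hlc : ∀ c : K₁ˣ, lc (Units.map (algebraMap K₁ F).toMonoidHom c) = c)
    {Winf W0 : ValuationSubring F} (two : IsTwoSheet π t Winf W0)
    (hmod₁ : IsModelChart F π (sheetIdeal t Winf two.chart_le_inf)
      (sheetIdeal t W0 two.chart_le_zero))
    (hmod₂ : IsModelChart F π (sheetIdeal t⁻¹ Winf (two.inv hπ).chart_le_inf)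
      (sheetIdeal t⁻¹ W0 (two.inv hπ).chart_le_zero))
    (G Linf L0 : F)
    (hLinf : Winf.valuation Linf = 1) (hGinf : Winf.valuation (G - Linf ^ m) < 1)
    (hL0 : W0.valuation L0 = 1) (hG0 : W0.valuation (G - L0 ^ m) < 1)
    (hd₁ : ∀ (𝔫 : Ideal ↥(chartOne R F t)) (h𝔫 : 𝔫.IsMaximal),
      algebraMap R ↥(chartOne R F t) π ∈ 𝔫 →
      @ToricDatumAt R _ F _ _ (chartOne R F t) (sheetIdeal t Winf two.chart_le_inf)
        (sheetIdeal t W0 two.chart_le_zero) 𝔫 h𝔫.isPrime Winf W0 m G Linf L0)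
    (hd₂ : ∀ (𝔫 : Ideal ↥(chartOne R F t⁻¹)) (h𝔫 : 𝔫.IsMaximal),
      algebraMap R ↥(chartOne R F t⁻¹) π ∈ 𝔫 →
      @ToricDatumAt R _ F _ _ (chartOne R F t⁻¹) (sheetIdeal t⁻¹ Winf (two.inv hπ).chart_le_inf)
        (sheetIdeal t⁻¹ W0 (two.inv hπ).chart_le_zero) 𝔫 h𝔫.isPrime Winf W0 m G Linf L0)
    (hlc1 : ∀ u : Fˣ, (u : F) = G → lc u = 1) :
    ∃ u : F, G = u ^ m := by
  haveI : IsScalarTower R K (X ^ m - C G : F[X]).SplittingField :=
    IsScalarTower.of_algebraMap_eq fun r => by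
      rw [IsScalarTower.algebraMap_apply R F (X ^ m - C G : F[X]).SplittingField,
        IsScalarTower.algebraMap_apply R K F,
        ← IsScalarTower.algebraMap_apply K F (X ^ m - C G : F[X]).SplittingField]
  haveI : IsScalarTower K₁ K (X ^ m - C G : F[X]).SplittingField :=
    IsScalarTower.of_algebraMap_eq fun r => by
      rw [IsScalarTower.algebraMap_apply K₁ F (X ^ m - C G : F[X]).SplittingField,
        IsScalarTower.algebraMap_apply K₁ K F,
        ← IsScalarTower.algebraMap_apply K F (X ^ m - C G : F[X]).SplittingField]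
  haveI : FiniteDimensional K (X ^ m - C G : F[X]).SplittingField :=
    Module.Finite.trans F _
  exact toric_final_aux (L := (X ^ m - C G : F[X]).SplittingField) t ht hK π hπ hm hmR ζ hζ
    hM4 lc hlc two (hmod₁.reduced_chartOne t) (hmod₂.reduced_chartOne t⁻¹) G Linf L0 hLinf hGinf
    hL0 hG0 hd₁ hd₂ hlc1

end Final

end Fermat.Agent.SS
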