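/-
S35 [TORIC] — helper5 — **the toric step on a semistable model.**

`SSModel` (+ `hπ`, `hjint`, `k` algebraically closed, `m`, `ζ`, `lc`), `Ψ` a Frobenius-type
automorphism of the model (`SSFrobAut π Q j Winf W0 ΨR Ψ`) fixing every crossing point of the chart
`j`; `g ≠ 0` with rational `m`-divisible divisor, toric: `g ≡ A(u) ^ m` on `C_∞`, `g ≡ B(v) ^ m` on
`C_0` with `u`, `v` units of `V_M`; `Ψ g / g ^ Q` has rational `m`-divisible divisor and leading
coefficient `1`.  Then `Ψ g / g ^ Q` is an `m`-th power.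

* `SSModel.toric_pow` : the theorem.
-/
import Mathlib
import Fermat.Agent.S35.TORICKUM_helper5_Final
import Fermat.Agent.S35.NODEFROB_helper5_Model

set_option autoImplicit false
set_option linter.unusedSectionVars false
set_option linter.style.haveILetI false

open AlgebraicCurve

namespace Fermat.Agent.SS

open Fermat.Agent.JA Fermat.Agent.S35 Polynomial

/-- a unit of `V = W.comap f` maps to a unit of `W`. -/
theorem valuation_map_eq_one_of_comap_eq {EM EN : Type*} [Field EM] [Field EN]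
    {W : ValuationSubring EN} {V : ValuationSubring EM} (f : EM →+* EN) (h : W.comap f = V)
    {u : EM} (hu : V.valuation u = 1) : W.valuation (f u) = 1 := by
  have hu0 : u ≠ 0 := fun h0 => by rw [h0, map_zero] at hu; exact zero_ne_one hu
  have h1 : u ∈ V := (ValuationSubring.valuation_le_one_iff _ _).mp hu.le
  have h2 : u⁻¹ ∈ V := by
    rw [← ValuationSubring.valuation_le_one_iff, map_inv₀, hu, inv_one]
  rw [← h] at h1 h2
  have h3 : f u ∈ W := h1
  have h4 : (f u)⁻¹ ∈ W := by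
    have : f u⁻¹ ∈ W := h2
    rwa [map_inv₀] at this
  rw [← ValuationSubring.valuation_le_one_iff] at h3 h4
  rw [map_inv₀] at h4
  have h0 : W.valuation (f u) ≠ 0 := by
    rw [Valuation.ne_zero_iff]
    exact (_root_.map_ne_zero f).mpr hu0
  exact le_antisymm h3 ((inv_le_one₀ (zero_lt_iff.2 h0)).1 h4)

section Model

variable {R : Type*} [CommRing R] [IsDomain R] [IsDiscreteValuationRing R] [CharZero R]
  {K₁ : Type*} [Field K₁] [Algebra R K₁] [IsFractionRing R K₁]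
  {KM : Type*} [Field KM] [Algebra K₁ KM] [Algebra R KM] [IsScalarTower R K₁ KM]
  {EM : Type*} [Field EM] [Algebra KM EM] [Algebra K₁ EM] [IsScalarTower K₁ KM EM] [Algebra R EM]
  [IsScalarTower R KM EM]
  {KN : Type*} [Field KN] [Algebra K₁ KN] [Algebra R KN] [IsScalarTower R K₁ KN]
  {EN : Type*} [Field EN] [Algebra KN EN] [Algebra K₁ EN] [IsScalarTower K₁ KN EN] [Algebra R EN]
  [IsScalarTower R KN EN] [FiniteDimensional KN EN]
  {π : R} {q n : ℕ} {S : Finset R} {t : KM} {jM : EM} {j : KN} {A B : EM →+* EN}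
  {VM : ValuationSubring EM} {Winf W0 : ValuationSubring EN}

/-- **the toric step.** -/
theorem SSModel.toric_pow [IsAlgClosed (IsLocalRing.ResidueField R)]
    (h : SSModel K₁ π q n S t jM j A B VM Winf W0) (hπ : Irreducible π)
    (hjint : IsIntegral ↥(Algebra.adjoin R {B jM}) (A jM))
    {m : ℕ} (hm : 0 < m) (hmR : IsUnit (m : R)) (ζ : R) (hζ : IsPrimitiveRoot ζ m)
    (lc : ENˣ →* K₁ˣ) (hlc : ∀ c : K₁ˣ, lc (Units.map (algebraMap K₁ EN).toMonoidHom c) = c)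
    {Q : ℕ} {ΨR : R →+* R} {Ψ : EN →+* EN} (hΨ : SSFrobAut π Q j Winf W0 ΨR Ψ)
    (hnode : ∀ 𝔫 : Ideal ↥(chartOne R EN j), 𝔫.IsMaximal →
      sheetIdeal j Winf h.two.chart_le_inf ≤ 𝔫 → sheetIdeal j W0 h.two.chart_le_zero ≤ 𝔫 →
      ∀ x : ↥(chartOne R EN j), (x ∈ 𝔫 ↔ Ψ (x : EN) ∈ locMax (chartOne R EN j) 𝔫))
    (g : EN) (hg : g ≠ 0)
    (hordg : ∀ P : Place K₁ EN, P.ord g = 0 ∨ (IsRationalPlace P ∧ (m : ℤ) ∣ P.ord g))
    (hordG : ∀ P : Place K₁ EN, P.ord (Ψ g / g ^ Q) = 0 ∨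
      (IsRationalPlace P ∧ (m : ℤ) ∣ P.ord (Ψ g / g ^ Q)))
    (u v : EM) (hu : VM.valuation u = 1) (hv : VM.valuation v = 1)
    (hginf : Winf.valuation (g - A u ^ m) < 1) (hg0 : W0.valuation (g - B v ^ m) < 1)
    (hlc1 : ∀ w : ENˣ, (w : EN) = Ψ g / g ^ Q → lc w = 1) :
    ∃ w : EN, Ψ g / g ^ Q = w ^ m := by
  have hlinf : Winf.valuation (A u) = 1 := valuation_map_eq_one_of_comap_eq A h.comap_A_inf hu
  have hl0 : W0.valuation (B v) = 1 := valuation_map_eq_one_of_comap_eq B h.comap_B_zero hv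
  obtain ⟨hL1, hL2⟩ := toric_frob Winf Ψ hΨ.mem_inf Q m hlinf hginf
  obtain ⟨hL3, hL4⟩ := toric_frob W0 Ψ hΨ.mem_zero Q m hl0 hg0
  exact toric_pow_of_model (K₁ := K₁) j h.j_transcendental h.j_adjoin π hπ hm hmR ζ hζ h.const lc hlc
    h.two (h.isModelChart_one hπ) (h.isModelChart_two hπ hjint (h.two.inv hπ))
    (Ψ g / g ^ Q) (Ψ (A u) / A u ^ Q) (Ψ (B v) / B v ^ Q) hL1 hL2 hL3 hL4
    (fun 𝔫 h𝔫 hπ𝔫 => by
      haveI := h𝔫
      exact h.toricDatumAt_one hπ hΨ hnode hm.ne' hg hordg hordG hlinf hginf hl0 hg0 𝔫 hπ𝔫)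
    (fun 𝔫 h𝔫 hπ𝔫 => by
      haveI := h𝔫
      exact h.toricDatumAt_two hπ hjint hΨ hnode hm.ne' hg hordg hordG hlinf hginf hl0 hg0 𝔫 hπ𝔫)
    hlc1

end Model

end Fermat.Agent.SS
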