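/-
S35 — helper8 — **[BASE-abs], part 6: the base statement on generic hosts.**

For an `SSModel` on coefficient-stable hosts `(E_M, E_N)` over `(R, K)`, a coefficientwise
Frobenius-type automorphism `s` of `E_N` (`SSFrobAut π q j Winf W0 τR s`), a bound
`D ≥ [E_N : K_N]` and `r = nodePeriod q D`:
NODECOUNT (helper2) + TORIC (helper5, `SSModel.toric_pow`) + the formal core
(`frobPolyMul_pow_of_toric`) ⇒ for every monic `f` with good divisor for which the NORM step
provides the sheet data of `g' = s (s g) / g`, `g = s f / f`, the element `frobPolyMul q r s f` is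
an `m`-th power (`frob_base_of_ssModel`).
-/
import Mathlib
import Fermat.Agent.S35.BASEF_helper8_Core
import Fermat.Agent.S35.TORIC_helper5
import Fermat.Agent.S35.NODECOUNT_helper2_Main

set_option autoImplicit false
set_option linter.unusedSectionVars false
set_option linter.style.haveILetI false

open HahnSeries IntermediateField AlgebraicCurve ModularCurve

namespace Fermat.Agent.S35

open Fermat.Agent.JA Fermat.Agent.FF Fermat.Agent.SS

section Gen

variable {R : Type*} [CommRing R] [IsDomain R] [IsDiscreteValuationRing R] [CharZero R]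
  {K : Type*} [Field K] [Algebra R K] [IsFractionRing R K] [Algebra ℚ K]
  {EMf ENf : IntermediateField K (LaurentSeries K)}
  {KM : Type*} [Field KM] [Algebra K KM] [Algebra R KM] [IsScalarTower R K KM]
  [Algebra KM ↥EMf] [IsScalarTower K KM ↥EMf] [Algebra R ↥EMf] [IsScalarTower R KM ↥EMf]
  {KN : Type*} [Field KN] [Algebra K KN] [Algebra R KN] [IsScalarTower R K KN]
  [Algebra KN ↥ENf] [IsScalarTower K KN ↥ENf] [Algebra R ↥ENf] [IsScalarTower R KN ↥ENf]
  [FiniteDimensional KN ↥ENf]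

/-- **the base statement of the Frobenius route on generic hosts.** -/
theorem frob_base_of_ssModel [IsAlgClosed (IsLocalRing.ResidueField R)]
    (hEN : CoeffStable ENf) {π : R} (hπ : Irreducible π) {q n : ℕ} {S : Finset R} {t : KM}
    {jM : ↥EMf} {j : KN} {Ad Bd : ↥EMf →+* ↥ENf} {VM : ValuationSubring ↥EMf}
    {Winf W0 : ValuationSubring ↥ENf}
    (h : SSModel K π q n S t jM j Ad Bd VM Winf W0)
    (hjint : IsIntegral ↥(Algebra.adjoin R {Bd jM}) (Ad jM))
    {τ : K ≃ₐ[ℚ] K} {τR : R →+* R}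
    (hs : SSFrobAut π q j Winf W0 τR (coeffRingEnd hEN τ))
    {D : ℕ} (hD : Module.finrank KN ↥ENf ≤ D)
    {m : ℕ} (hm : 0 < m) (hmR : IsUnit (m : R)) (ζ : R) (hζ : IsPrimitiveRoot ζ m)
    (f : ↥ENf) (hf : f ≠ 0) (hlead : ((f : ↥ENf) : LaurentSeries K).leadingCoeff = 1)
    (hord : ∀ P : Place K ↥ENf, P.ord f = 0 ∨ (IsRationalPlace P ∧ (m : ℤ) ∣ P.ord f))
    (hnorm : ∃ u v : ↥EMf, VM.valuation u = 1 ∧ VM.valuation v = 1 ∧
      Winf.valuation (coeffRingEnd hEN τ (coeffRingEnd hEN τ (coeffRingEnd hEN τ f / f)) /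
        (coeffRingEnd hEN τ f / f) - Ad u ^ m) < 1 ∧
      W0.valuation (coeffRingEnd hEN τ (coeffRingEnd hEN τ (coeffRingEnd hEN τ f / f)) /
        (coeffRingEnd hEN τ f / f) - Bd v ^ m) < 1) :
    ∃ w : ↥ENf,
      frobPolyMul q (nodePeriod q D) (fun x => coeffGalois hEN τ • x) f = w ^ m := by
  have hq0 : 0 < q := h.q_prime.pos
  refine frobPolyMul_pow_of_toric hEN τ q (nodePeriod q D) m Ad Bd VM Winf W0 ?_ f hf hlead hord
    hnorm
  intro g hg hordg hordG ⟨u, v, hu, hv, hginf, hg0⟩ hlc1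
  exact h.toric_pow hπ hjint hm hmR ζ hζ (hostLc ENf) (hostLc_algebraMap ENf)
    (nodecount_ssFrobAut_pow (q := q) hs hq0 D) (nodecount_hnode h hπ hD hs) g hg hordg hordG
    u v hu hv hginf hg0 hlc1

end Gen

end Fermat.Agent.S35
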