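/-
S35 — helper8 — **[BASE-abs], part 7: the base statement on the Legendre and Hesse hosts**, over an
arbitrary discrete valuation ring `R` (algebraically closed residue field) with an abstract
Frobenius lift `(τ, τR)` on `(K, R)`: from helper7's concrete models `SSModelLeg` / `SSModelHes`,
helper6's host-level `SSFrobAut` (`ssFrobAut_leg`, `ssFrobAut_hes`), a degree bound `D` and the NORM
data on the hosts.
-/
import Mathlib
import Fermat.Agent.S35.BASEF_helper8_Gen
import Fermat.Agent.S35.FROBSHEET_helper6_Host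
import Fermat.Agent.SS.BASE_helper1_Hes

set_option autoImplicit false
set_option linter.unusedSectionVars false
set_option linter.style.haveILetI false
set_option synthInstance.maxHeartbeats 200000

open HahnSeries IntermediateField AlgebraicCurve ModularCurve Fermat.Agent.Igusa

namespace Fermat.Agent.S35

open Fermat.Agent.JA Fermat.Agent.FF Fermat.Agent.SS

open scoped Fermat.Agent.JA.Host

section Host

variable (R : Type*) [CommRing R] [IsDomain R] [IsDiscreteValuationRing R] [CharZero R]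
  (K : Type*) [Field K] [Algebra R K] [IsFractionRing R K] [Algebra ℚ K] [Algebra K ℂ]

set_option maxHeartbeats 1600000 in
/-- **the base statement on the Legendre hosts** (`q ≠ 2`), abstract Frobenius lift. -/
theorem legFrob_of_ssModelLeg [IsAlgClosed (IsLocalRing.ResidueField R)]
    {M q : ℕ} [NeZero M] [NeZero q] [NeZero (M * q)] {x y : ℤ}
    [DecidableEq R] {π : R} (hπ : Irreducible π) {h2 : IsUnit (2 : R)}
    {hbez : (q : ℤ) * x + M * y = 1} {hq : q.Prime} {hq2 : q ≠ 2}
    (hqπ : (q : R) ∈ Ideal.span {π})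
    (h : SSModelLeg R K π h2 hbez hq hq2)
    (τ : K ≃ₐ[ℚ] K) (τR : R →+* R)
    (hτ : ∀ r : R, τ (algebraMap R K r) = algebraMap R K (τR r))
    (hfrob : ∀ r : R, τR r - r ^ q ∈ Ideal.span {π}) (hbij : Function.Bijective τR)
    {D : ℕ}
    (hD : haveI : FiniteDimensional ↥K⟮jqNModC K 2⟯ ↥(legE K (M * q)) :=
        finite_legE_adjoin_j K (M * q)
      Module.finrank ↥K⟮jqNModC K 2⟯ ↥(legE K (M * q)) ≤ D)
    {m : ℕ} (hm : 0 < m) (hmR : IsUnit (m : R)) (ζ : R) (hζ : IsPrimitiveRoot ζ m)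
    (f : ↥(legE K (M * q))) (hf : f ≠ 0)
    (hlead : ((f : ↥(legE K (M * q))) : LaurentSeries K).leadingCoeff = 1)
    (hord : ∀ P : Place K ↥(legE K (M * q)),
      P.ord f = 0 ∨ (IsRationalPlace P ∧ (m : ℤ) ∣ P.ord f))
    (hnorm : ∃ u v : ↥(legE K M), (legWinf R K h2 M).valuation u = 1 ∧
      (legWinf R K h2 M).valuation v = 1 ∧
      (legWinf R K h2 (M * q)).valuation
        (legGalois K (M * q) τ • (legGalois K (M * q) τ • (legGalois K (M * q) τ • f / f)) /
          (legGalois K (M * q) τ • f / f) - legHostA K M q u ^ m) < 1 ∧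
      (legW0 R K hbez hq).valuation
        (legGalois K (M * q) τ • (legGalois K (M * q) τ • (legGalois K (M * q) τ • f / f)) /
          (legGalois K (M * q) τ • f / f) - legHostB K M q hq hq2 v ^ m) < 1) :
    ∃ w : ↥(legE K (M * q)),
      frobPolyMul q (nodePeriod q D) (fun z => legGalois K (M * q) τ • z) f = w ^ m := by
  haveI : FiniteDimensional ↥K⟮jqNModC K 2⟯ ↥(legE K (M * q)) := finite_legE_adjoin_j K (M * q)
  have h' := SSModelLeg.ssModel R K h
  have hjint := SSModelLeg.jint R K hπ h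
  have hs := ssFrobAut_leg R K hπ hqπ h τ τR hτ hfrob hbij
  exact frob_base_of_ssModel (coeffStable_legE K (M * q)) hπ h' hjint hs hD hm hmR ζ hζ f hf
    hlead hord hnorm

set_option maxHeartbeats 1600000 in
/-- **the base statement on the Hesse hosts** (`q = 2`), abstract Frobenius lift. -/
theorem hesFrob_of_ssModelHes [IsAlgClosed (IsLocalRing.ResidueField R)]
    {M : ℕ} [NeZero M] [NeZero (M * 2)] {x y : ℤ}
    [DecidableEq R] {π : R} (hπ : Irreducible π) {h3 : IsUnit (3 : R)} {ω : R}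
    {hbez : ((2 : ℕ) : ℤ) * x + M * y = 1}
    (hqπ : ((2 : ℕ) : R) ∈ Ideal.span {π})
    (h : SSModelHes R K π h3 ω hbez)
    (τ : K ≃ₐ[ℚ] K) (τR : R →+* R)
    (hτ : ∀ r : R, τ (algebraMap R K r) = algebraMap R K (τR r))
    (hfrob : ∀ r : R, τR r - r ^ 2 ∈ Ideal.span {π}) (hbij : Function.Bijective τR)
    {D : ℕ}
    (hD : haveI : FiniteDimensional ↥K⟮jqNModC K 3⟯ ↥(hesE K (M * 2)) :=
        finite_hesE_adjoin_j K (M * 2)
      Module.finrank ↥K⟮jqNModC K 3⟯ ↥(hesE K (M * 2)) ≤ D)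
    {m : ℕ} (hm : 0 < m) (hmR : IsUnit (m : R)) (ζ : R) (hζ : IsPrimitiveRoot ζ m)
    (f : ↥(hesE K (M * 2))) (hf : f ≠ 0)
    (hlead : ((f : ↥(hesE K (M * 2))) : LaurentSeries K).leadingCoeff = 1)
    (hord : ∀ P : Place K ↥(hesE K (M * 2)),
      P.ord f = 0 ∨ (IsRationalPlace P ∧ (m : ℤ) ∣ P.ord f))
    (hnorm : ∃ u v : ↥(hesE K M), (hesWinf R K h3 M).valuation u = 1 ∧
      (hesWinf R K h3 M).valuation v = 1 ∧
      (hesWinf R K h3 (M * 2)).valuation
        (hesGalois K (M * 2) τ • (hesGalois K (M * 2) τ • (hesGalois K (M * 2) τ • f / f)) /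
          (hesGalois K (M * 2) τ • f / f) - hesHostA K M 2 u ^ m) < 1 ∧
      (hesW0 R K hbez Nat.prime_two).valuation
        (hesGalois K (M * 2) τ • (hesGalois K (M * 2) τ • (hesGalois K (M * 2) τ • f / f)) /
          (hesGalois K (M * 2) τ • f / f) - hesHostB K M v ^ m) < 1) :
    ∃ w : ↥(hesE K (M * 2)),
      frobPolyMul 2 (nodePeriod 2 D) (fun z => hesGalois K (M * 2) τ • z) f = w ^ m := by
  haveI : FiniteDimensional ↥K⟮jqNModC K 3⟯ ↥(hesE K (M * 2)) := finite_hesE_adjoin_j K (M * 2)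
  have h' := SSModelHes.ssModel R K h
  have hjint := SSModelHes.jint R K hπ h
  have hs := ssFrobAut_hes R K hπ hqπ h τ τR hτ hfrob hbij
  exact frob_base_of_ssModel (coeffStable_hesE K (M * 2)) hπ h' hjint hs hD hm hmR ζ hζ f hf
    hlead hord hnorm

end Host

end Fermat.Agent.S35
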