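/-
S35 — helper8 — **the base plug of the Frobenius route**: a Frobenius element `φ` at `A | q`
(`A.IsFrobeniusAt φ q`) induces on `R₁ = A ∩ K₁` (`K₁` normal) a ring automorphism `φ̄` with
`φ̄ r ≡ r ^ q` modulo the maximal ideal, compatible with `resGal K₁ φ` on `K₁`
(`frobBaseRingAut`, `frobBaseRingAut_sub_pow_mem`, `resGal_algebraMap_frobBase`).
Companion of helper1's `baseRingAut` (inertia elements).
-/
import Mathlib
import Fermat.Agent.SS.IBASE_helper1_Core
import Fermat.Prelude.Def_EllipticCurve_FrobeniusTrace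

set_option autoImplicit false
set_option linter.unusedSectionVars false
set_option linter.style.haveILetI false

open IntermediateField

namespace Fermat.Agent.S35

open Fermat.Agent.JA Fermat.Agent.SS

open scoped Pointwise

/-- `Ω = AlgebraicClosure ℚ`. -/
local notation "Ω" => AlgebraicClosure ℚ

/-- the absolute Galois group. -/
local notation "GQ" => (AlgebraicClosure ℚ ≃ₐ[ℚ] AlgebraicClosure ℚ)

section Frob

variable {A : ValuationSubring Ω} {φ : GQ} {q : ℕ}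

/-- a Frobenius element stabilises `A` and acts as the `q`-th power modulo the maximal ideal. -/
theorem frobenius_map_mem_and_sub_mem (hφ : A.IsFrobeniusAt φ q) {a : Ω} (ha : a ∈ A) :
    φ a ∈ A ∧ φ a - a ^ q ∈ A.nonunits := by
  obtain ⟨hdec, hfrob⟩ := hφ
  set τ : A.decompositionSubgroup ℚ := ⟨φ, hdec⟩ with hτ
  have hmem : φ a ∈ A := Fermat.Agent.Tate.decomposition_map_mem τ ha
  refine ⟨hmem, ?_⟩
  have h1 : τ • IsLocalRing.residue A ⟨a, ha⟩ = IsLocalRing.residue A ⟨a, ha⟩ ^ q :=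
    hfrob _
  rw [← IsLocalRing.ResidueField.residue_smul, ← map_pow] at h1
  have h2 : IsLocalRing.residue A (τ • (⟨a, ha⟩ : A) - (⟨a, ha⟩ : A) ^ q) = 0 := by
    rw [map_sub, h1, sub_self]
  rw [IsLocalRing.residue_eq_zero_iff] at h2
  have h3 : ((τ • (⟨a, ha⟩ : A) - (⟨a, ha⟩ : A) ^ q : A) : Ω) ∈ A.nonunits := by
    rw [ValuationSubring.mem_nonunits_iff_exists_mem_maximalIdeal]
    exact ⟨_, h2⟩
  exact h3

/-- the inverse of a Frobenius element stabilises `A`. -/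
theorem frobenius_symm_map_mem (hφ : A.IsFrobeniusAt φ q) {a : Ω} (ha : a ∈ A) :
    φ⁻¹ a ∈ A := by
  obtain ⟨hdec, -⟩ := hφ
  exact Fermat.Agent.Tate.decomposition_map_mem
    (⟨φ⁻¹, inv_mem hdec⟩ : A.decompositionSubgroup ℚ) ha

theorem frobenius_map_mem_iff (hφ : A.IsFrobeniusAt φ q) {a : Ω} : φ a ∈ A ↔ a ∈ A := by
  refine ⟨fun h => ?_, fun h => (frobenius_map_mem_and_sub_mem hφ h).1⟩
  have := frobenius_symm_map_mem hφ h
  rwa [← AlgEquiv.mul_apply, inv_mul_cancel, AlgEquiv.one_apply] at this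

variable {K₁ : IntermediateField ℚ Ω} [Normal ℚ ↥K₁]

theorem resGal_mem_baseRing_iff_of_frob (hφ : A.IsFrobeniusAt φ q) {c : ↥K₁} :
    resGal K₁ φ c ∈ baseRing A K₁ ↔ c ∈ baseRing A K₁ := by
  rw [mem_baseRing_iff, mem_baseRing_iff, A.valuation_le_one_iff, A.valuation_le_one_iff,
    coe_resGal]
  exact frobenius_map_mem_iff hφ

/-- **the automorphism `φ̄` of `R₁ = A ∩ K₁`** induced by a Frobenius element `φ` at `A`. -/
noncomputable def frobBaseRingAut (hφ : A.IsFrobeniusAt φ q) :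
    ↥(baseRing A K₁) ≃+* ↥(baseRing A K₁) where
  toFun c := ⟨resGal K₁ φ c, (resGal_mem_baseRing_iff_of_frob hφ).mpr c.2⟩
  invFun c := ⟨resGal K₁ φ⁻¹ c, by
    have h1 : resGal K₁ φ (resGal K₁ φ⁻¹ (c : ↥K₁)) = c := by
      rw [← AlgEquiv.mul_apply, ← map_mul, mul_inv_cancel, map_one]; rfl
    have h2 := c.2
    rw [← h1] at h2
    exact (resGal_mem_baseRing_iff_of_frob hφ).mp h2⟩
  left_inv c := by
    apply Subtype.ext
    show resGal K₁ φ⁻¹ (resGal K₁ φ c) = c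
    rw [← AlgEquiv.mul_apply, ← map_mul, inv_mul_cancel, map_one]
    rfl
  right_inv c := by
    apply Subtype.ext
    show resGal K₁ φ (resGal K₁ φ⁻¹ c) = c
    rw [← AlgEquiv.mul_apply, ← map_mul, mul_inv_cancel, map_one]
    rfl
  map_mul' x y := Subtype.ext (map_mul (resGal K₁ φ) (x : ↥K₁) (y : ↥K₁))
  map_add' x y := Subtype.ext (map_add (resGal K₁ φ) (x : ↥K₁) (y : ↥K₁))

@[simp]
theorem coe_frobBaseRingAut (hφ : A.IsFrobeniusAt φ q) (c : ↥(baseRing A K₁)) :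
    ((frobBaseRingAut hφ c : ↥(baseRing A K₁)) : ↥K₁) = resGal K₁ φ (c : ↥K₁) := rfl

/-- compatibility with `resGal` (the hypothesis `hτ` of the Frobenius packages). -/
theorem resGal_algebraMap_frobBase (hφ : A.IsFrobeniusAt φ q) (r : ↥(baseRing A K₁)) :
    resGal K₁ φ (algebraMap ↥(baseRing A K₁) ↥K₁ r) =
      algebraMap ↥(baseRing A K₁) ↥K₁
        ((frobBaseRingAut (K₁ := K₁) hφ : ↥(baseRing A K₁) →+* ↥(baseRing A K₁)) r) := rfl

/-- **`φ̄ r ≡ r ^ q`** modulo the maximal ideal of `R₁`. -/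
theorem frobBaseRingAut_sub_pow_mem_maximalIdeal (hφ : A.IsFrobeniusAt φ q)
    (c : ↥(baseRing A K₁)) :
    frobBaseRingAut hφ c - c ^ q ∈ IsLocalRing.maximalIdeal ↥(baseRing A K₁) := by
  rw [mem_maximalIdeal_baseRing_iff]
  have hc : ((c : ↥K₁) : Ω) ∈ A := (A.valuation_le_one_iff _).mp (valuation_coe_le_one c)
  have h1 := (frobenius_map_mem_and_sub_mem hφ hc).2
  rw [ValuationSubring.mem_nonunits_iff] at h1
  have h2 : (((frobBaseRingAut hφ c - c ^ q : ↥(baseRing A K₁)) : ↥K₁) : Ω) =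
      φ ((c : ↥K₁) : Ω) - ((c : ↥K₁) : Ω) ^ q := by
    rw [← coe_resGal K₁ φ (c : ↥K₁)]
    rfl
  rw [h2]
  exact h1

/-- **`φ̄ r − r ^ q ∈ (ϖ)`** for a uniformizer `ϖ` of the discrete valuation ring `R₁` (the
hypothesis `hfrob` of the Frobenius packages). -/
theorem frobBaseRingAut_sub_pow_mem [IsDiscreteValuationRing ↥(baseRing A K₁)]
    (hφ : A.IsFrobeniusAt φ q) {ϖ : ↥(baseRing A K₁)} (hϖ : Irreducible ϖ)
    (r : ↥(baseRing A K₁)) :
    (frobBaseRingAut (K₁ := K₁) hφ : ↥(baseRing A K₁) →+* ↥(baseRing A K₁)) r - r ^ q ∈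
      Ideal.span {ϖ} := by
  rw [← hϖ.maximalIdeal_eq]
  exact frobBaseRingAut_sub_pow_mem_maximalIdeal hφ r

theorem frobBaseRingAut_bijective (hφ : A.IsFrobeniusAt φ q) :
    Function.Bijective
      ((frobBaseRingAut (K₁ := K₁) hφ : ↥(baseRing A K₁) →+* ↥(baseRing A K₁))) :=
  (frobBaseRingAut (K₁ := K₁) hφ).bijective

end Frob

end Fermat.Agent.S35
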