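/-
S35 — helper8 — **[BASE-abs], part 8: the base statement at a Galois base.**

At a Galois base `K₁ ⊂ Ω` (`IsGalBase q K₁`), `R₁ = A ∩ K₁`, and a Frobenius element `φ` at `A | q`:
helper7's concrete models (`SSModelLeg`/`SSModelHes`) + the base plug (`frobBaseRingAut`) + the
uniform degree bounds (helper6's DEG0) + `legFrob_of_ssModelLeg`/`hesFrob_of_ssModelHes` give the
conclusion of `LegFrobBase`/`HesFrobBase` with `r = nodePeriod q (D₀leg (M q))`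
(resp. `nodePeriod 2 (D₀hes (M 2))`), from the NORM data on the hosts
(`legFrob_at_base`, `hesFrob_at_base`).
-/
import Mathlib
import Fermat.Agent.S35.BASEF_helper8_Host
import Fermat.Agent.S35.FROBPLUG_helper8
import Fermat.Agent.SS.DEG0_helper6
import Fermat.Agent.SS.MODELS_helper7_AtBases

set_option autoImplicit false
set_option linter.unusedSectionVars false
set_option linter.style.haveILetI false
set_option synthInstance.maxHeartbeats 200000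

open HahnSeries IntermediateField AlgebraicCurve ModularCurve Fermat.Agent.Igusa

namespace Fermat.Agent.S35

open Fermat.Agent.JA Fermat.Agent.FF Fermat.Agent.SS

open scoped Fermat.Agent.JA.Host

/-- `Ω = AlgebraicClosure ℚ`. -/
local notation "Ω" => AlgebraicClosure ℚ

/-- the absolute Galois group. -/
local notation "GQ" => (AlgebraicClosure ℚ ≃ₐ[ℚ] AlgebraicClosure ℚ)

section Leg

variable {M q : ℕ} [NeZero M] [NeZero q] [NeZero (M * q)] {A : ValuationSubring Ω}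
  {K₁ : IntermediateField ℚ Ω} [Normal ℚ ↥K₁] [instC : Algebra ↥K₁ ℂ]

set_option maxHeartbeats 1600000 in
/-- **the base statement at a Galois base, Legendre hosts**, from the NORM data on the hosts. -/
theorem legFrob_at_base (hq : q.Prime) (hq2 : q ≠ 2) (hA : A.LiesOverPrime q)
    (hK₁ : IsGalBase q K₁)
    [IsDiscreteValuationRing ↥(baseRing A K₁)] [CharZero ↥(baseRing A K₁)]
    [DecidableEq ↥(baseRing A K₁)]
    {ϖ : ↥(baseRing A K₁)} (hϖ : Irreducible ϖ) (h2 : IsUnit (2 : ↥(baseRing A K₁)))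
    {x y : ℤ} (hbez : (q : ℤ) * x + M * y = 1)
    (h : SSModelLeg ↥(baseRing A K₁) ↥K₁ ϖ h2 hbez hq hq2)
    {φ : GQ} (hφ : A.IsFrobeniusAt φ q) {m : ℕ} (hm : 0 < m) (hqm : ¬ q ∣ m)
    (f : ↥(legE ↥K₁ (M * q))) (hf : f ≠ 0)
    (hlead : ((f : ↥(legE ↥K₁ (M * q))) : LaurentSeries ↥K₁).leadingCoeff = 1)
    (hord : ∀ P : Place ↥K₁ ↥(legE ↥K₁ (M * q)),
      P.ord f = 0 ∨ (IsRationalPlace P ∧ (m : ℤ) ∣ P.ord f))
    (hnorm : ∃ u v : ↥(legE ↥K₁ M), (legWinf ↥(baseRing A K₁) ↥K₁ h2 M).valuation u = 1 ∧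
      (legWinf ↥(baseRing A K₁) ↥K₁ h2 M).valuation v = 1 ∧
      (legWinf ↥(baseRing A K₁) ↥K₁ h2 (M * q)).valuation
        (legGalois ↥K₁ (M * q) (resGal K₁ φ) • (legGalois ↥K₁ (M * q) (resGal K₁ φ) •
          (legGalois ↥K₁ (M * q) (resGal K₁ φ) • f / f)) /
          (legGalois ↥K₁ (M * q) (resGal K₁ φ) • f / f) - legHostA ↥K₁ M q u ^ m) < 1 ∧
      (legW0 ↥(baseRing A K₁) ↥K₁ hbez hq).valuation
        (legGalois ↥K₁ (M * q) (resGal K₁ φ) • (legGalois ↥K₁ (M * q) (resGal K₁ φ) •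
          (legGalois ↥K₁ (M * q) (resGal K₁ φ) • f / f)) /
          (legGalois ↥K₁ (M * q) (resGal K₁ φ) • f / f) - legHostB ↥K₁ M q hq hq2 v ^ m) < 1) :
    ∃ w : ↥(legE ↥K₁ (M * q)),
      frobPolyMul q (nodePeriod q (D₀leg (M * q)))
        (fun z => legGalois ↥K₁ (M * q) (resGal K₁ φ) • z) f = w ^ m := by
  haveI : Fact q.Prime := ⟨hq⟩
  haveI := hK₁.isBase.isAlgClosed_residueField hA
  obtain ⟨ζ, hζ⟩ := hK₁.isBase.exists_isPrimitiveRoot_baseRing A hm hqm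
  have hmR : IsUnit ((m : ℕ) : ↥(baseRing A K₁)) := isUnit_natCast_baseRing hA hqm
  exact legFrob_of_ssModelLeg ↥(baseRing A K₁) ↥K₁ hϖ
    (natCast_mem_span_uniformizer_baseRing hA K₁ hϖ) h (resGal K₁ φ)
    (frobBaseRingAut (K₁ := K₁) hφ : ↥(baseRing A K₁) →+* ↥(baseRing A K₁))
    (resGal_algebraMap_frobBase hφ) (frobBaseRingAut_sub_pow_mem hφ hϖ)
    (frobBaseRingAut_bijective hφ) (finrank_legE_adjoin_j_le ↥K₁ (M * q)) hm hmR ζ hζ f hf hlead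
    hord hnorm

end Leg

section Hes

variable {M : ℕ} [NeZero M] [NeZero (M * 2)] {A : ValuationSubring Ω}
  {K₁ : IntermediateField ℚ Ω} [Normal ℚ ↥K₁] [instC : Algebra ↥K₁ ℂ]

set_option maxHeartbeats 1600000 in
/-- **the base statement at a Galois base, Hesse hosts**, from the NORM data on the hosts. -/
theorem hesFrob_at_base (hA : A.LiesOverPrime 2) (hK₁ : IsGalBase 2 K₁)
    [IsDiscreteValuationRing ↥(baseRing A K₁)] [CharZero ↥(baseRing A K₁)]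
    [DecidableEq ↥(baseRing A K₁)]
    {ϖ : ↥(baseRing A K₁)} (hϖ : Irreducible ϖ) (h3 : IsUnit (3 : ↥(baseRing A K₁)))
    {ω : ↥(baseRing A K₁)} {x y : ℤ} (hbez : ((2 : ℕ) : ℤ) * x + M * y = 1)
    (h : SSModelHes ↥(baseRing A K₁) ↥K₁ ϖ h3 ω hbez)
    {φ : GQ} (hφ : A.IsFrobeniusAt φ 2) {m : ℕ} (hm : 0 < m) (hqm : ¬ 2 ∣ m)
    (f : ↥(hesE ↥K₁ (M * 2))) (hf : f ≠ 0)
    (hlead : ((f : ↥(hesE ↥K₁ (M * 2))) : LaurentSeries ↥K₁).leadingCoeff = 1)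
    (hord : ∀ P : Place ↥K₁ ↥(hesE ↥K₁ (M * 2)),
      P.ord f = 0 ∨ (IsRationalPlace P ∧ (m : ℤ) ∣ P.ord f))
    (hnorm : ∃ u v : ↥(hesE ↥K₁ M), (hesWinf ↥(baseRing A K₁) ↥K₁ h3 M).valuation u = 1 ∧
      (hesWinf ↥(baseRing A K₁) ↥K₁ h3 M).valuation v = 1 ∧
      (hesWinf ↥(baseRing A K₁) ↥K₁ h3 (M * 2)).valuation
        (hesGalois ↥K₁ (M * 2) (resGal K₁ φ) • (hesGalois ↥K₁ (M * 2) (resGal K₁ φ) •
          (hesGalois ↥K₁ (M * 2) (resGal K₁ φ) • f / f)) /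
          (hesGalois ↥K₁ (M * 2) (resGal K₁ φ) • f / f) - hesHostA ↥K₁ M 2 u ^ m) < 1 ∧
      (hesW0 ↥(baseRing A K₁) ↥K₁ hbez Nat.prime_two).valuation
        (hesGalois ↥K₁ (M * 2) (resGal K₁ φ) • (hesGalois ↥K₁ (M * 2) (resGal K₁ φ) •
          (hesGalois ↥K₁ (M * 2) (resGal K₁ φ) • f / f)) /
          (hesGalois ↥K₁ (M * 2) (resGal K₁ φ) • f / f) - hesHostB ↥K₁ M v ^ m) < 1) :
    ∃ w : ↥(hesE ↥K₁ (M * 2)),
      frobPolyMul 2 (nodePeriod 2 (D₀hes (M * 2)))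
        (fun z => hesGalois ↥K₁ (M * 2) (resGal K₁ φ) • z) f = w ^ m := by
  haveI : Fact (2 : ℕ).Prime := ⟨Nat.prime_two⟩
  haveI := hK₁.isBase.isAlgClosed_residueField hA
  obtain ⟨ζ, hζ⟩ := hK₁.isBase.exists_isPrimitiveRoot_baseRing A hm hqm
  have hmR : IsUnit ((m : ℕ) : ↥(baseRing A K₁)) := isUnit_natCast_baseRing hA hqm
  exact hesFrob_of_ssModelHes ↥(baseRing A K₁) ↥K₁ hϖ
    (natCast_mem_span_uniformizer_baseRing hA K₁ hϖ) h (resGal K₁ φ)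
    (frobBaseRingAut (K₁ := K₁) hφ : ↥(baseRing A K₁) →+* ↥(baseRing A K₁))
    (resGal_algebraMap_frobBase hφ) (frobBaseRingAut_sub_pow_mem hφ hϖ)
    (frobBaseRingAut_bijective hφ) (finrank_hesE_adjoin_j_le ↥K₁ (M * 2)) hm hmR ζ hζ f hf hlead
    hord hnorm

end Hes

end Fermat.Agent.S35
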