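/-
S35 — helper8 — **[BASE-abs], final assembly**: `LegFrobBase` / `HesFrobBase`
(`S35/FROBBASE_helper8_Iface`) from the NORM step on the hosts at every Galois base
(`LegNormStepAtBases` / `HesNormStepAtBases` = helper9's N2-F transported by helper7's XPORT):
the only remaining input.
-/
import Mathlib
import Fermat.Agent.S35.BASEF_helper8_Base

set_option autoImplicit false
set_option linter.unusedSectionVars false
set_option linter.style.haveILetI false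
set_option synthInstance.maxHeartbeats 200000

open HahnSeries IntermediateField AlgebraicCurve ModularCurve Fermat.Agent.Igusa

namespace Fermat.Agent.S35

open Fermat.Agent.JA Fermat.Agent.FF Fermat.Agent.SS

open scoped Fermat.Agent.JA.Host

/-- `Ω = AlgebraicClosure ℚ`. -/
local notation "Ω" => AlgebraicClosure ℚ

/-- the absolute Galois group. -/
local notation "GQ" => (AlgebraicClosure ℚ ≃ₐ[ℚ] AlgebraicClosure ℚ)

/-- **the NORM step on the Legendre hosts at every Galois base** (N2-F + XPORT): if the norms of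
`f₀ ∈ F_{Mq}(K₁)` along the two degeneracy maps are `m`-th powers, then
`g' = s (s g) / g`, `g = s f / f` (`f` the image of `f₀` in the host, `s` the coefficientwise
Frobenius) is congruent to `A(u) ^ m` on `W_∞` and to `B(v) ^ m` on `W_0`, `u`, `v` units of `V_M`. -/
def LegNormStepAtBases : Prop :=
  ∀ (M q : ℕ) [NeZero M] [NeZero q] [NeZero (M * q)] (hq : q.Prime) (hq2 : q ≠ 2), ¬ q ∣ M →
    ∀ (A : ValuationSubring Ω), A.LiesOverPrime q →
    ∀ (K₁ : IntermediateField ℚ Ω) [Normal ℚ ↥K₁], IsGalBase q K₁ →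
    ∀ [IsDiscreteValuationRing ↥(baseRing A K₁)] [CharZero ↥(baseRing A K₁)]
      (h2 : IsUnit (2 : ↥(baseRing A K₁))) (x y : ℤ) (hbez : (q : ℤ) * x + M * y = 1)
      (φ : GQ), A.IsFrobeniusAt φ q → ∀ (m : ℕ), 0 < m → ¬ q ∣ m →
    ∀ f₀ : ↥(keyFq ↥K₁ (M * q)), f₀ ≠ 0 →
      (∃ hA : ↥(keyFq ↥K₁ M),
        (letI := (keyFqA ↥K₁ M q).toRingHom.toAlgebra; Algebra.norm ↥(keyFq ↥K₁ M) f₀) = hA ^ m) →
      (∃ hB : ↥(keyFq ↥K₁ M),
        (letI := (keyFqB ↥K₁ M q).toRingHom.toAlgebra; Algebra.norm ↥(keyFq ↥K₁ M) f₀) = hB ^ m) →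
      letI := baseToComplex K₁
      ∃ u v : ↥(legE ↥K₁ M), (legWinf ↥(baseRing A K₁) ↥K₁ h2 M).valuation u = 1 ∧
        (legWinf ↥(baseRing A K₁) ↥K₁ h2 M).valuation v = 1 ∧
        (legWinf ↥(baseRing A K₁) ↥K₁ h2 (M * q)).valuation
          (legGalois ↥K₁ (M * q) (resGal K₁ φ) • (legGalois ↥K₁ (M * q) (resGal K₁ φ) •
            (legGalois ↥K₁ (M * q) (resGal K₁ φ) • fullToLegE ↥K₁ (M * q) f₀ /
              fullToLegE ↥K₁ (M * q) f₀)) /
            (legGalois ↥K₁ (M * q) (resGal K₁ φ) • fullToLegE ↥K₁ (M * q) f₀ /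
              fullToLegE ↥K₁ (M * q) f₀) - legHostA ↥K₁ M q u ^ m) < 1 ∧
        (legW0 ↥(baseRing A K₁) ↥K₁ hbez hq).valuation
          (legGalois ↥K₁ (M * q) (resGal K₁ φ) • (legGalois ↥K₁ (M * q) (resGal K₁ φ) •
            (legGalois ↥K₁ (M * q) (resGal K₁ φ) • fullToLegE ↥K₁ (M * q) f₀ /
              fullToLegE ↥K₁ (M * q) f₀)) /
            (legGalois ↥K₁ (M * q) (resGal K₁ φ) • fullToLegE ↥K₁ (M * q) f₀ /
              fullToLegE ↥K₁ (M * q) f₀) - legHostB ↥K₁ M q hq hq2 v ^ m) < 1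

/-- **the NORM step on the Hesse hosts at every Galois base** (`q = 2`). -/
def HesNormStepAtBases : Prop :=
  ∀ (M : ℕ) [NeZero M] [NeZero (M * 2)], ¬ 2 ∣ M →
    ∀ (A : ValuationSubring Ω), A.LiesOverPrime 2 →
    ∀ (K₁ : IntermediateField ℚ Ω) [Normal ℚ ↥K₁], IsGalBase 2 K₁ →
    ∀ [IsDiscreteValuationRing ↥(baseRing A K₁)] [CharZero ↥(baseRing A K₁)]
      (h3 : IsUnit (3 : ↥(baseRing A K₁))) (x y : ℤ) (hbez : ((2 : ℕ) : ℤ) * x + M * y = 1)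
      (φ : GQ), A.IsFrobeniusAt φ 2 → ∀ (m : ℕ), 0 < m → ¬ 2 ∣ m →
    ∀ f₀ : ↥(keyFq ↥K₁ (M * 2)), f₀ ≠ 0 →
      (∃ hA : ↥(keyFq ↥K₁ M),
        (letI := (keyFqA ↥K₁ M 2).toRingHom.toAlgebra; Algebra.norm ↥(keyFq ↥K₁ M) f₀) = hA ^ m) →
      (∃ hB : ↥(keyFq ↥K₁ M),
        (letI := (keyFqB ↥K₁ M 2).toRingHom.toAlgebra; Algebra.norm ↥(keyFq ↥K₁ M) f₀) = hB ^ m) →
      letI := baseToComplex K₁
      ∃ u v : ↥(hesE ↥K₁ M), (hesWinf ↥(baseRing A K₁) ↥K₁ h3 M).valuation u = 1 ∧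
        (hesWinf ↥(baseRing A K₁) ↥K₁ h3 M).valuation v = 1 ∧
        (hesWinf ↥(baseRing A K₁) ↥K₁ h3 (M * 2)).valuation
          (hesGalois ↥K₁ (M * 2) (resGal K₁ φ) • (hesGalois ↥K₁ (M * 2) (resGal K₁ φ) •
            (hesGalois ↥K₁ (M * 2) (resGal K₁ φ) • fullToHesE ↥K₁ (M * 2) f₀ /
              fullToHesE ↥K₁ (M * 2) f₀)) /
            (hesGalois ↥K₁ (M * 2) (resGal K₁ φ) • fullToHesE ↥K₁ (M * 2) f₀ /
              fullToHesE ↥K₁ (M * 2) f₀) - hesHostA ↥K₁ M 2 u ^ m) < 1 ∧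
        (hesW0 ↥(baseRing A K₁) ↥K₁ hbez Nat.prime_two).valuation
          (hesGalois ↥K₁ (M * 2) (resGal K₁ φ) • (hesGalois ↥K₁ (M * 2) (resGal K₁ φ) •
            (hesGalois ↥K₁ (M * 2) (resGal K₁ φ) • fullToHesE ↥K₁ (M * 2) f₀ /
              fullToHesE ↥K₁ (M * 2) f₀)) /
            (hesGalois ↥K₁ (M * 2) (resGal K₁ φ) • fullToHesE ↥K₁ (M * 2) f₀ /
              fullToHesE ↥K₁ (M * 2) f₀) - hesHostB ↥K₁ M v ^ m) < 1

set_option maxHeartbeats 1600000 in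
/-- **`LegFrobBase` from the NORM step on the hosts.** -/
theorem legFrobBase_of_normStep (Hnorm : LegNormStepAtBases) : LegFrobBase := by
  intro M _ q _ _ hq hq2 hqM
  refine ⟨nodePeriod q (D₀leg (M * q)), nodePeriod_pos _ _, ?_⟩
  intro A hA K₁ _ hK₁ φ hφ m hm hqm f₀ hf₀ hlead hord hNA hNB
  classical
  haveI : Fact q.Prime := ⟨hq⟩
  haveI : IsDiscreteValuationRing ↥(baseRing A K₁) := hK₁.isBase.isDiscreteValuationRing hA
  haveI : CharZero ↥(baseRing A K₁) := charZero_valuationSubring_of_algebraRat _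
  obtain ⟨ϖ, hϖ⟩ := IsDiscreteValuationRing.exists_irreducible ↥(baseRing A K₁)
  have h2 : IsUnit (2 : ↥(baseRing A K₁)) := isUnit_ofNat_baseRing hA K₁ Nat.prime_two hq2
  obtain ⟨x, y, hbez⟩ := exists_bezout_of_prime_of_not_dvd hq hqM
  have hf : fullToLegE ↥K₁ (M * q) f₀ ≠ 0 := (map_ne_zero _).2 hf₀
  have hlead' : ((fullToLegE ↥K₁ (M * q) f₀ : ↥(legE ↥K₁ (M * q))) :
      LaurentSeries ↥K₁).leadingCoeff = 1 := by
    rw [coe_fullToLegE, leadingCoeff_qExpand, hlead]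
  exact legFrob_at_base (instC := baseToComplex K₁) hq hq2 hA hK₁ hϖ h2 hbez
    (legModelAtBases M q hq hq2 hqM A hA K₁ hK₁ ϖ hϖ h2 x y hbez) hφ hm hqm
    (fullToLegE ↥K₁ (M * q) f₀) hf hlead' hord
    (Hnorm M q hq hq2 hqM A hA K₁ hK₁ h2 x y hbez φ hφ m hm hqm f₀ hf₀ hNA hNB)

set_option maxHeartbeats 1600000 in
/-- **`HesFrobBase` from the NORM step on the hosts.** -/
theorem hesFrobBase_of_normStep (Hnorm : HesNormStepAtBases) : HesFrobBase := by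
  intro M _ _ hqM
  refine ⟨nodePeriod 2 (D₀hes (M * 2)), nodePeriod_pos _ _, ?_⟩
  intro A hA K₁ _ hK₁ φ hφ m hm hqm f₀ hf₀ hlead hord hNA hNB
  classical
  haveI : Fact (2 : ℕ).Prime := ⟨Nat.prime_two⟩
  haveI : IsDiscreteValuationRing ↥(baseRing A K₁) := hK₁.isBase.isDiscreteValuationRing hA
  haveI : CharZero ↥(baseRing A K₁) := charZero_valuationSubring_of_algebraRat _
  obtain ⟨ϖ, hϖ⟩ := IsDiscreteValuationRing.exists_irreducible ↥(baseRing A K₁)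
  have h3 : IsUnit (3 : ↥(baseRing A K₁)) :=
    isUnit_ofNat_baseRing hA K₁ Nat.prime_three (by norm_num)
  obtain ⟨x, y, hbez⟩ := exists_bezout_of_prime_of_not_dvd Nat.prime_two hqM
  obtain ⟨ω, hmodel⟩ := hesModelAtBases M hqM A hA K₁ hK₁ ϖ hϖ h3 x y hbez
  have hf : fullToHesE ↥K₁ (M * 2) f₀ ≠ 0 := (map_ne_zero _).2 hf₀
  have hlead' : ((fullToHesE ↥K₁ (M * 2) f₀ : ↥(hesE ↥K₁ (M * 2))) :
      LaurentSeries ↥K₁).leadingCoeff = 1 := by
    rw [coe_fullToHesE, leadingCoeff_qExpand, hlead]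
  exact hesFrob_at_base (instC := baseToComplex K₁) hA hK₁ hϖ h3 hbez hmodel hφ hm hqm
    (fullToHesE ↥K₁ (M * 2) f₀) hf hlead' hord
    (Hnorm M hqM A hA K₁ hK₁ h3 x y hbez φ hφ m hm hqm f₀ hf₀ hNA hNB)

end Fermat.Agent.S35
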