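/-
S35-(FROB) [XPORT] — helper7 — **transport of the F-level sheets to the hosts**: the embeddings
`fullToLegE K N : F_N(K) → legE K N`, `fullToHesE` pull the sheets `legWinf`, `legW0`
(`hesWinf`, `hesW0`) back to helper6's F-level sheets `keyFqWinf`, `keyFqW0`, and intertwine the
degeneracy maps `keyFqA/keyFqB` with `legHostA/legHostB` and the coefficientwise actions.
Packaged corollary: the conclusion of the F-level norm step (helper9's N2-F) on the hosts.
-/
import Mathlib
import Fermat.Agent.SS.MODEL_helper7_W0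
import Fermat.Agent.S35.FROBKRON_helper6_Key
import Fermat.Agent.S35.FROBBASE_helper8_Iface
import Fermat.Agent.JA.UP_helper7_Emb
import Fermat.Agent.SS.IBASE_helper1_Act

set_option autoImplicit false
set_option linter.unusedSectionVars false
set_option linter.unusedVariables false
set_option linter.style.haveILetI false
set_option synthInstance.maxHeartbeats 200000

open Polynomial ModularCurve IntermediateField

namespace Fermat.Agent.S35

open Fermat.Agent.JA Fermat.Agent.Igusa Fermat.Agent.SS Fermat.Agent.X0N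

open scoped Fermat.Agent.JA.Host

noncomputable section

section Val

/-- `valuation = 1` along a ring homomorphism with prescribed restriction. -/
theorem xport_val_eq_one_iff {F L' : Type*} [Field F] [Field L'] (ι : F →+* L')
    {V : ValuationSubring L'} {O : ValuationSubring F} (h : V.comap ι = O) (a : F) :
    V.valuation (ι a) = 1 ↔ O.valuation a = 1 := by
  have h1 := comap_val_lt_one_iff ι h a
  have h2 : V.valuation (ι a) ≤ 1 ↔ O.valuation a ≤ 1 := by
    rw [ValuationSubring.valuation_le_one_iff, ValuationSubring.valuation_le_one_iff]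
    exact comap_mem_iff ι h a
  constructor
  · intro h3
    exact le_antisymm (h2.mp h3.le) (not_lt.mp fun h4 => (h1.mpr h4).ne h3)
  · intro h3
    exact le_antisymm (h2.mpr h3.le) (not_lt.mp fun h4 => (h1.mp h4).ne h3)

end Val

section Gen

variable (R : Type*) [CommRing R] [IsDomain R] [IsDiscreteValuationRing R]
  (K : Type*) [Field K] [Algebra R K] [IsFractionRing R K] [Algebra ℚ K]
  (ι : K →+* ℂ) {M q : ℕ} [NeZero M] [NeZero q] [NeZero (M * q)] (w : ℕ) [NeZero w]
  {x y : ℤ} (h : (q : ℤ) * x + M * y = 1) (hq : q.Prime)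

/-- Gauss-integrality is invariant under `x ↦ x ^ w` on the level field. -/
theorem xport_qExpand_mem_gaussInt_iff (N : ℕ) [NeZero N] (f : ↥(keyFq K N)) :
    qExpand K w (f : LaurentSeries K) ∈ gaussInt R K ↔ (f : LaurentSeries K) ∈ gaussInt R K := by
  constructor
  · exact (gaussHomQExpand R K w).mem_gaussInt_of_map_mem
      (laurentBaseChange_full_le_gaussField R K N f.2)
  · exact fun hf => (gaussHomQExpand R K w).map_mem_gaussInt hf

/-- **`W_0` of a host restricted to the level field** is helper6's `keyFqW0`. -/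
theorem xport_mem_hostW0_iff (E : IntermediateField K (LaurentSeries K))
    (hE : keyFw K (M * q) w ≤ E) (f : ↥(keyFq K (M * q))) (z : ↥E)
    (hz : (z : LaurentSeries K) = qExpand K w (f : LaurentSeries K)) :
    z ∈ hostW0 K ι w h hq R E hE ↔ f ∈ keyFqW0 R K ι h hq := by
  rw [mem_hostW0_iff_of_coe_eq K ι w h hq R E hE (hostImageEquiv K w (keyFq K (M * q)) f) z
    (by rw [hz, coe_hostImageEquiv]), alHost_hostImageEquiv, coe_hostImageEquiv,
    xport_qExpand_mem_gaussInt_iff, mem_keyFqW0_iff]

end Gen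

section Leg

variable (R : Type*) [CommRing R] [IsDomain R] [IsDiscreteValuationRing R] [CharZero R]
  (K : Type*) [Field K] [Algebra R K] [IsFractionRing R K] [Algebra ℚ K] [Algebra K ℂ]
  {M q : ℕ} [NeZero M] [NeZero q] [NeZero (M * q)] {x y : ℤ}

/-- (X3) `W_∞` of the Legendre host restricted to the level field. -/
theorem xport_legWinf_comap (h2 : IsUnit (2 : R)) (N : ℕ) [NeZero N] :
    (legWinf R K h2 N).comap (fullToLegE K N : ↥(keyFq K N) →+* ↥(legE K N)) =
      keyFqWinf R K N := by
  ext f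
  exact xport_qExpand_mem_gaussInt_iff R K 2 N f

/-- (X3) `W_0` of the Legendre host restricted to the level field. -/
theorem xport_legW0_comap (h : (q : ℤ) * x + M * y = 1) (hq : q.Prime) :
    (legW0 R K h hq).comap
        (fullToLegE K (M * q) : ↥(keyFq K (M * q)) →+* ↥(legE K (M * q))) =
      keyFqW0 R K (algebraMap K ℂ) h hq := by
  ext f
  exact xport_mem_hostW0_iff R K (algebraMap K ℂ) 2 h hq (legE K (M * q))
    (keyFw_le_legE K (M * q)) f _ rfl

/-- (X3) `A` on the level fields and on the Legendre hosts. -/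
theorem xport_fullToLegE_keyFqA (c : ↥(keyFq K M)) :
    fullToLegE K (M * q) (keyFqA K M q c) = legHostA K M q (fullToLegE K M c) := by
  apply Subtype.ext
  rw [coe_fullToLegE, coe_keyFqA, coe_legHostA, coe_fullToLegE]

/-- (X3) `B` on the level fields and on the Legendre hosts. -/
theorem xport_fullToLegE_keyFqB (hq : q.Prime) (hq2 : q ≠ 2) (c : ↥(keyFq K M)) :
    fullToLegE K (M * q) (keyFqB K M q c) = legHostB K M q hq hq2 (fullToLegE K M c) := by
  apply Subtype.ext
  rw [coe_fullToLegE, coe_keyFqB, coe_legHostB, coe_fullToLegE,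
    Fermat.Agent.SS.qExpand_qExpand' 2 q (2 * q) rfl,
    Fermat.Agent.SS.qExpand_qExpand' q 2 (2 * q) (mul_comm 2 q)]

/-- (X3) the coefficientwise actions on the level field and on the Legendre host. -/
theorem xport_fullToLegE_coeffRingAut (N : ℕ) [NeZero N] (τ : K ≃ₐ[ℚ] K) (z : ↥(keyFq K N)) :
    fullToLegE K N (coeffRingAut (coeffStable_keyFq K N) τ z) =
      coeffRingAut (coeffStable_legE K N) τ (fullToLegE K N z) := by
  apply Subtype.ext
  rw [coe_fullToLegE, coe_coeffRingAut_apply, coe_coeffRingAut_apply, coe_fullToLegE,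
    coeffMap_qExpand]

/-- **(X3) packaged, Legendre**: the conclusion of the F-level norm step on the hosts. -/
theorem xport_leg (h2 : IsUnit (2 : R)) (h : (q : ℤ) * x + M * y = 1) (hq : q.Prime)
    (hq2 : q ≠ 2) (m : ℕ) (G : ↥(keyFq K (M * q))) (u v : ↥(keyFq K M))
    (hu : (keyFqWinf R K M).valuation u = 1) (hv : (keyFqWinf R K M).valuation v = 1)
    (hinf : (keyFqWinf R K (M * q)).valuation (G - keyFqA K M q u ^ m) < 1)
    (h0 : (keyFqW0 R K (algebraMap K ℂ) h hq).valuation (G - keyFqB K M q v ^ m) < 1) :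
    (legWinf R K h2 M).valuation (fullToLegE K M u) = 1 ∧
    (legWinf R K h2 M).valuation (fullToLegE K M v) = 1 ∧
    (legWinf R K h2 (M * q)).valuation
      (fullToLegE K (M * q) G -
        (legHostA K M q : ↥(legE K M) →+* ↥(legE K (M * q))) (fullToLegE K M u) ^ m) < 1 ∧
    (legW0 R K h hq).valuation
      (fullToLegE K (M * q) G -
        (legHostB K M q hq hq2 : ↥(legE K M) →+* ↥(legE K (M * q))) (fullToLegE K M v) ^ m) <
      1 := by
  refine ⟨?_, ?_, ?_, ?_⟩
  · exact (xport_val_eq_one_iff (fullToLegE K M : ↥(keyFq K M) →+* ↥(legE K M))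
      (xport_legWinf_comap R K h2 M) u).mpr hu
  · exact (xport_val_eq_one_iff (fullToLegE K M : ↥(keyFq K M) →+* ↥(legE K M))
      (xport_legWinf_comap R K h2 M) v).mpr hv
  · have e : fullToLegE K (M * q) G -
        (legHostA K M q : ↥(legE K M) →+* ↥(legE K (M * q))) (fullToLegE K M u) ^ m =
        fullToLegE K (M * q) (G - keyFqA K M q u ^ m) := by
      rw [map_sub, map_pow, xport_fullToLegE_keyFqA K (q := q) u]
      rfl
    rw [e]
    exact (comap_val_lt_one_iff
      (fullToLegE K (M * q) : ↥(keyFq K (M * q)) →+* ↥(legE K (M * q)))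
      (xport_legWinf_comap R K h2 (M * q)) _).mpr hinf
  · have e : fullToLegE K (M * q) G -
        (legHostB K M q hq hq2 : ↥(legE K M) →+* ↥(legE K (M * q))) (fullToLegE K M v) ^ m =
        fullToLegE K (M * q) (G - keyFqB K M q v ^ m) := by
      rw [map_sub, map_pow, xport_fullToLegE_keyFqB K hq hq2 v]
      rfl
    rw [e]
    exact (comap_val_lt_one_iff
      (fullToLegE K (M * q) : ↥(keyFq K (M * q)) →+* ↥(legE K (M * q)))
      (xport_legW0_comap R K h hq) _).mpr h0

end Leg

section Hes

variable (R : Type*) [CommRing R] [IsDomain R] [IsDiscreteValuationRing R] [CharZero R]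
  (K : Type*) [Field K] [Algebra R K] [IsFractionRing R K] [Algebra ℚ K] [Algebra K ℂ]
  {M : ℕ} [NeZero M] [NeZero (M * 2)] {x y : ℤ}

/-- (X3) `W_∞` of the Hesse host restricted to the level field. -/
theorem xport_hesWinf_comap (h3 : IsUnit (3 : R)) (N : ℕ) [NeZero N] :
    (hesWinf R K h3 N).comap (fullToHesE K N : ↥(keyFq K N) →+* ↥(hesE K N)) =
      keyFqWinf R K N := by
  ext f
  exact xport_qExpand_mem_gaussInt_iff R K 3 N f

/-- (X3) `W_0` of the Hesse host restricted to the level field. -/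
theorem xport_hesW0_comap (h : ((2 : ℕ) : ℤ) * x + M * y = 1) :
    (hesW0 R K h Nat.prime_two).comap
        (fullToHesE K (M * 2) : ↥(keyFq K (M * 2)) →+* ↥(hesE K (M * 2))) =
      keyFqW0 R K (algebraMap K ℂ) h Nat.prime_two := by
  ext f
  exact xport_mem_hostW0_iff R K (algebraMap K ℂ) 3 h Nat.prime_two (hesE K (M * 2))
    (keyFw_le_hesE K (M * 2)) f _ rfl

/-- (X3) `A` on the level fields and on the Hesse hosts. -/
theorem xport_fullToHesE_keyFqA (c : ↥(keyFq K M)) :
    fullToHesE K (M * 2) (keyFqA K M 2 c) = hesHostA K M 2 (fullToHesE K M c) := by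
  apply Subtype.ext
  rw [coe_fullToHesE, coe_keyFqA, coe_hesHostA, coe_fullToHesE]

/-- (X3) `B` on the level fields and on the Hesse hosts. -/
theorem xport_fullToHesE_keyFqB (c : ↥(keyFq K M)) :
    fullToHesE K (M * 2) (keyFqB K M 2 c) = hesHostB K M (fullToHesE K M c) := by
  apply Subtype.ext
  rw [coe_fullToHesE, coe_keyFqB, coe_hesHostB, coe_fullToHesE,
    Fermat.Agent.SS.qExpand_qExpand' 3 2 (3 * 2) rfl,
    Fermat.Agent.SS.qExpand_qExpand' 2 3 (3 * 2) (mul_comm 3 2)]

/-- (X3) the coefficientwise actions on the level field and on the Hesse host. -/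
theorem xport_fullToHesE_coeffRingAut (N : ℕ) [NeZero N] (τ : K ≃ₐ[ℚ] K) (z : ↥(keyFq K N)) :
    fullToHesE K N (coeffRingAut (coeffStable_keyFq K N) τ z) =
      coeffRingAut (coeffStable_hesE K N) τ (fullToHesE K N z) := by
  apply Subtype.ext
  rw [coe_fullToHesE, coe_coeffRingAut_apply, coe_coeffRingAut_apply, coe_fullToHesE,
    coeffMap_qExpand]

/-- **(X3) packaged, Hesse**: the conclusion of the F-level norm step on the hosts. -/
theorem xport_hes (h3 : IsUnit (3 : R)) (h : ((2 : ℕ) : ℤ) * x + M * y = 1)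
    (m : ℕ) (G : ↥(keyFq K (M * 2))) (u v : ↥(keyFq K M))
    (hu : (keyFqWinf R K M).valuation u = 1) (hv : (keyFqWinf R K M).valuation v = 1)
    (hinf : (keyFqWinf R K (M * 2)).valuation (G - keyFqA K M 2 u ^ m) < 1)
    (h0 : (keyFqW0 R K (algebraMap K ℂ) h Nat.prime_two).valuation
      (G - keyFqB K M 2 v ^ m) < 1) :
    (hesWinf R K h3 M).valuation (fullToHesE K M u) = 1 ∧
    (hesWinf R K h3 M).valuation (fullToHesE K M v) = 1 ∧
    (hesWinf R K h3 (M * 2)).valuation
      (fullToHesE K (M * 2) G -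
        (hesHostA K M 2 : ↥(hesE K M) →+* ↥(hesE K (M * 2))) (fullToHesE K M u) ^ m) < 1 ∧
    (hesW0 R K h Nat.prime_two).valuation
      (fullToHesE K (M * 2) G -
        (hesHostB K M : ↥(hesE K M) →+* ↥(hesE K (M * 2))) (fullToHesE K M v) ^ m) < 1 := by
  refine ⟨?_, ?_, ?_, ?_⟩
  · exact (xport_val_eq_one_iff (fullToHesE K M : ↥(keyFq K M) →+* ↥(hesE K M))
      (xport_hesWinf_comap R K h3 M) u).mpr hu
  · exact (xport_val_eq_one_iff (fullToHesE K M : ↥(keyFq K M) →+* ↥(hesE K M))
      (xport_hesWinf_comap R K h3 M) v).mpr hv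
  · have e : fullToHesE K (M * 2) G -
        (hesHostA K M 2 : ↥(hesE K M) →+* ↥(hesE K (M * 2))) (fullToHesE K M u) ^ m =
        fullToHesE K (M * 2) (G - keyFqA K M 2 u ^ m) := by
      rw [map_sub, map_pow, xport_fullToHesE_keyFqA K u]
      rfl
    rw [e]
    exact (comap_val_lt_one_iff
      (fullToHesE K (M * 2) : ↥(keyFq K (M * 2)) →+* ↥(hesE K (M * 2)))
      (xport_hesWinf_comap R K h3 (M * 2)) _).mpr hinf
  · have e : fullToHesE K (M * 2) G -
        (hesHostB K M : ↥(hesE K M) →+* ↥(hesE K (M * 2))) (fullToHesE K M v) ^ m =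
        fullToHesE K (M * 2) (G - keyFqB K M 2 v ^ m) := by
      rw [map_sub, map_pow, xport_fullToHesE_keyFqB K v]
      rfl
    rw [e]
    exact (comap_val_lt_one_iff
      (fullToHesE K (M * 2) : ↥(keyFq K (M * 2)) →+* ↥(hesE K (M * 2)))
      (xport_hesW0_comap R K h) _).mpr h0

end Hes

end

end Fermat.Agent.S35
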