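/-
S35 — helper8 — **[BASE-abs], part 9: the NORM step on the hosts from the F-level NORM step**
(helper7's XPORT): `KeyFqNormStepAtBases` (one statement for all primes `q ∤ M`, on the level fields
`keyFq` with helper6's sheets `keyFqWinf`, `keyFqW0`) ⇒ `LegNormStepAtBases`, `HesNormStepAtBases`.
-/
import Mathlib
import Fermat.Agent.S35.BASEF_helper8_Main
import Fermat.Agent.S35.XPORT_helper7_Main

set_option autoImplicit false
set_option linter.unusedSectionVars false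
set_option linter.style.haveILetI false
set_option synthInstance.maxHeartbeats 200000

open HahnSeries IntermediateField AlgebraicCurve ModularCurve Fermat.Agent.Igusa

namespace Fermat.Agent.S35

open Fermat.Agent.JA Fermat.Agent.FF Fermat.Agent.SS

open scoped Fermat.Agent.JA.Host

/-- `Ω = AlgebraicClosure ℚ`. -/
local notation "Ω" => AlgebraicClosure ℚ

/-- the absolute Galois group. -/
local notation "GQ" => (AlgebraicClosure ℚ ≃ₐ[ℚ] AlgebraicClosure ℚ)

/-- **the NORM step at the F-level, at every Galois base** (N2-F): for `f₀ ∈ F_{Mq}(K₁)` whose norms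
along the two degeneracy maps are `m`-th powers, `g' = s (s g) / g`, `g = s f₀ / f₀`
(`s` = coefficientwise Frobenius) is `≡ A(u) ^ m` on `W_∞` and `≡ B(v) ^ m` on `W_0 = W_∞ ∘ W_q`. -/
def KeyFqNormStepAtBases : Prop :=
  ∀ (M q : ℕ) [NeZero M] [NeZero q] [NeZero (M * q)] (hq : q.Prime), ¬ q ∣ M →
    ∀ (A : ValuationSubring Ω), A.LiesOverPrime q →
    ∀ (K₁ : IntermediateField ℚ Ω) [Normal ℚ ↥K₁], IsGalBase q K₁ →
    ∀ [IsDiscreteValuationRing ↥(baseRing A K₁)] [CharZero ↥(baseRing A K₁)]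
      (x y : ℤ) (hbez : (q : ℤ) * x + M * y = 1)
      (φ : GQ), A.IsFrobeniusAt φ q → ∀ (m : ℕ), 0 < m → ¬ q ∣ m →
    ∀ f₀ : ↥(keyFq ↥K₁ (M * q)), f₀ ≠ 0 →
      (∃ hA : ↥(keyFq ↥K₁ M),
        (letI := (keyFqA ↥K₁ M q).toRingHom.toAlgebra; Algebra.norm ↥(keyFq ↥K₁ M) f₀) = hA ^ m) →
      (∃ hB : ↥(keyFq ↥K₁ M),
        (letI := (keyFqB ↥K₁ M q).toRingHom.toAlgebra; Algebra.norm ↥(keyFq ↥K₁ M) f₀) = hB ^ m) →
      ∃ u v : ↥(keyFq ↥K₁ M), (keyFqWinf ↥(baseRing A K₁) ↥K₁ M).valuation u = 1 ∧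
        (keyFqWinf ↥(baseRing A K₁) ↥K₁ M).valuation v = 1 ∧
        (keyFqWinf ↥(baseRing A K₁) ↥K₁ (M * q)).valuation
          (keyFqGalois ↥K₁ (M * q) (resGal K₁ φ) • (keyFqGalois ↥K₁ (M * q) (resGal K₁ φ) •
            (keyFqGalois ↥K₁ (M * q) (resGal K₁ φ) • f₀ / f₀)) /
            (keyFqGalois ↥K₁ (M * q) (resGal K₁ φ) • f₀ / f₀) - keyFqA ↥K₁ M q u ^ m) < 1 ∧
        (keyFqW0 ↥(baseRing A K₁) ↥K₁
            (@algebraMap ↥K₁ ℂ _ _ (baseToComplex K₁)) hbez hq).valuation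
          (keyFqGalois ↥K₁ (M * q) (resGal K₁ φ) • (keyFqGalois ↥K₁ (M * q) (resGal K₁ φ) •
            (keyFqGalois ↥K₁ (M * q) (resGal K₁ φ) • f₀ / f₀)) /
            (keyFqGalois ↥K₁ (M * q) (resGal K₁ φ) • f₀ / f₀) - keyFqB ↥K₁ M q v ^ m) < 1

section Transport

variable {K : Type*} [Field K] [Algebra ℚ K] (N : ℕ) [NeZero N] (τ : K ≃ₐ[ℚ] K)

/-- the second difference quotient `s (s (s f / f)) / (s f / f)` commutes with `fullToLegE`. -/
theorem fullToLegE_frobSecond (f₀ : ↥(keyFq K N)) :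
    fullToLegE K N (keyFqGalois K N τ • (keyFqGalois K N τ • (keyFqGalois K N τ • f₀ / f₀)) /
      (keyFqGalois K N τ • f₀ / f₀)) =
    legGalois K N τ • (legGalois K N τ • (legGalois K N τ • fullToLegE K N f₀ /
      fullToLegE K N f₀)) / (legGalois K N τ • fullToLegE K N f₀ / fullToLegE K N f₀) := by
  have h : ∀ z : ↥(keyFq K N), fullToLegE K N (keyFqGalois K N τ • z) =
      legGalois K N τ • fullToLegE K N z := fun z => Subtype.ext (by
    show qExpand K 2 (coeffMap ((τ : K ≃ₐ[ℚ] K) : K →+* K) (z : LaurentSeries K)) =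
      coeffMap ((τ : K ≃ₐ[ℚ] K) : K →+* K) (qExpand K 2 (z : LaurentSeries K))
    rw [coeffMap_qExpand])
  simp only [map_div₀, h]

/-- the second difference quotient `s (s (s f / f)) / (s f / f)` commutes with `fullToHesE`. -/
theorem fullToHesE_frobSecond (f₀ : ↥(keyFq K N)) :
    fullToHesE K N (keyFqGalois K N τ • (keyFqGalois K N τ • (keyFqGalois K N τ • f₀ / f₀)) /
      (keyFqGalois K N τ • f₀ / f₀)) =
    hesGalois K N τ • (hesGalois K N τ • (hesGalois K N τ • fullToHesE K N f₀ /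
      fullToHesE K N f₀)) / (hesGalois K N τ • fullToHesE K N f₀ / fullToHesE K N f₀) := by
  have h : ∀ z : ↥(keyFq K N), fullToHesE K N (keyFqGalois K N τ • z) =
      hesGalois K N τ • fullToHesE K N z := fun z => Subtype.ext (by
    show qExpand K 3 (coeffMap ((τ : K ≃ₐ[ℚ] K) : K →+* K) (z : LaurentSeries K)) =
      coeffMap ((τ : K ≃ₐ[ℚ] K) : K →+* K) (qExpand K 3 (z : LaurentSeries K))
    rw [coeffMap_qExpand])
  simp only [map_div₀, h]

end Transport

set_option maxHeartbeats 1600000 in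
/-- **the NORM step on the Legendre hosts** from the F-level NORM step. -/
theorem legNormStep_of_keyFq (H : KeyFqNormStepAtBases) : LegNormStepAtBases := by
  intro M q _ _ _ hq hq2 hqM A hA K₁ _ hK₁ _ _ h2 x y hbez φ hφ m hm hqm f₀ hf₀ hNA hNB
  obtain ⟨u, v, hu, hv, hinf, h0⟩ :=
    H M q hq hqM A hA K₁ hK₁ x y hbez φ hφ m hm hqm f₀ hf₀ hNA hNB
  letI := baseToComplex K₁
  have hx := xport_leg ↥(baseRing A K₁) ↥K₁ h2 hbez hq hq2 m _ u v hu hv hinf h0
  rw [fullToLegE_frobSecond] at hx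
  exact ⟨fullToLegE ↥K₁ M u, fullToLegE ↥K₁ M v, hx.1, hx.2.1, hx.2.2.1, hx.2.2.2⟩

set_option maxHeartbeats 1600000 in
/-- **the NORM step on the Hesse hosts** from the F-level NORM step. -/
theorem hesNormStep_of_keyFq (H : KeyFqNormStepAtBases) : HesNormStepAtBases := by
  intro M _ _ hqM A hA K₁ _ hK₁ _ _ h3 x y hbez φ hφ m hm hqm f₀ hf₀ hNA hNB
  obtain ⟨u, v, hu, hv, hinf, h0⟩ :=
    H M 2 Nat.prime_two hqM A hA K₁ hK₁ x y hbez φ hφ m hm hqm f₀ hf₀ hNA hNB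
  letI := baseToComplex K₁
  have hx := xport_hes ↥(baseRing A K₁) ↥K₁ h3 hbez m _ u v hu hv hinf h0
  rw [fullToHesE_frobSecond] at hx
  exact ⟨fullToHesE ↥K₁ M u, fullToHesE ↥K₁ M v, hx.1, hx.2.1, hx.2.2.1, hx.2.2.2⟩

/-- **`LegFrobBase ∧ HesFrobBase` from the F-level NORM step.** -/
theorem frobBases_of_keyFqNormStep (H : KeyFqNormStepAtBases) : LegFrobBase ∧ HesFrobBase :=
  ⟨legFrobBase_of_normStep (legNormStep_of_keyFq H),
    hesFrobBase_of_normStep (hesNormStep_of_keyFq H)⟩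

end Fermat.Agent.S35
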