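/-
S35 — helper6 — [FROBHOST], part 3: **the assembled `SSModelFrob` at the F-level**, against an
abstract Frobenius lift.

`R` a discrete valuation ring with fraction field `K ⊇ ℚ` and residue characteristic `q`,
`τ ∈ Aut(K/ℚ)` inducing the bijective `τR` on `R` with `τR r ≡ r ^ q` modulo `π`.  Then the
coefficientwise actions `s_N = coeffRingAut (coeffStable_keyFq K N) τ` on the level fields
`F_M(K) = keyFq K M`, `F_{Mq}(K) = keyFq K (M q)` together with the degeneracy maps
`keyFqA`, `keyFqB` and the sheets `keyFqWinf`, `keyFqW0` form an `SSModelFrob`.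
-/
import Mathlib
import Fermat.Agent.S35.FROBKRON_helper6_Key
import Fermat.Agent.S35.FROBIF_helper8

set_option autoImplicit false
set_option linter.unusedSectionVars false
set_option linter.style.haveILetI false
set_option synthInstance.maxHeartbeats 200000

open ModularCurve Fermat.Agent.Igusa Fermat.Agent.JA Fermat.Agent.SS Fermat.Agent.X0N

namespace Fermat.Agent.S35

section Model

variable {R : Type*} [CommRing R] [IsDomain R] [IsDiscreteValuationRing R]
  {K : Type*} [Field K] [Algebra R K] [IsFractionRing R K] [Algebra ℚ K]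
  (ι : K →+* ℂ) {M q : ℕ} [NeZero M] [NeZero q] [NeZero (M * q)] {x y : ℤ}
  (h : (q : ℤ) * x + M * y = 1) (hq : q.Prime)
  (τ : K ≃ₐ[ℚ] K) (τR : R →+* R)
  (hτ : ∀ r : R, τ (algebraMap R K r) = algebraMap R K (τR r))

local notation "k" => IsLocalRing.ResidueField R

include hτ in
/-- `map_R` at the F-level. -/
theorem keyFq_coeffRingAut_algebraMap_base (N : ℕ) [NeZero N] (r : R) :
    coeffRingAut (coeffStable_keyFq K N) τ (algebraMap R ↥(keyFq K N) r) =
      algebraMap R ↥(keyFq K N) (τR r) := by
  rw [IsScalarTower.algebraMap_apply R K ↥(keyFq K N), coeffRingAut_algebraMap, hτ,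
    ← IsScalarTower.algebraMap_apply R K ↥(keyFq K N)]

/-- `comm_A` at the F-level. -/
theorem keyFq_coeffRingAut_keyFqA (c : ↥(keyFq K M)) :
    coeffRingAut (coeffStable_keyFq K (M * q)) τ (keyFqA K M q c) =
      keyFqA K M q (coeffRingAut (coeffStable_keyFq K M) τ c) := by
  apply Subtype.ext
  rw [coe_coeffRingAut_apply, coe_keyFqA, coe_keyFqA, coe_coeffRingAut_apply]

/-- `comm_B` at the F-level. -/
theorem keyFq_coeffRingAut_keyFqB (c : ↥(keyFq K M)) :
    coeffRingAut (coeffStable_keyFq K (M * q)) τ (keyFqB K M q c) =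
      keyFqB K M q (coeffRingAut (coeffStable_keyFq K M) τ c) := by
  apply Subtype.ext
  rw [coe_coeffRingAut_apply, coe_keyFqB, coe_keyFqB, coe_coeffRingAut_apply, coeffMap_qExpand]

include hτ in
/-- **the Frobenius action on the two-sheeted model of the level fields** `F_M(K) ⇉ F_{Mq}(K)`:
all fields of `SSModelFrob`, for an abstract Frobenius lift `(τ, τR)`; the coordinate `j` is any
element of any subfield `KN` of `F_{Mq}(K)` fixed by `τ`. -/
theorem keyFq_ssModelFrob [ExpChar k q]
    {KN : Type*} [Field KN] [Algebra R KN] [Algebra KN ↥(keyFq K (M * q))]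
    [IsScalarTower R KN ↥(keyFq K (M * q))] {π : R} (hπ : Irreducible π) (j : KN)
    (hj : coeffRingAut (coeffStable_keyFq K (M * q)) τ (algebraMap KN ↥(keyFq K (M * q)) j) =
      algebraMap KN ↥(keyFq K (M * q)) j)
    (hfrob : ∀ r : R, τR r - r ^ q ∈ Ideal.span {π}) (hbij : Function.Bijective τR) :
    SSModelFrob π q j (keyFqA K M q : ↥(keyFq K M) →+* ↥(keyFq K (M * q)))
      (keyFqB K M q : ↥(keyFq K M) →+* ↥(keyFq K (M * q)))
      (keyFqWinf R K M) (keyFqWinf R K (M * q)) (keyFqW0 R K ι h hq) τR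
      ((coeffRingAut (coeffStable_keyFq K M) τ : ↥(keyFq K M) ≃+* ↥(keyFq K M)) :
        ↥(keyFq K M) →+* ↥(keyFq K M))
      ((coeffRingAut (coeffStable_keyFq K (M * q)) τ :
        ↥(keyFq K (M * q)) ≃+* ↥(keyFq K (M * q))) :
        ↥(keyFq K (M * q)) →+* ↥(keyFq K (M * q))) := by
  have hfrob' : ∀ r : R, τR r - r ^ q ∈ IsLocalRing.maximalIdeal R := by
    intro r
    rw [(IsDiscreteValuationRing.irreducible_iff_uniformizer π).1 hπ]
    exact hfrob r
  exact
    { frob_R := hfrob
      map_R_M := fun r => keyFq_coeffRingAut_algebraMap_base τ τR hτ M r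
      map_R_N := fun r => keyFq_coeffRingAut_algebraMap_base τ τR hτ (M * q) r
      map_j := hj
      bij_R := hbij
      bij_M := (coeffRingAut (coeffStable_keyFq K M) τ).bijective
      bij_N := (coeffRingAut (coeffStable_keyFq K (M * q)) τ).bijective
      comm_A := fun c => keyFq_coeffRingAut_keyFqA τ c
      comm_B := fun c => keyFq_coeffRingAut_keyFqB τ c
      mem_VM := fun f => keyFq_mem_Winf_iff τ τR hτ hfrob' M f
      mem_inf := fun f => keyFq_mem_Winf_iff τ τR hτ hfrob' (M * q) f
      mem_zero := fun f => keyFq_mem_W0_iff ι h hq τ τR hτ hfrob' f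
      kron_inf := fun c hc => keyFq_kron_inf τ τR hτ hfrob' c hc
      kron_zero := fun c hc => keyFq_kron_zero ι h hq τ τR hτ hfrob' c hc }

end Model

end Fermat.Agent.S35
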