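/-
(S35-(I3)) — helper9 — **NORMRED, part 2: complements and the host form.**

* `normred_norm_equivariant` : the norm is equivariant under a pair of compatible ring
  automorphisms (ring-hom form of `Algebra.norm_eq_of_equiv_equiv`);
* `normred_pow_sub_val_lt_one` : purely inseparable residue extension — if `x ≡ ∑ ι(a_i) β^i` and
  `β^q ≡ ι J` at `V` (residue characteristic `q`) then `x^q ≡ ι (∑ a_i^q J^i)`;
* in the setting of helper7's `host_two_sheet` (`E_M ≤ E_N ≤ gaussField R L`, `A` inclusion,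
  `B = (x ↦ x^q)`, `V_M`, `W_∞` Gauss, `W_0` with `A J ≡ (B J)^q`): the norms `hostNormA`,
  `hostNormB`, and **`host_norm_reduction_A`**, **`host_norm_reduction_B`**:
  `N_A f ≡ a₁ a₂` on `V_M` if `f ≡ A a₁` on `W_∞`, `f^q ≡ A a₂` on `W_0`;
  `N_B f ≡ a₁ a₂` on `V_M` if `f ≡ B a₁` on `W_0`, `f^q ≡ B a₂` on `W_∞`;
  `host_exists_pow_A` : every `x ∈ W_0` has `x^q ≡ A a₂` for some `a₂ ∈ V_M`.
-/
import Mathlib
import Fermat.Agent.S35.NORMRED_helper9_Abs
import Fermat.Agent.SS.VAL2_helper7_HostTwo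

set_option autoImplicit false
set_option linter.unusedSectionVars false
set_option linter.style.haveILetI false

open Polynomial ModularCurve IsLocalRing

namespace Fermat.Agent.S35

open Fermat.Agent.JA Fermat.Agent.Igusa Fermat.Agent.SS

section Equivariant

variable {F L : Type*} [Field F] [Field L]

/-- **the norm is equivariant** under a pair of compatible ring automorphisms (ring-hom form). -/
theorem normred_norm_equivariant (ι : F →+* L) (τF : F ≃+* F) (τL : L ≃+* L)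
    (h : ∀ a, τL (ι a) = ι (τF a)) (x : L) :
    (letI := ι.toAlgebra; Algebra.norm F (τL x)) =
      τF (letI := ι.toAlgebra; Algebra.norm F x) := by
  letI := ι.toAlgebra
  have he : (algebraMap F L).comp (τF : F →+* F) = (τL : L →+* L).comp (algebraMap F L) := by
    ext a
    exact (h a).symm
  have := Algebra.norm_eq_of_equiv_equiv τF τL he x
  rw [this, RingEquiv.apply_symm_apply]

end Equivariant

section Insep

variable {F L : Type*} [Field F] [Field L]

/-- membership in a valuation subring along a ring homomorphism with prescribed restriction. -/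
theorem normred_map_mem (ι : F →+* L) {V : ValuationSubring L} {O : ValuationSubring F}
    (h : V.comap ι = O) (a : ↥O) : ι (a : F) ∈ V := by
  have : (a : F) ∈ V.comap ι := by rw [h]; exact a.2
  exact this

/-- **purely inseparable residue extension**: if `x ≡ ∑ ι(a_i) β^i` and `β^q ≡ ι J` at `V`
(residue characteristic `q`), then `x^q ≡ ι (∑ a_i^q J^i)` at `V`. -/
theorem normred_pow_sub_val_lt_one (ι : F →+* L) {V : ValuationSubring L} {O : ValuationSubring F}
    (h : V.comap ι = O) {q : ℕ} (hq : q.Prime) (hchar : V.valuation (q : L) < 1)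
    {β : L} (hβ : β ∈ V) (J : ↥O) (hkron : V.valuation (β ^ q - ι (J : F)) < 1)
    {x : L} (a : Fin q → ↥O)
    (hx : V.valuation (x - ∑ i, ι (a i : F) * β ^ (i : ℕ)) < 1) :
    V.valuation (x ^ q - ι ((∑ i, a i ^ q * J ^ (i : ℕ) : ↥O) : F)) < 1 := by
  classical
  haveI : Fact q.Prime := ⟨hq⟩
  -- `x ∈ V`
  have hsum : ∑ i, ι (a i : F) * β ^ (i : ℕ) ∈ V :=
    sum_mem (fun i _ => mul_mem (normred_map_mem ι h (a i)) (pow_mem hβ _))
  have hxV : x ∈ V := by
    have : x = (x - ∑ i, ι (a i : F) * β ^ (i : ℕ)) + ∑ i, ι (a i : F) * β ^ (i : ℕ) := by ring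
    rw [this]
    exact add_mem ((ValuationSubring.valuation_le_one_iff _ _).mp hx.le) hsum
  -- the residue field of `V` has characteristic `q`
  have hqV : ((q : ℕ) : ResidueField ↥V) = 0 := by
    have h2 : (((q : ℕ) : ↥V) : L) = ((q : ℕ) : L) := by simp
    have h3 : ((q : ℕ) : ↥V) ∈ maximalIdeal ↥V := by
      rw [ValuationSubring.valuation_lt_one_iff, h2]
      exact hchar
    rw [← map_natCast (residue ↥V)]
    exact (residue_eq_zero_iff _).mpr h3
  haveI : CharP (ResidueField ↥V) q := (CharP.charP_iff_prime_eq_zero hq).mpr hqV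
  set ux : ↥V := ⟨x, hxV⟩ with hux
  set uβ : ↥V := ⟨β, hβ⟩ with huβ
  set uA : Fin q → ↥V := fun i => ⟨ι (a i : F), normred_map_mem ι h (a i)⟩ with huA
  set uJ : ↥V := ⟨ι (J : F), normred_map_mem ι h J⟩ with huJ
  have hres : residue ↥V ux = ∑ i, residue ↥V (uA i) * residue ↥V uβ ^ (i : ℕ) := by
    have h1 : ux - ∑ i, uA i * uβ ^ (i : ℕ) ∈ maximalIdeal ↥V := by
      rw [ValuationSubring.valuation_lt_one_iff]
      have : (((ux - ∑ i, uA i * uβ ^ (i : ℕ) : ↥V) : ↥V) : L) =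
          x - ∑ i, ι (a i : F) * β ^ (i : ℕ) := by
        rw [show (((ux - ∑ i, uA i * uβ ^ (i : ℕ) : ↥V) : ↥V) : L) =
          V.subtype (ux - ∑ i, uA i * uβ ^ (i : ℕ)) from rfl, map_sub, map_sum]
        rfl
      rw [this]
      exact hx
    rw [← residue_eq_zero_iff, map_sub, sub_eq_zero] at h1
    rw [h1, map_sum]
    refine Finset.sum_congr rfl (fun i _ => ?_)
    rw [map_mul, map_pow]
  have hkr : residue ↥V uβ ^ q = residue ↥V uJ := by
    have h1 : uβ ^ q - uJ ∈ maximalIdeal ↥V := by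
      rw [ValuationSubring.valuation_lt_one_iff]
      exact hkron
    rw [← residue_eq_zero_iff, map_sub, map_pow, sub_eq_zero] at h1
    exact h1
  have hres2 : residue ↥V ux ^ q = ∑ i, residue ↥V (uA i) ^ q * residue ↥V uJ ^ (i : ℕ) := by
    rw [hres, sum_pow_char]
    refine Finset.sum_congr rfl (fun i _ => ?_)
    rw [mul_pow, ← pow_mul, mul_comm (i : ℕ) q, pow_mul, hkr]
  have hmem : ux ^ q - ∑ i, uA i ^ q * uJ ^ (i : ℕ) ∈ maximalIdeal ↥V := by
    rw [← residue_eq_zero_iff, map_sub, map_pow, hres2, map_sum, sub_eq_zero]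
    refine Finset.sum_congr rfl (fun i _ => ?_)
    rw [map_mul, map_pow, map_pow]
  rw [ValuationSubring.valuation_lt_one_iff] at hmem
  have hcoe : (((ux ^ q - ∑ i, uA i ^ q * uJ ^ (i : ℕ) : ↥V) : ↥V) : L) =
      x ^ q - ι ((∑ i, a i ^ q * J ^ (i : ℕ) : ↥O) : F) := by
    rw [show (((ux ^ q - ∑ i, uA i ^ q * uJ ^ (i : ℕ) : ↥V) : ↥V) : L) =
      V.subtype (ux ^ q - ∑ i, uA i ^ q * uJ ^ (i : ℕ)) from rfl, map_sub, map_sum, map_pow]
    congr 1
    rw [show ((∑ i, a i ^ q * J ^ (i : ℕ) : ↥O) : F) =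
      O.subtype (∑ i, a i ^ q * J ^ (i : ℕ)) from rfl, map_sum, map_sum]
    refine Finset.sum_congr rfl (fun i _ => ?_)
    rw [map_mul, map_pow, map_pow, map_mul, map_pow, map_pow, map_mul, map_pow, map_pow]
    rfl
  rw [hcoe] at hmem
  exact hmem

end Insep

section Host

variable {R : Type*} [CommRing R] [IsDomain R] [IsDiscreteValuationRing R]
  {L : Type*} [Field L] [Algebra R L] [IsFractionRing R L]
  (EM EN : IntermediateField L (LaurentSeries L))
  (hle : EM ≤ EN) (q : ℕ) [NeZero q] (hB : ∀ f ∈ EM, qExpand L q f ∈ EN)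

/-- the norm of `E_N` over `E_M` along the inclusion `A`. -/
noncomputable def hostNormA : ↥EN →* ↥EM :=
  letI := (hostA EM EN hle : ↥EM →+* ↥EN).toAlgebra
  Algebra.norm ↥EM

/-- the norm of `E_N` over `E_M` along the dilation `B`. -/
noncomputable def hostNormB : ↥EN →* ↥EM :=
  letI := (hostB EM EN q hB : ↥EM →+* ↥EN).toAlgebra
  Algebra.norm ↥EM

variable (hEM : EM ≤ gaussField R L) (hEN : EN ≤ gaussField R L)

/-- congruence at a Gauss valuation subring in terms of reductions. -/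
theorem gaussValSub_val_sub_lt_one_iff (M : IntermediateField L (LaurentSeries L))
    (hM : M ≤ gaussField R L) {x y : ↥M} (hx : x ∈ gaussValSub R L M hM)
    (hy : y ∈ gaussValSub R L M hM) :
    (gaussValSub R L M hM).valuation (x - y) < 1 ↔
      gaussValRed R L M hM ⟨x, hx⟩ = gaussValRed R L M hM ⟨y, hy⟩ := by
  have h1 := ValuationSubring.valuation_lt_one_iff (gaussValSub R L M hM)
    (⟨x, hx⟩ - ⟨y, hy⟩ : ↥(gaussValSub R L M hM))
  rw [mem_maximalIdeal_gaussValSub_iff, map_sub, sub_eq_zero] at h1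
  rw [h1]
  rfl

section Main

variable [CharZero L]

/-- the two sheets are different (as in `host_two_sheet`). -/
theorem host_sheets_ne (hq : q.Prime)
    (w : ℕ) (hw0 : 0 < w) (J : ↥EM) (hJ : (J : LaurentSeries L) ∈ gaussInt R L)
    (hJo : (gaussRed R L ⟨(J : LaurentSeries L), hJ⟩).order = -(w : ℤ))
    (W0 : ValuationSubring ↥EN)
    (hkron : W0.valuation (hostA EM EN hle J - hostB EM EN q hB J ^ q) < 1) :
    gaussValSub R L EN hEN ≠ W0 := by
  intro heq
  rw [← heq, gaussValSub_valuation_lt_one_iff] at hkron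
  obtain ⟨hmem, hred⟩ := hkron
  have hBJ : qExpand L q (J : LaurentSeries L) ∈ gaussInt R L :=
    (gaussHomQExpand R L q).map_mem_gaussInt hJ
  have h1 : (⟨_, hmem⟩ : gaussInt R L) =
      (⟨(J : LaurentSeries L), hJ⟩ : gaussInt R L) -
        (⟨qExpand L q (J : LaurentSeries L), hBJ⟩ : gaussInt R L) ^ q := by
    apply Subtype.ext
    rfl
  rw [h1, map_sub, map_pow, sub_eq_zero, gaussRed_qExpand q hJ] at hred
  have h2 := congrArg HahnSeries.order hred
  rw [HahnSeries.order_pow, Fermat.Agent.JA.order_qExpand, hJo, nsmul_eq_mul] at h2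
  have hq2 : (2 : ℤ) ≤ q := by exact_mod_cast hq.two_le
  have hw1 : (1 : ℤ) ≤ w := by exact_mod_cast hw0
  have h3 : (4 : ℤ) ≤ (q : ℤ) * q := by nlinarith
  have h4 : (w : ℤ) * ((q : ℤ) * q) = w := by linarith
  nlinarith

theorem host_pos_of_coprime {w : ℕ} (hq : q.Prime) (hcop : Nat.Coprime w q) : 0 < w := by
  rcases Nat.eq_zero_or_pos w with h0 | h0
  · rw [h0, Nat.coprime_zero_left] at hcop
    exact absurd hcop hq.one_lt.ne'
  · exact h0

/-- **norm–reduction along `A`** (valuation form): if `f ≡ A a₁` on `W_∞` and `f^q ≡ A a₂` on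
`W_0` then `N_A f ≡ a₁ a₂` on `V_M`. -/
theorem host_norm_reduction_A (hq : q.Prime) (hchar : (q : ResidueField R) = 0)
    (w : ℕ) (hcop : Nat.Coprime w q) (J : ↥EM) (hJ : (J : LaurentSeries L) ∈ gaussInt R L)
    (hJo : (gaussRed R L ⟨(J : LaurentSeries L), hJ⟩).order = -(w : ℤ))
    (hJ0 : gaussRed R L ⟨(J : LaurentSeries L), hJ⟩ ≠ 0)
    (hfinA : letI := (hostA EM EN hle : ↥EM →+* ↥EN).toAlgebra; FiniteDimensional ↥EM ↥EN)
    (hdegA : letI := (hostA EM EN hle : ↥EM →+* ↥EN).toAlgebra;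
      Module.finrank ↥EM ↥EN ≤ q + 1)
    (W0 : ValuationSubring ↥EN)
    (hW0A : W0.comap (hostA EM EN hle : ↥EM →+* ↥EN) = gaussValSub R L EM hEM)
    (hW0B : W0.comap (hostB EM EN q hB : ↥EM →+* ↥EN) = gaussValSub R L EM hEM)
    (hkron : W0.valuation (hostA EM EN hle J - hostB EM EN q hB J ^ q) < 1)
    {f : ↥EN} (hfinf : f ∈ gaussValSub R L EN hEN) (hf0 : f ∈ W0) {a₁ a₂ : ↥EM}
    (hc₁ : (gaussValSub R L EN hEN).valuation (f - hostA EM EN hle a₁) < 1)
    (hc₂ : W0.valuation (f ^ q - hostA EM EN hle a₂) < 1) :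
    hostNormA EM EN hle f ∈ gaussValSub R L EM hEM ∧
      (gaussValSub R L EM hEM).valuation (hostNormA EM EN hle f - a₁ * a₂) < 1 := by
  have hJM : J ∈ gaussValSub R L EM hEM := hJ
  have hAinf := comap_hostA_gaussValSub (R := R) EM EN hle hEM hEN
  have hne := host_sheets_ne EM EN hle q hB hEN hq w (host_pos_of_coprime q hq hcop) J hJ hJo W0
    hkron
  haveI : CharZero ↥EM := charZero_of_injective_algebraMap (algebraMap L ↥EM).injective
  have hsepA : letI := (hostA EM EN hle : ↥EM →+* ↥EN).toAlgebra;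
      Algebra.IsSeparable ↥EM ↥EN := by
    letI := (hostA EM EN hle : ↥EM →+* ↥EN).toAlgebra
    haveI := hfinA
    exact Algebra.IsAlgebraic.isSeparable_of_perfectField
  have hBJ0 : hostB EM EN q hB J ∈ W0 :=
    (comap_mem_iff (hostB EM EN q hB : ↥EM →+* ↥EN) hW0B J).mpr hJM
  exact norm_reduction_two_ext_hom (hostA EM EN hle : ↥EM →+* ↥EN)
    (gaussValSub R L EM hEM) hfinA hsepA hAinf hW0A hne hq
    (natCast_val_lt_one EM q hEM hchar) hdegA
    (fun i : Fin q => hostB EM EN q hB J ^ (i : ℕ)) (fun i => pow_mem hBJ0 _)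
    (fun a ha => hind_A EM EN hle q hB hEM w hcop J hJ hJo hJ0 hq hchar W0 hW0A hW0B hkron a ha)
    hfinf hf0 hc₁ hc₂

/-- **norm–reduction along `B`** (valuation form): if `f ≡ B a₁` on `W_0` and `f^q ≡ B a₂` on
`W_∞` then `N_B f ≡ a₁ a₂` on `V_M`. -/
theorem host_norm_reduction_B (hq : q.Prime) (hchar : (q : ResidueField R) = 0)
    (w : ℕ) (hcop : Nat.Coprime w q) (J : ↥EM) (hJ : (J : LaurentSeries L) ∈ gaussInt R L)
    (hJo : (gaussRed R L ⟨(J : LaurentSeries L), hJ⟩).order = -(w : ℤ))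
    (hJ0 : gaussRed R L ⟨(J : LaurentSeries L), hJ⟩ ≠ 0)
    (hfinB : letI := (hostB EM EN q hB : ↥EM →+* ↥EN).toAlgebra; FiniteDimensional ↥EM ↥EN)
    (hdegB : letI := (hostB EM EN q hB : ↥EM →+* ↥EN).toAlgebra;
      Module.finrank ↥EM ↥EN ≤ q + 1)
    (W0 : ValuationSubring ↥EN)
    (hW0B : W0.comap (hostB EM EN q hB : ↥EM →+* ↥EN) = gaussValSub R L EM hEM)
    (hkron : W0.valuation (hostA EM EN hle J - hostB EM EN q hB J ^ q) < 1)
    {f : ↥EN} (hfinf : f ∈ gaussValSub R L EN hEN) (hf0 : f ∈ W0) {a₁ a₂ : ↥EM}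
    (hc₁ : W0.valuation (f - hostB EM EN q hB a₁) < 1)
    (hc₂ : (gaussValSub R L EN hEN).valuation (f ^ q - hostB EM EN q hB a₂) < 1) :
    hostNormB EM EN q hB f ∈ gaussValSub R L EM hEM ∧
      (gaussValSub R L EM hEM).valuation (hostNormB EM EN q hB f - a₁ * a₂) < 1 := by
  have hJM : J ∈ gaussValSub R L EM hEM := hJ
  have hAinf := comap_hostA_gaussValSub (R := R) EM EN hle hEM hEN
  have hBinf := comap_hostB_gaussValSub (R := R) EM EN q hB hEM hEN
  have hne := host_sheets_ne EM EN hle q hB hEN hq w (host_pos_of_coprime q hq hcop) J hJ hJo W0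
    hkron
  haveI : CharZero ↥EM := charZero_of_injective_algebraMap (algebraMap L ↥EM).injective
  have hsepB : letI := (hostB EM EN q hB : ↥EM →+* ↥EN).toAlgebra;
      Algebra.IsSeparable ↥EM ↥EN := by
    letI := (hostB EM EN q hB : ↥EM →+* ↥EN).toAlgebra
    haveI := hfinB
    exact Algebra.IsAlgebraic.isSeparable_of_perfectField
  have hAJinf : hostA EM EN hle J ∈ gaussValSub R L EN hEN :=
    (comap_mem_iff (hostA EM EN hle : ↥EM →+* ↥EN) hAinf J).mpr hJM
  exact norm_reduction_two_ext_hom (hostB EM EN q hB : ↥EM →+* ↥EN)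
    (gaussValSub R L EM hEM) hfinB hsepB hW0B hBinf hne.symm hq
    (natCast_val_lt_one EM q hEM hchar) hdegB
    (fun i : Fin q => hostA EM EN hle J ^ (i : ℕ)) (fun i => pow_mem hAJinf _)
    (fun a ha => hind_B EM EN hle q hB hEM hEN w hcop J hJ hJo hJ0 a ha)
    hf0 hfinf hc₁ hc₂

include hEN in
/-- **existence of `a₂` along `A`**: the residue field of `W_0` is purely inseparable of degree `q`
over that of `V_M` (along `A`): every `x ∈ W_0` has `x^q ≡ A a₂` for some `a₂ ∈ V_M`. -/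
theorem host_exists_pow_A (hq : q.Prime) (hchar : (q : ResidueField R) = 0)
    (w : ℕ) (hcop : Nat.Coprime w q) (J : ↥EM) (hJ : (J : LaurentSeries L) ∈ gaussInt R L)
    (hJo : (gaussRed R L ⟨(J : LaurentSeries L), hJ⟩).order = -(w : ℤ))
    (hJ0 : gaussRed R L ⟨(J : LaurentSeries L), hJ⟩ ≠ 0)
    (hfinA : letI := (hostA EM EN hle : ↥EM →+* ↥EN).toAlgebra; FiniteDimensional ↥EM ↥EN)
    (hdegA : letI := (hostA EM EN hle : ↥EM →+* ↥EN).toAlgebra;
      Module.finrank ↥EM ↥EN ≤ q + 1)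
    (W0 : ValuationSubring ↥EN)
    (hW0A : W0.comap (hostA EM EN hle : ↥EM →+* ↥EN) = gaussValSub R L EM hEM)
    (hW0B : W0.comap (hostB EM EN q hB : ↥EM →+* ↥EN) = gaussValSub R L EM hEM)
    (hkron : W0.valuation (hostA EM EN hle J - hostB EM EN q hB J ^ q) < 1)
    {x : ↥EN} (hx : x ∈ W0) :
    ∃ a₂ : ↥(gaussValSub R L EM hEM),
      W0.valuation (x ^ q - hostA EM EN hle (a₂ : ↥EM)) < 1 := by
  have hJM : J ∈ gaussValSub R L EM hEM := hJ
  have hAinf := comap_hostA_gaussValSub (R := R) EM EN hle hEM hEN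
  have hne := host_sheets_ne EM EN hle q hB hEN hq w (host_pos_of_coprime q hq hcop) J hJ hJo W0
    hkron
  haveI : CharZero ↥EM := charZero_of_injective_algebraMap (algebraMap L ↥EM).injective
  have hsepA : letI := (hostA EM EN hle : ↥EM →+* ↥EN).toAlgebra;
      Algebra.IsSeparable ↥EM ↥EN := by
    letI := (hostA EM EN hle : ↥EM →+* ↥EN).toAlgebra
    haveI := hfinA
    exact Algebra.IsAlgebraic.isSeparable_of_perfectField
  have hBJ0 : hostB EM EN q hB J ∈ W0 :=
    (comap_mem_iff (hostB EM EN q hB : ↥EM →+* ↥EN) hW0B J).mpr hJM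
  obtain ⟨-, -, -, -, -, a6⟩ := two_ext_hom (hostA EM EN hle : ↥EM →+* ↥EN)
    (gaussValSub R L EM hEM) hfinA hsepA hAinf hW0A hne hq.pos hdegA
    (fun i : Fin q => hostB EM EN q hB J ^ (i : ℕ)) (fun i => pow_mem hBJ0 _)
    (fun a ha => hind_A EM EN hle q hB hEM w hcop J hJ hJo hJ0 hq hchar W0 hW0A hW0B hkron a ha)
  obtain ⟨a, ha⟩ := a6 x hx
  have hcharW0 : W0.valuation ((q : ℕ) : ↥EN) < 1 := by
    have h1 : W0.valuation (hostA EM EN hle ((q : ℕ) : ↥EM)) < 1 :=
      (comap_val_lt_one_iff (hostA EM EN hle : ↥EM →+* ↥EN) hW0A _).mpr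
        (natCast_val_lt_one EM q hEM hchar)
    rwa [map_natCast] at h1
  have hkron' : W0.valuation (hostB EM EN q hB J ^ q -
      (hostA EM EN hle : ↥EM →+* ↥EN) ((⟨J, hJM⟩ : ↥(gaussValSub R L EM hEM)) : ↥EM)) < 1 := by
    rw [Valuation.map_sub_swap]
    exact hkron
  exact ⟨_, normred_pow_sub_val_lt_one (hostA EM EN hle : ↥EM →+* ↥EN) hW0A hq hcharW0 hBJ0
    ⟨J, hJM⟩ hkron' a ha⟩

end Main

end Host

end Fermat.Agent.S35
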