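/-
S35 — helper8 — **[N2-F], part 1: abstract complements.**

* `normf_val_aut_div_eq_one` : a ring automorphism `s` of a field `E` stabilising a discrete
  valuation subring `W` preserves the valuation: `W.valuation (s f / f) = 1` for every `f ≠ 0`;
* `normf_norm_quot` : if `N f = h ^ m` for the norm `N` along `ι : F → L`, and `(sF, sL)` is a
  compatible pair of ring automorphisms, then `N (sL f / f) = (sF h / h) ^ m`.
-/
import Mathlib
import Fermat.Agent.S35.NORMRED_helper9_Host
import Fermat.Agent.S35.NTWO_helper8_Abs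

set_option autoImplicit false
set_option linter.unusedSectionVars false
set_option linter.style.haveILetI false

namespace Fermat.Agent.S35

open Fermat.Agent.JA Fermat.Agent.SS

section Aut

variable {E : Type*} [Field E] (W : ValuationSubring E)

/-- an element of valuation `< 1` of a discrete valuation subring is a multiple of a given
uniformizer. -/
theorem normf_exists_mul_of_val_lt_one [IsDiscreteValuationRing ↥W] {ϖ : ↥W} (hϖ : Irreducible ϖ)
    {x : E} (hx : W.valuation x < 1) : ∃ a ∈ W, x = (ϖ : E) * a := by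
  have hxW : x ∈ W := (W.valuation_le_one_iff x).1 hx.le
  have h1 : (⟨x, hxW⟩ : ↥W) ∈ IsLocalRing.maximalIdeal ↥W := by
    rw [ValuationSubring.valuation_lt_one_iff]
    exact hx
  rw [hϖ.maximalIdeal_eq, Ideal.mem_span_singleton] at h1
  obtain ⟨a, ha⟩ := h1
  exact ⟨(a : E), a.2, congrArg Subtype.val ha⟩

theorem normf_val_irreducible_lt_one [IsDiscreteValuationRing ↥W] {ϖ : ↥W} (hϖ : Irreducible ϖ) :
    W.valuation (ϖ : E) < 1 := by
  rw [← ValuationSubring.valuation_lt_one_iff, hϖ.maximalIdeal_eq]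
  exact Ideal.subset_span rfl

/-- **a ring automorphism stabilising a discrete valuation subring preserves the valuation.** -/
theorem normf_val_aut_div_eq_one [IsDiscreteValuationRing ↥W] (s : E ≃+* E)
    (hmem : ∀ x : E, x ∈ W ↔ s x ∈ W) {f : E} (hf : f ≠ 0) :
    W.valuation (s f / f) = 1 := by
  obtain ⟨ϖ, hϖ⟩ := IsDiscreteValuationRing.exists_irreducible ↥W
  have hϖ0 : (ϖ : E) ≠ 0 := fun h0 => hϖ.ne_zero (Subtype.ext h0)
  have hmem' : ∀ x : E, x ∈ W ↔ s.symm x ∈ W := fun x => by
    rw [hmem (s.symm x), RingEquiv.apply_symm_apply]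
  have hlt : ∀ x : E, W.valuation (s x) < 1 ↔ W.valuation x < 1 :=
    valuation_map_lt_one_iff W (s : E →+* E) hmem
  have hlt' : ∀ x : E, W.valuation (s.symm x) < 1 ↔ W.valuation x < 1 :=
    valuation_map_lt_one_iff W (s.symm : E →+* E) hmem'
  have hone : ∀ x : E, W.valuation (s x) = 1 ↔ W.valuation x = 1 :=
    valuation_map_eq_one_iff W (s : E →+* E) hmem
  -- the uniformizer
  have hϖlt := normf_val_irreducible_lt_one W hϖ
  obtain ⟨a, haW, ha⟩ := normf_exists_mul_of_val_lt_one W hϖ ((hlt _).2 hϖlt)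
  obtain ⟨b, hbW, hb⟩ := normf_exists_mul_of_val_lt_one W hϖ ((hlt' _).2 hϖlt)
  have hab : a * s b = 1 := by
    have h1 : (ϖ : E) = s (s.symm (ϖ : E)) := (RingEquiv.apply_symm_apply s _).symm
    rw [hb, map_mul, ha] at h1
    have h2 : (ϖ : E) * 1 = (ϖ : E) * (a * s b) := by
      rw [mul_one, ← mul_assoc]
      exact h1
    exact (mul_left_cancel₀ hϖ0 h2).symm
  have hsbW : s b ∈ W := (hmem b).1 hbW
  have hau : W.valuation a = 1 := by
    have h1 : W.valuation a * W.valuation (s b) = 1 := by rw [← map_mul, hab, map_one]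
    have h2 : W.valuation a ≤ 1 := (W.valuation_le_one_iff a).2 haW
    have h3 : W.valuation (s b) ≤ 1 := (W.valuation_le_one_iff _).2 hsbW
    refine le_antisymm h2 ?_
    calc (1 : W.ValueGroup) = W.valuation a * W.valuation (s b) := h1.symm
      _ ≤ W.valuation a * 1 := mul_le_mul' le_rfl h3
      _ = W.valuation a := mul_one _
  have hϖs : W.valuation (s (ϖ : E) / (ϖ : E)) = 1 := by
    rw [ha, mul_div_cancel_left₀ _ hϖ0]
    exact hau
  -- integral elements
  have hint : ∀ g : E, g ∈ W → g ≠ 0 → W.valuation (s g / g) = 1 := by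
    intro g hgW hg0
    have hg0' : (⟨g, hgW⟩ : ↥W) ≠ 0 := fun h0 => hg0 (congrArg Subtype.val h0)
    obtain ⟨n, u, hu⟩ := IsDiscreteValuationRing.eq_unit_mul_pow_irreducible hg0' hϖ
    have hg : g = ((u : ↥W) : E) * (ϖ : E) ^ n := congrArg Subtype.val hu
    have hu1 : W.valuation ((u : ↥W) : E) = 1 := (W.valuation_eq_one_iff _).1 u.isUnit
    have hu0 : ((u : ↥W) : E) ≠ 0 := by
      intro h0
      rw [h0, map_zero] at hu1
      exact zero_ne_one hu1
    have e : s g / g = s ((u : ↥W) : E) / ((u : ↥W) : E) * (s (ϖ : E) / (ϖ : E)) ^ n := by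
      rw [hg, map_mul, map_pow, div_pow]
      field_simp
    rw [e, map_mul, map_pow, hϖs, one_pow, mul_one, map_div₀, hu1, div_one]
    exact (hone _).2 hu1
  rcases W.mem_or_inv_mem f with h | h
  · exact hint f h hf
  · have h1 := hint f⁻¹ h (inv_ne_zero hf)
    have e : s f / f = (s f⁻¹ / f⁻¹)⁻¹ := by
      rw [map_inv₀]
      field_simp
    rw [e, map_inv₀, h1, inv_one]

end Aut

section Norm

variable {F L : Type*} [Field F] [Field L]

/-- **the norm of a Frobenius quotient**: `N (sL f / f) = (sF h / h) ^ m` if `N f = h ^ m`. -/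
theorem normf_norm_quot (ι : F →+* L) (sF : F ≃+* F) (sL : L ≃+* L)
    (hc : ∀ a, sL (ι a) = ι (sF a)) {f : L} (hf : f ≠ 0) {h : F} {m : ℕ}
    (hN : (letI := ι.toAlgebra; Algebra.norm F f) = h ^ m) :
    (letI := ι.toAlgebra; Algebra.norm F (sL f / f)) = (sF h / h) ^ m := by
  have h1 := normred_norm_equivariant ι sF sL hc f
  letI := ι.toAlgebra
  have h2 : Algebra.norm F f * Algebra.norm F f⁻¹ = 1 := by
    rw [← map_mul, mul_inv_cancel₀ hf, map_one]
  have h3 : Algebra.norm F f⁻¹ = (Algebra.norm F f)⁻¹ := eq_inv_of_mul_eq_one_right h2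
  rw [div_eq_mul_inv, map_mul, h1, h3, hN, map_pow, div_pow, div_eq_mul_inv]

end Norm

end Fermat.Agent.S35
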