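/-
S35 — helper8 — **[N2-F], part 2: the NORM step at the F-level, generic base.**

`R` a discrete valuation ring with fraction field `K ⊇ ℚ`, residue characteristic `q ∤ M`,
`(τ, τR)` a Frobenius lift.  For `f₀ ∈ F_{Mq}(K)` whose norms along the two degeneracy maps
`A = keyFqA`, `B = keyFqB` are `m`-th powers, `g = s f₀ / f₀` (`s` the coefficientwise action of `τ`)
satisfies: `s (s g) / g ≡ A(u) ^ m` on `W_∞` and `≡ B(v) ^ m` on `W_0 = W_∞ ∘ W_q`, `u`, `v` units of
`V_M`.  (helper7's `host_two_sheet` + helper9's `host_norm_reduction_A/B` + helper6's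
`keyFq_ssModelFrob` + `SSModelFrob.toric_of_norms`.)
-/
import Mathlib
import Fermat.Agent.S35.NORMF_helper8_Abs
import Fermat.Agent.S35.FROBKRON_helper6_Model
import Fermat.Agent.SS.DEG_helper2
import Fermat.Agent.SS.MODEL_helper7_W0

set_option autoImplicit false
set_option linter.unusedSectionVars false
set_option linter.style.haveILetI false
set_option synthInstance.maxHeartbeats 200000

open ModularCurve Fermat.Agent.Igusa Fermat.Agent.JA Fermat.Agent.SS Fermat.Agent.X0N

namespace Fermat.Agent.S35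

section Gen

variable {R : Type*} [CommRing R] [IsDomain R] [IsDiscreteValuationRing R]
  {K : Type*} [Field K] [Algebra R K] [IsFractionRing R K] [Algebra ℚ K]
  (ι : K →+* ℂ) {M q : ℕ} [NeZero M] [NeZero q] [NeZero (M * q)] {x y : ℤ}
  (h : (q : ℤ) * x + M * y = 1) (hq : q.Prime)
  (τ : K ≃ₐ[ℚ] K) (τR : R →+* R)
  (hτ : ∀ r : R, τ (algebraMap R K r) = algebraMap R K (τR r))
  (hfrob : ∀ r : R, τR r - r ^ q ∈ IsLocalRing.maximalIdeal R)

local notation "kR" => IsLocalRing.ResidueField R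

include hτ hfrob in
/-- the coefficientwise Frobenius preserves the valuation of `W_∞`. -/
theorem keyFq_val_frob_div_inf [ExpChar kR q] (N : ℕ) [NeZero N] {f : ↥(keyFq K N)} (hf : f ≠ 0) :
    (keyFqWinf R K N).valuation (coeffRingAut (coeffStable_keyFq K N) τ f / f) = 1 := by
  haveI : IsDiscreteValuationRing ↥(keyFqWinf R K N) :=
    isDiscreteValuationRing_gaussValSub (keyFq K N) (laurentBaseChange_full_le_gaussField R K N)
  exact normf_val_aut_div_eq_one (keyFqWinf R K N) (coeffRingAut (coeffStable_keyFq K N) τ)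
    (fun z => keyFq_mem_Winf_iff τ τR hτ hfrob N z) hf

include hτ hfrob in
/-- the coefficientwise Frobenius preserves the valuation of `W_0`. -/
theorem keyFq_val_frob_div_zero [ExpChar kR q] {f : ↥(keyFq K (M * q))} (hf : f ≠ 0) :
    (keyFqW0 R K ι h hq).valuation
      (coeffRingAut (coeffStable_keyFq K (M * q)) τ f / f) = 1 := by
  have hc : (keyFqWinf R K (M * q)).comap (atkinLehnerN ι h hq) = keyFqW0 R K ι h hq := rfl
  rw [← ntwo_comap_eq_one hc, map_div₀, atkinLehnerN_coeffRingAut]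
  exact keyFq_val_frob_div_inf τ τR hτ hfrob (M * q) ((map_ne_zero _).2 hf)

end Gen

section Main

variable {R : Type*} [CommRing R] [IsDomain R] [IsDiscreteValuationRing R]
  {K : Type*} [Field K] [Algebra R K] [IsFractionRing R K] [Algebra ℚ K]
  (ι : K →+* ℂ) {M q : ℕ} [NeZero M] [NeZero q] [NeZero (M * q)] {x y : ℤ}
  (h : (q : ℤ) * x + M * y = 1) (hq : q.Prime)
  (τ : K ≃ₐ[ℚ] K) (τR : R →+* R)
  (hτ : ∀ r : R, τ (algebraMap R K r) = algebraMap R K (τR r))

local notation "kR" => IsLocalRing.ResidueField R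

/-- `j ∈ F_M(K)` is fixed by the coefficientwise actions. -/
theorem coeffRingAut_jGen_keyFq :
    coeffRingAut (coeffStable_keyFq K M) τ (jGen K M) = jGen K M := by
  apply Subtype.ext
  rw [coe_coeffRingAut_apply]
  show coeffMap (τ : K →+* K) (coeffEmb K jq) = coeffEmb K jq
  rw [coeffEmb_jq_eq_jqModC, coeffMap_jqModC]

/-- `W_0 ∩ A F_M = V_M`. -/
theorem keyFqW0_comap_keyFqA :
    (keyFqW0 R K ι h hq).comap (keyFqA K M q : ↥(keyFq K M) →+* ↥(keyFq K (M * q))) =
      keyFqWinf R K M := by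
  have cBinf : (keyFqWinf R K (M * q)).comap
      (keyFqB K M q : ↥(keyFq K M) →+* ↥(keyFq K (M * q))) = keyFqWinf R K M :=
    comap_hostB_gaussValSub (R := R) (keyFq K M) (keyFq K (M * q)) q
      (fun _ hf => qExpand_mem_keyFq K (by rw [mul_comm]) hf)
      (laurentBaseChange_full_le_gaussField R K M)
      (laurentBaseChange_full_le_gaussField R K (M * q))
  ext z
  show atkinLehnerN ι h hq (keyFqA K M q z) ∈ keyFqWinf R K (M * q) ↔ _
  rw [atkinLehnerN_keyFqA]
  exact ntwo_comap_mem cBinf z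

/-- `W_0 ∩ B F_M = B V_M`. -/
theorem keyFqW0_comap_keyFqB :
    (keyFqW0 R K ι h hq).comap (keyFqB K M q : ↥(keyFq K M) →+* ↥(keyFq K (M * q))) =
      keyFqWinf R K M := by
  have cAinf : (keyFqWinf R K (M * q)).comap
      (keyFqA K M q : ↥(keyFq K M) →+* ↥(keyFq K (M * q))) = keyFqWinf R K M :=
    comap_hostA_gaussValSub (R := R) (keyFq K M) (keyFq K (M * q))
      (keyFq_le_of_dvd K (dvd_mul_right M q))
      (laurentBaseChange_full_le_gaussField R K M)
      (laurentBaseChange_full_le_gaussField R K (M * q))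
  ext z
  show atkinLehnerN ι h hq (keyFqB K M q z) ∈ keyFqWinf R K (M * q) ↔ _
  rw [atkinLehnerN_keyFqB]
  exact ntwo_comap_mem cAinf z

include ι hq in
/-- `[F_{Mq} : B F_M] = q + 1`. -/
theorem keyFq_finrank_along_keyFqB (hqM : ¬ q ∣ M) :
    letI := (keyFqB K M q : ↥(keyFq K M) →+* ↥(keyFq K (M * q))).toAlgebra
    Module.Finite ↥(keyFq K M) ↥(keyFq K (M * q)) ∧
      Module.finrank ↥(keyFq K M) ↥(keyFq K (M * q)) = q + 1 := by
  letI : Algebra K ℂ := ι.toAlgebra
  haveI : IsScalarTower ℚ K ℂ := IsScalarTower.of_algebraMap_eq (fun r => by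
    show algebraMap ℚ ℂ r = ι (algebraMap ℚ K r)
    rw [eq_ratCast, eq_ratCast, map_ratCast])
  have h1 := finrankAlong_heckeBetaBar (k := K) M q hq
  rw [if_neg hqM] at h1
  have e : heckeBetaBar K M q = keyFqB K M q :=
    AlgHom.ext fun c => (keyFqB_eq_heckeBetaBar K c).symm
  rw [e] at h1
  letI := (keyFqB K M q : ↥(keyFq K M) →+* ↥(keyFq K (M * q))).toAlgebra
  have h2 : Module.finrank ↥(keyFq K M) ↥(keyFq K (M * q)) = q + 1 := h1
  exact ⟨Module.finite_of_finrank_pos (by rw [h2]; exact Nat.succ_pos q), h2⟩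

set_option maxHeartbeats 1600000 in
include hτ in
/-- **the NORM step at the F-level, generic base.** -/
theorem keyFq_normStep_gen (hqM : ¬ q ∣ M) (hchar : (q : kR) = 0) {π : R} (hπ : Irreducible π)
    (hfrobπ : ∀ r : R, τR r - r ^ q ∈ Ideal.span {π}) (hbij : Function.Bijective τR)
    {m : ℕ} (hm : 0 < m) {f₀ : ↥(keyFq K (M * q))} (hf₀ : f₀ ≠ 0)
    (hNA : ∃ hA : ↥(keyFq K M),
      (letI := (keyFqA K M q).toRingHom.toAlgebra; Algebra.norm ↥(keyFq K M) f₀) = hA ^ m)
    (hNB : ∃ hB : ↥(keyFq K M),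
      (letI := (keyFqB K M q).toRingHom.toAlgebra; Algebra.norm ↥(keyFq K M) f₀) = hB ^ m) :
    ∃ u v : ↥(keyFq K M), (keyFqWinf R K M).valuation u = 1 ∧
      (keyFqWinf R K M).valuation v = 1 ∧
      (keyFqWinf R K (M * q)).valuation
        (coeffRingAut (coeffStable_keyFq K (M * q)) τ
          (coeffRingAut (coeffStable_keyFq K (M * q)) τ
            (coeffRingAut (coeffStable_keyFq K (M * q)) τ f₀ / f₀)) /
          (coeffRingAut (coeffStable_keyFq K (M * q)) τ f₀ / f₀) - keyFqA K M q u ^ m) < 1 ∧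
      (keyFqW0 R K ι h hq).valuation
        (coeffRingAut (coeffStable_keyFq K (M * q)) τ
          (coeffRingAut (coeffStable_keyFq K (M * q)) τ
            (coeffRingAut (coeffStable_keyFq K (M * q)) τ f₀ / f₀)) /
          (coeffRingAut (coeffStable_keyFq K (M * q)) τ f₀ / f₀) - keyFqB K M q v ^ m) < 1 := by
  classical
  haveI : CharZero K := algebraRat.charZero K
  haveI : CharP kR q := charP_of_prime_of_natCast_eq_zero hq hchar
  haveI : ExpChar kR q := ExpChar.prime hq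
  have hfrob' : ∀ r : R, τR r - r ^ q ∈ IsLocalRing.maximalIdeal R := by
    intro r
    rw [(IsDiscreteValuationRing.irreducible_iff_uniformizer π).1 hπ]
    exact hfrobπ r
  have hEM : keyFq K M ≤ gaussField R K := laurentBaseChange_full_le_gaussField R K M
  have hEN : keyFq K (M * q) ≤ gaussField R K := laurentBaseChange_full_le_gaussField R K (M * q)
  have hle : keyFq K M ≤ keyFq K (M * q) := keyFq_le_of_dvd K (dvd_mul_right M q)
  have hB : ∀ f ∈ keyFq K M, qExpand K q f ∈ keyFq K (M * q) :=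
    fun _ hf => qExpand_mem_keyFq K (by rw [mul_comm]) hf
  -- the model
  have hF := keyFq_ssModelFrob ι h hq τ τR hτ hπ (j := (1 : K)) (by rw [map_one, map_one])
    hfrobπ hbij
  -- restrictions of the sheets
  have cAinf : (keyFqWinf R K (M * q)).comap
      (keyFqA K M q : ↥(keyFq K M) →+* ↥(keyFq K (M * q))) = keyFqWinf R K M :=
    comap_hostA_gaussValSub (R := R) (keyFq K M) (keyFq K (M * q)) hle hEM hEN
  have cBinf : (keyFqWinf R K (M * q)).comap
      (keyFqB K M q : ↥(keyFq K M) →+* ↥(keyFq K (M * q))) = keyFqWinf R K M :=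
    comap_hostB_gaussValSub (R := R) (keyFq K M) (keyFq K (M * q)) q hB hEM hEN
  have cA0 := keyFqW0_comap_keyFqA (R := R) ι h hq
  have cB0 := keyFqW0_comap_keyFqB (R := R) ι h hq
  -- the coordinate `j`
  have hJc : ((jGen K M : ↥(keyFq K M)) : LaurentSeries K) = jqModC K :=
    coeffEmb_jq_eq_jqModC K
  have hJ : ((jGen K M : ↥(keyFq K M)) : LaurentSeries K) ∈ gaussInt R K := by
    rw [hJc]; exact jqModC_mem_gaussInt R K
  have hJred : gaussRed R K ⟨((jGen K M : ↥(keyFq K M)) : LaurentSeries K), hJ⟩ = jqModC kR := by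
    have e : (⟨((jGen K M : ↥(keyFq K M)) : LaurentSeries K), hJ⟩ : gaussInt R K) =
        ⟨jqModC K, jqModC_mem_gaussInt R K⟩ := Subtype.ext hJc
    rw [e, gaussRed_jqModC]
  have hJo : (gaussRed R K ⟨((jGen K M : ↥(keyFq K M)) : LaurentSeries K), hJ⟩).order =
      -((1 : ℕ) : ℤ) := by
    rw [hJred]
    have := order_jqNModC_field kR 1
    rwa [jqNModC, qExpand_one_apply] at this
  have hJ0 : gaussRed R K ⟨((jGen K M : ↥(keyFq K M)) : LaurentSeries K), hJ⟩ ≠ 0 := by
    intro h0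
    rw [h0, HahnSeries.order_zero] at hJo
    simp at hJo
  have hkron : (keyFqW0 R K ι h hq).valuation
      (hostA (keyFq K M) (keyFq K (M * q)) hle (jGen K M) -
        hostB (keyFq K M) (keyFq K (M * q)) q hB (jGen K M) ^ q) < 1 := by
    have h1 := hF.kron_zero (jGen K M) hJ
    have hs : ((coeffRingAut (coeffStable_keyFq K M) τ : ↥(keyFq K M) ≃+* ↥(keyFq K M)) :
        ↥(keyFq K M) →+* ↥(keyFq K M)) (jGen K M) = jGen K M := coeffRingAut_jGen_keyFq τ
    rw [hs, Valuation.map_sub_swap] at h1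
    exact h1
  -- degrees
  obtain ⟨hfinA, hdegA⟩ := deg2_finrank_keyFq ι hq hqM hle
  obtain ⟨hfinB, hdegB⟩ := keyFq_finrank_along_keyFqB ι hq hqM
  -- the two sheets
  obtain ⟨-, -, -, -, -, res_inf, res_zero⟩ := host_two_sheet (R := R) (keyFq K M)
    (keyFq K (M * q)) hle q hB hEM hEN hq hchar hπ 1 (Nat.coprime_one_left q) (jGen K M) hJ hJo hJ0
    hfinA hdegA.le hfinB hdegB.le (keyFqW0 R K ι h hq) cA0 cB0 hkron
  -- norm reductions
  have hNAred : ∀ f : ↥(keyFq K (M * q)), f ∈ keyFqWinf R K (M * q) → f ∈ keyFqW0 R K ι h hq →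
      ∀ a₁ a₂ : ↥(keyFq K M), (keyFqWinf R K (M * q)).valuation (f - keyFqA K M q a₁) < 1 →
      (keyFqW0 R K ι h hq).valuation (f ^ q - keyFqA K M q a₂) < 1 →
      (keyFqWinf R K M).valuation
        (hostNormA (keyFq K M) (keyFq K (M * q)) hle f - a₁ * a₂) < 1 :=
    fun f hfinf hf0 a₁ a₂ hc₁ hc₂ =>
      (host_norm_reduction_A (R := R) (keyFq K M) (keyFq K (M * q)) hle q hB hEM hEN hq hchar 1
        (Nat.coprime_one_left q) (jGen K M) hJ hJo hJ0 hfinA hdegA.le (keyFqW0 R K ι h hq) cA0 cB0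
        hkron hfinf hf0 hc₁ hc₂).2
  have hNBred : ∀ f : ↥(keyFq K (M * q)), f ∈ keyFqWinf R K (M * q) → f ∈ keyFqW0 R K ι h hq →
      ∀ a₁ a₂ : ↥(keyFq K M), (keyFqW0 R K ι h hq).valuation (f - keyFqB K M q a₁) < 1 →
      (keyFqWinf R K (M * q)).valuation (f ^ q - keyFqB K M q a₂) < 1 →
      (keyFqWinf R K M).valuation
        (hostNormB (keyFq K M) (keyFq K (M * q)) q hB f - a₁ * a₂) < 1 :=
    fun f hfinf hf0 a₁ a₂ hc₁ hc₂ =>
      (host_norm_reduction_B (R := R) (keyFq K M) (keyFq K (M * q)) hle q hB hEM hEN hq hchar 1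
        (Nat.coprime_one_left q) (jGen K M) hJ hJo hJ0 hfinB hdegB.le (keyFqW0 R K ι h hq) cB0
        hkron hfinf hf0 hc₁ hc₂).2
  -- `g = s f₀ / f₀` is a unit on both sheets
  have hginf := keyFq_val_frob_div_inf τ τR hτ hfrob' (M * q) hf₀
  have hg0 := keyFq_val_frob_div_zero ι h hq τ τR hτ hfrob' hf₀
  -- the norms of `g`
  obtain ⟨hA, hNA⟩ := hNA
  obtain ⟨hB', hNB⟩ := hNB
  have hNAg : hostNormA (keyFq K M) (keyFq K (M * q)) hle
      (coeffRingAut (coeffStable_keyFq K (M * q)) τ f₀ / f₀) =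
      (coeffRingAut (coeffStable_keyFq K M) τ hA / hA) ^ m :=
    normf_norm_quot (keyFqA K M q : ↥(keyFq K M) →+* ↥(keyFq K (M * q)))
      (coeffRingAut (coeffStable_keyFq K M) τ) (coeffRingAut (coeffStable_keyFq K (M * q)) τ)
      (fun a => keyFq_coeffRingAut_keyFqA τ a) hf₀ hNA
  have hNBg : hostNormB (keyFq K M) (keyFq K (M * q)) q hB
      (coeffRingAut (coeffStable_keyFq K (M * q)) τ f₀ / f₀) =
      (coeffRingAut (coeffStable_keyFq K M) τ hB' / hB') ^ m :=
    normf_norm_quot (keyFqB K M q : ↥(keyFq K M) →+* ↥(keyFq K (M * q)))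
      (coeffRingAut (coeffStable_keyFq K M) τ) (coeffRingAut (coeffStable_keyFq K (M * q)) τ)
      (fun a => keyFq_coeffRingAut_keyFqB τ a) hf₀ hNB
  exact SSModelFrob.toric_of_norms hF cAinf cBinf cA0 cB0 res_inf res_zero
    (hostNormA (keyFq K M) (keyFq K (M * q)) hle) (hostNormB (keyFq K M) (keyFq K (M * q)) q hB)
    hNAred hNBred hginf hg0 hm hNAg hNBg

end Main

end Fermat.Agent.S35
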