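/-
S35 — helper8 — **[N2-F], part 3: the NORM step at the F-level at every Galois base**
(`KeyFqNormStepAtBases`), and hence **`LegFrobBase ∧ HesFrobBase`** (the base statements of the
Frobenius route) unconditionally.
-/
import Mathlib
import Fermat.Agent.S35.NORMF_helper8_Gen
import Fermat.Agent.S35.BASEF_helper8_Norm

set_option autoImplicit false
set_option linter.unusedSectionVars false
set_option linter.style.haveILetI false
set_option synthInstance.maxHeartbeats 200000

open HahnSeries IntermediateField AlgebraicCurve ModularCurve Fermat.Agent.Igusa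

namespace Fermat.Agent.S35

open Fermat.Agent.JA Fermat.Agent.FF Fermat.Agent.SS

open scoped Fermat.Agent.JA.Host

/-- `Ω = AlgebraicClosure ℚ`. -/
local notation "Ω" => AlgebraicClosure ℚ

/-- the absolute Galois group. -/
local notation "GQ" => (AlgebraicClosure ℚ ≃ₐ[ℚ] AlgebraicClosure ℚ)

set_option maxHeartbeats 1600000 in
/-- **the NORM step at the F-level, at every Galois base** (N2-F). -/
theorem keyFqNormStepAtBases : KeyFqNormStepAtBases := by
  intro M q _ _ _ hq hqM A hA K₁ _ hK₁ _ _ x y hbez φ hφ m hm hqm f₀ hf₀ hNA hNB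
  haveI : Fact q.Prime := ⟨hq⟩
  obtain ⟨ϖ, hϖ⟩ := IsDiscreteValuationRing.exists_irreducible ↥(baseRing A K₁)
  have hqϖ := natCast_mem_span_uniformizer_baseRing hA K₁ hϖ
  haveI : CharP (IsLocalRing.ResidueField ↥(baseRing A K₁)) q :=
    charP_residueField_of_mem_span hϖ hq hqϖ
  have hchar : ((q : ℕ) : IsLocalRing.ResidueField ↥(baseRing A K₁)) = 0 :=
    CharP.cast_eq_zero _ q
  exact keyFq_normStep_gen (R := ↥(baseRing A K₁)) (K := ↥K₁)
    (@algebraMap ↥K₁ ℂ _ _ (baseToComplex K₁)) hbez hq (resGal K₁ φ)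
    (frobBaseRingAut (K₁ := K₁) hφ : ↥(baseRing A K₁) →+* ↥(baseRing A K₁))
    (resGal_algebraMap_frobBase hφ) hqM hchar hϖ (frobBaseRingAut_sub_pow_mem hφ hϖ)
    (frobBaseRingAut_bijective hφ) hm hf₀ hNA hNB

/-- **the base statements of the Frobenius route** (Legendre and Hesse hosts), unconditionally. -/
theorem frobBases : LegFrobBase ∧ HesFrobBase :=
  frobBases_of_keyFqNormStep keyFqNormStepAtBases

theorem legFrobBase : LegFrobBase := frobBases.1

theorem hesFrobBase : HesFrobBase := frobBases.2

end Fermat.Agent.S35
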