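/-
S35 — helper4 — package [T3-B], generic part: from the base statements `LegFrobBase`,
`HesFrobBase` (one Galois base `K₁`) back to the Kummer form `FrobKummerAt` over `Ω`.

* `frobPolyMul_ne_zero`;
* `exists_normAlong_algebraMap_mul`, `exists_pow_eq_normAlong` : over an algebraically closed
  constant field the constant in `N f = a · h ^ m` can be absorbed (after any rescaling of `f`);
* `frobKummer_of_base_pow` : back to `Ω` (the analogue of lead's `kummer_of_base_pow` for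
  `frobPolyMul`).
-/
import Mathlib
import Fermat.Agent.S35.TOPF_helper8_JZero
import Fermat.Agent.S35.BASEF_helper8_Alg
import Fermat.Agent.SS.TOPB_lead_Key

set_option autoImplicit false
set_option linter.unusedSectionVars false
set_option linter.unusedVariables false
set_option linter.style.haveILetI false
set_option synthInstance.maxHeartbeats 400000

open HahnSeries IntermediateField AlgebraicCurve ModularCurve

namespace Fermat.Agent.S35

open Fermat.Agent.JA Fermat.Agent.FF Fermat.Agent.SS Fermat.Agent.X0N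

/-- `Ω = AlgebraicClosure ℚ`. -/
local notation "Ω" => AlgebraicClosure ℚ

/-- the absolute Galois group. -/
local notation "GQ" => (AlgebraicClosure ℚ ≃ₐ[ℚ] AlgebraicClosure ℚ)

section Alg

variable {E : Type*} [Field E]

theorem frobPolyMul_ne_zero {s : E → E} (hs : ∀ x : E, x ≠ 0 → s x ≠ 0) (q r : ℕ) {f : E}
    (hf : f ≠ 0) : frobPolyMul q r s f ≠ 0 := by
  unfold frobPolyMul
  have h1 : s f / f ≠ 0 := div_ne_zero (hs f hf) hf
  have h2 : s (s (s f / f)) / (s f / f) ≠ 0 := div_ne_zero (hs _ (hs _ h1)) h1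
  have hit : ∀ (n : ℕ) (x : E), x ≠ 0 → s^[n] x ≠ 0 := by
    intro n
    induction n with
    | zero => intro x hx; exact hx
    | succ n ih =>
      intro x hx
      rw [Function.iterate_succ_apply']
      exact hs _ (ih x hx)
  exact div_ne_zero (hit r _ h2) (pow_ne_zero _ h2)

end Alg

section Norm

variable {K F F' : Type*} [Field K] [Field F] [Field F'] [Algebra K F] [Algebra K F']

/-- the norm along `φ` of a constant multiple. -/
theorem exists_normAlong_algebraMap_mul (φ : F →ₐ[K] F') :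
    ∃ d : ℕ, ∀ (c : K) (z : F'),
      normAlong φ (algebraMap K F' c * z) = algebraMap K F (c ^ d) * normAlong φ z := by
  letI := algebraAlong φ
  refine ⟨Module.finrank F F', fun c z => ?_⟩
  unfold normAlong
  have h1 : algebraMap K F' c = algebraMap F F' (algebraMap K F c) := (φ.commutes c).symm
  rw [map_mul, h1, Algebra.norm_algebraMap, map_pow]

/-- **absorbing the constants**: over an algebraically closed constant field, if the norm of `f` is
a constant times an `m`-th power then the norm of every constant multiple of `f` is an `m`-th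
power. -/
theorem exists_pow_eq_normAlong [IsAlgClosed K] (φ : F →ₐ[K] F') {m : ℕ} (hm : m ≠ 0) (c₀ : K)
    (f : F') (a : K) (h : F) (hN : normAlong φ f = algebraMap K F a * h ^ m) :
    ∃ H : F, normAlong φ (algebraMap K F' c₀ * f) = H ^ m := by
  obtain ⟨d, hd⟩ := exists_normAlong_algebraMap_mul φ
  obtain ⟨e, he⟩ := IsAlgClosed.exists_pow_nat_eq (c₀ ^ d * a) (Nat.pos_of_ne_zero hm)
  refine ⟨algebraMap K F e * h, ?_⟩
  rw [hd, hN, mul_pow, ← map_pow, he, map_mul]
  ring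

end Norm

section Key

variable (N : ℕ) [NeZero N] (K₁ : IntermediateField ℚ Ω) [Normal ℚ ↥K₁]

set_option maxHeartbeats 1600000 in
/-- **back to `Ω`** (on `keyFq Ω N`): a Kummer relation for `frobPolyMul` of the descended function
over `K₁` gives the Kummer relation for `f` over `Ω`. -/
theorem frobKummer_of_base_pow_aux {m c : ℕ} (hm : m ≠ 0) (hc : c ≠ 0) (q r : ℕ) (σ : GQ)
    (f : ↥(keyFq Ω N)) (hf : f ≠ 0)
    (F₁ : ↥(keyFq ↥K₁ N)) (b : Ω) (hb : b ≠ 0)
    (hBC : keyFqBC N K₁ F₁ = algebraMap Ω ↥(keyFq Ω N) b * f) (w₁ : ↥(keyFq ↥K₁ N))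
    (h : frobPolyMul q r (fun x : ↥(keyFq ↥K₁ N) => keyFqGalois ↥K₁ N (resGal K₁ σ) • x) F₁ ^ c =
      w₁ ^ m) :
    ∃ (a : Ω) (w : ↥(keyFq Ω N)), a ≠ 0 ∧ w ≠ 0 ∧
      frobPolyMul q r (fun x : ↥(keyFq Ω N) => keyFqGalois Ω N σ • x) f ^ c =
        algebraMap Ω ↥(keyFq Ω N) a * w ^ m := by
  set g : SemilinearAut Ω ↥(keyFq Ω N) := keyFqGalois Ω N σ with hg
  have e1 : keyFqBC N K₁ (frobPolyMul q r
      (fun x : ↥(keyFq ↥K₁ N) => keyFqGalois ↥K₁ N (resGal K₁ σ) • x) F₁) ^ c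
      = keyFqBC N K₁ w₁ ^ m :=
    (map_pow (keyFqBC N K₁) _ c).symm.trans
      ((congrArg (keyFqBC N K₁) h).trans (map_pow (keyFqBC N K₁) w₁ m))
  have e2 : keyFqBC N K₁ (frobPolyMul q r
      (fun x : ↥(keyFq ↥K₁ N) => keyFqGalois ↥K₁ N (resGal K₁ σ) • x) F₁) =
      frobPolyMul q r (fun x : ↥(keyFq Ω N) => g • x) (keyFqBC N K₁ F₁) :=
    map_frobPolyMul (keyFqBC N K₁) _ _ (keyFqBC_keyFqGalois_smul N K₁ σ) q r F₁
  obtain ⟨d', hd'⟩ := frobPolyMul_algebraMap g q r b
  have hd'0 : d' ≠ 0 := by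
    intro h0
    have h1 := frobPolyMul_ne_zero (s := fun x : ↥(keyFq Ω N) => g • x)
      (fun x hx => semilinear_smul_ne_zero g hx) q r
      (f := algebraMap Ω ↥(keyFq Ω N) b) ((map_ne_zero _).2 hb)
    apply h1
    rw [hd', h0, map_zero]
  have e3 : frobPolyMul q r (fun x : ↥(keyFq Ω N) => g • x) (keyFqBC N K₁ F₁) =
      algebraMap Ω ↥(keyFq Ω N) d' * frobPolyMul q r (fun x : ↥(keyFq Ω N) => g • x) f := by
    rw [hBC, frobPolyMul_mul (isMulMap_semilinear g), hd']
  have e4 : algebraMap Ω ↥(keyFq Ω N) (d' ^ c) *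
      frobPolyMul q r (fun x : ↥(keyFq Ω N) => g • x) f ^ c = keyFqBC N K₁ w₁ ^ m := by
    rw [map_pow (algebraMap Ω ↥(keyFq Ω N)) d' c,
      ← mul_pow (algebraMap Ω ↥(keyFq Ω N) d')
        (frobPolyMul q r (fun x : ↥(keyFq Ω N) => g • x) f) c, ← e3, ← e2]
    exact e1
  have hd0 : d' ^ c ≠ 0 := pow_ne_zero _ hd'0
  have hsd : frobPolyMul q r (fun x : ↥(keyFq Ω N) => g • x) f ≠ 0 :=
    frobPolyMul_ne_zero (fun x hx => semilinear_smul_ne_zero g hx) q r hf
  refine ⟨(d' ^ c)⁻¹, keyFqBC N K₁ w₁, inv_ne_zero hd0, ?_, ?_⟩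
  · intro h0
    rw [h0, zero_pow hm] at e4
    rcases mul_eq_zero.1 e4 with h1 | h1
    · exact hd0 ((map_eq_zero _).1 h1)
    · exact hsd (pow_eq_zero_iff hc |>.1 h1)
  · rw [← e4, ← mul_assoc, ← map_mul (algebraMap Ω ↥(keyFq Ω N)), inv_mul_cancel₀ hd0, map_one,
      one_mul]

/-- **back to `Ω`**: the same on `modularFunctionFieldBar N`, with the arithmetic Galois action. -/
theorem frobKummer_of_base_pow {m c : ℕ} (hm : m ≠ 0) (hc : c ≠ 0) (q r : ℕ) (σ : GQ)
    (f : ↥(modularFunctionFieldBar N)) (hf : f ≠ 0)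
    (F₁ : ↥(keyFq ↥K₁ N)) (b : Ω) (hb : b ≠ 0)
    (hBC : keyFqBC N K₁ F₁ = algebraMap Ω ↥(keyFq Ω N) b * f) (w₁ : ↥(keyFq ↥K₁ N))
    (h : frobPolyMul q r (fun x : ↥(keyFq ↥K₁ N) => keyFqGalois ↥K₁ N (resGal K₁ σ) • x) F₁ ^ c =
      w₁ ^ m) :
    ∃ (a : Ω) (w : ↥(modularFunctionFieldBar N)), a ≠ 0 ∧ w ≠ 0 ∧
      frobPolyMul q r (fun y : ↥(modularFunctionFieldBar N) =>
        arithmeticGalois (modularFunctionFieldFull N) σ • y) f ^ c =
        algebraMap Ω ↥(modularFunctionFieldBar N) a * w ^ m :=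
  frobKummer_of_base_pow_aux N K₁ hm hc q r σ f hf F₁ b hb hBC w₁ h

end Key

end Fermat.Agent.S35
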