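/-
S35 — helper4 — package [T3-B], Hesse host (`q = 2`): from the base statement `HesFrobBase`
to the Kummer form `FrobKummerAt M 2 p (hesDeg (M 2)) r φ` over `Ω`.

Chain: `f ∈ F_Ω(M q)` with all orders divisible by `m = p ^ n` and both degeneracy norms of the
shape (constant)·(`m`-th power); normalise `f` to be monic and absorb the constants (`Ω` is
algebraically closed); choose a Galois base `K₁` over which `f` and the two `m`-th roots are defined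
and the support of the divisor of `f` on the host `E_Ω` is rational; the norm identities descend to
`K₁` (helper8's base change of norms); apply `HesFrobBase`; take norms `E(K₁) → F(K₁)`; go back
to `Ω`.
-/
import Mathlib
import Fermat.Agent.S35.T3B_helper4_Gen
import Fermat.Agent.S35.NORMBC_helper8_Key
import Fermat.Agent.SS.TOPB_lead_Hes

set_option autoImplicit false
set_option linter.unusedSectionVars false
set_option linter.unusedVariables false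
set_option linter.style.haveILetI false
set_option synthInstance.maxHeartbeats 400000

open HahnSeries IntermediateField AlgebraicCurve ModularCurve

namespace Fermat.Agent.S35

open Fermat.Agent.JA Fermat.Agent.FF Fermat.Agent.SS Fermat.Agent.X0N

/-- `Ω = AlgebraicClosure ℚ`. -/
local notation "Ω" => AlgebraicClosure ℚ

/-- the absolute Galois group. -/
local notation "GQ" => (AlgebraicClosure ℚ ≃ₐ[ℚ] AlgebraicClosure ℚ)

section Hes

variable (M : ℕ) [NeZero M] [NeZero (M * 2)]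

set_option maxHeartbeats 6400000 in
/-- **[T3-B], Hesse host.** -/
theorem frobKummerAt_hes (hB : HesFrobBase) {p : ℕ} (hp : p.Prime) (hqp : 2 ≠ p)
    (hqM : ¬ 2 ∣ M) :
    ∃ r : ℕ, 0 < r ∧ ∀ A : ValuationSubring Ω, A.LiesOverPrime 2 →
      ∀ φ : GQ, A.IsFrobeniusAt φ 2 → FrobKummerAt M 2 p (hesDeg (M * 2)) r φ := by
  classical
  have hq : Nat.Prime 2 := Nat.prime_two
  obtain ⟨r, hr, H⟩ := hB M hqM
  refine ⟨r, hr, fun A hA φ hφ => ?_⟩
  rintro n f hf hdiv ⟨aα, hα, haα, hhα, hNα⟩ ⟨aβ, hβ, haβ, hhβ, hNβ⟩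
  have hm0 : 0 < p ^ n := pow_pos hp.pos n
  have hqm : ¬ 2 ∣ p ^ n := fun h =>
    hqp ((Nat.prime_dvd_prime_iff_eq hq hp).1 (hq.dvd_of_dvd_pow h))
  -- monic normalisation over `Ω`
  have hfL : ((f : ↥(modularFunctionFieldBar (M * 2))) : LaurentSeries Ω) ≠ 0 := fun h0 =>
    hf (Subtype.ext h0)
  set c₀ : Ω := (((f : ↥(modularFunctionFieldBar (M * 2))) : LaurentSeries Ω).leadingCoeff)⁻¹
    with hc₀def
  have hc₀ : c₀ ≠ 0 := inv_ne_zero (HahnSeries.leadingCoeff_ne_zero.2 hfL)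
  set f' : ↥(modularFunctionFieldBar (M * 2)) :=
    algebraMap Ω ↥(modularFunctionFieldBar (M * 2)) c₀ * f with hf'def
  have hf'0 : f' ≠ 0 := mul_ne_zero ((map_ne_zero _).2 hc₀) hf
  have hf'lc : ((f' : ↥(modularFunctionFieldBar (M * 2))) : LaurentSeries Ω).leadingCoeff = 1 := by
    show (algebraMap Ω (LaurentSeries Ω) c₀ *
      ((f : ↥(modularFunctionFieldBar (M * 2))) : LaurentSeries Ω)).leadingCoeff = 1
    rw [HahnSeries.leadingCoeff_mul, algebraMap_laurentSeries_eq_single,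
      HahnSeries.leadingCoeff_of_single, hc₀def,
      inv_mul_cancel₀ (HahnSeries.leadingCoeff_ne_zero.2 hfL)]
  have hdiv' : ∀ v : Place Ω ↥(modularFunctionFieldBar (M * 2)),
      ((p ^ n : ℕ) : ℤ) ∣ v.ord f' := by
    intro v
    rw [hf'def, v.ord_mul ((map_ne_zero _).2 hc₀) hf, place_ord_algebraMap_eq_zero v hc₀, zero_add]
    exact hdiv v
  -- absorb the constants of the two norms
  obtain ⟨Hα, hHα⟩ := exists_pow_eq_normAlong (heckeAlphaBar Ω M 2) hm0.ne' c₀ f aα hα hNα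
  obtain ⟨Hβ, hHβ⟩ := exists_pow_eq_normAlong (heckeBetaBar Ω M 2) hm0.ne' c₀ f aβ hβ hNβ
  -- the divisor of `f'` on the host over `Ω`
  haveI : HasPrincipalDivisors Ω ↥(hesE Ω (M * 2)) := up_hasPrincipalDivisors_hesE (M * 2)
  have hfE : fullToHesE Ω (M * 2) f' ≠ 0 := (map_ne_zero _).2 hf'0
  obtain ⟨D, hD, -⟩ := HasPrincipalDivisors.exists_divisor (K := Ω) (fullToHesE Ω (M * 2) f') hfE
  -- the Galois base
  haveI : Fact (Nat.Prime 2) := ⟨hq⟩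
  obtain ⟨sM, hsM⟩ := exists_finset_forall_descent_family (modularFunctionFieldFull M)
    (x := fun i : Bool => if i then ((Hα : ↥(modularFunctionFieldBar M)) : LaurentSeries Ω)
      else ((Hβ : ↥(modularFunctionFieldBar M)) : LaurentSeries Ω))
    (fun i => by cases i; exacts [Hβ.2, Hα.2])
  obtain ⟨K₁, hK₁, -, htK, hdesc, hrat⟩ :=
    (isBase_flatBase (ℓ := 2)).exists_ge_isGalBase_hesE (M * 2) sM
      (f := fun _ : Unit => ((f' : ↥(modularFunctionFieldBar (M * 2))) : LaurentSeries Ω))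
      (fun _ => f'.2) D.support
  haveI := hK₁.normal
  obtain ⟨f₁, hf₁mem, hf₁⟩ := hdesc ()
  obtain ⟨hα₁, hα₁mem, hhα₁⟩ := hsM K₁ htK true
  obtain ⟨hβ₁, hβ₁mem, hhβ₁⟩ := hsM K₁ htK false
  simp only [if_true] at hhα₁
  simp only [Bool.false_eq_true, if_false] at hhβ₁
  set F₁ : ↥(keyFq ↥K₁ (M * 2)) := ⟨f₁, hf₁mem⟩ with hF₁def
  have hBC0 : keyFqBC (M * 2) K₁ F₁ = f' := Subtype.ext hf₁
  have hBC : keyFqBC (M * 2) K₁ F₁ = algebraMap Ω ↥(keyFq Ω (M * 2)) c₀ * f := hBC0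
  have hF₁0 : F₁ ≠ 0 := by
    intro h0
    apply hf'0
    rw [← hBC0, h0, map_zero]
  have hF₁lc : ((F₁ : ↥(keyFq ↥K₁ (M * 2))) : LaurentSeries ↥K₁).leadingCoeff = 1 := by
    have h1 := leadingCoeff_coeffMap_of_injective (f := algebraMap ↥K₁ Ω)
      (algebraMap ↥K₁ Ω).injective f₁
    rw [hf₁, hf'lc] at h1
    exact (algebraMap ↥K₁ Ω).injective (by rw [← h1, map_one])
  -- the norm identities over `K₁`
  have hnA : (letI := (keyFqA ↥K₁ M 2).toRingHom.toAlgebra; Algebra.norm ↥(keyFq ↥K₁ M) F₁) =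
      (⟨hα₁, hα₁mem⟩ : ↥(keyFq ↥K₁ M)) ^ (p ^ n) := by
    rw [norm_keyFqA_eq_normAlong]
    apply (keyFqBC M K₁).injective
    rw [keyFqBC_normAlong_heckeAlphaBar M 2 K₁ hq, hBC0, map_pow]
    have h1 : keyFqBC M K₁ (⟨hα₁, hα₁mem⟩ : ↥(keyFq ↥K₁ M)) = Hα := Subtype.ext hhα₁
    rw [h1]
    exact hHα
  have hnB : (letI := (keyFqB ↥K₁ M 2).toRingHom.toAlgebra; Algebra.norm ↥(keyFq ↥K₁ M) F₁) =
      (⟨hβ₁, hβ₁mem⟩ : ↥(keyFq ↥K₁ M)) ^ (p ^ n) := by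
    rw [norm_keyFqB_eq_normAlong]
    apply (keyFqBC M K₁).injective
    rw [keyFqBC_normAlong_heckeBetaBar M 2 K₁ hq, hBC0, map_pow]
    have h1 : keyFqBC M K₁ (⟨hβ₁, hβ₁mem⟩ : ↥(keyFq ↥K₁ M)) = Hβ := Subtype.ext hhβ₁
    rw [h1]
    exact hHβ
  -- the function on the host over `K₁`
  have hg₁0 : fullToHesE ↥K₁ (M * 2) F₁ ≠ 0 := (map_ne_zero _).2 hF₁0
  have hg₁BC : hesBC (M * 2) K₁ (fullToHesE ↥K₁ (M * 2) F₁) =
      algebraMap Ω ↥(hesE Ω (M * 2)) 1 * fullToHesE Ω (M * 2) f' := by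
    rw [bcdeg_hesBC_fullToHesE, hBC0, map_one, one_mul]
  have hord : ∀ P : Place ↥K₁ ↥(hesE ↥K₁ (M * 2)),
      P.ord (fullToHesE ↥K₁ (M * 2) F₁) = 0 ∨
        (IsRationalPlace P ∧ ((p ^ n : ℕ) : ℤ) ∣ P.ord (fullToHesE ↥K₁ (M * 2) F₁)) := by
    intro P
    have h1 := ord_descended_hes (M * 2) f' hdiv' D hD K₁ hrat (fullToHesE ↥K₁ (M * 2) F₁) 1
      one_ne_zero hg₁BC P
    by_cases h0 : P.ord (fullToHesE ↥K₁ (M * 2) F₁) = 0
    · exact Or.inl h0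
    · exact Or.inr ⟨h1.2 h0, h1.1⟩
  obtain ⟨u, hu⟩ := H A hA K₁ hK₁ φ hφ (p ^ n) hm0 hqm F₁ hF₁0 hF₁lc hord ⟨_, hnA⟩ ⟨_, hnB⟩
  have hu' : (fullToHesE ↥K₁ (M * 2)).toRingHom
      (frobPolyMul 2 r (fun x : ↥(keyFq ↥K₁ (M * 2)) =>
        keyFqGalois ↥K₁ (M * 2) (resGal K₁ φ) • x) F₁) = u ^ (p ^ n) := by
    rw [map_frobPolyMul (fullToHesE ↥K₁ (M * 2)).toRingHom
      (fun x : ↥(keyFq ↥K₁ (M * 2)) => keyFqGalois ↥K₁ (M * 2) (resGal K₁ φ) • x)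
      (fun x : ↥(hesE ↥K₁ (M * 2)) => hesGalois ↥K₁ (M * 2) (resGal K₁ φ) • x)
      (fullToHesE_keyFqGalois_smul (M * 2) (resGal K₁ φ)) 2 r F₁]
    exact hu
  letI : Algebra ↥(keyFq ↥K₁ (M * 2)) ↥(hesE ↥K₁ (M * 2)) :=
    (fullToHesE ↥K₁ (M * 2)).toRingHom.toAlgebra
  haveI : FiniteDimensional ↥(keyFq ↥K₁ (M * 2)) ↥(hesE ↥K₁ (M * 2)) :=
    finite_fullToHesE ↥K₁ (M * 2)
  have hnorm := pow_finrank_eq_norm_pow (K := ↥(keyFq ↥K₁ (M * 2))) (L := ↥(hesE ↥K₁ (M * 2)))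
    (x := frobPolyMul 2 r (fun x : ↥(keyFq ↥K₁ (M * 2)) =>
      keyFqGalois ↥K₁ (M * 2) (resGal K₁ φ) • x) F₁) (u := u) (m := p ^ n) hu'
  have hdeg : Module.finrank ↥(keyFq ↥K₁ (M * 2)) ↥(hesE ↥K₁ (M * 2)) = hesDeg (M * 2) :=
    (finrank_hesE_base (M * 2) K₁).symm
  rw [hdeg] at hnorm
  exact frobKummer_of_base_pow (M * 2) K₁ hm0.ne' (hesDeg_ne_zero (M * 2)) 2 r φ f hf F₁ c₀ hc₀
    hBC _ hnorm

end Hes

end Fermat.Agent.S35
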