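/-
S35 — helper4 — package [T3-B]: **(KEY-FROB) from the two base statements** `LegFrobBase`
(`q ≠ 2`, Legendre host) and `HesFrobBase` (`q = 2`, Hesse host).
-/
import Mathlib
import Fermat.Agent.S35.T3B_helper4_Leg
import Fermat.Agent.S35.T3B_helper4_Hes

set_option autoImplicit false
set_option linter.unusedSectionVars false
set_option linter.unusedVariables false

open AlgebraicCurve ModularCurve

namespace Fermat.Agent.S35

open Fermat.Agent.JA Fermat.Agent.SS

/-- **[T3-B]: `KeyFrobStatement` from the base statements.** -/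
theorem keyFrobStatement_of_bases (hL : LegFrobBase) (hH : HesFrobBase) : KeyFrobStatement := by
  intro M q p _ _ _ hq hp hqp hqM
  by_cases hq2 : q = 2
  · subst hq2
    obtain ⟨r, hr, H⟩ := frobKummerAt_hes M hH hp hqp hqM
    exact keyFrob_of_frobKummerAt M 2 hp (hesDeg_ne_zero (M * 2)) hr H
  · obtain ⟨r, hr, H⟩ := frobKummerAt_leg M q hL hp hq hqp hq2 hqM
    exact keyFrob_of_frobKummerAt M q hp (legDeg_ne_zero (M * q)) hr H

end Fermat.Agent.S35
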