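/-
S35 — helper6 — **FINPIC, part A: Riemann's inequality in arbitrary characteristic.**

In the typeclass setting of `FF/RR_helper3_*` (a finite separable extension `κ` of `k(X)`, `k`
algebraically closed of ANY characteristic):

* `finpic_deg_eq_one` : all places have degree one;
* `finite_support_ord`, `ffDivOf`, `degree_ffDivOf` : principal divisors exist and have degree zero
  (`hasPrincipalDivisors_TC`);
* `riemann_inequality_TC` : `∃ g, ∀ D, L(D)` is finite-dimensional and `deg D + 1 - g ≤ ℓ(D)`;
* `riemannRochSpace_eq_bot_of_degree_neg`, `finrank_riemannRochSpace_add_single_le`.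
-/
import Mathlib
import Fermat.Agent.FF.RRFinal

set_option autoImplicit false
set_option linter.unusedSectionVars false
set_option linter.unusedVariables false
set_option linter.style.haveILetI false

namespace Fermat.Agent.S35

open Polynomial AlgebraicCurve IsDedekindDomain WithZero Module nonZeroDivisors FractionalIdeal
open Fermat.Agent.FF Fermat.Agent.FF.RR

variable {k κ : Type*} [Field k] [IsAlgClosed k] [Field κ] [Algebra k κ] [Algebra k[X] κ]
  [Algebra (RatFunc k) κ] [IsScalarTower k[X] (RatFunc k) κ] [IsScalarTower k k[X] κ]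
  [IsScalarTower k (RatFunc k) κ] [FiniteDimensional (RatFunc k) κ]
  [Algebra.IsSeparable (RatFunc k) κ]

local notation "B" => FunctionField.ringOfIntegers k κ
local notation "Binf" => ringAtInfty k κ

section Degree

theorem finrank_quotient_eq_one_of_forall_exists {R : Type*} [CommRing R] [Algebra k R]
    (P : Ideal R) [P.IsMaximal] (h : ∀ b : R, ∃ c : k, b - algebraMap k R c ∈ P) :
    finrank k (R ⧸ P) = 1 := by
  letI : Field (R ⧸ P) := Ideal.Quotient.field P
  have hsurj : Function.Surjective (algebraMap k (R ⧸ P)) := by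
    intro y
    obtain ⟨b, rfl⟩ := Ideal.Quotient.mk_surjective y
    obtain ⟨c, hc⟩ := h b
    refine ⟨c, ?_⟩
    rw [IsScalarTower.algebraMap_apply k R (R ⧸ P), Ideal.Quotient.algebraMap_eq]
    exact ((Ideal.Quotient.mk_eq_mk_iff_sub_mem _ _).mpr hc).symm
  have hbij : Function.Bijective (Algebra.linearMap k (R ⧸ P)) :=
    ⟨(algebraMap k (R ⧸ P)).injective, hsurj⟩
  rw [← (LinearEquiv.ofBijective _ hbij).finrank_eq, finrank_self]

/-- All places of a function field over an algebraically closed field have degree one. -/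
theorem finpic_deg_eq_one (v : Place k κ) : v.deg = 1 := by
  obtain ⟨s, rfl⟩ := (placeSum_bijective (K := k) (F := κ)).2 v
  rcases s with P | Q
  · show (placeOf (k := k) (F := κ) P).deg = 1
    rw [deg_placeOf]
    haveI := P.isMaximal
    exact finrank_quotient_eq_one_of_forall_exists P.asIdeal (exists_sub_mem_fin P.asIdeal)
  · show (placeOf (k := k) (F := κ) Q).deg = 1
    rw [deg_placeOf]
    haveI := Q.isMaximal
    exact finrank_quotient_eq_one_of_forall_exists Q.asIdeal (exists_sub_mem_inf Q.asIdeal)

end Degree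

section Principal

theorem finite_support_ord {f : κ} (hf : f ≠ 0) :
    (Function.support fun v : Place k κ => v.ord f).Finite := by
  have h1 : {P : HeightOneSpectrum B | ¬ count κ P (spanSingleton B⁰ f) = 0}.Finite := by
    have h := finite_factors (K := κ) (spanSingleton B⁰ f)
    rw [Filter.eventually_cofinite] at h
    exact h
  have h2 : {Q : HeightOneSpectrum Binf | ¬ count κ Q (spanSingleton Binf⁰ f) = 0}.Finite := by
    have h := finite_factors (K := κ) (spanSingleton Binf⁰ f)
    rw [Filter.eventually_cofinite] at h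
    exact h
  refine ((h1.image (fun P => placeOf (k := k) (F := κ) P)).union
    (h2.image (fun Q => placeOf (k := k) (F := κ) Q))).subset ?_
  intro v hv
  rw [Function.mem_support] at hv
  obtain ⟨s, rfl⟩ := (placeSum_bijective (K := k) (F := κ)).2 v
  rcases s with P | Q
  · left
    refine ⟨P, ?_, rfl⟩
    show ¬ count κ P (spanSingleton B⁰ f) = 0
    rw [count_spanSingleton_eq_ord (k := k) P hf]
    exact hv
  · right
    refine ⟨Q, ?_, rfl⟩
    show ¬ count κ Q (spanSingleton Binf⁰ f) = 0
    rw [count_spanSingleton_eq_ord (k := k) Q hf]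
    exact hv

/-- The divisor of a nonzero function. -/
noncomputable def ffDivOf (f : κ) (hf : f ≠ 0) : Divisor k κ :=
  Finsupp.ofSupportFinite (fun v => v.ord f) (finite_support_ord hf)

@[simp]
theorem ffDivOf_apply (f : κ) (hf : f ≠ 0) (v : Place k κ) : ffDivOf f hf v = v.ord f := rfl

/-- Multiplication by a nonzero function, as a `k`-linear automorphism of `κ`. -/
noncomputable def ffMulEquiv (f : κ) (hf : f ≠ 0) : κ ≃ₗ[k] κ :=
  (LinearEquiv.smulOfNeZero κ κ f hf).restrictScalars k

@[simp]
theorem ffMulEquiv_apply (f : κ) (hf : f ≠ 0) (x : κ) : ffMulEquiv (k := k) f hf x = f * x := rfl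

theorem finLat_singleton_mul (f : κ) (hf : f ≠ 0) (I : FractionalIdeal B⁰ κ) :
    finLat (spanSingleton B⁰ f * I) = (finLat I).map (ffMulEquiv (k := k) f hf).toLinearMap := by
  ext x
  rw [mem_finLat, mem_singleton_mul, Submodule.mem_map]
  constructor
  · rintro ⟨y, hy, rfl⟩
    exact ⟨y, mem_finLat.mpr hy, rfl⟩
  · rintro ⟨y, hy, rfl⟩
    exact ⟨y, mem_finLat.mp hy, rfl⟩

theorem infLat_singleton_mul (f : κ) (hf : f ≠ 0) (J : FractionalIdeal Binf⁰ κ) :
    infLat (spanSingleton Binf⁰ f * J) = (infLat J).map (ffMulEquiv (k := k) f hf).toLinearMap := by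
  ext x
  rw [mem_infLat, mem_singleton_mul, Submodule.mem_map]
  constructor
  · rintro ⟨y, hy, rfl⟩
    exact ⟨y, mem_infLat.mpr hy, rfl⟩
  · rintro ⟨y, hy, rfl⟩
    exact ⟨y, mem_infLat.mp hy, rfl⟩

/-- The Euler characteristic is invariant under multiplication by a principal pair. -/
theorem chi_singleton_mul (f : κ) (hf : f ≠ 0) (I : FractionalIdeal B⁰ κ)
    (J : FractionalIdeal Binf⁰ κ) :
    chi (spanSingleton B⁰ f * I) (spanSingleton Binf⁰ f * J) = chi I J := by
  set e := ffMulEquiv (k := k) f hf with he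
  have hinj : Function.Injective e.toLinearMap := e.injective
  rw [chi, chi, finLat_singleton_mul f hf, infLat_singleton_mul f hf, ← he,
    ← Submodule.map_inf _ hinj, ← Submodule.map_sup]
  have h1 : finrank k ↥((finLat I ⊓ infLat J).map e.toLinearMap)
      = finrank k ↥(finLat I ⊓ infLat J) := LinearEquiv.finrank_map_eq e _
  have h2 : finrank k (κ ⧸ (finLat I ⊔ infLat J).map e.toLinearMap)
      = finrank k (κ ⧸ (finLat I ⊔ infLat J)) :=
    (Submodule.Quotient.equiv (finLat I ⊔ infLat J) _ e rfl).finrank_eq.symm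
  rw [h1, h2]

theorem finsum_count_spanSingleton_add {f : κ} (hf : f ≠ 0) :
    ∑ᶠ P : HeightOneSpectrum B, count κ P (spanSingleton B⁰ f)
      + ∑ᶠ Q : HeightOneSpectrum Binf, count κ Q (spanSingleton Binf⁰ f) = 0 := by
  have h1 := chi_singleton_mul (k := k) f hf (1 : FractionalIdeal B⁰ κ)
    (1 : FractionalIdeal Binf⁰ κ)
  rw [mul_one, mul_one, chi_eq (spanSingleton_ne_zero' hf) (spanSingleton_ne_zero' hf)] at h1
  linarith

/-- Principal divisors have degree zero (any characteristic). -/
theorem degree_ffDivOf (f : κ) (hf : f ≠ 0) : Divisor.degree (ffDivOf (k := k) f hf) = 0 := by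
  rw [degree_eq_finsum_add_finsum finpic_deg_eq_one, ← finsum_count_spanSingleton_add (k := k) hf]
  congr 1
  · refine finsum_congr fun P => ?_
    rw [ffDivOf_apply, count_spanSingleton_eq_ord (k := k) P hf]
  · refine finsum_congr fun Q => ?_
    rw [ffDivOf_apply, count_spanSingleton_eq_ord (k := k) Q hf]

theorem hasPrincipalDivisors_TC : HasPrincipalDivisors k κ :=
  ⟨fun f hf => ⟨ffDivOf f hf, fun v => rfl, degree_ffDivOf f hf⟩⟩

end Principal

section Riemann

/-- The finite part of a divisor, as exponents on the primes of the ring of integers. -/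
noncomputable def finPart (D : Divisor k κ) : HeightOneSpectrum B →₀ ℤ :=
  D.comapDomain (fun P => placeOf (k := k) (F := κ) P) placeOf_injective.injOn

/-- The part at infinity of a divisor. -/
noncomputable def infPart (D : Divisor k κ) : HeightOneSpectrum Binf →₀ ℤ :=
  D.comapDomain (fun Q => placeOf (k := k) (F := κ) Q) placeOf_injective.injOn

@[simp]
theorem finPart_apply (D : Divisor k κ) (P : HeightOneSpectrum B) :
    finPart D P = D (placeOf (k := k) (F := κ) P) := rfl

@[simp]
theorem infPart_apply (D : Divisor k κ) (Q : HeightOneSpectrum Binf) :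
    infPart D Q = D (placeOf (k := k) (F := κ) Q) := rfl

/-- The fractional ideal `∏ P^{-D(P)}` of the ring of integers. -/
noncomputable def idFin (D : Divisor k κ) : FractionalIdeal B⁰ κ :=
  (-finPart D).prod fun P n => (P.asIdeal : FractionalIdeal B⁰ κ) ^ n

/-- The fractional ideal `∏ Q^{-D(Q)}` of the ring at infinity. -/
noncomputable def idInf (D : Divisor k κ) : FractionalIdeal Binf⁰ κ :=
  (-infPart D).prod fun Q n => (Q.asIdeal : FractionalIdeal Binf⁰ κ) ^ n

theorem idFin_ne_zero (D : Divisor k κ) : idFin D ≠ 0 := by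
  rw [idFin, Finsupp.prod, Finset.prod_ne_zero_iff]
  intro v _
  exact zpow_ne_zero _ (coeIdeal_ne_zero.mpr v.ne_bot)

theorem idInf_ne_zero (D : Divisor k κ) : idInf D ≠ 0 := by
  rw [idInf, Finsupp.prod, Finset.prod_ne_zero_iff]
  intro v _
  exact zpow_ne_zero _ (coeIdeal_ne_zero.mpr v.ne_bot)

theorem count_idFin (D : Divisor k κ) (P : HeightOneSpectrum B) :
    count κ P (idFin D) = -D (placeOf (k := k) (F := κ) P) := by
  rw [idFin, count_finsuppProd, Finsupp.neg_apply, finPart_apply]

theorem count_idInf (D : Divisor k κ) (Q : HeightOneSpectrum Binf) :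
    count κ Q (idInf D) = -D (placeOf (k := k) (F := κ) Q) := by
  rw [idInf, count_finsuppProd, Finsupp.neg_apply, infPart_apply]

theorem riemannRochSpace_eq_inf (D : Divisor k κ) :
    riemannRochSpace D = finLat (idFin D) ⊓ infLat (idInf D) := by
  ext f
  rw [mem_riemannRochSpace_iff_valuation, Submodule.mem_inf, mem_finLat, mem_infLat,
    mem_iff_valuation_le (idFin_ne_zero D), mem_iff_valuation_le (idInf_ne_zero D)]
  simp only [count_idFin, count_idInf, neg_neg]

/-- **Riemann's inequality** (any characteristic). -/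
theorem riemann_inequality_TC :
    ∃ g : ℕ, ∀ D : Divisor k κ, Module.Finite k ↥(riemannRochSpace D) ∧
      Divisor.degree D + 1 - g ≤ (finrank k ↥(riemannRochSpace D) : ℤ) := by
  refine ⟨finrank k (κ ⧸ (finLat (1 : FractionalIdeal B⁰ κ) ⊔
    infLat (1 : FractionalIdeal Binf⁰ κ))), fun D => ?_⟩
  rw [riemannRochSpace_eq_inf D]
  refine ⟨(finite_pair _ (idFin_ne_zero D) _ (idInf_ne_zero D)).1, ?_⟩
  have h1 := chi_eq (idFin_ne_zero D) (idInf_ne_zero D)
  have h2 : Divisor.degree D = -∑ᶠ P : HeightOneSpectrum B, count κ P (idFin D)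
      - ∑ᶠ Q : HeightOneSpectrum Binf, count κ Q (idInf D) := by
    rw [degree_eq_finsum_add_finsum finpic_deg_eq_one D]
    simp only [count_idFin, count_idInf]
    rw [finsum_neg_distrib, finsum_neg_distrib]
    ring
  have h3 : chi (1 : FractionalIdeal B⁰ κ) (1 : FractionalIdeal Binf⁰ κ)
      = 1 - (finrank k (κ ⧸ (finLat (1 : FractionalIdeal B⁰ κ) ⊔
        infLat (1 : FractionalIdeal Binf⁰ κ))) : ℤ) := by
    rw [chi, finrank_one_one]
    norm_num
  rw [chi] at h1
  have h4 : (0 : ℤ) ≤ (finrank k (κ ⧸ (finLat (idFin D) ⊔ infLat (idInf D))) : ℤ) :=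
    Int.natCast_nonneg _
  linarith

end Riemann

section Steps

omit [IsAlgClosed k] [Algebra k[X] κ] [Algebra (RatFunc k) κ] [IsScalarTower k[X] (RatFunc k) κ]
  [IsScalarTower k k[X] κ] [IsScalarTower k (RatFunc k) κ] [FiniteDimensional (RatFunc k) κ]
  [Algebra.IsSeparable (RatFunc k) κ] in
theorem degree_nonneg_of_forall_nonneg (E : Divisor k κ) (h : ∀ v, 0 ≤ E v) :
    0 ≤ Divisor.degree E := by
  rw [degree_eq_sum_of_support_subset E E.support subset_rfl]
  exact Finset.sum_nonneg fun v _ => mul_nonneg (h v) (Int.natCast_nonneg _)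

/-- A divisor of negative degree has no nonzero sections. -/
theorem riemannRochSpace_eq_bot_of_degree_neg (D : Divisor k κ) (h : Divisor.degree D < 0) :
    riemannRochSpace D = ⊥ := by
  rw [eq_bot_iff]
  intro f hf
  rw [Submodule.mem_bot]
  by_contra hf0
  rw [mem_riemannRochSpace_iff] at hf
  have h1 : 0 ≤ Divisor.degree (D + ffDivOf (k := k) f hf0) := by
    refine degree_nonneg_of_forall_nonneg _ fun v => ?_
    rw [Finsupp.add_apply, ffDivOf_apply]
    have := (hf v).resolve_left hf0
    linarith
  rw [map_add, degree_ffDivOf, add_zero] at h1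
  linarith

omit [IsAlgClosed k] [Algebra k[X] κ] [Algebra (RatFunc k) κ] [IsScalarTower k[X] (RatFunc k) κ]
  [IsScalarTower k k[X] κ] [IsScalarTower k (RatFunc k) κ] [FiniteDimensional (RatFunc k) κ]
  [Algebra.IsSeparable (RatFunc k) κ] in
theorem riemannRochSpace_le_add_single (D : Divisor k κ) (P : Place k κ) :
    riemannRochSpace D ≤ riemannRochSpace (D + Finsupp.single P 1) := by
  intro f hf
  rw [mem_riemannRochSpace_iff] at hf ⊢
  intro v
  rcases hf v with h | h
  · exact Or.inl h
  · right
    rw [Finsupp.add_apply]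
    have : (0 : ℤ) ≤ (Finsupp.single P (1 : ℤ)) v := by
      classical
      rw [Finsupp.single_apply]
      split_ifs <;> norm_num
    linarith

/-- `ℓ(D + P) ≤ ℓ(D) + 1`. -/
theorem finrank_riemannRochSpace_add_single_le (D : Divisor k κ) (P : Place k κ) :
    finrank k ↥(riemannRochSpace (D + Finsupp.single P 1))
      ≤ finrank k ↥(riemannRochSpace D) + 1 := by
  classical
  obtain ⟨g, hg⟩ := riemann_inequality_TC (k := k) (κ := κ)
  haveI h1 : Module.Finite k ↥(riemannRochSpace D) := (hg D).1
  haveI h2 : Module.Finite k ↥(riemannRochSpace (D + Finsupp.single P 1)) := (hg _).1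
  set D' := D + Finsupp.single P 1 with hD'
  have hD'P : D' P = D P + 1 := by rw [hD', Finsupp.add_apply, Finsupp.single_eq_same]
  have hD'v : ∀ v, v ≠ P → D' v = D v := fun v hv => by
    rw [hD', Finsupp.add_apply, Finsupp.single_eq_of_ne hv, add_zero]
  by_cases hle : riemannRochSpace D' ≤ riemannRochSpace D
  · exact (Submodule.finrank_mono hle).trans (Nat.le_succ _)
  · obtain ⟨f₁, hf₁, hf₁'⟩ := SetLike.not_le_iff_exists.mp hle
    have hf₁0 : f₁ ≠ 0 := fun h => hf₁' (h ▸ Submodule.zero_mem _)
    have hm₁ := mem_riemannRochSpace_iff.mp hf₁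
    -- the order of `f₁` at `P`
    have hord : P.ord f₁ = -D P - 1 := by
      rw [mem_riemannRochSpace_iff] at hf₁'
      push Not at hf₁'
      obtain ⟨v, _, hv⟩ := hf₁'
      by_cases hvP : v = P
      · subst hvP
        have := (hm₁ v).resolve_left hf₁0
        rw [hD'P] at this
        omega
      · have := (hm₁ v).resolve_left hf₁0
        rw [hD'v v hvP] at this
        omega
    have hkey : riemannRochSpace D' ≤ riemannRochSpace D ⊔ (k ∙ f₁) := by
      intro f₂ hf₂
      rcases eq_or_ne f₂ 0 with rfl | hf₂0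
      · exact Submodule.zero_mem _
      have hm₂ := mem_riemannRochSpace_iff.mp hf₂
      have hu0 : f₂ / f₁ ≠ 0 := div_ne_zero hf₂0 hf₁0
      have hu : f₂ / f₁ ∈ P.toValuationSubring := by
        rw [PlaceAux.mem_iff_ord_nonneg' P hu0, PlaceAux.ord_div P hf₂0 hf₁0, hord]
        have := (hm₂ P).resolve_left hf₂0
        rw [hD'P] at this
        omega
      obtain ⟨a, ha⟩ := exists_const_sub_ordGE_one P (finpic_deg_eq_one P) hu
      have hh : f₂ - a • f₁ = (f₂ / f₁ - algebraMap k κ a) * f₁ := by
        rw [Algebra.smul_def]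
        field_simp
      have hmem' : f₂ - a • f₁ ∈ riemannRochSpace D' :=
        Submodule.sub_mem _ hf₂ (Submodule.smul_mem _ _ hf₁)
      have hmem : f₂ - a • f₁ ∈ riemannRochSpace D := by
        rw [mem_riemannRochSpace_iff]
        intro v
        by_cases h0 : f₂ - a • f₁ = 0
        · exact Or.inl h0
        right
        by_cases hvP : v = P
        · subst hvP
          have hne : f₂ / f₁ - algebraMap k κ a ≠ 0 := by
            intro h
            apply h0
            rw [hh, h, zero_mul]
          have h1 := ha.resolve_left hne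
          rw [hh, v.ord_mul hne hf₁0, hord]
          omega
        · have := (mem_riemannRochSpace_iff.mp hmem' v).resolve_left h0
          rwa [hD'v v hvP] at this
      have : f₂ = (f₂ - a • f₁) + a • f₁ := by ring
      rw [this]
      exact Submodule.add_mem_sup hmem (Submodule.smul_mem _ _ (Submodule.mem_span_singleton_self f₁))
    calc finrank k ↥(riemannRochSpace D')
        ≤ finrank k ↥(riemannRochSpace D ⊔ (k ∙ f₁)) := Submodule.finrank_mono hkey
      _ ≤ finrank k ↥(riemannRochSpace D) + finrank k ↥(k ∙ f₁) := by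
          have := Submodule.finrank_add_le_finrank_add_finrank (riemannRochSpace D) (k ∙ f₁)
          exact this
      _ ≤ finrank k ↥(riemannRochSpace D) + 1 := by
          have := finrank_span_singleton (K := k) hf₁0
          omega

end Steps

end Fermat.Agent.S35
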