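/-
(S35) (I3) (P3) REDUCTIONS — helper5 — **the local factorisation at a node without the `pow`
hypothesis.**

`R` the local ring of the normal model at a node in normal form `x y = π^m r` (`IsNodePair`),
`R₁` the base DVR, `K = Frac R`. Let `f ∈ K^×` be a unit at the branch `Pinf` whose horizontal
divisor through the node is `N · Σ e_i [P_i]` for rational points `P_i`. Then
`f = x^k · v · ∏ (x − P_i x)^(N e_i)` with `k : ℤ`, `v ∈ Rˣ`
(`IsNodePair.exists_zpow_mul_unit_mul_prod`, `IsNodePair.exists_zpow_mul_unit_mul_prod'`).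
-/
import Mathlib
import Fermat.Agent.SS.NODEALG_helper5_Kummer

set_option autoImplicit false
set_option linter.unusedSectionVars false
set_option linter.style.haveILetI false

namespace Fermat.Agent.SS

open IsLocalRing

section NodeFact

variable {R₁ : Type*} [CommRing R₁] [IsDomain R₁] [IsDiscreteValuationRing R₁]
variable {R : Type*} [CommRing R] [IsDomain R] [IsLocalRing R] [IsNoetherianRing R]
  [IsIntegrallyClosed R] [Algebra R₁ R]
variable {K : Type*} [Field K] [Algebra R K] [IsFractionRing R K]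
variable {P0 Pinf : Ideal R} {x y r : R} {m : ℕ}

/-- **(LF) the local factorisation at a node** (no hypothesis on the reduction of `f`). -/
theorem IsNodePair.exists_zpow_mul_unit_mul_prod (h : IsNodePair P0 Pinf x y) [hP0 : P0.IsPrime]
    [hPinf : Pinf.IsPrime] {ϖ : R₁} (hϖ : Irreducible ϖ)
    (hπ0 : algebraMap R₁ R ϖ ∈ P0) (hπinf : algebraMap R₁ R ϖ ∈ Pinf)
    (hinf : P0 ⊓ Pinf ≤ Ideal.span {algebraMap R₁ R ϖ})
    (hxy : x * y = algebraMap R₁ R ϖ ^ m * r) (hr : IsUnit r) (hm : 1 ≤ m)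
    {N : ℕ} {f : K} (hf : f ≠ 0)
    {ι : Type*} (S : Finset ι) (P : ι → (R →ₐ[R₁] R₁)) (e : ι → ℤ)
    (hhor : ∀ 𝔮 : Ideal R, 𝔮.IsPrime → 𝔮.height = 1 → 𝔮 ≠ P0 → 𝔮 ≠ Pinf →
      IsUnitAtPrime 𝔮
        (f * (∏ i ∈ S, algebraMap R K (x - algebraMap R₁ R (P i x)) ^ ((N : ℤ) * e i))⁻¹))
    (hfunit : IsUnitAtPrime Pinf f) :
    ∃ (k : ℤ) (v : Rˣ), f = algebraMap R K x ^ k * algebraMap R K (v : R) *
      (∏ i ∈ S, algebraMap R K (x - algebraMap R₁ R (P i x)) ^ (e i)) ^ N := by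
  classical
  have hxm : x ∈ maximalIdeal R := le_maximalIdeal hP0.ne_top h.x_mem
  have hξ : ∀ i, algebraMap R₁ R (P i x) ∈ Pinf := fun i =>
    (Ideal.span_le.mpr (by simpa using hπinf)) (algebraMap_retraction_mem_span hϖ (P i) hxm)
  have hxi : ∀ i, x - algebraMap R₁ R (P i x) ∉ Pinf := fun i hmem =>
    h.x_notMem (by have := Pinf.add_mem hmem (hξ i); simpa using this)
  set Pr : K := ∏ i ∈ S, algebraMap R K (x - algebraMap R₁ R (P i x)) ^ ((N : ℤ) * e i) with hPr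
  have hPrunit : IsUnitAtPrime Pinf Pr :=
    isUnitAtPrime_prod S _ (fun i _ => (isUnitAtPrime_algebraMap (hxi i)).zpow _)
  have hPr0 : Pr ≠ 0 := hPrunit.ne_zero
  have hf₁0 : f * Pr⁻¹ ≠ 0 := mul_ne_zero hf (inv_ne_zero hPr0)
  have hf₁unit : ∀ 𝔮 : Ideal R, 𝔮.IsPrime → 𝔮.height = 1 → 𝔮 ≠ P0 → IsUnitAtPrime 𝔮 (f * Pr⁻¹) := by
    intro 𝔮 h𝔮 hh hne
    by_cases hq : 𝔮 = Pinf
    · subst hq; exact hfunit.mul hPrunit.inv
    · exact hhor 𝔮 h𝔮 hh hne hq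
  obtain ⟨k, v, hkv⟩ := h.exists_zpow_mul_unit hπ0 hinf hxy hr hm hf₁0 hf₁unit
  have hPreq : Pr = (∏ i ∈ S, algebraMap R K (x - algebraMap R₁ R (P i x)) ^ (e i)) ^ N := by
    rw [hPr, ← Finset.prod_pow]
    refine Finset.prod_congr rfl (fun i _ => ?_)
    rw [← zpow_natCast, ← zpow_mul, mul_comm]
  refine ⟨k, v, ?_⟩
  rw [← hPreq, ← hkv]
  field_simp

/-- **(LF′)** the local factorisation at a node, with the horizontal hypothesis stated prime by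
prime. -/
theorem IsNodePair.exists_zpow_mul_unit_mul_prod' (h : IsNodePair P0 Pinf x y) [hP0 : P0.IsPrime]
    [hPinf : Pinf.IsPrime] {ϖ : R₁} (hϖ : Irreducible ϖ)
    (hπ0 : algebraMap R₁ R ϖ ∈ P0) (hπinf : algebraMap R₁ R ϖ ∈ Pinf)
    (hinf : P0 ⊓ Pinf ≤ Ideal.span {algebraMap R₁ R ϖ})
    (hxy : x * y = algebraMap R₁ R ϖ ^ m * r) (hr : IsUnit r) (hm : 1 ≤ m)
    {N : ℕ} {f : K} (hf : f ≠ 0)
    {ι : Type*} (S : Finset ι) (P : ι → (R →ₐ[R₁] R₁)) (e : ι → ℤ)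
    (hPinj : ∀ i ∈ S, ∀ j ∈ S,
      RingHom.ker (P i : R →+* R₁) = RingHom.ker (P j : R →+* R₁) → i = j)
    (hfhor : ∀ 𝔮 : Ideal R, 𝔮.IsPrime → 𝔮.height = 1 → algebraMap R₁ R ϖ ∉ 𝔮 →
      (∀ i ∈ S, 𝔮 ≠ RingHom.ker (P i : R →+* R₁)) → IsUnitAtPrime 𝔮 f)
    (hfP : ∀ i ∈ S, IsUnitAtPrime (RingHom.ker (P i : R →+* R₁))
      (f * (algebraMap R K (x - algebraMap R₁ R (P i x)) ^ ((N : ℤ) * e i))⁻¹))
    (hfunit : IsUnitAtPrime Pinf f) :
    ∃ (k : ℤ) (v : Rˣ), f = algebraMap R K x ^ k * algebraMap R K (v : R) *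
      (∏ i ∈ S, algebraMap R K (x - algebraMap R₁ R (P i x)) ^ (e i)) ^ N := by
  classical
  have hx0 : x ≠ 0 := fun h0 => h.x_notMem (h0 ▸ Pinf.zero_mem)
  have hy0 : y ≠ 0 := fun h0 => h.y_notMem (h0 ▸ P0.zero_mem)
  have hπne : algebraMap R₁ R ϖ ≠ 0 := by
    intro h0
    have : x * y = 0 := by rw [hxy, h0, zero_pow (by omega), zero_mul]
    rcases mul_eq_zero.mp this with h' | h'
    · exact hx0 h'
    · exact hy0 h'
  have hmax := h.maximalIdeal_eq hπ0 hinf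
  refine h.exists_zpow_mul_unit_mul_prod hϖ hπ0 hπinf hinf hxy hr hm hf S P e ?_ hfunit
  intro 𝔮 h𝔮 hh hne0 hneinf
  have hπ𝔮 : algebraMap R₁ R ϖ ∉ 𝔮 := by
    intro hmem
    rcases h.eq_or_eq_of_mem_of_height_one hπ0 hπinf hinf hπne hxy hm 𝔮 hh hmem with h' | h'
    · exact hne0 h'
    · exact hneinf h'
  have hfac : ∀ j, 𝔮 ≠ RingHom.ker (P j : R →+* R₁) →
      IsUnitAtPrime 𝔮 (algebraMap R K (x - algebraMap R₁ R (P j x)) ^ ((N : ℤ) * e j)) := by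
    intro j hj
    refine (isUnitAtPrime_algebraMap ?_).zpow _
    intro hmem
    exact hj (eq_ker_of_sub_mem hϖ hmax hxy hr (P j) 𝔮 hπ𝔮 hmem)
  by_cases hex : ∃ i ∈ S, 𝔮 = RingHom.ker (P i : R →+* R₁)
  · obtain ⟨i₀, hi₀, hq⟩ := hex
    rw [← Finset.mul_prod_erase S _ hi₀, mul_inv, ← mul_assoc]
    refine IsUnitAtPrime.mul ?_ (IsUnitAtPrime.inv ?_)
    · rw [hq]; exact hfP i₀ hi₀
    · refine isUnitAtPrime_prod _ _ (fun j hj => hfac j ?_)
      intro hqj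
      have : i₀ = j := hPinj i₀ hi₀ j (Finset.mem_of_mem_erase hj) (by rw [← hq, ← hqj])
      exact (Finset.ne_of_mem_erase hj) this.symm
  · simp only [not_exists, not_and] at hex
    refine (hfhor 𝔮 h𝔮 hh hπ𝔮 (fun i hi => hex i hi)).mul (IsUnitAtPrime.inv ?_)
    exact isUnitAtPrime_prod _ _ (fun j hj => hfac j (hex j hj))

end NodeFact

end Fermat.Agent.SS
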