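/-
S35 — helper6 — **FINPIC, part B: semilinear automorphisms of a function field acting on places
and divisors.**

`φ : F ≃+* F` is a ring automorphism of `F` inducing the automorphism `σ` on the constant field
`k` (for example the coefficientwise Frobenius on the reduction of a modular function field).

* `semiMap φ σ h : Place k F → Place k F`, `ord_semiMap : (semiMap φ σ h v).ord (φ f) = v.ord f`;
* `semiPush φ σ h : Divisor k F →+ Divisor k F` with `semiPush_apply_semiMap`,
  `isPrincipal_semiPush`, `degree_semiPush`.
-/
import Mathlib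
import Fermat.Agent.FF.PlaceBasic

set_option autoImplicit false
set_option linter.unusedSectionVars false
set_option linter.unusedVariables false
set_option linter.style.haveILetI false

namespace Fermat.Agent.S35

open AlgebraicCurve IsDedekindDomain WithZero
open Fermat.Agent.FF

variable {k F : Type*} [Field k] [Field F] [Algebra k F]

section SemiMap

variable (φ : F ≃+* F) (σ : k ≃+* k)
  (h : ∀ c : k, φ (algebraMap k F c) = algebraMap k F (σ c))

include h in
theorem semi_symm_apply (c : k) : φ.symm (algebraMap k F c) = algebraMap k F (σ.symm c) := by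
  rw [RingEquiv.symm_apply_eq, h, RingEquiv.apply_symm_apply]

/-- The ring isomorphism `O_v ≃ O_{φ v}` induced by `φ`. -/
noncomputable def semiRingEquiv (A : ValuationSubring F) :
    A ≃+* (A.comap (φ.symm : F →+* F)) where
  toFun x := ⟨φ x, by
    rw [ValuationSubring.mem_comap]
    show φ.symm (φ x) ∈ A
    rw [RingEquiv.symm_apply_apply]
    exact x.2⟩
  invFun y := ⟨φ.symm y, y.2⟩
  left_inv x := by ext; simp
  right_inv y := by ext; simp
  map_mul' x y := by ext; simp
  map_add' x y := by ext; simp

@[simp]
theorem coe_semiRingEquiv (A : ValuationSubring F) (x : A) :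
    ((semiRingEquiv φ A x : A.comap (φ.symm : F →+* F)) : F) = φ x := rfl

/-- The image of a place under a semilinear automorphism. -/
noncomputable def semiMap (v : Place k F) : Place k F where
  toValuationSubring := v.toValuationSubring.comap (φ.symm : F →+* F)
  algebraMap_mem' a := by
    rw [ValuationSubring.mem_comap]
    show φ.symm (algebraMap k F a) ∈ v.toValuationSubring
    rw [semi_symm_apply φ σ h]
    exact v.algebraMap_mem' _
  ne_top' := by
    intro htop
    apply v.ne_top'
    refine SetLike.ext fun x => ⟨fun _ => ValuationSubring.mem_top x, fun _ => ?_⟩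
    have h1 : φ x ∈ v.toValuationSubring.comap (φ.symm : F →+* F) := by
      rw [htop]; exact ValuationSubring.mem_top _
    rw [ValuationSubring.mem_comap] at h1
    have h2 : φ.symm (φ x) ∈ v.toValuationSubring := h1
    rwa [RingEquiv.symm_apply_apply] at h2
  isPrincipalIdealRing' :=
    IsPrincipalIdealRing.of_surjective
      (semiRingEquiv φ v.toValuationSubring : _ ≃+* _)
      (semiRingEquiv φ v.toValuationSubring).surjective

theorem mem_semiMap_iff (v : Place k F) (x : F) :
    x ∈ (semiMap φ σ h v).toValuationSubring ↔ φ.symm x ∈ v.toValuationSubring := Iff.rfl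

theorem apply_mem_semiMap_iff (v : Place k F) (x : F) :
    φ x ∈ (semiMap φ σ h v).toValuationSubring ↔ x ∈ v.toValuationSubring := by
  rw [mem_semiMap_iff, RingEquiv.symm_apply_apply]

/-- `ord_{φ v}(φ f) = ord_v(f)`. -/
theorem ord_semiMap (v : Place k F) (f : F) : (semiMap φ σ h v).ord (φ f) = v.ord f := by
  rcases eq_or_ne f 0 with rfl | hf
  · simp
  obtain ⟨π, hπ⟩ := IsDiscreteValuationRing.exists_irreducible v.toValuationSubring
  obtain ⟨u, hu⟩ := v.exists_unit_mul_zpow hf hπ
  set n := v.ord f with hn
  set e : v.toValuationSubring ≃+* (semiMap φ σ h v).toValuationSubring :=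
    semiRingEquiv φ v.toValuationSubring with he
  have hπ' : Irreducible (e π) := (MulEquiv.irreducible_iff e).mpr hπ
  have hu' : IsUnit (e (u : v.toValuationSubring)) := u.isUnit.map e
  have hcoeu : ((hu'.unit : (semiMap φ σ h v).toValuationSubring) : F)
      = φ ((u : v.toValuationSubring) : F) := by
    rw [IsUnit.unit_spec]
    rfl
  have hcoeπ : ((e π : (semiMap φ σ h v).toValuationSubring) : F) = φ (π : F) := rfl
  have key : φ f = ((hu'.unit : (semiMap φ σ h v).toValuationSubring) : F)
      * (((e π : (semiMap φ σ h v).toValuationSubring) : F) ^ n) := by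
    rw [hcoeu, hcoeπ, hu, map_mul, map_zpow₀]
  rw [key, (semiMap φ σ h v).ord_unit_smul_zpow hu'.unit hπ' n]

theorem ord_semiMap' (v : Place k F) (f : F) : (semiMap φ σ h v).ord f = v.ord (φ.symm f) := by
  rw [← ord_semiMap φ σ h v (φ.symm f), RingEquiv.apply_symm_apply]

theorem semiMap_symm_semiMap (v : Place k F) :
    semiMap φ.symm σ.symm (semi_symm_apply φ σ h) (semiMap φ σ h v) = v := by
  apply Place.ext
  ext x
  show φ.symm (φ.symm.symm x) ∈ v.toValuationSubring ↔ _
  rw [RingEquiv.symm_symm, RingEquiv.symm_apply_apply]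

theorem semiMap_semiMap_symm (v : Place k F) :
    semiMap φ σ h (semiMap φ.symm σ.symm (semi_symm_apply φ σ h) v) = v := by
  apply Place.ext
  ext x
  show φ.symm.symm (φ.symm x) ∈ v.toValuationSubring ↔ _
  rw [RingEquiv.symm_symm, RingEquiv.apply_symm_apply]

theorem semiMap_injective : Function.Injective (semiMap φ σ h) :=
  Function.LeftInverse.injective (semiMap_symm_semiMap φ σ h)

theorem semiMap_surjective : Function.Surjective (semiMap φ σ h) :=
  Function.RightInverse.surjective (semiMap_semiMap_symm φ σ h)

end SemiMap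

section SemiPush

variable (φ : F ≃+* F) (σ : k ≃+* k)
  (h : ∀ c : k, φ (algebraMap k F c) = algebraMap k F (σ c))

/-- Push-forward of divisors under a semilinear automorphism. -/
noncomputable def semiPush : Divisor k F →+ Divisor k F :=
  Finsupp.mapDomain.addMonoidHom (semiMap φ σ h)

theorem semiPush_apply_semiMap (D : Divisor k F) (v : Place k F) :
    semiPush φ σ h D (semiMap φ σ h v) = D v :=
  Finsupp.mapDomain_apply (semiMap_injective φ σ h) D v

theorem semiPush_apply (D : Divisor k F) (w : Place k F) :
    semiPush φ σ h D w = D (semiMap φ.symm σ.symm (semi_symm_apply φ σ h) w) := by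
  have := semiPush_apply_semiMap φ σ h D (semiMap φ.symm σ.symm (semi_symm_apply φ σ h) w)
  rwa [semiMap_semiMap_symm] at this

@[simp]
theorem semiPush_single (v : Place k F) (n : ℤ) :
    semiPush φ σ h (Finsupp.single v n) = Finsupp.single (semiMap φ σ h v) n :=
  Finsupp.mapDomain_single

/-- The push-forward of the divisor of `f` is the divisor of `φ f`. -/
theorem semiPush_of_ord {D : Divisor k F} {f : F} (hD : ∀ v : Place k F, D v = v.ord f)
    (w : Place k F) : semiPush φ σ h D w = w.ord (φ f) := by
  rw [semiPush_apply, hD]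
  have := ord_semiMap φ σ h (semiMap φ.symm σ.symm (semi_symm_apply φ σ h) w) f
  rw [semiMap_semiMap_symm] at this
  exact this.symm

theorem isPrincipal_semiPush {D : Divisor k F} (hD : Divisor.IsPrincipal D) :
    Divisor.IsPrincipal (semiPush φ σ h D) := by
  obtain ⟨f, hf, hD⟩ := hD
  exact ⟨φ f, by simpa using hf, fun w => semiPush_of_ord φ σ h hD w⟩

theorem semiPush_nonneg {D : Divisor k F} (hD : ∀ v, 0 ≤ D v) (w : Place k F) :
    0 ≤ semiPush φ σ h D w := by
  rw [semiPush_apply]
  exact hD _

theorem degree_eq_sum_of_deg_eq_one (hdeg : ∀ v : Place k F, v.deg = 1) (D : Divisor k F) :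
    Divisor.degree D = D.sum fun _ n => n := by
  rw [Divisor.degree, Finsupp.liftAddHom_apply]
  refine Finsupp.sum_congr fun v _ => ?_
  simp [hdeg v]

theorem degree_semiPush (hdeg : ∀ v : Place k F, v.deg = 1) (D : Divisor k F) :
    Divisor.degree (semiPush φ σ h D) = Divisor.degree D := by
  rw [degree_eq_sum_of_deg_eq_one hdeg, degree_eq_sum_of_deg_eq_one hdeg]
  show (Finsupp.mapDomain (semiMap φ σ h) D).sum _ = _
  rw [Finsupp.sum_mapDomain_index (fun _ => rfl) (fun _ _ _ => rfl)]

end SemiPush

end Fermat.Agent.S35
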