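/-
S35 — helper6 — **FINPIC, part C: finiteness of the Frobenius-fixed divisor classes.**

Setting: `k` algebraically closed (any characteristic), `κ / k(X)` finite separable (typeclass
setting of `FF/RR_helper3_*`), `φ : κ ≃+* κ` a ring automorphism inducing `σ` on `k`, fixing the
coordinate `xF k κ` and a place `P₀`, such that every iterate `σ^[i]`, `i ≥ 1`, has only finitely
many fixed points in `k` (Frobenius).

* `finite_periodic_places` : finitely many places have `φ`-period `≤ g`;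
* `exists_stable_effective` : a `φ`-fixed class of degree zero is `E - m P₀` with `E ≥ 0`
  `φ`-stable of degree `m ≤ g`;
* `exists_finset_frobFixed_classes` : (F1) finitely many `φ`-fixed classes of degree zero;
* `exists_pow_eq_pow_of_frobFixed` : (F2) the Kummer form.
-/
import Mathlib
import Fermat.Agent.S35.FINPIC_helper6_Riemann
import Fermat.Agent.S35.FINPIC_helper6_Frob

set_option autoImplicit false
set_option linter.unusedSectionVars false
set_option linter.unusedVariables false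
set_option linter.style.haveILetI false

namespace Fermat.Agent.S35

open Polynomial AlgebraicCurve IsDedekindDomain WithZero Module nonZeroDivisors FractionalIdeal
open Fermat.Agent.FF Fermat.Agent.FF.RR

variable {k κ : Type*} [Field k] [IsAlgClosed k] [Field κ] [Algebra k κ] [Algebra k[X] κ]
  [Algebra (RatFunc k) κ] [IsScalarTower k[X] (RatFunc k) κ] [IsScalarTower k k[X] κ]
  [IsScalarTower k (RatFunc k) κ] [FiniteDimensional (RatFunc k) κ]
  [Algebra.IsSeparable (RatFunc k) κ]

variable (φ : κ ≃+* κ) (σ : k ≃+* k)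
  (h : ∀ c : k, φ (algebraMap k κ c) = algebraMap k κ (σ c))

section Periodic

variable (hx : φ (xF k κ) = xF k κ)

include hx in
theorem ord_iterate_pos (a : k) (v : Place k κ)
    (hv : 0 < v.ord (xF k κ - algebraMap k κ a)) (i : ℕ) :
    0 < ((semiMap φ σ h)^[i] v).ord (xF k κ - algebraMap k κ ((⇑σ)^[i] a)) := by
  induction i with
  | zero => simpa using hv
  | succ i ih =>
    rw [Function.iterate_succ_apply', Function.iterate_succ_apply']
    have h1 : φ (xF k κ - algebraMap k κ ((⇑σ)^[i] a))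
        = xF k κ - algebraMap k κ (σ ((⇑σ)^[i] a)) := by
      rw [map_sub, hx, h]
    rw [← h1, ord_semiMap]
    exact ih

omit [IsAlgClosed k] in
theorem xF_sub_ne_zero (a : k) : xF k κ - algebraMap k κ a ≠ 0 := by
  intro h0
  have h1 : xF k κ = algebraMap k κ a := sub_eq_zero.mp h0
  have h2 : Transcendental k (xF k κ) := transcendental_xF k κ
  rw [h1] at h2
  exact h2 (isAlgebraic_algebraMap a)

include hx in
theorem iterate_const_eq_of_iterate_place_eq (a : k) (v : Place k κ)
    (hv : 0 < v.ord (xF k κ - algebraMap k κ a)) (i : ℕ)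
    (hi : (semiMap φ σ h)^[i] v = v) : (⇑σ)^[i] a = a := by
  have h1 := ord_iterate_pos φ σ h hx a v hv i
  rw [hi] at h1
  by_contra hne
  have hsub : (xF k κ - algebraMap k κ a) + -(xF k κ - algebraMap k κ ((⇑σ)^[i] a))
      = algebraMap k κ ((⇑σ)^[i] a - a) := by
    rw [map_sub]; ring
  have hne' : algebraMap k κ ((⇑σ)^[i] a - a) ≠ 0 := by
    rw [ne_eq, map_eq_zero, sub_eq_zero]
    exact hne
  have h2 : (1 : ℤ) ≤ v.ord ((xF k κ - algebraMap k κ a)
      + -(xF k κ - algebraMap k κ ((⇑σ)^[i] a))) := by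
    refine PlaceAux.ord_add_ge v (by rw [hsub]; exact hne') (Or.inr hv) (Or.inr ?_)
    rw [PlaceAux.ord_neg]
    exact h1
  rw [hsub, PlaceAux.ord_algebraMap] at h2
  omega

include hx in
/-- Only finitely many places have `φ`-period at most `g`. -/
theorem finite_periodic_places (hfix : ∀ i : ℕ, 1 ≤ i → {a : k | (⇑σ)^[i] a = a}.Finite)
    (g : ℕ) :
    {v : Place k κ | ∃ i, 1 ≤ i ∧ i ≤ g ∧ (semiMap φ σ h)^[i] v = v}.Finite := by
  have hfin : (⋃ i ∈ Finset.Icc 1 g,
      ((Function.support fun v : Place k κ => v.ord (xF k κ)) ∪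
        ⋃ a ∈ {a : k | (⇑σ)^[i] a = a},
          Function.support fun v : Place k κ => v.ord (xF k κ - algebraMap k κ a))).Finite := by
    refine Set.Finite.biUnion (Finset.finite_toSet _) fun i hi => ?_
    have hi1 : 1 ≤ i := (Finset.mem_Icc.mp hi).1
    refine Set.Finite.union (finite_support_ord xF_ne_zero) ?_
    exact Set.Finite.biUnion (hfix i hi1) fun a _ => finite_support_ord (xF_sub_ne_zero a)
  refine hfin.subset ?_
  rintro v ⟨i, hi1, hig, hiv⟩
  simp only [Set.mem_iUnion, Set.mem_union, Function.mem_support,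
    Finset.mem_Icc, Set.mem_ofPred_eq, exists_prop]
  refine ⟨i, ⟨hi1, hig⟩, ?_⟩
  by_cases hmem : xF k κ ∈ v.toValuationSubring
  · right
    obtain ⟨a, ha⟩ := exists_const_sub_ordGE_one v (finpic_deg_eq_one v) hmem
    have ha' : 0 < v.ord (xF k κ - algebraMap k κ a) := by
      have := ha.resolve_left (xF_sub_ne_zero a)
      omega
    exact ⟨a, iterate_const_eq_of_iterate_place_eq φ σ h hx a v ha' i hiv, ha'.ne'⟩
  · left
    intro h0
    apply hmem
    rw [PlaceAux.mem_iff_ord_nonneg' v xF_ne_zero, h0]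

end Periodic

section Stable

omit [IsAlgClosed k] [Algebra k[X] κ] [Algebra (RatFunc k) κ] [IsScalarTower k[X] (RatFunc k) κ]
  [IsScalarTower k k[X] κ] [IsScalarTower k (RatFunc k) κ] [FiniteDimensional (RatFunc k) κ]
  [Algebra.IsSeparable (RatFunc k) κ] in
theorem iterate_mem_support {E : Divisor k κ} (hφE : semiPush φ σ h E = E) {v : Place k κ}
    (hv : v ∈ E.support) (i : ℕ) : (semiMap φ σ h)^[i] v ∈ E.support := by
  induction i with
  | zero => simpa using hv
  | succ i ih =>
    rw [Function.iterate_succ_apply', Finsupp.mem_support_iff, ← hφE, semiPush_apply_semiMap]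
    exact Finsupp.mem_support_iff.mp ih

omit [IsAlgClosed k] [Algebra k[X] κ] [Algebra (RatFunc k) κ] [IsScalarTower k[X] (RatFunc k) κ]
  [IsScalarTower k k[X] κ] [IsScalarTower k (RatFunc k) κ] [FiniteDimensional (RatFunc k) κ]
  [Algebra.IsSeparable (RatFunc k) κ] in
theorem card_support_le_degree (hdeg : ∀ v : Place k κ, v.deg = 1) {E : Divisor k κ}
    (hE : ∀ v, 0 ≤ E v) : (E.support.card : ℤ) ≤ Divisor.degree E := by
  rw [degree_eq_sum_of_deg_eq_one hdeg, Finsupp.sum]
  have : (E.support.card : ℤ) = ∑ _v ∈ E.support, (1 : ℤ) := by simp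
  rw [this]
  refine Finset.sum_le_sum fun v hv => ?_
  have h1 := hE v
  have h2 := Finsupp.mem_support_iff.mp hv
  omega

omit [IsAlgClosed k] [Algebra k[X] κ] [Algebra (RatFunc k) κ] [IsScalarTower k[X] (RatFunc k) κ]
  [IsScalarTower k k[X] κ] [IsScalarTower k (RatFunc k) κ] [FiniteDimensional (RatFunc k) κ]
  [Algebra.IsSeparable (RatFunc k) κ] in
theorem apply_le_degree (hdeg : ∀ v : Place k κ, v.deg = 1) {E : Divisor k κ}
    (hE : ∀ v, 0 ≤ E v) (v : Place k κ) : E v ≤ Divisor.degree E := by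
  rw [degree_eq_sum_of_deg_eq_one hdeg, Finsupp.sum]
  by_cases hv : v ∈ E.support
  · exact Finset.single_le_sum (f := fun v => E v) (fun w _ => hE w) hv
  · rw [Finsupp.notMem_support_iff.mp hv]
    exact Finset.sum_nonneg fun w _ => hE w

omit [IsAlgClosed k] [Algebra k[X] κ] [Algebra (RatFunc k) κ] [IsScalarTower k[X] (RatFunc k) κ]
  [IsScalarTower k k[X] κ] [IsScalarTower k (RatFunc k) κ] [FiniteDimensional (RatFunc k) κ]
  [Algebra.IsSeparable (RatFunc k) κ] in
/-- The support of a `φ`-stable effective divisor of degree `≤ g` consists of places of period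
`≤ g`. -/
theorem periodic_of_mem_support (hdeg : ∀ v : Place k κ, v.deg = 1) {E : Divisor k κ}
    (hE : ∀ v, 0 ≤ E v) (hφE : semiPush φ σ h E = E) {g : ℕ}
    (hg : Divisor.degree E ≤ g) {v : Place k κ} (hv : v ∈ E.support) :
    ∃ i, 1 ≤ i ∧ i ≤ g ∧ (semiMap φ σ h)^[i] v = v := by
  have hcard : E.support.card < (Finset.range (g + 1)).card := by
    rw [Finset.card_range]
    have := card_support_le_degree hdeg hE
    omega
  obtain ⟨a, ha, b, hb, hab, heq⟩ := Finset.exists_ne_map_eq_of_card_lt_of_maps_to hcard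
    (f := fun i => (semiMap φ σ h)^[i] v) (fun i _ => iterate_mem_support φ σ h hφE hv i)
  rw [Finset.mem_range] at ha hb
  have key : ∀ a b : ℕ, a < b → b < g + 1 →
      (semiMap φ σ h)^[a] v = (semiMap φ σ h)^[b] v →
      ∃ i, 1 ≤ i ∧ i ≤ g ∧ (semiMap φ σ h)^[i] v = v := by
    intro a b hab hb heq
    refine ⟨b - a, by omega, by omega, ?_⟩
    have hba : b = a + (b - a) := by omega
    rw [hba, Function.iterate_add_apply] at heq
    exact ((semiMap_injective φ σ h).iterate a heq).symm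
  rcases lt_or_gt_of_ne hab with hlt | hgt
  · exact key a b hlt hb heq
  · exact key b a hgt ha heq.symm

end Stable

section Main

omit [IsAlgClosed k] [Algebra k[X] κ] [Algebra (RatFunc k) κ] [IsScalarTower k[X] (RatFunc k) κ]
  [IsScalarTower k k[X] κ] [IsScalarTower k (RatFunc k) κ] [FiniteDimensional (RatFunc k) κ]
  [Algebra.IsSeparable (RatFunc k) κ] in
/-- In a submodule of dimension at most one every element is a multiple of a given nonzero
element. -/
theorem exists_smul_eq_of_finrank_le_one {W : Submodule k κ} [Module.Finite k ↥W]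
    (hW : finrank k ↥W ≤ 1) {f : κ} (hf : f ∈ W) (hf0 : f ≠ 0) {f' : κ} (hf' : f' ∈ W) :
    ∃ c : k, f' = c • f := by
  obtain ⟨v, hv⟩ := finrank_le_one_iff.mp hW
  obtain ⟨c₁, hc₁⟩ := hv ⟨f, hf⟩
  obtain ⟨c₂, hc₂⟩ := hv ⟨f', hf'⟩
  have h1 : c₁ • (v : κ) = f := congrArg Subtype.val hc₁
  have h2 : c₂ • (v : κ) = f' := congrArg Subtype.val hc₂
  have hc₁0 : c₁ ≠ 0 := by
    rintro rfl
    rw [zero_smul] at h1
    exact hf0 h1.symm
  refine ⟨c₂ * c₁⁻¹, ?_⟩
  rw [← h1, ← h2, smul_smul, mul_assoc, inv_mul_cancel₀ hc₁0, mul_one]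

variable (P₀ : Place k κ) (hP₀ : semiMap φ σ h P₀ = P₀)

include hP₀ in
/-- A `φ`-fixed divisor class of degree zero contains `E - m P₀` with `E` effective, `φ`-stable,
of degree `m ≤ g`. -/
theorem exists_stable_effective {g : ℕ}
    (hg : ∀ D : Divisor k κ, Module.Finite k ↥(riemannRochSpace D) ∧
      Divisor.degree D + 1 - g ≤ (finrank k ↥(riemannRochSpace D) : ℤ))
    (D : Divisor k κ) (hD0 : Divisor.degree D = 0)
    (hDφ : Divisor.IsPrincipal (semiPush φ σ h D - D)) :
    ∃ (m : ℕ) (E : Divisor k κ), m ≤ g ∧ (∀ v, 0 ≤ E v) ∧ semiPush φ σ h E = E ∧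
      Divisor.degree E = m ∧ Divisor.IsPrincipal (D - (E - m • Finsupp.single P₀ 1)) := by
  classical
  have hdegP : ∀ m : ℕ, Divisor.degree (D + m • Finsupp.single P₀ (1 : ℤ)) = m := by
    intro m
    rw [map_add, hD0, map_nsmul, Divisor.degree_single, finpic_deg_eq_one]
    simp
  have hgne : riemannRochSpace (D + g • Finsupp.single P₀ (1 : ℤ)) ≠ ⊥ := by
    intro hbot
    have := (hg (D + g • Finsupp.single P₀ 1)).2
    rw [hdegP, hbot, finrank_bot] at this
    simp at this
  have hne : ∃ m : ℕ, riemannRochSpace (D + m • Finsupp.single P₀ (1 : ℤ)) ≠ ⊥ := ⟨g, hgne⟩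
  obtain ⟨m, hm_spec, hm_min⟩ : ∃ m : ℕ, riemannRochSpace (D + m • Finsupp.single P₀ (1 : ℤ)) ≠ ⊥
      ∧ ∀ m' < m, ¬ riemannRochSpace (D + m' • Finsupp.single P₀ (1 : ℤ)) ≠ ⊥ :=
    ⟨Nat.find hne, Nat.find_spec hne, fun m' hm' => Nat.find_min hne hm'⟩
  have hmg : m ≤ g := by
    by_contra hlt
    exact hm_min g (not_le.mp hlt) hgne
  set D₂ := D + m • Finsupp.single P₀ (1 : ℤ) with hD₂
  -- `L(D₂ - P₀) = 0`
  have hbot : riemannRochSpace (D₂ - Finsupp.single P₀ 1) = ⊥ := by
    rcases Nat.eq_zero_or_pos m with hm0 | hmpos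
    · apply riemannRochSpace_eq_bot_of_degree_neg
      rw [map_sub, hD₂, hdegP, hm0, Divisor.degree_single, finpic_deg_eq_one]
      simp
    · have h1 : D₂ - Finsupp.single P₀ 1 = D + (m - 1) • Finsupp.single P₀ (1 : ℤ) := by
        rw [hD₂]
        have : m • Finsupp.single P₀ (1 : ℤ)
            = (m - 1) • Finsupp.single P₀ (1 : ℤ) + Finsupp.single P₀ 1 := by
          rw [← succ_nsmul]
          congr 1
          omega
        rw [this]
        abel
      rw [h1]
      exact not_not.mp (hm_min (m - 1) (by omega))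
  have hle1 : finrank k ↥(riemannRochSpace D₂) ≤ 1 := by
    have := finrank_riemannRochSpace_add_single_le (D₂ - Finsupp.single P₀ 1) P₀
    rw [sub_add_cancel, hbot, finrank_bot] at this
    exact this
  haveI : Module.Finite k ↥(riemannRochSpace D₂) := (hg D₂).1
  obtain ⟨f, hf, hf0⟩ := Submodule.exists_mem_ne_zero_of_ne_bot hm_spec
  have hfm := mem_riemannRochSpace_iff.mp hf
  set E := D₂ + ffDivOf (k := k) f hf0 with hE
  have hEnn : ∀ v, 0 ≤ E v := by
    intro v
    rw [hE, Finsupp.add_apply, ffDivOf_apply]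
    have := (hfm v).resolve_left hf0
    linarith
  have hEdeg : Divisor.degree E = m := by
    rw [hE, map_add, hD₂, hdegP, degree_ffDivOf, add_zero]
  have hprinc : Divisor.IsPrincipal (D - (E - m • Finsupp.single P₀ 1)) := by
    refine ⟨f⁻¹, inv_ne_zero hf0, fun v => ?_⟩
    rw [Place.ord_inv, hE, hD₂]
    simp only [Finsupp.sub_apply, Finsupp.add_apply, ffDivOf_apply]
    ring
  obtain ⟨h₁, hh₁0, hh₁⟩ := hDφ
  have hφf0 : φ f ≠ 0 := by simpa using hf0
  have hpushE : ∀ w, semiPush φ σ h E w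
      = semiPush φ σ h D w + (m • Finsupp.single P₀ (1 : ℤ)) w + w.ord (φ f) := by
    intro w
    rw [hE, hD₂, map_add, map_add, map_nsmul, semiPush_single, hP₀, Finsupp.add_apply,
      Finsupp.add_apply, semiPush_of_ord φ σ h (D := ffDivOf (k := k) f hf0) (fun v => rfl) w]
  have hh₁' : ∀ w, semiPush φ σ h D w - D w = w.ord h₁ := fun w => by
    rw [← hh₁ w, Finsupp.sub_apply]
  have hf'mem : h₁ * φ f ∈ riemannRochSpace D₂ := by
    rw [mem_riemannRochSpace_iff]
    intro w
    right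
    rw [w.ord_mul hh₁0 hφf0, hD₂, Finsupp.add_apply]
    have h1 := semiPush_nonneg φ σ h hEnn w
    rw [hpushE w] at h1
    have h2 := hh₁' w
    linarith
  obtain ⟨c, hc⟩ := exists_smul_eq_of_finrank_le_one hle1 hf hf0 hf'mem
  have hc0 : c ≠ 0 := by
    rintro rfl
    rw [zero_smul] at hc
    exact mul_ne_zero hh₁0 hφf0 hc
  have hord : ∀ w : Place k κ, w.ord h₁ + w.ord (φ f) = w.ord f := by
    intro w
    rw [← w.ord_mul hh₁0 hφf0, hc, Algebra.smul_def,
      w.ord_mul (by rwa [ne_eq, map_eq_zero]) hf0, PlaceAux.ord_algebraMap, zero_add]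
  refine ⟨m, E, hmg, hEnn, ?_, hEdeg, hprinc⟩
  ext w
  rw [hpushE w]
  have h2 := hh₁' w
  have h3 := hord w
  rw [hE, hD₂]
  simp only [Finsupp.add_apply, ffDivOf_apply]
  linarith

end Main

section Finiteness

variable (hx : φ (xF k κ) = xF k κ)
  (hfix : ∀ i : ℕ, 1 ≤ i → {a : k | (⇑σ)^[i] a = a}.Finite)
  (P₀ : Place k κ) (hP₀ : semiMap φ σ h P₀ = P₀)

include hx hfix hP₀ in
/-- **(F1)** There are only finitely many `φ`-fixed divisor classes of degree zero. -/
theorem exists_finset_frobFixed_classes :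
    ∃ 𝒮 : Finset (Divisor k κ), ∀ D : Divisor k κ, Divisor.degree D = 0 →
      Divisor.IsPrincipal (semiPush φ σ h D - D) → ∃ E ∈ 𝒮, Divisor.IsPrincipal (D - E) := by
  classical
  obtain ⟨g, hg⟩ := riemann_inequality_TC (k := k) (κ := κ)
  set T : Finset (Place k κ) := (finite_periodic_places φ σ h hx hfix g).toFinset with hT
  refine ⟨((Finset.range (g + 1)) ×ˢ (T.finsupp fun _ => Finset.Icc (0 : ℤ) g)).image
    (fun p => p.2 - p.1 • Finsupp.single P₀ (1 : ℤ)), fun D hD0 hDφ => ?_⟩
  obtain ⟨m, E, hmg, hEnn, hφE, hEdeg, hprinc⟩ :=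
    exists_stable_effective φ σ h P₀ hP₀ hg D hD0 hDφ
  refine ⟨E - m • Finsupp.single P₀ 1, ?_, hprinc⟩
  rw [Finset.mem_image]
  refine ⟨(m, E), ?_, rfl⟩
  rw [Finset.mem_product, Finset.mem_range, Finset.mem_finsupp_iff]
  have hdegle : Divisor.degree E ≤ (g : ℤ) := by rw [hEdeg]; exact_mod_cast hmg
  refine ⟨by omega, fun v hv => ?_, fun v _ => ?_⟩
  · rw [hT, Set.Finite.mem_toFinset]
    exact periodic_of_mem_support φ σ h finpic_deg_eq_one hEnn hφE hdegle hv
  · rw [Finset.mem_Icc]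
    exact ⟨hEnn v, (apply_le_degree finpic_deg_eq_one hEnn v).trans hdegle⟩

omit [IsAlgClosed k] [Algebra k[X] κ] [Algebra (RatFunc k) κ] [IsScalarTower k[X] (RatFunc k) κ]
  [IsScalarTower k k[X] κ] [IsScalarTower k (RatFunc k) κ] [FiniteDimensional (RatFunc k) κ]
  [Algebra.IsSeparable (RatFunc k) κ] in
theorem isPrincipal_nsmul {D : Divisor k κ} (hD : Divisor.IsPrincipal D) (n : ℕ) :
    Divisor.IsPrincipal (n • D) :=
  (Divisor.principal (K := k) (F := κ)).nsmul_mem hD n

include hx hfix hP₀ in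
/-- A uniform exponent killing all `φ`-fixed classes of degree zero. -/
theorem exists_nsmul_isPrincipal_of_frobFixed :
    ∃ N : ℕ, 0 < N ∧ ∀ D : Divisor k κ, Divisor.degree D = 0 →
      Divisor.IsPrincipal (semiPush φ σ h D - D) → Divisor.IsPrincipal (N • D) := by
  classical
  obtain ⟨𝒮, h𝒮⟩ := exists_finset_frobFixed_classes φ σ h hx hfix P₀ hP₀
  refine ⟨(𝒮.card).factorial, Nat.factorial_pos _, fun D hD0 hDφ => ?_⟩
  -- the multiples of `D` are fixed classes of degree zero
  have hmul : ∀ j : ℕ, ∃ E ∈ 𝒮, Divisor.IsPrincipal (j • D - E) := by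
    intro j
    refine h𝒮 (j • D) (by rw [map_nsmul, hD0, smul_zero]) ?_
    rw [map_nsmul, ← smul_sub]
    exact isPrincipal_nsmul hDφ j
  choose Ej hEj𝒮 hEj using hmul
  have hcard : 𝒮.card < (Finset.range (𝒮.card + 1)).card := by
    rw [Finset.card_range]; omega
  obtain ⟨a, ha, b, hb, hab, heq⟩ := Finset.exists_ne_map_eq_of_card_lt_of_maps_to hcard
    (f := Ej) (fun j _ => hEj𝒮 j)
  rw [Finset.mem_range] at ha hb
  have key : ∀ a b : ℕ, a < b → b < 𝒮.card + 1 → Ej a = Ej b →
      Divisor.IsPrincipal ((𝒮.card).factorial • D) := by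
    intro a b hab hb heq
    have h1 : Divisor.IsPrincipal ((b - a) • D) := by
      have h2 : (b - a) • D = (b • D - Ej b) - (a • D - Ej a) := by
        rw [heq, sub_sub_sub_cancel_right]
        rw [sub_eq_add_neg (b • D)]
        exact sub_nsmul D hab.le
      rw [h2]
      exact (Divisor.principal (K := k) (F := κ)).sub_mem (hEj b) (hEj a)
    have hdvd : (b - a) ∣ (𝒮.card).factorial :=
      Nat.dvd_factorial (by omega) (by omega)
    obtain ⟨e, he⟩ := hdvd
    rw [he, mul_nsmul]
    exact isPrincipal_nsmul h1 e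
  rcases lt_or_gt_of_ne hab with hlt | hgt
  · exact key a b hlt hb heq
  · exact key b a hgt ha heq.symm

end Finiteness

end Fermat.Agent.S35
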