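/-
S35 — helper6 — [FROBHOST], part 4: **the host-level `SSFrobAut`**, against an abstract Frobenius
lift.

* `IsTwoSheet.mem_zero_iff_of_ringEquiv_frob` : a ring automorphism `σ` of `E` fixing the
  coordinate, acting on `R` through `σR ≡ (·)^Q mod π` (`Q ≥ 1`), and preserving the sheet `W_∞`,
  preserves the sheet `W_0` (the Frobenius version of helper1's
  `IsTwoSheet.mem_zero_iff_of_ringEquiv`);
* `ssFrobAut_of_isTwoSheet` : for a coefficient-stable host `E_N ≤ gaussField R K` with
  `W_∞ = gaussValSub`, a coordinate `j` fixed by the coefficientwise action of `τ ∈ Aut(K/ℚ)`,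
  `τ` inducing the bijective `τR` on `R` with `τR r ≡ r ^ q mod π`: the coefficientwise action of `τ`
  on `E_N` is an `SSFrobAut π q j W_∞ W_0 τR`;
* `ssFrobAut_of_ssModel` : the same from an `SSModel`.
-/
import Mathlib
import Fermat.Agent.S35.FROBKRON_helper6_Gauss
import Fermat.Agent.S35.FROBAUT_helper8
import Fermat.Agent.SS.AUT_helper1_Sheet
import Fermat.Agent.SS.IBASE_helper1_Act

set_option autoImplicit false
set_option linter.unusedSectionVars false
set_option linter.style.haveILetI false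
set_option synthInstance.maxHeartbeats 200000

open ModularCurve Fermat.Agent.Igusa Fermat.Agent.JA Fermat.Agent.SS Polynomial

namespace Fermat.Agent.S35

section Sheet

variable {R : Type*} [CommRing R] [IsDomain R] [IsDiscreteValuationRing R] [CharZero R]
  {K₁ : Type*} [Field K₁] [Algebra R K₁] [IsFractionRing R K₁]
  {K : Type*} [Field K] [Algebra K₁ K] [Algebra R K] [IsScalarTower R K₁ K]
  {E : Type*} [Field E] [Algebra K E] [Algebra R E] [IsScalarTower R K E] [FiniteDimensional K E]
  {π : R} {u : K} {Winf W0 : ValuationSubring E}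

omit [IsDiscreteValuationRing R] [CharZero R] in
/-- divisibility by `π` is reflected by a Frobenius-type endomorphism of the coefficients. -/
theorem C_dvd_of_C_dvd_map_frob (hπ : Prime π) (Q : ℕ) (σR : R →+* R)
    (hfrob : ∀ r : R, σR r - r ^ Q ∈ Ideal.span {π}) (f : R[X]) (h : C π ∣ f.map σR) :
    C π ∣ f := by
  rw [C_dvd_iff_dvd_coeff] at h ⊢
  intro i
  have h1 := h i
  rw [coeff_map] at h1
  have h2 := hfrob (f.coeff i)
  rw [Ideal.mem_span_singleton] at h2
  have h3 : π ∣ f.coeff i ^ Q := by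
    have := dvd_sub h1 h2
    rwa [sub_sub_cancel] at this
  exact hπ.dvd_of_dvd_pow h3

/-- **a Frobenius-type automorphism preserving `W_∞` preserves `W_0`**. -/
theorem _root_.Fermat.Agent.SS.IsTwoSheet.mem_zero_iff_of_ringEquiv_frob (h : IsTwoSheet π u Winf W0) (hπ : Prime π)
    {Q : ℕ} (hQ : 0 < Q) (σ : E ≃+* E)
    (σR : R →+* R) (hσu : σ (algebraMap K E u) = algebraMap K E u)
    (hσR : ∀ r : R, σ (algebraMap R E r) = algebraMap R E (σR r))
    (hfrob : ∀ r : R, σR r - r ^ Q ∈ Ideal.span {π})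
    (hinf : ∀ x : E, σ x ∈ Winf ↔ x ∈ Winf) :
    ∀ x : E, σ x ∈ W0 ↔ x ∈ W0 := by
  obtain ⟨g1, g2, g3⟩ := h.gauss_zero
  have hR0 : ∀ r : R, algebraMap R E r ∈ W0 := by
    intro r
    have := g1 (C r)
    rwa [aeval_C, ValuationSubring.mem_comap, ← IsScalarTower.algebraMap_apply] at this
  have hkey : ∀ f : R[X], σ (algebraMap K E (aeval u f)) =
      algebraMap K E (aeval u (f.map σR)) := fun f =>
    map_algebraMap_aeval_eq (u := u) (σ : E →+* E) σR hσu hσR f
  -- `W0.comap σ` restricts to the Gauss valuation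
  have hG : IsGaussAt R π u ((W0.comap (σ : E →+* E)).comap (algebraMap K E)) := by
    refine ⟨fun f => ?_, ?_, fun f hf => ?_⟩
    · rw [ValuationSubring.mem_comap, ValuationSubring.mem_comap, RingEquiv.coe_toRingHom, hkey]
      exact g1 _
    · intro hmem
      rw [ValuationSubring.mem_comap, ValuationSubring.mem_comap, map_inv₀, map_inv₀,
        ← IsScalarTower.algebraMap_apply] at hmem
      have hmem' : (algebraMap R E (σR π))⁻¹ ∈ W0 := by
        have := hσR π
        rw [RingEquiv.coe_toRingHom] at hmem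
        rwa [this] at hmem
      apply g2
      rw [ValuationSubring.mem_comap, map_inv₀, ← IsScalarTower.algebraMap_apply]
      have hπc := hfrob π
      rw [Ideal.mem_span_singleton] at hπc
      obtain ⟨c, hc⟩ := hπc
      obtain ⟨Q', rfl⟩ : ∃ Q', Q = Q' + 1 := ⟨Q - 1, by omega⟩
      have hσπ : σR π = π * (π ^ Q' + c) := by rw [mul_add, ← hc, ← pow_succ']; ring
      have hne : algebraMap R E (σR π) ≠ 0 := by
        rw [← hσR π]
        intro h0
        have h1 : algebraMap R E π = 0 := by
          have := (map_eq_zero_iff σ σ.injective).mp h0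
          exact this
        apply g2
        rw [ValuationSubring.mem_comap, map_inv₀, ← IsScalarTower.algebraMap_apply, h1, inv_zero]
        exact W0.zero_mem
      have hπ0 : algebraMap R E π ≠ 0 := by
        intro h0
        apply hne
        rw [hσπ, map_mul, h0, zero_mul]
      have : (algebraMap R E π)⁻¹ =
          algebraMap R E (π ^ Q' + c) * (algebraMap R E (σR π))⁻¹ := by
        rw [hσπ, map_mul, mul_inv]
        have h1c : algebraMap R E (π ^ Q' + c) ≠ 0 := by
          intro h0
          apply hne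
          rw [hσπ, map_mul, h0, mul_zero]
        field_simp
      rw [this]
      exact W0.mul_mem _ _ (hR0 _) hmem'
    · rw [ValuationSubring.mem_comap, ValuationSubring.mem_comap, map_inv₀, map_inv₀,
        RingEquiv.coe_toRingHom, hkey, ← map_inv₀, ← ValuationSubring.mem_comap]
      exact g3 _ (fun hd => hf (C_dvd_of_C_dvd_map_frob hπ Q σR hfrob f hd))
  rcases h.only _ hG with h1 | h1
  · exfalso
    apply h.ne
    ext x
    obtain ⟨y, rfl⟩ := σ.surjective x
    have : y ∈ W0.comap (σ : E →+* E) ↔ y ∈ Winf := by rw [h1]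
    rw [ValuationSubring.mem_comap, RingEquiv.coe_toRingHom] at this
    rw [hinf, this]
  · intro x
    have : x ∈ W0.comap (σ : E →+* E) ↔ x ∈ W0 := by rw [h1]
    rwa [ValuationSubring.mem_comap, RingEquiv.coe_toRingHom] at this

end Sheet

section Host

variable {R : Type*} [CommRing R] [IsDomain R] [IsDiscreteValuationRing R] [CharZero R]
  {K : Type*} [Field K] [Algebra R K] [IsFractionRing R K] [Algebra ℚ K]
  {ENf : IntermediateField K (LaurentSeries K)}
  {KN : Type*} [Field KN] [Algebra K KN] [Algebra R KN] [IsScalarTower R K KN]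
  [Algebra KN ↥ENf] [IsScalarTower K KN ↥ENf] [Algebra R ↥ENf]
  [IsScalarTower R KN ↥ENf] [FiniteDimensional KN ↥ENf]

local notation "k" => IsLocalRing.ResidueField R

/-- **the host-level `SSFrobAut`**: the coefficientwise action of an abstract Frobenius lift
`(τ, τR)` on a coefficient-stable host whose sheet `W_∞` is the Gauss valuation subring. -/
theorem ssFrobAut_of_isTwoSheet (hEN : CoeffStable ENf) (hNle : ENf ≤ gaussField R K)
    {π : R} (hπ : Irreducible π) {q : ℕ} (hq0 : 0 < q) [ExpChar k q] {j : KN}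
    {Winf W0 : ValuationSubring ↥ENf} (h2 : IsTwoSheet π j Winf W0)
    (hWinf : Winf = gaussValSub R K ENf hNle)
    (τ : K ≃ₐ[ℚ] K) (τR : R →+* R)
    (hτ : ∀ r : R, τ (algebraMap R K r) = algebraMap R K (τR r))
    (hfrob : ∀ r : R, τR r - r ^ q ∈ Ideal.span {π}) (hbij : Function.Bijective τR)
    (hj : coeffRingAut hEN τ (algebraMap KN ↥ENf j) = algebraMap KN ↥ENf j)
    (hR : ∀ r : R, algebraMap R ↥ENf r = algebraMap K ↥ENf (algebraMap R K r)) :
    SSFrobAut π q j Winf W0 τR
      ((coeffRingAut hEN τ : ↥ENf ≃+* ↥ENf) : ↥ENf →+* ↥ENf) := by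
  subst hWinf
  have hfrob' : ∀ r : R, τR r - r ^ q ∈ IsLocalRing.maximalIdeal R := by
    intro r
    rw [(IsDiscreteValuationRing.irreducible_iff_uniformizer π).1 hπ]
    exact hfrob r
  have hmapR : ∀ r : R, coeffRingAut hEN τ (algebraMap R ↥ENf r) = algebraMap R ↥ENf (τR r) := by
    intro r
    rw [hR, coeffRingAut_algebraMap, hτ, ← hR]
  have hinf : ∀ x : ↥ENf, x ∈ gaussValSub R K ENf hNle ↔
      coeffRingAut hEN τ x ∈ gaussValSub R K ENf hNle := fun x =>
    frob_mem_gaussValSub_iff q (τ : K →+* K) τR hτ hfrob'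
      ((coeffRingAut hEN τ : ↥ENf ≃+* ↥ENf) : ↥ENf →+* ↥ENf) (fun _ => rfl) x
  have hzero := h2.mem_zero_iff_of_ringEquiv_frob hπ.prime hq0 (coeffRingAut hEN τ) τR hj hmapR
    hfrob (fun x => (hinf x).symm)
  exact
    { frob_R := hfrob
      map_R := hmapR
      map_j := hj
      bij_R := hbij
      bij := (coeffRingAut hEN τ).bijective
      mem_inf := hinf
      mem_zero := fun x => (hzero x).symm }

variable {KM : Type*} [Field KM] [Algebra K KM] [Algebra R KM] [IsScalarTower R K KM]
  {EM : Type*} [Field EM] [Algebra KM EM] [Algebra K EM] [IsScalarTower K KM EM] [Algebra R EM]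
  [IsScalarTower R KM EM]

/-- **the host-level `SSFrobAut`**, from an `SSModel`. -/
theorem ssFrobAut_of_ssModel (hEN : CoeffStable ENf) (hNle : ENf ≤ gaussField R K)
    {π : R} (hπ : Irreducible π) {q : ℕ} (hq0 : 0 < q) [ExpChar k q] {n : ℕ} {S : Finset R}
    {t : KM} {jM : EM} {j : KN} {Ad Bd : EM →+* ↥ENf} {VM : ValuationSubring EM}
    {Winf W0 : ValuationSubring ↥ENf}
    (h : SSModel K π q n S t jM j Ad Bd VM Winf W0)
    (hWinf : Winf = gaussValSub R K ENf hNle)
    (τ : K ≃ₐ[ℚ] K) (τR : R →+* R)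
    (hτ : ∀ r : R, τ (algebraMap R K r) = algebraMap R K (τR r))
    (hfrob : ∀ r : R, τR r - r ^ q ∈ Ideal.span {π}) (hbij : Function.Bijective τR)
    (hj : coeffRingAut hEN τ (algebraMap KN ↥ENf j) = algebraMap KN ↥ENf j)
    (hR : ∀ r : R, algebraMap R ↥ENf r = algebraMap K ↥ENf (algebraMap R K r)) :
    SSFrobAut π q j Winf W0 τR
      ((coeffRingAut hEN τ : ↥ENf ≃+* ↥ENf) : ↥ENf →+* ↥ENf) :=
  ssFrobAut_of_isTwoSheet hEN hNle hπ hq0 h.two hWinf τ τR hτ hfrob hbij hj hR

end Host

end Fermat.Agent.S35
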