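/-
S35 — helper6 — [FROBHOST], part 5: **the host-level `SSFrobAut` on the Legendre and Hesse hosts**,
from helper7's concrete model statements `SSModelLeg` / `SSModelHes`, against an abstract Frobenius
lift `(τ, τR)`: `τ ∈ Aut(K/ℚ)` inducing the bijective `τR` on `R` with `τR r ≡ r ^ q mod π`.
-/
import Mathlib
import Fermat.Agent.S35.FROBSHEET_helper6
import Fermat.Agent.SS.BASE_helper1_Hes
import Fermat.Agent.SS.HOSTINT_helper6_Main

set_option autoImplicit false
set_option linter.unusedSectionVars false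
set_option linter.style.haveILetI false
set_option synthInstance.maxHeartbeats 200000

open HahnSeries IntermediateField ModularCurve Fermat.Agent.Igusa Fermat.Agent.JA Fermat.Agent.SS

namespace Fermat.Agent.S35

open scoped Fermat.Agent.JA.Host

section Host

variable (R : Type*) [CommRing R] [IsDomain R] [IsDiscreteValuationRing R] [CharZero R]
  (K : Type*) [Field K] [Algebra R K] [IsFractionRing R K] [Algebra ℚ K] [Algebra K ℂ]

/-- **the Frobenius-type automorphism of the Legendre model** (`q ≠ 2`). -/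
theorem ssFrobAut_leg {M q : ℕ} [NeZero M] [NeZero q] [NeZero (M * q)] {x y : ℤ}
    [DecidableEq R] {π : R} (hπ : Irreducible π) {h2 : IsUnit (2 : R)}
    {hbez : (q : ℤ) * x + M * y = 1} {hq : q.Prime} {hq2 : q ≠ 2}
    (hqπ : (q : R) ∈ Ideal.span {π})
    (h : SSModelLeg R K π h2 hbez hq hq2)
    (τ : K ≃ₐ[ℚ] K) (τR : R →+* R)
    (hτ : ∀ r : R, τ (algebraMap R K r) = algebraMap R K (τR r))
    (hfrob : ∀ r : R, τR r - r ^ q ∈ Ideal.span {π}) (hbij : Function.Bijective τR) :
    SSFrobAut π q (AdjoinSimple.gen K (jqNModC K 2)) (legWinf R K h2 (M * q))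
      (legW0 R K hbez hq) τR
      ((coeffRingAut (coeffStable_legE K (M * q)) τ :
        ↥(legE K (M * q)) ≃+* ↥(legE K (M * q))) : ↥(legE K (M * q)) →+* ↥(legE K (M * q))) := by
  haveI : FiniteDimensional ↥K⟮jqNModC K 2⟯ ↥(legE K (M * q)) := finite_legE_adjoin_j K (M * q)
  haveI : CharP (IsLocalRing.ResidueField R) q := charP_residueField_of_mem_span hπ hq hqπ
  haveI : ExpChar (IsLocalRing.ResidueField R) q := ExpChar.prime hq
  have h' := SSModelLeg.ssModel R K h
  exact ssFrobAut_of_ssModel (coeffStable_legE K (M * q)) (legE_le_gaussField R K h2 (M * q)) hπ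
    hq.pos h' rfl τ τR hτ hfrob hbij (Subtype.ext (coeffMap_jqNModC (τ : K →+* K) 2))
    (fun r => IsScalarTower.algebraMap_apply R K ↥(legE K (M * q)) r)

/-- **the Frobenius-type automorphism of the Hesse model** (`q = 2`). -/
theorem ssFrobAut_hes {M : ℕ} [NeZero M] [NeZero (M * 2)] {x y : ℤ}
    [DecidableEq R] {π : R} (hπ : Irreducible π) {h3 : IsUnit (3 : R)} {ω : R}
    {hbez : ((2 : ℕ) : ℤ) * x + M * y = 1}
    (hqπ : ((2 : ℕ) : R) ∈ Ideal.span {π})
    (h : SSModelHes R K π h3 ω hbez)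
    (τ : K ≃ₐ[ℚ] K) (τR : R →+* R)
    (hτ : ∀ r : R, τ (algebraMap R K r) = algebraMap R K (τR r))
    (hfrob : ∀ r : R, τR r - r ^ 2 ∈ Ideal.span {π}) (hbij : Function.Bijective τR) :
    SSFrobAut π 2 (AdjoinSimple.gen K (jqNModC K 3)) (hesWinf R K h3 (M * 2))
      (hesW0 R K hbez Nat.prime_two) τR
      ((coeffRingAut (coeffStable_hesE K (M * 2)) τ :
        ↥(hesE K (M * 2)) ≃+* ↥(hesE K (M * 2))) : ↥(hesE K (M * 2)) →+* ↥(hesE K (M * 2))) := by
  haveI : FiniteDimensional ↥K⟮jqNModC K 3⟯ ↥(hesE K (M * 2)) := finite_hesE_adjoin_j K (M * 2)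
  haveI : CharP (IsLocalRing.ResidueField R) 2 :=
    charP_residueField_of_mem_span hπ Nat.prime_two hqπ
  haveI : ExpChar (IsLocalRing.ResidueField R) 2 := ExpChar.prime Nat.prime_two
  have h' := SSModelHes.ssModel R K h
  exact ssFrobAut_of_ssModel (coeffStable_hesE K (M * 2)) (hesE_le_gaussField R K h3 (M * 2)) hπ
    Nat.two_pos h' rfl τ τR hτ hfrob hbij (Subtype.ext (coeffMap_jqNModC (τ : K →+* K) 3))
    (fun r => IsScalarTower.algebraMap_apply R K ↥(hesE K (M * 2)) r)

end Host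

end Fermat.Agent.S35
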