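/-
S35 — helper8 — **(N2-abs): the norm step of the Frobenius route**, pure valuation algebra.

Setting: the two sheets `Winf`, `W0` of `E_N` over the valuation ring `V_M` of `E_M` along the two
degeneracy maps `A`, `B` (residue degree one along `A` on `Winf`, along `B` on `W0`), a Frobenius
action `(sM, sN)` with the Frobenius–Kronecker congruences (`SSModelFrob`), and two "norm" maps
`NA NB : E_N → E_M` satisfying the norm–reduction congruences
`red (NA f) = red_∞ f · (red_0 f)^q`, `red (NB f) = red_0 f · (red_∞ f)^q` (helper9's NORMRED).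

If `g` is a unit on both sheets and `NA g`, `NB g` are `m`-th powers, then
`sN (sN g) / g` is congruent to an `m`-th power `A(u)^m` on `Winf` and to `B(v)^m` on `W0`, with
`u`, `v` units of `V_M`.
-/
import Mathlib
import Fermat.Agent.S35.FROBIF_helper8

set_option autoImplicit false
set_option linter.unusedSectionVars false
set_option linter.unusedVariables false

namespace Fermat.Agent.S35

open Fermat.Agent.JA Fermat.Agent.SS

section ValLemmas

variable {E : Type*} [Field E] (V : ValuationSubring E)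

theorem ntwo_val_trans {x y z : E} (h1 : V.valuation (x - y) < 1) (h2 : V.valuation (y - z) < 1) :
    V.valuation (x - z) < 1 := by
  have : x - z = (x - y) + (y - z) := by ring
  rw [this]
  exact Valuation.map_add_lt _ h1 h2

theorem ntwo_val_symm {x y : E} (h : V.valuation (x - y) < 1) : V.valuation (y - x) < 1 := by
  rw [← neg_sub, Valuation.map_neg]; exact h

theorem ntwo_val_mul_lt {x y : E} (hx : x ∈ V) (hy : V.valuation y < 1) :
    V.valuation (x * y) < 1 := by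
  rw [map_mul]
  have hx' : V.valuation x ≤ 1 := (V.valuation_le_one_iff x).2 hx
  calc V.valuation x * V.valuation y ≤ 1 * V.valuation y := mul_le_mul' hx' le_rfl
    _ = V.valuation y := one_mul _
    _ < 1 := hy

theorem ntwo_mem_of_val_eq_one {x : E} (h : V.valuation x = 1) : x ∈ V :=
  (V.valuation_le_one_iff x).1 h.le

theorem ntwo_mem_of_val_lt_one {x : E} (h : V.valuation x < 1) : x ∈ V :=
  (V.valuation_le_one_iff x).1 h.le

theorem ntwo_mem_of_cong {x y : E} (hy : y ∈ V) (h : V.valuation (x - y) < 1) : x ∈ V := by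
  have : x = (x - y) + y := by ring
  rw [this]
  exact V.add_mem _ _ (ntwo_mem_of_val_lt_one V h) hy

theorem ntwo_val_eq_one_of_cong {x y : E} (hy : V.valuation y = 1)
    (h : V.valuation (x - y) < 1) : V.valuation x = 1 := by
  have h1 : x = y + (x - y) := by ring
  rw [h1, Valuation.map_add_eq_of_lt_left _ (by rw [hy]; exact h), hy]

theorem ntwo_pow_cong {x y : E} (hx : x ∈ V) (hy : y ∈ V) (h : V.valuation (x - y) < 1) (n : ℕ) :
    V.valuation (x ^ n - y ^ n) < 1 := by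
  induction n with
  | zero => simp
  | succ n ih =>
    have e : x ^ (n + 1) - y ^ (n + 1) = x * (x ^ n - y ^ n) + y ^ n * (x - y) := by ring
    rw [e]
    exact Valuation.map_add_lt _ (ntwo_val_mul_lt V hx ih)
      (ntwo_val_mul_lt V (V.pow_mem hy n) h)

theorem ntwo_val_div_lt {x z : E} (hz : V.valuation z = 1) (hx : V.valuation x < 1) :
    V.valuation (x / z) < 1 := by
  rw [map_div₀, hz, div_one]; exact hx

theorem ntwo_val_lt_one_iff (y : E) : V.valuation y < 1 ↔ (y = 0 ∨ y⁻¹ ∉ V) := by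
  by_cases hy : y = 0
  · subst hy; simp
  · have hv : 0 < V.valuation y := zero_lt_iff.2 ((Valuation.ne_zero_iff _).2 hy)
    rw [← V.valuation_le_one_iff, map_inv₀, not_le, one_lt_inv₀ hv]
    simp [hy]

theorem ntwo_val_pow_eq_one {x : E} {m : ℕ} (hm : 0 < m) (h : V.valuation (x ^ m) = 1) :
    V.valuation x = 1 := by
  rw [map_pow] at h
  exact (pow_eq_one_iff_of_nonneg zero_le hm.ne').1 h

end ValLemmas

section Main

variable {R : Type*} [CommRing R] [IsDomain R]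
  {EM : Type*} [Field EM] [Algebra R EM]
  {KN : Type*} [Field KN] [Algebra R KN]
  {EN : Type*} [Field EN] [Algebra KN EN] [Algebra R EN] [IsScalarTower R KN EN]
  {π : R} {q : ℕ} {j : KN} {A B : EM →+* EN} {VM : ValuationSubring EM}
  {Winf W0 : ValuationSubring EN} {sR : R →+* R} {sM : EM →+* EM} {sN : EN →+* EN}

/-- transport of `valuation < 1` along a ring homomorphism with prescribed restriction. -/
theorem ntwo_comap_lt_one {ι : EM →+* EN} {W : ValuationSubring EN} (h : W.comap ι = VM) (a : EM) :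
    W.valuation (ι a) < 1 ↔ VM.valuation a < 1 := by
  rw [← h, ntwo_val_lt_one_iff, ntwo_val_lt_one_iff, map_eq_zero, ValuationSubring.mem_comap,
    map_inv₀]

theorem ntwo_comap_mem {ι : EM →+* EN} {W : ValuationSubring EN} (h : W.comap ι = VM) (a : EM) :
    ι a ∈ W ↔ a ∈ VM := by
  rw [← h]; rfl

theorem ntwo_comap_eq_one {ι : EM →+* EN} {W : ValuationSubring EN} (h : W.comap ι = VM) (a : EM) :
    W.valuation (ι a) = 1 ↔ VM.valuation a = 1 := by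
  have h1 : W.valuation (ι a) ≤ 1 ↔ VM.valuation a ≤ 1 := by
    rw [W.valuation_le_one_iff, VM.valuation_le_one_iff, ntwo_comap_mem h]
  have h2 := ntwo_comap_lt_one h a
  constructor
  · intro h3
    exact le_antisymm (h1.1 h3.le) (not_lt.1 fun h4 => (h2.2 h4).ne h3)
  · intro h3
    exact le_antisymm (h1.2 h3.le) (not_lt.1 fun h4 => (h2.1 h4).ne h3)

/-- **one half of the norm step**: the general form, for a pair of sheets `(W₁, W₂)` and a pair of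
maps `(ι₁, ι₂)` (`= (Winf, W0, A, B)` or `(W0, Winf, B, A)`). -/
theorem ntwo_half
    {ι₁ ι₂ : EM →+* EN} {W₁ W₂ : ValuationSubring EN}
    (c11 : W₁.comap ι₁ = VM) (c12 : W₁.comap ι₂ = VM) (c21 : W₂.comap ι₁ = VM)
    (c22 : W₂.comap ι₂ = VM)
    (res₁ : ∀ x ∈ W₁, ∃ a ∈ VM, W₁.valuation (x - ι₁ a) < 1)
    (res₂ : ∀ x ∈ W₂, ∃ a ∈ VM, W₂.valuation (x - ι₂ a) < 1)
    (hsM : ∀ x : EM, x ∈ VM ↔ sM x ∈ VM)
    (hs₁ : ∀ x : EN, x ∈ W₁ ↔ sN x ∈ W₁)
    (comm₁ : ∀ x : EM, sN (ι₁ x) = ι₁ (sM x))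
    (kron₁ : ∀ c ∈ VM, W₁.valuation (ι₁ c ^ q - ι₂ (sM c)) < 1)
    (kron₂ : ∀ c ∈ VM, W₂.valuation (ι₂ c ^ q - ι₁ (sM c)) < 1)
    (N₁ N₂ : EN → EM)
    (hN₁ : ∀ f : EN, f ∈ W₁ → f ∈ W₂ → ∀ a₁ a₂ : EM, W₁.valuation (f - ι₁ a₁) < 1 →
      W₂.valuation (f ^ q - ι₁ a₂) < 1 → VM.valuation (N₁ f - a₁ * a₂) < 1)
    (hN₂ : ∀ f : EN, f ∈ W₁ → f ∈ W₂ → ∀ a₁ a₂ : EM, W₂.valuation (f - ι₂ a₁) < 1 →
      W₁.valuation (f ^ q - ι₂ a₂) < 1 → VM.valuation (N₂ f - a₁ * a₂) < 1)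
    {g : EN} (hg₁ : W₁.valuation g = 1) (hg₂ : W₂.valuation g = 1) {m : ℕ} (hm : 0 < m)
    {h₁ h₂ : EM} (hNg₁ : N₁ g = h₁ ^ m) (hNg₂ : N₂ g = h₂ ^ m) :
    ∃ u : EM, VM.valuation u = 1 ∧ W₁.valuation (sN (sN g) / g - ι₁ u ^ m) < 1 := by
  have hgW₁ : g ∈ W₁ := ntwo_mem_of_val_eq_one W₁ hg₁
  have hgW₂ : g ∈ W₂ := ntwo_mem_of_val_eq_one W₂ hg₂
  obtain ⟨a₁, ha₁V, ha₁⟩ := res₁ g hgW₁
  obtain ⟨b₁, hb₁V, hb₁⟩ := res₂ g hgW₂
  -- units
  have ha₁u : VM.valuation a₁ = 1 := by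
    rw [← ntwo_comap_eq_one c11]
    exact ntwo_val_eq_one_of_cong W₁ hg₁ (ntwo_val_symm W₁ ha₁)
  have hb₁u : VM.valuation b₁ = 1 := by
    rw [← ntwo_comap_eq_one c22]
    exact ntwo_val_eq_one_of_cong W₂ hg₂ (ntwo_val_symm W₂ hb₁)
  have hsa₁u : VM.valuation (sM a₁) = 1 := (valuation_map_eq_one_iff VM sM hsM a₁).2 ha₁u
  have hsb₁u : VM.valuation (sM b₁) = 1 := (valuation_map_eq_one_iff VM sM hsM b₁).2 hb₁u
  have hssa₁u : VM.valuation (sM (sM a₁)) = 1 :=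
    (valuation_map_eq_one_iff VM sM hsM (sM a₁)).2 hsa₁u
  -- the `q`-th powers
  have hq₂ : W₂.valuation (g ^ q - ι₁ (sM b₁)) < 1 :=
    ntwo_val_trans W₂ (ntwo_pow_cong W₂ hgW₂ ((ntwo_comap_mem c22 b₁).2 hb₁V) hb₁ q)
      (kron₂ b₁ hb₁V)
  have hq₁ : W₁.valuation (g ^ q - ι₂ (sM a₁)) < 1 :=
    ntwo_val_trans W₁ (ntwo_pow_cong W₁ hgW₁ ((ntwo_comap_mem c11 a₁).2 ha₁V) ha₁ q)
      (kron₁ a₁ ha₁V)
  have hX := hN₁ g hgW₁ hgW₂ a₁ (sM b₁) ha₁ hq₂
  have hY := hN₂ g hgW₁ hgW₂ b₁ (sM a₁) hb₁ hq₁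
  rw [hNg₁] at hX
  rw [hNg₂] at hY
  -- `h₁`, `h₂` are units
  have hXu : VM.valuation (h₁ ^ m) = 1 := by
    refine ntwo_val_eq_one_of_cong VM ?_ hX
    rw [map_mul, ha₁u, hsb₁u, one_mul]
  have hYu : VM.valuation (h₂ ^ m) = 1 := by
    refine ntwo_val_eq_one_of_cong VM ?_ hY
    rw [map_mul, hb₁u, hsa₁u, one_mul]
  have hh₁u : VM.valuation h₁ = 1 := ntwo_val_pow_eq_one VM hm hXu
  have hh₂u : VM.valuation h₂ = 1 := ntwo_val_pow_eq_one VM hm hYu
  have hsh₂u : VM.valuation (sM h₂) = 1 := (valuation_map_eq_one_iff VM sM hsM h₂).2 hh₂u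
  -- apply `sM` to the second congruence
  have hsY : VM.valuation (sM h₂ ^ m - sM b₁ * sM (sM a₁)) < 1 := by
    have := (valuation_map_lt_one_iff VM sM hsM _).2 hY
    rwa [map_sub, map_pow, map_mul] at this
  set u : EM := sM h₂ / h₁ with hu
  have huu : VM.valuation u = 1 := by rw [hu, map_div₀, hsh₂u, hh₁u, div_one]
  -- `u ^ m ≡ sM (sM a₁) / a₁`
  have hkey : VM.valuation (u ^ m - sM (sM a₁) / a₁) < 1 := by
    have ha₁0 : a₁ ≠ 0 := by
      rintro rfl; simp at ha₁u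
    have hX0 : h₁ ^ m ≠ 0 := by
      intro h0; rw [h0] at hXu; simp at hXu
    have e : u ^ m - sM (sM a₁) / a₁ =
        ((sM h₂ ^ m - sM b₁ * sM (sM a₁)) * a₁ -
          (h₁ ^ m - a₁ * sM b₁) * sM (sM a₁)) / (h₁ ^ m * a₁) := by
      rw [hu, div_pow]
      field_simp
      ring
    rw [e]
    refine ntwo_val_div_lt VM (by rw [map_mul, hXu, ha₁u, one_mul]) ?_
    refine Valuation.map_sub_lt _ ?_ ?_
    · rw [mul_comm]; exact ntwo_val_mul_lt VM ha₁V hsY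
    · rw [mul_comm]; exact ntwo_val_mul_lt VM (ntwo_mem_of_val_eq_one VM hssa₁u) hX
  refine ⟨u, huu, ?_⟩
  -- on `W₁`
  have hA1 : W₁.valuation (ι₁ a₁) = 1 := (ntwo_comap_eq_one c11 a₁).2 ha₁u
  have hA2 : W₁.valuation (ι₁ (sM (sM a₁))) = 1 := (ntwo_comap_eq_one c11 _).2 hssa₁u
  have hs₁' : ∀ x : EN, W₁.valuation (sN x) < 1 ↔ W₁.valuation x < 1 :=
    valuation_map_lt_one_iff W₁ sN hs₁
  have hss : W₁.valuation (sN (sN g) - ι₁ (sM (sM a₁))) < 1 := by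
    have h1 := (hs₁' _).2 ((hs₁' _).2 ha₁)
    rwa [map_sub, map_sub, comm₁, comm₁] at h1
  have hstep : W₁.valuation (sN (sN g) / g - ι₁ (sM (sM a₁) / a₁)) < 1 := by
    have hg0 : g ≠ 0 := by
      rintro rfl; simp at hg₁
    have hA0 : ι₁ a₁ ≠ 0 := by
      intro h0; rw [h0] at hA1; simp at hA1
    have e : sN (sN g) / g - ι₁ (sM (sM a₁) / a₁) =
        ((sN (sN g) - ι₁ (sM (sM a₁))) * ι₁ a₁ - ι₁ (sM (sM a₁)) * (g - ι₁ a₁)) /
          (g * ι₁ a₁) := by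
      rw [map_div₀]
      field_simp
      ring
    rw [e]
    refine ntwo_val_div_lt W₁ (by rw [map_mul, hg₁, hA1, one_mul]) ?_
    refine Valuation.map_sub_lt _ ?_ ?_
    · rw [mul_comm]; exact ntwo_val_mul_lt W₁ (ntwo_mem_of_val_eq_one W₁ hA1) hss
    · exact ntwo_val_mul_lt W₁ (ntwo_mem_of_val_eq_one W₁ hA2) ha₁
  have hlast : W₁.valuation (ι₁ (sM (sM a₁) / a₁) - ι₁ u ^ m) < 1 := by
    rw [← map_pow, ← map_sub, ntwo_comap_lt_one c11]
    exact ntwo_val_symm VM hkey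
  exact ntwo_val_trans W₁ hstep hlast

/-- **(N2-abs)**: the norm step.  -/
theorem SSModelFrob.toric_of_norms
    (hF : SSModelFrob π q j A B VM Winf W0 sR sM sN)
    (cAinf : Winf.comap A = VM) (cBinf : Winf.comap B = VM) (cA0 : W0.comap A = VM)
    (cB0 : W0.comap B = VM)
    (res_inf : ∀ x ∈ Winf, ∃ a ∈ VM, Winf.valuation (x - A a) < 1)
    (res_zero : ∀ x ∈ W0, ∃ a ∈ VM, W0.valuation (x - B a) < 1)
    (NA NB : EN → EM)
    (hNA : ∀ f : EN, f ∈ Winf → f ∈ W0 → ∀ a₁ a₂ : EM, Winf.valuation (f - A a₁) < 1 →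
      W0.valuation (f ^ q - A a₂) < 1 → VM.valuation (NA f - a₁ * a₂) < 1)
    (hNB : ∀ f : EN, f ∈ Winf → f ∈ W0 → ∀ a₁ a₂ : EM, W0.valuation (f - B a₁) < 1 →
      Winf.valuation (f ^ q - B a₂) < 1 → VM.valuation (NB f - a₁ * a₂) < 1)
    {g : EN} (hginf : Winf.valuation g = 1) (hg0 : W0.valuation g = 1) {m : ℕ} (hm : 0 < m)
    {hA hB : EM} (hNAg : NA g = hA ^ m) (hNBg : NB g = hB ^ m) :
    ∃ u v : EM, VM.valuation u = 1 ∧ VM.valuation v = 1 ∧
      Winf.valuation (sN (sN g) / g - A u ^ m) < 1 ∧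
      W0.valuation (sN (sN g) / g - B v ^ m) < 1 := by
  obtain ⟨u, hu, hu'⟩ := ntwo_half (q := q) (sM := sM) (sN := sN) cAinf cBinf cA0 cB0 res_inf
    res_zero hF.mem_VM hF.mem_inf hF.comm_A hF.kron_inf hF.kron_zero NA NB hNA hNB hginf hg0 hm
    hNAg hNBg
  obtain ⟨v, hv, hv'⟩ := ntwo_half (q := q) (sM := sM) (sN := sN) cB0 cA0 cBinf cAinf res_zero
    res_inf hF.mem_VM hF.mem_zero hF.comm_B hF.kron_zero hF.kron_inf NB NA
    (fun f h0 hinf a₁ a₂ h1 h2 => hNB f hinf h0 a₁ a₂ h1 h2)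
    (fun f h0 hinf a₁ a₂ h1 h2 => hNA f hinf h0 a₁ a₂ h1 h2) hg0 hginf hm hNBg hNAg
  exact ⟨u, v, hu, hv, hu', hv'⟩

end Main

end Fermat.Agent.S35
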