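/-
S35 — helper9 — **the relative core of the norm step (N2)**: helper8's `ntwo_half` /
`SSModelFrob.toric_of_norms` with all hypotheses localised at the given function `g` and its two
reductions `a` (on `Winf`, along `A`) and `b` (on `W0`, along `B`): no norm maps, no quantifier over
`V_M`.  Input: `hA ^ m ≡ a · sM b` and `hB ^ m ≡ b · sM a` on `V_M` (what the norm–reduction lemma
and the two Kronecker congruences AT `a` AND `b` give for `N_A g = hA ^ m`, `N_B g = hB ^ m`).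
Output: `sN (sN g) / g ≡ A u ^ m` on `Winf` and `≡ B v ^ m` on `W0` with units `u`, `v` of `V_M`.
-/
import Mathlib
import Fermat.Agent.S35.NTWO_helper8_Abs

set_option autoImplicit false
set_option linter.unusedSectionVars false
set_option linter.unusedVariables false

namespace Fermat.Agent.S35

section Rel

variable {EM : Type*} [Field EM] {EN : Type*} [Field EN]
  {VM : ValuationSubring EM} {sM : EM →+* EM} {sN : EN →+* EN}

/-- **one half of the relative norm step.** -/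
theorem ntwo_half_rel
    {ι₁ ι₂ : EM →+* EN} {W₁ W₂ : ValuationSubring EN}
    (c11 : W₁.comap ι₁ = VM) (c22 : W₂.comap ι₂ = VM)
    (hsM : ∀ x : EM, x ∈ VM ↔ sM x ∈ VM)
    (hs₁ : ∀ x : EN, x ∈ W₁ ↔ sN x ∈ W₁)
    (comm₁ : ∀ x : EM, sN (ι₁ x) = ι₁ (sM x))
    {g : EN} (hg₁ : W₁.valuation g = 1) (hg₂ : W₂.valuation g = 1) {m : ℕ} (hm : 0 < m)
    {a₁ b₁ h₁ h₂ : EM} (ha₁V : a₁ ∈ VM) (hb₁V : b₁ ∈ VM)
    (ha₁ : W₁.valuation (g - ι₁ a₁) < 1) (hb₁ : W₂.valuation (g - ι₂ b₁) < 1)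
    (hX : VM.valuation (h₁ ^ m - a₁ * sM b₁) < 1)
    (hY : VM.valuation (h₂ ^ m - b₁ * sM a₁) < 1) :
    ∃ u : EM, VM.valuation u = 1 ∧ W₁.valuation (sN (sN g) / g - ι₁ u ^ m) < 1 := by
  -- units
  have ha₁u : VM.valuation a₁ = 1 := by
    rw [← ntwo_comap_eq_one c11]
    exact ntwo_val_eq_one_of_cong W₁ hg₁ (ntwo_val_symm W₁ ha₁)
  have hb₁u : VM.valuation b₁ = 1 := by
    rw [← ntwo_comap_eq_one c22]
    exact ntwo_val_eq_one_of_cong W₂ hg₂ (ntwo_val_symm W₂ hb₁)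
  have hsa₁u : VM.valuation (sM a₁) = 1 := (valuation_map_eq_one_iff VM sM hsM a₁).2 ha₁u
  have hsb₁u : VM.valuation (sM b₁) = 1 := (valuation_map_eq_one_iff VM sM hsM b₁).2 hb₁u
  have hssa₁u : VM.valuation (sM (sM a₁)) = 1 :=
    (valuation_map_eq_one_iff VM sM hsM (sM a₁)).2 hsa₁u
  -- `h₁`, `h₂` are units
  have hXu : VM.valuation (h₁ ^ m) = 1 := by
    refine ntwo_val_eq_one_of_cong VM ?_ hX
    rw [map_mul, ha₁u, hsb₁u, one_mul]
  have hYu : VM.valuation (h₂ ^ m) = 1 := by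
    refine ntwo_val_eq_one_of_cong VM ?_ hY
    rw [map_mul, hb₁u, hsa₁u, one_mul]
  have hh₁u : VM.valuation h₁ = 1 := ntwo_val_pow_eq_one VM hm hXu
  have hh₂u : VM.valuation h₂ = 1 := ntwo_val_pow_eq_one VM hm hYu
  have hsh₂u : VM.valuation (sM h₂) = 1 := (valuation_map_eq_one_iff VM sM hsM h₂).2 hh₂u
  -- apply `sM` to the second congruence
  have hsY : VM.valuation (sM h₂ ^ m - sM b₁ * sM (sM a₁)) < 1 := by
    have := (valuation_map_lt_one_iff VM sM hsM _).2 hY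
    rwa [map_sub, map_pow, map_mul] at this
  set u : EM := sM h₂ / h₁ with hu
  have huu : VM.valuation u = 1 := by rw [hu, map_div₀, hsh₂u, hh₁u, div_one]
  -- `u ^ m ≡ sM (sM a₁) / a₁`
  have hkey : VM.valuation (u ^ m - sM (sM a₁) / a₁) < 1 := by
    have ha₁0 : a₁ ≠ 0 := by
      rintro rfl; simp at ha₁u
    have hX0 : h₁ ^ m ≠ 0 := by
      intro h0; rw [h0] at hXu; simp at hXu
    have e : u ^ m - sM (sM a₁) / a₁ =
        ((sM h₂ ^ m - sM b₁ * sM (sM a₁)) * a₁ -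
          (h₁ ^ m - a₁ * sM b₁) * sM (sM a₁)) / (h₁ ^ m * a₁) := by
      rw [hu, div_pow]
      field_simp
      ring
    rw [e]
    refine ntwo_val_div_lt VM (by rw [map_mul, hXu, ha₁u, one_mul]) ?_
    refine Valuation.map_sub_lt _ ?_ ?_
    · rw [mul_comm]; exact ntwo_val_mul_lt VM ha₁V hsY
    · rw [mul_comm]; exact ntwo_val_mul_lt VM (ntwo_mem_of_val_eq_one VM hssa₁u) hX
  refine ⟨u, huu, ?_⟩
  -- on `W₁`
  have hA1 : W₁.valuation (ι₁ a₁) = 1 := (ntwo_comap_eq_one c11 a₁).2 ha₁u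
  have hA2 : W₁.valuation (ι₁ (sM (sM a₁))) = 1 := (ntwo_comap_eq_one c11 _).2 hssa₁u
  have hs₁' : ∀ x : EN, W₁.valuation (sN x) < 1 ↔ W₁.valuation x < 1 :=
    valuation_map_lt_one_iff W₁ sN hs₁
  have hss : W₁.valuation (sN (sN g) - ι₁ (sM (sM a₁))) < 1 := by
    have h1 := (hs₁' _).2 ((hs₁' _).2 ha₁)
    rwa [map_sub, map_sub, comm₁, comm₁] at h1
  have hstep : W₁.valuation (sN (sN g) / g - ι₁ (sM (sM a₁) / a₁)) < 1 := by
    have hg0 : g ≠ 0 := by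
      rintro rfl; simp at hg₁
    have hA0 : ι₁ a₁ ≠ 0 := by
      intro h0; rw [h0] at hA1; simp at hA1
    have e : sN (sN g) / g - ι₁ (sM (sM a₁) / a₁) =
        ((sN (sN g) - ι₁ (sM (sM a₁))) * ι₁ a₁ - ι₁ (sM (sM a₁)) * (g - ι₁ a₁)) /
          (g * ι₁ a₁) := by
      rw [map_div₀]
      field_simp
      ring
    rw [e]
    refine ntwo_val_div_lt W₁ (by rw [map_mul, hg₁, hA1, one_mul]) ?_
    refine Valuation.map_sub_lt _ ?_ ?_
    · rw [mul_comm]; exact ntwo_val_mul_lt W₁ (ntwo_mem_of_val_eq_one W₁ hA1) hss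
    · exact ntwo_val_mul_lt W₁ (ntwo_mem_of_val_eq_one W₁ hA2) ha₁
  have hlast : W₁.valuation (ι₁ (sM (sM a₁) / a₁) - ι₁ u ^ m) < 1 := by
    rw [← map_pow, ← map_sub, ntwo_comap_lt_one c11]
    exact ntwo_val_symm VM hkey
  exact ntwo_val_trans W₁ hstep hlast

/-- **the relative norm step**: see the file header. -/
theorem ntwo_core {A B : EM →+* EN} {Winf W0 : ValuationSubring EN}
    (cAinf : Winf.comap A = VM) (cB0 : W0.comap B = VM)
    (mem_VM : ∀ x : EM, x ∈ VM ↔ sM x ∈ VM)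
    (mem_inf : ∀ x : EN, x ∈ Winf ↔ sN x ∈ Winf) (mem_zero : ∀ x : EN, x ∈ W0 ↔ sN x ∈ W0)
    (comm_A : ∀ x : EM, sN (A x) = A (sM x)) (comm_B : ∀ x : EM, sN (B x) = B (sM x))
    {g : EN} (hginf : Winf.valuation g = 1) (hg0 : W0.valuation g = 1) {m : ℕ} (hm : 0 < m)
    {a b hA hB : EM} (ha : a ∈ VM) (hb : b ∈ VM)
    (hga : Winf.valuation (g - A a) < 1) (hgb : W0.valuation (g - B b) < 1)
    (hX : VM.valuation (hA ^ m - a * sM b) < 1)
    (hY : VM.valuation (hB ^ m - b * sM a) < 1) :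
    ∃ u v : EM, VM.valuation u = 1 ∧ VM.valuation v = 1 ∧
      Winf.valuation (sN (sN g) / g - A u ^ m) < 1 ∧
      W0.valuation (sN (sN g) / g - B v ^ m) < 1 := by
  obtain ⟨u, hu, hu'⟩ := ntwo_half_rel (sM := sM) (sN := sN) cAinf cB0 mem_VM mem_inf comm_A
    hginf hg0 hm ha hb hga hgb hX hY
  obtain ⟨v, hv, hv'⟩ := ntwo_half_rel (sM := sM) (sN := sN) cB0 cAinf mem_VM mem_zero comm_B
    hg0 hginf hm hb ha hgb hga hY hX
  exact ⟨u, v, hu, hv, hu', hv'⟩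

end Rel

end Fermat.Agent.S35
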