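/-
S35 — helper6 — **FINPIC, main statement (F2): the Kummer form of the finiteness of the
Frobenius-fixed class group.**

Setting: `k` algebraically closed, `κ / k(X)` finite separable (typeclass setting of
`FF/RR_helper3_*`), `φ : κ ≃+* κ` inducing `σ` on `k`, fixing the coordinate `xF k κ` and a place
`P₀`, every iterate `σ^[i]` (`i ≥ 1`) having finitely many fixed points.

`exists_pow_eq_pow_of_frobFixed` : for a prime `p` there is `c` such that for all `n` and all
`f ≠ 0` whose divisor is divisible by `p ^ n` and with `φ f / f` a `p ^ n`-th power, the function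
`f ^ (p ^ c)` is a `p ^ n`-th power.
-/
import Mathlib
import Fermat.Agent.S35.FINPIC_helper6_Fixed

set_option autoImplicit false
set_option linter.unusedSectionVars false
set_option linter.unusedVariables false
set_option linter.style.haveILetI false

namespace Fermat.Agent.S35

open Polynomial AlgebraicCurve IsDedekindDomain WithZero Module nonZeroDivisors FractionalIdeal
open Fermat.Agent.FF Fermat.Agent.FF.RR

variable {k κ : Type*} [Field k] [IsAlgClosed k] [Field κ] [Algebra k κ] [Algebra k[X] κ]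
  [Algebra (RatFunc k) κ] [IsScalarTower k[X] (RatFunc k) κ] [IsScalarTower k k[X] κ]
  [IsScalarTower k (RatFunc k) κ] [FiniteDimensional (RatFunc k) κ]
  [Algebra.IsSeparable (RatFunc k) κ]

local notation "B" => FunctionField.ringOfIntegers k κ
local notation "Binf" => ringAtInfty k κ

section Constants

theorem idFin_zero : idFin (0 : Divisor k κ) = 1 := by
  have h0 : finPart (0 : Divisor k κ) = 0 := by
    ext P; rfl
  rw [idFin, h0, neg_zero, Finsupp.prod_zero_index]

theorem idInf_zero : idInf (0 : Divisor k κ) = 1 := by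
  have h0 : infPart (0 : Divisor k κ) = 0 := by
    ext Q; rfl
  rw [idInf, h0, neg_zero, Finsupp.prod_zero_index]

/-- A function without zeros and poles is constant. -/
theorem finpic_exists_const_of_forall_ord_eq_zero {u : κ} (hu : ∀ v : Place k κ, v.ord u = 0) :
    ∃ c : k, u = algebraMap k κ c := by
  have h1 : u ∈ riemannRochSpace (0 : Divisor k κ) := by
    rw [mem_riemannRochSpace_iff]
    intro v
    right
    rw [hu v]
    simp
  rw [riemannRochSpace_eq_inf, idFin_zero, idInf_zero, finLat_one_inf_infLat_one,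
    Submodule.mem_span_singleton] at h1
  obtain ⟨c, hc⟩ := h1
  exact ⟨c, by rw [← hc, Algebra.smul_def, mul_one]⟩

end Constants

section Kummer

variable (φ : κ ≃+* κ) (σ : k ≃+* k)
  (h : ∀ c : k, φ (algebraMap k κ c) = algebraMap k κ (σ c))
  (hx : φ (xF k κ) = xF k κ)
  (hfix : ∀ i : ℕ, 1 ≤ i → {a : k | (⇑σ)^[i] a = a}.Finite)
  (P₀ : Place k κ) (hP₀ : semiMap φ σ h P₀ = P₀)

include hx hfix hP₀ in
/-- **(F2)** Kummer form of the finiteness of the Frobenius-fixed class group. -/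
theorem exists_pow_eq_pow_of_frobFixed (p : ℕ) (hp : p.Prime) :
    ∃ c : ℕ, ∀ (n : ℕ) (f : κ), f ≠ 0 → (∀ v : Place k κ, ((p : ℤ) ^ n) ∣ v.ord f) →
      (∃ g : κ, φ f = f * g ^ (p ^ n)) → ∃ h' : κ, f ^ (p ^ c) = h' ^ (p ^ n) := by
  classical
  obtain ⟨N, hN, hND⟩ := exists_nsmul_isPrincipal_of_frobFixed φ σ h hx hfix P₀ hP₀
  refine ⟨N, fun n f hf hdiv hφf => ?_⟩
  obtain ⟨g, hg⟩ := hφf
  have hpn0 : ((p : ℤ) ^ n) ≠ 0 := pow_ne_zero _ (by exact_mod_cast hp.ne_zero)
  have hpnpos : 0 < p ^ n := pow_pos hp.pos n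
  have hφf0 : φ f ≠ 0 := by simpa using hf
  have hg0 : g ≠ 0 := by
    rintro rfl
    rw [zero_pow hpnpos.ne', mul_zero] at hg
    exact hφf0 hg
  -- the divisor `E = (1 / p ^ n) div f`
  set E : Divisor k κ := Finsupp.mapRange (fun z : ℤ => z / (p : ℤ) ^ n) (by simp)
    (ffDivOf (k := k) f hf) with hE
  have hEv : ∀ v : Place k κ, (p : ℤ) ^ n * E v = v.ord f := by
    intro v
    rw [hE, Finsupp.mapRange_apply, ffDivOf_apply]
    exact Int.mul_ediv_cancel' (hdiv v)
  have hEdiv : (p ^ n) • E = ffDivOf (k := k) f hf := by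
    ext v
    rw [Finsupp.smul_apply, ffDivOf_apply, ← hEv v, nsmul_eq_mul]
    push_cast
    ring
  have hEdeg : Divisor.degree E = 0 := by
    have h1 : Divisor.degree ((p ^ n) • E) = 0 := by rw [hEdiv, degree_ffDivOf]
    rw [map_nsmul, nsmul_eq_mul] at h1
    rcases mul_eq_zero.mp h1 with h2 | h2
    · exfalso
      have : (p ^ n : ℕ) ≠ 0 := hpnpos.ne'
      exact this (by exact_mod_cast h2)
    · exact h2
  have hEφ : Divisor.IsPrincipal (semiPush φ σ h E - E) := by
    refine ⟨g, hg0, fun w => ?_⟩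
    rw [Finsupp.sub_apply, semiPush_apply]
    set w' := semiMap φ.symm σ.symm (semi_symm_apply φ σ h) w with hw'
    have h1 : w'.ord f = w.ord (φ f) := by
      have := ord_semiMap φ σ h w' f
      rw [hw', semiMap_semiMap_symm] at this
      exact this.symm
    have h2 : w.ord (φ f) = w.ord f + (p : ℤ) ^ n * w.ord g := by
      rw [hg, w.ord_mul hf (pow_ne_zero _ hg0), PlaceAux.ord_pow]
      push_cast
      ring
    have h3 : (p : ℤ) ^ n * (E w' - E w) = (p : ℤ) ^ n * w.ord g := by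
      rw [mul_sub, hEv w', hEv w, h1, h2]
      ring
    exact mul_left_cancel₀ hpn0 h3
  -- `N • E` and `p ^ n • E` are principal, hence so is `p ^ N • E`
  have h1 : Divisor.IsPrincipal (N • E) := hND E hEdeg hEφ
  have h2 : Divisor.IsPrincipal ((p ^ n) • E) := by
    rw [hEdiv]
    exact ⟨f, hf, fun v => rfl⟩
  have h3 : Divisor.IsPrincipal ((Nat.gcd N (p ^ n)) • E) := by
    have hb := Nat.gcd_eq_gcd_ab N (p ^ n)
    have h4 : ((Nat.gcd N (p ^ n) : ℕ) : ℤ) • E
        = (Nat.gcdA N (p ^ n)) • (N • E) + (Nat.gcdB N (p ^ n)) • ((p ^ n) • E) := by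
      rw [hb, add_smul, mul_comm (N : ℤ), mul_comm ((p ^ n : ℕ) : ℤ), mul_smul, mul_smul,
        natCast_zsmul, natCast_zsmul]
    rw [← natCast_zsmul, h4]
    exact (Divisor.principal (K := k) (F := κ)).add_mem
      ((Divisor.principal (K := k) (F := κ)).zsmul_mem h1 _)
      ((Divisor.principal (K := k) (F := κ)).zsmul_mem h2 _)
  obtain ⟨j, hjn, hj⟩ := (Nat.dvd_prime_pow hp).mp (Nat.gcd_dvd_right N (p ^ n))
  have hjN : j ≤ N := by
    have h4 : p ^ j ∣ N := hj ▸ Nat.gcd_dvd_left N (p ^ n)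
    have h5 : p ^ j ≤ N := Nat.le_of_dvd hN h4
    have h6 : j < p ^ j := Nat.lt_pow_self hp.one_lt
    omega
  have h4 : Divisor.IsPrincipal ((p ^ N) • E) := by
    have : p ^ N = p ^ j * p ^ (N - j) := by rw [← pow_add]; congr 1; omega
    rw [this, mul_nsmul, ← hj]
    exact isPrincipal_nsmul h3 _
  obtain ⟨h₁, hh₁0, hh₁⟩ := h4
  -- compare divisors
  have hord : ∀ v : Place k κ, v.ord (f ^ (p ^ N) / h₁ ^ (p ^ n)) = 0 := by
    intro v
    rw [PlaceAux.ord_div v (pow_ne_zero _ hf) (pow_ne_zero _ hh₁0), PlaceAux.ord_pow,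
      PlaceAux.ord_pow, ← hh₁ v, ← hEv v, Finsupp.smul_apply, nsmul_eq_mul]
    push_cast
    ring
  obtain ⟨c₀, hc₀⟩ := finpic_exists_const_of_forall_ord_eq_zero hord
  obtain ⟨c₁, hc₁⟩ := IsAlgClosed.exists_pow_nat_eq c₀ hpnpos
  refine ⟨algebraMap k κ c₁ * h₁, ?_⟩
  rw [mul_pow, ← map_pow, hc₁, ← hc₀, div_mul_cancel₀ _ (pow_ne_zero _ hh₁0)]

end Kummer

end Fermat.Agent.S35
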