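/-
S35 — helper8 — **(OCC): occurrence of the prime-to-`N` eigensystem of `g` at a lower level `M'`
produces a normalised eigenform of level `M'`**, i.e. the Prelude's
`CuspForm.GoodEigensystemOccursAt g M'` (the negation of which, for the proper divisors `M'` of `N`,
is the definition of a newform).  Pure assembly of helper2's (MULT1) package and of
`S49_Eigenform`.
-/
import Mathlib
import Fermat.Agent.GR.MULT1_helper2_Extra
import Fermat.Agent.S49_Eigenform
import Fermat.Prelude.Def_CuspForm_Newforms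

set_option autoImplicit false
set_option linter.unusedSectionVars false
set_option linter.style.haveILetI false

namespace Fermat.Agent.S35

open CongruenceSubgroup ModularFormClass Fermat.Agent.GR

/-- the primes not dividing `N`. -/
def primesNotDvd (N : ℕ) : Set Nat.Primes := {ℓ | ¬ (ℓ : ℕ) ∣ N}

/-- **(OCC)** -/
theorem goodEigensystemOccursAt_of_eigenParOn {N : ℕ} (g : CuspForm (Gamma0 N) 2)
    (M' : ℕ) [NeZero M']
    (h : eigenParOn M' ℂ (primesNotDvd N) (fun ℓ => qCoeff g (ℓ : ℕ)) ≠ ⊥) :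
    CuspForm.GoodEigensystemOccursAt g M' := by
  obtain ⟨a', ha', haσ⟩ := exists_eigenPar_of_eigenParOn h
  obtain ⟨f₀, hf₀, hf₀mem⟩ := exists_eigenForm_of_eigenPar_ne_bot ha'
  set lam : ℕ → ℂ := fun p => if hp : p.Prime then a' ⟨p, hp⟩ else 0 with hlam
  have hlamp : ∀ (p : ℕ) (hp : p.Prime), lam p = a' ⟨p, hp⟩ := fun p hp => dif_pos hp
  obtain ⟨g', hg', hg'q⟩ := Fermat.Agent.S49E.exists_isNormalizedEigenform_of_eigenvector f₀ hf₀ lam
    (fun p hp hpN => by
      have := hf₀mem ⟨p, hp⟩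
      rw [heckeOpP_of_not_dvd (ℓ := ⟨p, hp⟩) hpN] at this
      rw [hlamp p hp]
      exact this)
    (fun p hp hpN => by
      have := hf₀mem ⟨p, hp⟩
      rw [heckeOpP_of_dvd (ℓ := ⟨p, hp⟩) hpN] at this
      rw [hlamp p hp]
      exact this)
  refine ⟨g', hg', fun ℓ hℓ hℓN => ?_⟩
  rw [hg'q ℓ hℓ, hlamp ℓ hℓ]
  exact haσ ⟨ℓ, hℓ⟩ hℓN

/-- the contrapositive for newforms: the prime-to-`N` eigensystem of a newform of level `N` does
not occur in `Hom_par(Γ₀(N / q), ℂ)`. -/
theorem eigenParOn_eq_bot_of_isNewform {N : ℕ} [NeZero N] {g : CuspForm (Gamma0 N) 2}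
    (hg : g.IsNewform) {q : ℕ} (hq : q.Prime) (hqN : q ∣ N) [NeZero (N / q)] :
    eigenParOn (N / q) ℂ (primesNotDvd N) (fun ℓ => qCoeff g (ℓ : ℕ)) = ⊥ := by
  by_contra h
  exact (hg.isNewformAt hq hqN (NeZero.ne N)).2.2 (goodEigensystemOccursAt_of_eigenParOn g (N / q) h)

end Fermat.Agent.S35
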