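/-
S35 — helper4 — package (P1), instantiation: **the Kummer maps intertwine the degeneracy
pushforwards `α_*`, `β_* : J₀(M q) → J₀(M)` with the transfers of characters `xferAlpha`,
`xferBeta`** (`Γ₀(M q) → Γ₀(M)`), and the resulting `KapTransfer`s between the stage-(I) data of
levels `M q` and `M`.

* `realN_normAlong_heckeAlphaBar`, `realN_normAlong_heckeBetaBar` : the analytic norm formulas in
  `transferProd` form (lead's `realN_norm_heckeAlphaBar_of_not_dvd`, helper5's
  `realN_norm_heckeBetaBar_of_not_dvd`);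
* `kapOf_degPushAlpha`, `kapOf_degPushBeta` : `kap_M (φ_* x) = tr (kap_{M q} x)` on `n`-torsion;
* `kapTransferAlpha`, `kapTransferBeta` : the `KapTransfer`s.
-/
import Mathlib
import Fermat.Agent.S35.P1_lead_KapX
import Fermat.Agent.S35.P1_lead_Norm
import Fermat.Agent.GR.XFERD_helper4_AlphaT
import Fermat.Agent.GR.ASM_helper8_Done

set_option autoImplicit false
set_option linter.unusedSectionVars false
set_option linter.unusedVariables false
set_option linter.style.haveILetI false

open UpperHalfPlane hiding I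
open ModularCurve AlgebraicCurve CongruenceSubgroup ModularCurve.Period
open scoped MatrixGroups

namespace Fermat.Agent.S35

open Fermat.Agent.JA Fermat.Agent.X0N Fermat.Agent.GR

local notation "Ω" => AlgebraicClosure ℚ

attribute [local instance] algebraQbarComplex isScalarTower_rat_qbar_complex

variable (M q : ℕ) [NeZero M] [NeZero q] [NeZero (M * q)] {x y : ℤ}
  (h : (q : ℤ) * x + M * y = 1) (hq : q.Prime)

include h in
theorem not_dvd_of_bezout_nat (hq : q.Prime) : ¬ q ∣ M := by
  intro hd
  exact xferd_not_dvd_of_bezout M q h hq (Int.natCast_dvd_natCast.mpr hd)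

/-- **(N-α) the analytic norm formula along `α` in `transferProd` form** (representatives `1`,
`γ₁ T^b`). -/
theorem realN_normAlong_heckeAlphaBar (z : ↥(modularFunctionFieldBar (M * q))) :
    realN (algebraMap Ω ℂ) M (normAlong (heckeAlphaBar Ω M q) z) =
      transferProd (xferAlphaT M q h hq) (det_xferAlphaT_pos M q h hq)
        (realN (algebraMap Ω ℂ) (M * q) z) := by
  rw [transferProd_xferAlphaT]
  exact realN_norm_heckeAlphaBar_of_not_dvd (k := Ω) M q hq (not_dvd_of_bezout_nat M q h hq) h z

/-- **(N-β) the analytic norm formula along `β` in `transferProd` form.** -/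
theorem realN_normAlong_heckeBetaBar (z : ↥(modularFunctionFieldBar (M * q))) :
    realN (algebraMap Ω ℂ) M (normAlong (heckeBetaBar Ω M q) z) =
      transferProd (xferBeta M q h hq) (det_xferBeta_pos M q h hq)
        (realN (algebraMap Ω ℂ) (M * q) z) := by
  rw [transferProd_xferBeta]
  exact realN_norm_heckeBetaBar_of_not_dvd (k := Ω) M q hq (not_dvd_of_bezout_nat M q h hq) h z

section Kap

variable (B' : DescData (M * q)) (B : DescData M)

/-- **`kap_M (α_* x) = tr_α (kap_{M q} x)`** on `n`-torsion (representatives `1`, `γ₁ T^b`). -/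
theorem kapOf_degPushAlphaT (n : ℕ) [NeZero n] (x : ↥(torsionNat (JZero (M * q)) n)) :
    B.kapOf n (torsionNatMap₂ n (degPushAlpha M q) x) =
      (xferAlphaT M q h hq).transferGrp (ZMod n) (B'.kapOf n x) :=
  kapOf_degPush_of_transfer B' B (heckeAlphaBar Ω M q) (xferAlphaT M q h hq)
    (det_xferAlphaT_pos M q h hq) (fun _ => rfl) (fun _ => rfl)
    (realN_normAlong_heckeAlphaBar M q h hq) n x

/-- **`kap_M (α_* x) = tr_α (kap_{M q} x)`** on `n`-torsion. -/
theorem kapOf_degPushAlpha (n : ℕ) [NeZero n] (x : ↥(torsionNat (JZero (M * q)) n)) :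
    B.kapOf n (torsionNatMap₂ n (degPushAlpha M q) x) =
      (xferAlpha M q h hq).transferGrp (ZMod n) (B'.kapOf n x) := by
  rw [kapOf_degPushAlphaT M q h hq B' B, xferAlphaT_transferGrp_eq]

/-- **`kap_M (β_* x) = tr_β (kap_{M q} x)`** on `n`-torsion. -/
theorem kapOf_degPushBeta (n : ℕ) [NeZero n] (x : ↥(torsionNat (JZero (M * q)) n)) :
    B.kapOf n (torsionNatMap₂ n (degPushBeta M q) x) =
      (xferBeta M q h hq).transferGrp (ZMod n) (B'.kapOf n x) :=
  kapOf_degPush_of_transfer B' B (heckeBetaBar Ω M q) (xferBeta M q h hq)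
    (det_xferBeta_pos M q h hq) (fun _ => rfl) (fun _ => rfl)
    (realN_normAlong_heckeBetaBar M q h hq) n x

end Kap

section Transfer

variable (p : ℕ) [Fact p.Prime]

/-- **the `KapTransfer` of `α_*`** between the stage-(I) data of levels `M q` and `M`. -/
noncomputable def kapTransferAlpha :
    KapTransfer (stageIData (M * q) p).D (stageIData M p).D (degPushAlpha M q) where
  Xk k := (xferAlpha M q h hq).transferGrp (ZMod (p ^ k))
  X := (xferAlpha M q h hq).transferGrp ℤ_[p]
  red k ψ := ((xferAlpha M q h hq).transferGrp_comp _ ψ).symm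
  kap k x := kapOf_degPushAlpha M q h hq (descData (M * q)) (descData M) (p ^ k) x

/-- **the `KapTransfer` of `β_*`** between the stage-(I) data of levels `M q` and `M`. -/
noncomputable def kapTransferBeta :
    KapTransfer (stageIData (M * q) p).D (stageIData M p).D (degPushBeta M q) where
  Xk k := (xferBeta M q h hq).transferGrp (ZMod (p ^ k))
  X := (xferBeta M q h hq).transferGrp ℤ_[p]
  red k ψ := ((xferBeta M q h hq).transferGrp_comp _ ψ).symm
  kap k x := kapOf_degPushBeta M q h hq (descData (M * q)) (descData M) (p ^ k) x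

@[simp] theorem kapTransferAlpha_X (ψ : Additive ↥(Gamma0 (M * q)) →+ ℤ_[p]) :
    (kapTransferAlpha M q h hq p).X ψ = (xferAlpha M q h hq).transferGrp ℤ_[p] ψ := rfl

@[simp] theorem kapTransferAlpha_Xk (k : ℕ) (ψ : Additive ↥(Gamma0 (M * q)) →+ ZMod (p ^ k)) :
    (kapTransferAlpha M q h hq p).Xk k ψ = (xferAlpha M q h hq).transferGrp (ZMod (p ^ k)) ψ :=
  rfl

@[simp] theorem kapTransferBeta_X (ψ : Additive ↥(Gamma0 (M * q)) →+ ℤ_[p]) :
    (kapTransferBeta M q h hq p).X ψ = (xferBeta M q h hq).transferGrp ℤ_[p] ψ := rfl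

@[simp] theorem kapTransferBeta_Xk (k : ℕ) (ψ : Additive ↥(Gamma0 (M * q)) →+ ZMod (p ^ k)) :
    (kapTransferBeta M q h hq p).Xk k ψ = (xferBeta M q h hq).transferGrp (ZMod (p ^ k)) ψ :=
  rfl

end Transfer

end Fermat.Agent.S35
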