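/-
S35 — lead — package (P1), part 5: **flat base change of the common kernel of two transfers.**
`R → R'` flat, `X₁, X₂ : P_R(Γ') → P_R(Γ)` linear with `R'`-linear extensions `X₁', X₂'`
(compatible with `parMapAlg`).  If an endomorphism `g` of `P_R(Γ')` kills `ker X₁ ∩ ker X₂` then
its extension `parExt g` kills `ker X₁' ∩ ker X₂'`.
-/
import Mathlib
import Fermat.Agent.GR.BETTI_lead_BaseChange

set_option autoImplicit false
set_option linter.unusedSectionVars false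
set_option linter.unusedVariables false
set_option linter.style.haveILetI false

namespace Fermat.Agent.S35

open TensorProduct ModularCurve.Period Fermat.Agent.GR

open scoped MatrixGroups

section Flat

variable (R R' : Type*) [CommRing R] [CommRing R'] [Algebra R R'] [IsAddTorsionFree R]
  [IsAddTorsionFree R'] [Module.Flat R R']
  (Γ' Γ : Subgroup SL(2, ℤ)) [Group.FG Γ'] [Group.FG Γ]

variable {R R' Γ' Γ}
  (X₁ X₂ : ↥(parabolicHoms R Γ' R) →ₗ[R] ↥(parabolicHoms R Γ R))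
  (X₁' X₂' : ↥(parabolicHoms R' Γ' R') →ₗ[R'] ↥(parabolicHoms R' Γ R'))
  (h₁ : ∀ ψ, X₁' (parMapAlg R R' Γ' ψ) = parMapAlg R R' Γ (X₁ ψ))
  (h₂ : ∀ ψ, X₂' (parMapAlg R R' Γ' ψ) = parMapAlg R R' Γ (X₂ ψ))

/-- the comparison `R' ⊗ (P × P) ≃ P' × P'`. -/
noncomputable def prodBC : R' ⊗[R] (↥(parabolicHoms R Γ R) × ↥(parabolicHoms R Γ R)) ≃ₗ[R']
    ↥(parabolicHoms R' Γ R') × ↥(parabolicHoms R' Γ R') :=
  (TensorProduct.prodRight R R' R' ↥(parabolicHoms R Γ R) ↥(parabolicHoms R Γ R)).trans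
    ((parBC R R' Γ).prodCongr (parBC R R' Γ))

include h₁ h₂ in
theorem prodBC_comp_lTensor :
    (prodBC (R := R) (R' := R') (Γ := Γ)).toLinearMap ∘ₗ
        AlgebraTensorModule.lTensor R' R' (X₁.prod X₂) =
      (X₁'.prod X₂') ∘ₗ (parBC R R' Γ').toLinearMap := by
  apply TensorProduct.AlgebraTensorModule.ext
  intro c ψ
  show prodBC (R := R) (R' := R') (Γ := Γ)
      (AlgebraTensorModule.lTensor R' R' (X₁.prod X₂) (c ⊗ₜ[R] ψ)) =
    (X₁' (parBC R R' Γ' (c ⊗ₜ[R] ψ)), X₂' (parBC R R' Γ' (c ⊗ₜ[R] ψ)))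
  rw [AlgebraTensorModule.lTensor_tmul, parBC_tmul, map_smul, map_smul, h₁, h₂]
  show ((parBC R R' Γ).prodCongr (parBC R R' Γ))
    (TensorProduct.prodRight R R' R' _ _ (c ⊗ₜ[R] (X₁.prod X₂) ψ)) = _
  rw [TensorProduct.prodRight_tmul]
  rfl

include h₁ h₂ in
theorem prodBC_lTensor (x : R' ⊗[R] ↥(parabolicHoms R Γ' R)) :
    prodBC (R := R) (R' := R') (Γ := Γ)
      (AlgebraTensorModule.lTensor R' R' (X₁.prod X₂) x) =
      (X₁' (parBC R R' Γ' x), X₂' (parBC R R' Γ' x)) :=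
  LinearMap.congr_fun (prodBC_comp_lTensor X₁ X₂ X₁' X₂' h₁ h₂) x

/-- `parExt g` kills the image of `R' ⊗ ker`. -/
theorem parExt_apply_lTensor_ker (g : Module.End R ↥(parabolicHoms R Γ' R))
    (hg : ∀ ψ, X₁ ψ = 0 → X₂ ψ = 0 → g ψ = 0)
    (y : R' ⊗[R] ↥(LinearMap.ker (X₁.prod X₂))) :
    parExt R R' Γ' g (parBC R R' Γ'
      (AlgebraTensorModule.lTensor R' R' (LinearMap.ker (X₁.prod X₂)).subtype y)) = 0 := by
  have key : (parExt R R' Γ' g) ∘ₗ (parBC R R' Γ').toLinearMap ∘ₗ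
      AlgebraTensorModule.lTensor R' R' (LinearMap.ker (X₁.prod X₂)).subtype = 0 := by
    apply TensorProduct.AlgebraTensorModule.ext
    intro c ψ
    show parExt R R' Γ' g (parBC R R' Γ'
      (AlgebraTensorModule.lTensor R' R' (LinearMap.ker (X₁.prod X₂)).subtype (c ⊗ₜ[R] ψ))) = 0
    rw [AlgebraTensorModule.lTensor_tmul, parBC_tmul, parExt_smul_parMapAlg]
    have hψ := ψ.2
    rw [LinearMap.mem_ker, LinearMap.prod_apply, Prod.mk_eq_zero] at hψ
    rw [Submodule.subtype_apply, hg ψ.1 hψ.1 hψ.2, map_zero, smul_zero]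
  exact LinearMap.congr_fun key y

include h₁ h₂ in
/-- **the extension of `g` kills the common kernel of the extended transfers.** -/
theorem parExt_apply_eq_zero_of_ker (g : Module.End R ↥(parabolicHoms R Γ' R))
    (hg : ∀ ψ, X₁ ψ = 0 → X₂ ψ = 0 → g ψ = 0)
    (v : ↥(parabolicHoms R' Γ' R')) (hv₁ : X₁' v = 0) (hv₂ : X₂' v = 0) :
    parExt R R' Γ' g v = 0 := by
  obtain ⟨x, rfl⟩ := (parBC R R' Γ').surjective v
  have hx : x ∈ LinearMap.ker (AlgebraTensorModule.lTensor R' R' (X₁.prod X₂)) := by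
    rw [LinearMap.mem_ker]
    apply (prodBC (R := R) (R' := R') (Γ := Γ)).injective
    rw [prodBC_lTensor X₁ X₂ X₁' X₂' h₁ h₂, hv₁, hv₂, map_zero]
    rfl
  rw [Module.Flat.ker_lTensor_eq] at hx
  obtain ⟨y, rfl⟩ := hx
  exact parExt_apply_lTensor_ker X₁ X₂ g hg y

end Flat

end Fermat.Agent.S35
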