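/-
S35 — helper8 — **the interface of the Frobenius route to S35** (no inertia invariants, no descent).

For `q ∤ M`, `p ≠ q` and a Frobenius lift `φ` at a place `A ∣ q` of `Ω`, on the `p`-power torsion of
`J₀(M q)` killed by both degeneracy pushforwards `J₀(M q) → J₀(M)` the operator
`(φ ^ r - q ^ r) (φ ^ 2 - 1) (φ - 1)` vanishes up to a bounded power of `p`, for a uniform `r ≥ 1`.

* `frobPolyAct q r φ x = (φ ^ r - q ^ r) (φ ^ 2 - 1) (φ - 1) x`;
* `KeyFrob M q p`, `KeyFrobStatement`.
-/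
import Mathlib
import Fermat.Agent.S35.KEY_lead_Iface

set_option autoImplicit false
set_option linter.unusedSectionVars false
set_option linter.unusedVariables false

open AlgebraicCurve ModularCurve

namespace Fermat.Agent.S35

/-- `Ω = AlgebraicClosure ℚ`. -/
local notation "Ω" => AlgebraicClosure ℚ

/-- the absolute Galois group. -/
local notation "GQ" => (AlgebraicClosure ℚ ≃ₐ[ℚ] AlgebraicClosure ℚ)

section Act

variable {G J : Type*} [Group G] [AddCommGroup J] [DistribMulAction G J]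

/-- `(φ - 1) x`. -/
def frobSubOne (φ : G) (x : J) : J := φ • x - x

/-- `(φ ^ 2 - 1) x`. -/
def frobSqSubOne (φ : G) (x : J) : J := φ • φ • x - x

/-- `(φ ^ r - q ^ r) x`. -/
def frobPowSub (q r : ℕ) (φ : G) (x : J) : J := φ ^ r • x - (q ^ r) • x

/-- `(φ ^ r - q ^ r) (φ ^ 2 - 1) (φ - 1) x`. -/
def frobPolyAct (q r : ℕ) (φ : G) (x : J) : J :=
  frobPowSub q r φ (frobSqSubOne φ (frobSubOne φ x))

theorem frobSubOne_add (φ : G) (x y : J) :
    frobSubOne φ (x + y) = frobSubOne φ x + frobSubOne φ y := by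
  unfold frobSubOne; rw [smul_add]; abel

theorem frobSqSubOne_add (φ : G) (x y : J) :
    frobSqSubOne φ (x + y) = frobSqSubOne φ x + frobSqSubOne φ y := by
  unfold frobSqSubOne; rw [smul_add, smul_add]; abel

theorem frobPowSub_add (q r : ℕ) (φ : G) (x y : J) :
    frobPowSub q r φ (x + y) = frobPowSub q r φ x + frobPowSub q r φ y := by
  unfold frobPowSub; rw [smul_add, smul_add]; abel

theorem frobPolyAct_add (q r : ℕ) (φ : G) (x y : J) :
    frobPolyAct q r φ (x + y) = frobPolyAct q r φ x + frobPolyAct q r φ y := by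
  unfold frobPolyAct; rw [frobSubOne_add, frobSqSubOne_add, frobPowSub_add]

theorem frobSubOne_nsmul (φ : G) (n : ℕ) (x : J) :
    frobSubOne φ (n • x) = n • frobSubOne φ x := by
  unfold frobSubOne; rw [smul_comm φ n x, smul_sub]

theorem frobSqSubOne_nsmul (φ : G) (n : ℕ) (x : J) :
    frobSqSubOne φ (n • x) = n • frobSqSubOne φ x := by
  unfold frobSqSubOne; rw [smul_comm φ n x, smul_comm φ n (φ • x), smul_sub]

theorem frobPowSub_nsmul (q r : ℕ) (φ : G) (n : ℕ) (x : J) :
    frobPowSub q r φ (n • x) = n • frobPowSub q r φ x := by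
  unfold frobPowSub; rw [smul_comm (φ ^ r) n x, smul_comm (q ^ r) n x, smul_sub]

theorem frobPolyAct_nsmul (q r : ℕ) (φ : G) (n : ℕ) (x : J) :
    frobPolyAct q r φ (n • x) = n • frobPolyAct q r φ x := by
  unfold frobPolyAct; rw [frobSubOne_nsmul, frobSqSubOne_nsmul, frobPowSub_nsmul]

end Act

/-- **(KEY-FROB)**: on the `p`-power torsion of `J₀(M q)` killed by both degeneracy pushforwards,
every Frobenius lift `φ` at `q` satisfies `(φ ^ r - q ^ r) (φ ^ 2 - 1) (φ - 1) = 0`, up to a bounded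
power of `p`; `r ≥ 1` is uniform. -/
def KeyFrob (M q p : ℕ) [NeZero M] [NeZero q] [NeZero (M * q)] : Prop :=
  ∃ c r : ℕ, 0 < r ∧ ∀ A : ValuationSubring Ω, A.LiesOverPrime q →
    ∀ φ : GQ, A.IsFrobeniusAt φ q →
      ∀ (k : ℕ) (x : JZero (M * q)), p ^ k • x = 0 →
        degPushAlpha M q x = 0 → degPushBeta M q x = 0 →
          p ^ c • frobPolyAct q r φ x = 0

/-- **the geometric input of the Frobenius route, all levels**. -/
def KeyFrobStatement : Prop :=
  ∀ (M q p : ℕ) [NeZero M] [NeZero q] [NeZero (M * q)], q.Prime → p.Prime → q ≠ p → ¬ q ∣ M →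
    KeyFrob M q p

end Fermat.Agent.S35
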