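/-
S35 — lead — package (P1), part 4: **two levels, abstractly.**  Two Kummer data `D'` (on `J'`, `Γ'`)
and `D` (on `J`, `Γ`), an additive map `π : J' → J` and a natural transfer of characters `X`
intertwined by the Kummer maps.  Then `X (Φ' x) = Φ (π x)` on Tate modules; consequently an
endomorphism of `J'` which kills the `p`-power torsion points killed by `π₁`, `π₂` has a transport
which kills the `ψ` with `X₁ ψ = X₂ ψ = 0`.
-/
import Mathlib
import Fermat.Agent.GR.TATE_lead_Gal

set_option autoImplicit false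
set_option linter.unusedSectionVars false
set_option linter.unusedVariables false
set_option linter.style.haveILetI false

namespace Fermat.Agent.S35

open ModularCurve.Period Fermat.Agent.GR

open scoped MatrixGroups

/-- an additive map preserves torsion (two-group version of `torsionNat.map`). -/
def torsionNatMap₂ {J J' : Type*} [AddCommGroup J] [AddCommGroup J'] (n : ℕ) (f : J →+ J') :
    ↥(torsionNat J n) →+ ↥(torsionNat J' n) where
  toFun x := ⟨f x.1, by
    show n • f x.1 = 0
    rw [← map_nsmul, mem_torsionNat.mp x.2, map_zero]⟩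
  map_zero' := Subtype.ext (map_zero f)
  map_add' x y := Subtype.ext (map_add f x.1 y.1)

@[simp] theorem torsionNatMap₂_coe {J J' : Type*} [AddCommGroup J] [AddCommGroup J'] (n : ℕ)
    (f : J →+ J') (x : ↥(torsionNat J n)) :
    ((torsionNatMap₂ n f x : ↥(torsionNat J' n)) : J') = f x.1 := rfl

section Two

variable {J' J : Type*} [AddCommGroup J'] [AddCommGroup J] {Γ' Γ : Subgroup SL(2, ℤ)}
  {p : ℕ} [hp : Fact p.Prime] (D' : KapData J' Γ' p) (D : KapData J Γ p)

/-- **a transfer intertwined by the Kummer maps**: `π : J' → J` and maps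
`Xk k : Hom(Γ', ℤ/p^k) → Hom(Γ, ℤ/p^k)`, `X : Hom(Γ', ℤ_p) → Hom(Γ, ℤ_p)` compatible with the
reductions, such that `kap_k (π x) = Xk k (kap'_k x)`. -/
structure KapTransfer (π : J' →+ J) where
  /-- the transfer on `ℤ/p^k`-valued characters -/
  Xk : ∀ k : ℕ, (Additive ↥Γ' →+ ZMod (p ^ k)) → (Additive ↥Γ →+ ZMod (p ^ k))
  /-- the transfer on `ℤ_p`-valued characters -/
  X : (Additive ↥Γ' →+ ℤ_[p]) → (Additive ↥Γ →+ ℤ_[p])
  red : ∀ k (ψ : Additive ↥Γ' →+ ℤ_[p]), (PadicInt.toZModPow k).toAddMonoidHom.comp (X ψ) =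
    Xk k ((PadicInt.toZModPow k).toAddMonoidHom.comp ψ)
  kap : ∀ k (x : ↥(torsionNat J' (p ^ k))),
    D.kap k (torsionNatMap₂ (p ^ k) π x) = Xk k (D'.kap k x)

variable {D' D}

namespace KapTransfer

variable {π : J' →+ J} (T : KapTransfer D' D π)

/-- if `X (Φ' x) = 0` then `π` kills all components of `x`. -/
theorem map_comp_eq_zero (x : ↥(TateSeq J' p)) (h : T.X (D'.phi x).1 = 0) (k : ℕ) :
    π (x.1 k) = 0 := by
  have h1 : D.kap k (torsionNatMap₂ (p ^ k) π (TateSeq.comp k x)) = 0 := by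
    rw [T.kap k, ← D'.toZModPow_comp_phi x k, ← T.red k, h]
    exact AddMonoidHom.comp_zero _
  have h2 := D.inj k (h1.trans (map_zero (D.kap k)).symm)
  exact congrArg Subtype.val h2

end KapTransfer

/-- **the key transport lemma**: an endomorphism `f` of `J'` killing the `p`-power torsion points
killed by `π₁` and `π₂` has a transport killing the `ψ` with `X₁ ψ = X₂ ψ = 0`. -/
theorem transport_apply_eq_zero_of_kapTransfer {π₁ π₂ : J' →+ J} (T₁ : KapTransfer D' D π₁)
    (T₂ : KapTransfer D' D π₂) (f : AddMonoid.End J')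
    (hf : ∀ (k : ℕ) (x : J'), p ^ k • x = 0 → π₁ x = 0 → π₂ x = 0 → f x = 0)
    (ψ : ↥(parabolicHoms ℤ_[p] Γ' ℤ_[p])) (h₁ : T₁.X ψ.1 = 0) (h₂ : T₂.X ψ.1 = 0) :
    D'.transport f ψ = 0 := by
  obtain ⟨x, rfl⟩ := D'.phi_surjective ψ
  rw [KapData.transport_phi]
  have hz : TateSeq.map p f x = 0 := by
    apply Subtype.ext
    funext k
    show f (x.1 k) = 0
    exact hf k (x.1 k) (TateSeq.pow_smul x k) (T₁.map_comp_eq_zero x h₁ k)
      (T₂.map_comp_eq_zero x h₂ k)
  rw [hz, map_zero]

end Two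

end Fermat.Agent.S35
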