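/-
S35 — lead — package [T2], part 1: generic algebra.  Restriction of the polynomial identity
`(f ^ r - c) (f ^ 2 - 1) (f - 1) = 0` to a stable submodule, and its transport along ring
homomorphisms of endomorphism rings.
-/
import Mathlib

set_option autoImplicit false
set_option linter.unusedSectionVars false
set_option linter.unusedVariables false

namespace Fermat.Agent.S35

section Restrict

variable {R V : Type*} [CommRing R] [AddCommGroup V] [Module R V] (Λ : Submodule R V)
  (f : Module.End R V) (hf : ∀ m ∈ Λ, f m ∈ Λ)

theorem coe_restrict_pow_apply (n : ℕ) (v : ↥Λ) :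
    (((f.restrict hf) ^ n) v : V) = (f ^ n) (v : V) := by
  induction n generalizing v with
  | zero => rfl
  | succ n ih =>
    rw [pow_succ, pow_succ, Module.End.mul_apply, Module.End.mul_apply, ih]
    rfl

/-- **restriction of the Frobenius polynomial identity to a stable submodule.** -/
theorem restrict_frobPoly_eq_zero (c : R) (r : ℕ)
    (h : ∀ v ∈ Λ, ((f ^ r - c • (1 : Module.End R V)) * (f ^ 2 - 1) * (f - 1) :
      Module.End R V) v = 0) :
    ((f.restrict hf) ^ r - c • (1 : Module.End R ↥Λ)) * ((f.restrict hf) ^ 2 - 1) *
      (f.restrict hf - 1) = 0 := by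
  apply LinearMap.ext
  intro v
  apply Subtype.ext
  have key := h v.1 v.2
  simp only [Module.End.mul_apply, LinearMap.sub_apply, LinearMap.smul_apply,
    Module.End.one_apply, map_sub] at key ⊢
  simp only [Submodule.coe_sub, Submodule.coe_smul, coe_restrict_pow_apply,
    LinearMap.coe_restrict_apply, LinearMap.zero_apply, Submodule.coe_zero]
  exact key

end Restrict

section RingHom

variable {E E' : Type*} [Ring E] [Ring E'] (Φ : E →+* E')

/-- the Frobenius polynomial with a natural-number constant, under a ring homomorphism. -/
theorem map_frobPolyNat (g : E) (n r : ℕ) :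
    Φ ((g ^ r - (n : E)) * (g ^ 2 - 1) * (g - 1)) =
      ((Φ g) ^ r - (n : E')) * ((Φ g) ^ 2 - 1) * (Φ g - 1) := by
  rw [map_mul, map_mul, map_sub, map_sub, map_sub, map_pow, map_pow, map_natCast, map_one]

end RingHom

end Fermat.Agent.S35
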