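/-
S35 — lead — package [T2], part 2: **the Frobenius polynomial identity on the eigenlattice of a
system of eigenvalues which is new at `q`**, from (KEY-FROB), for abstract transfer data.
-/
import Mathlib
import Fermat.Agent.S35.T2_lead_Alg
import Fermat.Agent.S35.P1_lead_Two
import Fermat.Agent.S35.P1_lead_Flat
import Fermat.Agent.S35.KEYFROB_helper8_Iface
import Fermat.Agent.S35.OCC_helper8
import Fermat.Agent.GR.TOP_lead_Rep
import Fermat.Agent.GR.XFERD_helper4_Abstract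

set_option autoImplicit false
set_option linter.unusedSectionVars false
set_option linter.unusedVariables false
set_option linter.style.haveILetI false

open CongruenceSubgroup ModularCurve ModularCurve.Period

open scoped MatrixGroups

namespace Fermat.Agent.S35

open Fermat.Agent.GR Fermat.Agent.X0N Fermat.Agent.JA

local notation "Ω" => AlgebraicClosure ℚ
local notation "GQ" => (AlgebraicClosure ℚ ≃ₐ[ℚ] AlgebraicClosure ℚ)

/-! ### the action of the Frobenius polynomial as an endomorphism -/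

section Act

variable {J : Type*} [AddCommGroup J] [DistribMulAction GQ J]

/-- the endomorphism `n (φ ^ r - m) (φ ^ 2 - 1) (φ - 1)` of `J`. -/
noncomputable def frobPolyEnd (n m r : ℕ) (φ : GQ) : AddMonoid.End J :=
  (n : AddMonoid.End J) *
    (((DistribMulAction.toAddMonoidEnd GQ J φ) ^ r - (m : AddMonoid.End J)) *
      ((DistribMulAction.toAddMonoidEnd GQ J φ) ^ 2 - 1) *
      (DistribMulAction.toAddMonoidEnd GQ J φ - 1))

theorem frobPolyEnd_apply (n q r : ℕ) (φ : GQ) (x : J) :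
    frobPolyEnd n (q ^ r) r φ x = n • frobPolyAct q r φ x := by
  set Φ : AddMonoid.End J := DistribMulAction.toAddMonoidEnd GQ J φ with hΦ
  have e1 : ∀ y : J, (Φ - 1 : AddMonoid.End J) y = φ • y - y := fun y => rfl
  have e2 : ∀ y : J, (Φ ^ 2 - 1 : AddMonoid.End J) y = φ • φ • y - y := by
    intro y
    rw [pow_two]
    rfl
  have e3 : ∀ y : J, (Φ ^ r - ((q ^ r : ℕ) : AddMonoid.End J) : AddMonoid.End J) y =
      φ ^ r • y - (q ^ r) • y := by
    intro y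
    rw [hΦ, ← map_pow]
    show (DistribMulAction.toAddMonoidEnd GQ J (φ ^ r)) y - ((q ^ r : ℕ) : AddMonoid.End J) y = _
    rw [AddMonoid.End.natCast_apply]
    rfl
  show (n : AddMonoid.End J) ((Φ ^ r - ((q ^ r : ℕ) : AddMonoid.End J) : AddMonoid.End J)
    ((Φ ^ 2 - 1 : AddMonoid.End J) ((Φ - 1 : AddMonoid.End J) x))) = _
  rw [AddMonoid.End.natCast_apply, e1, e2, e3]
  rfl

end Act

/-! ### the `ℤ_p`-level -/

section PLevel

variable {M₀ q p : ℕ} [NeZero M₀] [NeZero q] [NeZero (M₀ * q)] [hp : Fact p.Prime]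
  (D' : KapData (JZero (M₀ * q)) (Gamma0 (M₀ * q)) p) (D₀ : KapData (JZero M₀) (Gamma0 M₀) p)

/-- the parabolic homs with values in `ℤ_p` have no `ℕ`-torsion. -/
theorem parabolicHoms_nsmul_eq_zero {Γ : Subgroup SL(2, ℤ)} {n : ℕ} (hn : n ≠ 0)
    {ψ : ↥(parabolicHoms ℤ_[p] Γ ℤ_[p])} (h : n • ψ = 0) : ψ = 0 := by
  apply Subtype.ext
  refine AddMonoidHom.ext fun γ => ?_
  have h1 : (n • ψ).1 γ = 0 := by rw [h]; rfl
  have h2 : (n • ψ).1 γ = n • ψ.1 γ := rfl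
  rw [h2, nsmul_eq_mul] at h1
  rcases mul_eq_zero.mp h1 with h3 | h3
  · exact absurd (by exact_mod_cast h3) hn
  · exact h3

variable {D' D₀}

/-- **(KEY-FROB) on `P' = Hom_par(Γ₀(M₀ q), ℤ_p)`**: the Frobenius polynomial in `ρ(φ)` kills the
common kernel of the two transfers. -/
theorem rho_frobPoly_apply_eq_zero (Tα : KapTransfer D' D₀ (degPushAlpha M₀ q))
    (Tβ : KapTransfer D' D₀ (degPushBeta M₀ q)) {c r : ℕ} {φ : GQ}
    (hkey : ∀ (k : ℕ) (x : JZero (M₀ * q)), p ^ k • x = 0 → degPushAlpha M₀ q x = 0 →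
      degPushBeta M₀ q x = 0 → p ^ c • frobPolyAct q r φ x = 0)
    (ψ : ↥(parabolicHoms ℤ_[p] (Gamma0 (M₀ * q)) ℤ_[p])) (hα : Tα.X ψ.1 = 0)
    (hβ : Tβ.X ψ.1 = 0) :
    ((D'.rho φ ^ r - ((q ^ r : ℕ) : Module.End ℤ_[p] _)) * (D'.rho φ ^ 2 - 1) *
      (D'.rho φ - 1) : Module.End ℤ_[p] ↥(parabolicHoms ℤ_[p] (Gamma0 (M₀ * q)) ℤ_[p])) ψ = 0 := by
  have h1 := transport_apply_eq_zero_of_kapTransfer Tα Tβ
    (frobPolyEnd (p ^ c) (q ^ r) r φ) (fun k x hx h2 h3 => by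
      rw [frobPolyEnd_apply]
      exact hkey k x hx h2 h3) ψ hα hβ
  have h2 : D'.transport (frobPolyEnd (p ^ c) (q ^ r) r φ) =
      ((p ^ c : ℕ) : Module.End ℤ_[p] _) *
        ((D'.rho φ ^ r - ((q ^ r : ℕ) : Module.End ℤ_[p] _)) * (D'.rho φ ^ 2 - 1) *
          (D'.rho φ - 1)) := by
    unfold frobPolyEnd
    rw [map_mul, map_natCast, map_frobPolyNat]
    rfl
  rw [h2, Module.End.mul_apply, Module.End.natCast_apply] at h1
  exact parabolicHoms_nsmul_eq_zero (pow_ne_zero c hp.out.ne_zero) h1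

end PLevel

/-! ### transfers on parabolic homs -/

section XferPar

variable {Γ' Γ : Subgroup SL(2, ℤ)} {ι : Type*} [Fintype ι]
  (X : TransferDatum ↥Γ' ↥Γ (GL (Fin 2) ℝ) ι)

/-- the transfer on parabolic homomorphisms with values in a ring `R`. -/
noncomputable def xferPar (R : Type*) [CommRing R]
    (h : ∀ ψ ∈ parabolicHoms R Γ' R, X.transferGrp R ψ ∈ parabolicHoms R Γ R) :
    ↥(parabolicHoms R Γ' R) →ₗ[R] ↥(parabolicHoms R Γ R) :=
  ((X.transferGrpₗ R R).domRestrict (parabolicHoms R Γ' R)).codRestrict (parabolicHoms R Γ R)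
    (fun ψ => h ψ.1 ψ.2)

@[simp] theorem coe_xferPar (R : Type*) [CommRing R]
    (h : ∀ ψ ∈ parabolicHoms R Γ' R, X.transferGrp R ψ ∈ parabolicHoms R Γ R)
    (ψ : ↥(parabolicHoms R Γ' R)) : (xferPar X R h ψ).1 = X.transferGrp R ψ.1 := rfl

theorem xferPar_parMapAlg (R R' : Type*) [CommRing R] [CommRing R'] [Algebra R R']
    (h : ∀ ψ ∈ parabolicHoms R Γ' R, X.transferGrp R ψ ∈ parabolicHoms R Γ R)
    (h' : ∀ ψ ∈ parabolicHoms R' Γ' R', X.transferGrp R' ψ ∈ parabolicHoms R' Γ R')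
    (ψ : ↥(parabolicHoms R Γ' R)) :
    xferPar X R' h' (parMapAlg R R' Γ' ψ) = parMapAlg R R' Γ (xferPar X R h ψ) := by
  apply Subtype.ext
  exact X.transferGrp_comp (algebraMap R R').toAddMonoidHom ψ.1

end XferPar

/-! ### the `B`-level -/

section BLevel

variable {M₀ q p : ℕ} [NeZero M₀] [NeZero q] [NeZero (M₀ * q)] [hp : Fact p.Prime]
  (D' : KapData (JZero (M₀ * q)) (Gamma0 (M₀ * q)) p) (D₀ : KapData (JZero M₀) (Gamma0 M₀) p)
  {ι : Type*} [Fintype ι]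
  (Xα Xβ : TransferDatum ↥(Gamma0 (M₀ * q)) ↥(Gamma0 M₀) (GL (Fin 2) ℝ) ι)

/-- the `KapTransfer` of a transfer datum intertwined by the Kummer maps. -/
noncomputable def kapTransferOf (X : TransferDatum ↥(Gamma0 (M₀ * q)) ↥(Gamma0 M₀) (GL (Fin 2) ℝ) ι)
    (π : JZero (M₀ * q) →+ JZero M₀)
    (hk : ∀ (k : ℕ) (x : ↥(torsionNat (JZero (M₀ * q)) (p ^ k))),
      D₀.kap k (torsionNatMap₂ (p ^ k) π x) = X.transferGrp (ZMod (p ^ k)) (D'.kap k x)) :
    KapTransfer D' D₀ π where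
  Xk k := X.transferGrp (ZMod (p ^ k))
  X := X.transferGrp ℤ_[p]
  red k ψ := (X.transferGrp_comp _ ψ).symm
  kap := hk

variable (B : Type) [CommRing B] [IsDomain B] [CharZero B] [Algebra ℤ_[p] B]
  [Module.Flat ℤ_[p] B]

/-- **(KEY-FROB) on `Hom_par(Γ₀(M₀ q), B)`**. -/
theorem parExt_frobPoly_apply_eq_zero
    (hkα : ∀ (k : ℕ) (x : ↥(torsionNat (JZero (M₀ * q)) (p ^ k))),
      D₀.kap k (torsionNatMap₂ (p ^ k) (degPushAlpha M₀ q) x) =
        Xα.transferGrp (ZMod (p ^ k)) (D'.kap k x))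
    (hkβ : ∀ (k : ℕ) (x : ↥(torsionNat (JZero (M₀ * q)) (p ^ k))),
      D₀.kap k (torsionNatMap₂ (p ^ k) (degPushBeta M₀ q) x) =
        Xβ.transferGrp (ZMod (p ^ k)) (D'.kap k x))
    (hparα : ∀ (R : Type) [CommRing R], ∀ ψ ∈ parabolicHoms R (Gamma0 (M₀ * q)) R,
      Xα.transferGrp R ψ ∈ parabolicHoms R (Gamma0 M₀) R)
    (hparβ : ∀ (R : Type) [CommRing R], ∀ ψ ∈ parabolicHoms R (Gamma0 (M₀ * q)) R,
      Xβ.transferGrp R ψ ∈ parabolicHoms R (Gamma0 M₀) R)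
    {c r : ℕ} {φ : GQ}
    (hkey : ∀ (k : ℕ) (x : JZero (M₀ * q)), p ^ k • x = 0 → degPushAlpha M₀ q x = 0 →
      degPushBeta M₀ q x = 0 → p ^ c • frobPolyAct q r φ x = 0)
    (v : ↥(parabolicHoms B (Gamma0 (M₀ * q)) B)) (hvα : Xα.transferGrp B v.1 = 0)
    (hvβ : Xβ.transferGrp B v.1 = 0) :
    ((parExt ℤ_[p] B (Gamma0 (M₀ * q)) (D'.rho φ) ^ r - ((q ^ r : ℕ) : Module.End B _)) *
      (parExt ℤ_[p] B (Gamma0 (M₀ * q)) (D'.rho φ) ^ 2 - 1) *
      (parExt ℤ_[p] B (Gamma0 (M₀ * q)) (D'.rho φ) - 1) :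
        Module.End B ↥(parabolicHoms B (Gamma0 (M₀ * q)) B)) v = 0 := by
  rw [← map_frobPolyNat (parExt ℤ_[p] B (Gamma0 (M₀ * q)))]
  refine parExt_apply_eq_zero_of_ker (xferPar Xα ℤ_[p] (hparα ℤ_[p]))
    (xferPar Xβ ℤ_[p] (hparβ ℤ_[p])) (xferPar Xα B (hparα B)) (xferPar Xβ B (hparβ B))
    (xferPar_parMapAlg Xα ℤ_[p] B _ _) (xferPar_parMapAlg Xβ ℤ_[p] B _ _) _ ?_ v
    (Subtype.ext hvα) (Subtype.ext hvβ)
  intro ψ h1 h2
  exact rho_frobPoly_apply_eq_zero (kapTransferOf D' D₀ Xα _ hkα) (kapTransferOf D' D₀ Xβ _ hkβ)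
    hkey ψ (congrArg Subtype.val h1) (congrArg Subtype.val h2)

end BLevel

end Fermat.Agent.S35
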