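/-
S35 — helper8 — **[BASE-abs], part 5: the node-fixing hypothesis of TORIC from NODECOUNT**
(helper2's `nodecount_pow_nodePeriod_mem_iff` in the shape consumed by helper5's
`SSModel.toricDatumAt_one/_two`).
-/
import Mathlib
import Fermat.Agent.S35.NODECOUNT_helper2_Main
import Fermat.Agent.SS.EXPORT_helper4_Loc

set_option autoImplicit false
set_option linter.unusedSectionVars false
set_option linter.style.haveILetI false

namespace Fermat.Agent.S35

open Fermat.Agent.JA Fermat.Agent.SS Polynomial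

section Model

variable {R : Type*} [CommRing R] [IsDomain R] [IsDiscreteValuationRing R] [CharZero R]
  {K₁ : Type*} [Field K₁] [Algebra R K₁] [IsFractionRing R K₁]
  {KM : Type*} [Field KM] [Algebra K₁ KM] [Algebra R KM] [IsScalarTower R K₁ KM]
  {EM : Type*} [Field EM] [Algebra KM EM] [Algebra K₁ EM] [IsScalarTower K₁ KM EM] [Algebra R EM]
  [IsScalarTower R KM EM]
  {KN : Type*} [Field KN] [Algebra K₁ KN] [Algebra R KN] [IsScalarTower R K₁ KN]
  {EN : Type*} [Field EN] [Algebra KN EN] [Algebra K₁ EN] [IsScalarTower K₁ KN EN] [Algebra R EN]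
  [IsScalarTower R KN EN] [FiniteDimensional KN EN]
  {π : R} {q n : ℕ} {S : Finset R} {t : KM} {jM : EM} {j : KN} {A B : EM →+* EN}
  {VM : ValuationSubring EM} {Winf W0 : ValuationSubring EN}
  {Q : ℕ} {sR : R →+* R} {s : EN →+* EN}

/-- **the node-fixing hypothesis of TORIC** for `Ψ = s ^ nodePeriod q D`. -/
theorem hnode_of_nodecount (h : SSModel K₁ π q n S t jM j A B VM Winf W0)
    (hπ : Irreducible π) [IsAlgClosed (IsLocalRing.ResidueField R)] {D : ℕ}
    (hD : Module.finrank KN EN ≤ D) (hs : SSFrobAut π Q j Winf W0 sR s) :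
    ∀ 𝔫 : Ideal ↥(chartOne R EN j), 𝔫.IsMaximal →
      sheetIdeal j Winf h.two.chart_le_inf ≤ 𝔫 → sheetIdeal j W0 h.two.chart_le_zero ≤ 𝔫 →
      ∀ x : ↥(chartOne R EN j),
        (x ∈ 𝔫 ↔ (s ^ nodePeriod q D) (x : EN) ∈ locMax (chartOne R EN j) 𝔫) := by
  intro 𝔫 h𝔫 hinf h0 x
  haveI : 𝔫.IsPrime := h𝔫.isPrime
  obtain ⟨hx, hiff⟩ := nodecount_pow_nodePeriod_mem_iff h hπ hD hs
    (𝔫 := 𝔫) ⟨h𝔫, hinf, h0⟩ x
  rw [hiff]
  exact (coe_mem_locMax_iff
    (⟨(s ^ nodePeriod q D) (x : EN), hx⟩ : ↥(chartOne R EN j))).symm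

end Model

end Fermat.Agent.S35
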