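/-
S35 [FROBHOST] — helper1 — part 1: **the action of a decomposition-group element on the base ring
and on coefficient-stable fields of Laurent series** (generic; the Frobenius analogue of
`SS/AUT_helper1_{Gauss,Host,Sheet}`).

* `coeffMap_mem_gaussInt_of_local`, `map_mem_gaussValSub_of_local` : a coefficientwise action which
  induces a LOCAL endomorphism of `R` preserves the Gauss valuation ring;
* `decompRingAut hσ` : the automorphism of `R₁ = A ∩ K₁` induced by `σ` in the decomposition group of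
  `A`; `decompRingAut_sub_pow_mem_maximalIdeal` : it is the `q`-th power map modulo the maximal
  ideal for a Frobenius element;
* `coeffRingAut_mem_gaussValSub_iff_of_decomp` : the coefficientwise action of the decomposition
  group preserves the Gauss valuation subring of every coefficient-stable `E ≤ gaussField`;
* `IsTwoSheet.mem_zero_iff_of_ringEquiv_of_local` : an automorphism fixing the coordinate, acting
  on `R` through a local endomorphism, and preserving `W_∞`, preserves `W_0`;
* `ssFrobAut_of_isTwoSheet` : helper8's `SSFrobAut` for the coefficientwise action of a Frobenius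
  element on a coefficient-stable host with a two-sheeted model whose `W_∞` is the Gauss sheet.
-/
import Mathlib
import Fermat.Agent.SS.AUT_helper1_Host
import Fermat.Agent.SS.AUT_helper1_Sheet
import Fermat.Agent.S35.TAME_helper8_Main
import Fermat.Agent.S35.FROBAUT_helper8

set_option autoImplicit false
set_option linter.unusedSectionVars false
set_option linter.style.haveILetI false

open HahnSeries IntermediateField AlgebraicCurve ModularCurve Fermat.Agent.Igusa Polynomial

namespace Fermat.Agent.S35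

open Fermat.Agent.JA Fermat.Agent.FF Fermat.Agent.SS

/-- `Ω = AlgebraicClosure ℚ`. -/
local notation "Ω" => AlgebraicClosure ℚ

/-- the absolute Galois group. -/
local notation "GQ" => (AlgebraicClosure ℚ ≃ₐ[ℚ] AlgebraicClosure ℚ)

section Gauss

variable {R : Type*} [CommRing R] [IsDomain R] [IsDiscreteValuationRing R]
variable {L : Type*} [Field L] [Algebra R L] [IsFractionRing R L]
variable (τ : L →+* L) (τR : R →+* R)
  (hτ : ∀ r : R, τ (algebraMap R L r) = algebraMap R L (τR r))
  (hloc : ∀ r : R, τR r ∈ IsLocalRing.maximalIdeal R → r ∈ IsLocalRing.maximalIdeal R)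

include hloc in
theorem red_coeffMap_ne_zero_of_local {g : LaurentSeries R} (hg : red R g ≠ 0) :
    red R (coeffMap τR g) ≠ 0 := by
  intro h0
  apply hg
  ext n
  have h1 := congrArg (fun s => HahnSeries.coeff s n) h0
  simp only [red_coeff, coeffMap_coeff, HahnSeries.coeff_zero] at h1
  rw [red_coeff, HahnSeries.coeff_zero, IsLocalRing.residue_eq_zero_iff]
  rw [IsLocalRing.residue_eq_zero_iff] at h1
  exact hloc _ h1

include hτ hloc in
/-- a coefficientwise action inducing a local endomorphism of `R` preserves the Gauss valuation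
ring. -/
theorem coeffMap_mem_gaussInt_of_local {x : LaurentSeries L} (hx : x ∈ gaussInt R L) :
    coeffMap τ x ∈ gaussInt R L := by
  obtain ⟨f, g, hg, h⟩ := hx
  refine ⟨coeffMap τR f, coeffMap τR g, red_coeffMap_ne_zero_of_local τR hloc hg, ?_⟩
  rw [← coeffMap_emb_eq τ τR hτ, ← coeffMap_emb_eq τ τR hτ, ← map_mul, h]

variable {M : IntermediateField L (LaurentSeries L)} {hM : M ≤ gaussField R L}
  (σ : ↥M →+* ↥M) (hσ : ∀ x : ↥M, ((σ x : ↥M) : LaurentSeries L) = coeffMap τ (x : LaurentSeries L))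

include hτ hloc hσ in
/-- the induced endomorphism of `M` maps the Gauss valuation subring into itself. -/
theorem map_mem_gaussValSub_of_local {x : ↥M} (hx : x ∈ gaussValSub R L M hM) :
    σ x ∈ gaussValSub R L M hM := by
  rw [mem_gaussValSub_iff] at hx ⊢
  rw [hσ]
  exact coeffMap_mem_gaussInt_of_local τ τR hτ hloc hx

end Gauss

section Decomp

variable {A : ValuationSubring Ω} {K₁ : IntermediateField ℚ Ω} [Normal ℚ ↥K₁] {σ : GQ}

/-- **`σ̄ R₁ ⊆ R₁`** for `σ` in the decomposition group of `A`. -/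
theorem resGal_mem_baseRing_of_decomp (hσ : σ ∈ A.decompositionSubgroup ℚ) {c : ↥K₁}
    (hc : c ∈ baseRing A K₁) : resGal K₁ σ c ∈ baseRing A K₁ := by
  rw [mem_baseRing_iff, A.valuation_le_one_iff] at hc ⊢
  rw [coe_resGal]
  exact Fermat.Agent.Tate.decomposition_map_mem (K := ℚ) ⟨σ, hσ⟩ hc

/-- **the automorphism `σ̄` of `R₁ = A ∩ K₁`** induced by `σ` in the decomposition group of `A`. -/
noncomputable def decompRingAut (hσ : σ ∈ A.decompositionSubgroup ℚ) :
    ↥(baseRing A K₁) ≃+* ↥(baseRing A K₁) where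
  toFun c := ⟨resGal K₁ σ c, resGal_mem_baseRing_of_decomp hσ c.2⟩
  invFun c := ⟨resGal K₁ σ⁻¹ c, resGal_mem_baseRing_of_decomp (inv_mem hσ) c.2⟩
  left_inv c := by
    apply Subtype.ext
    show resGal K₁ σ⁻¹ (resGal K₁ σ c) = c
    rw [← AlgEquiv.mul_apply, ← map_mul, inv_mul_cancel, map_one]
    rfl
  right_inv c := by
    apply Subtype.ext
    show resGal K₁ σ (resGal K₁ σ⁻¹ c) = c
    rw [← AlgEquiv.mul_apply, ← map_mul, mul_inv_cancel, map_one]
    rfl
  map_mul' x y := Subtype.ext (map_mul (resGal K₁ σ) (x : ↥K₁) (y : ↥K₁))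
  map_add' x y := Subtype.ext (map_add (resGal K₁ σ) (x : ↥K₁) (y : ↥K₁))

@[simp]
theorem coe_decompRingAut (hσ : σ ∈ A.decompositionSubgroup ℚ) (c : ↥(baseRing A K₁)) :
    ((decompRingAut hσ c : ↥(baseRing A K₁)) : ↥K₁) = resGal K₁ σ (c : ↥K₁) := rfl

theorem coe_coe_decompRingAut (hσ : σ ∈ A.decompositionSubgroup ℚ) (c : ↥(baseRing A K₁)) :
    (((decompRingAut hσ c : ↥(baseRing A K₁)) : ↥K₁) : Ω) = σ ((c : ↥K₁) : Ω) :=
  coe_resGal K₁ σ _

theorem resGal_algebraMap_baseRing_of_decomp (hσ : σ ∈ A.decompositionSubgroup ℚ)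
    (r : ↥(baseRing A K₁)) :
    ((resGal K₁ σ : ↥K₁ ≃ₐ[ℚ] ↥K₁) : ↥K₁ →+* ↥K₁) (algebraMap ↥(baseRing A K₁) ↥K₁ r) =
      algebraMap ↥(baseRing A K₁) ↥K₁ ((decompRingAut (K₁ := K₁) hσ).toRingHom r) :=
  rfl

/-- `σ̄` is a local automorphism of `R₁`. -/
theorem decompRingAut_mem_maximalIdeal_iff (hσ : σ ∈ A.decompositionSubgroup ℚ)
    (c : ↥(baseRing A K₁)) :
    decompRingAut hσ c ∈ IsLocalRing.maximalIdeal ↥(baseRing A K₁) ↔
      c ∈ IsLocalRing.maximalIdeal ↥(baseRing A K₁) := by
  rw [IsLocalRing.mem_maximalIdeal, IsLocalRing.mem_maximalIdeal, mem_nonunits_iff,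
    mem_nonunits_iff, not_iff_not]
  exact MulEquiv.isUnit_map (decompRingAut (K₁ := K₁) hσ)

/-- **`φ̄ c ≡ c ^ q`** modulo the maximal ideal of `R₁`, for a Frobenius element `φ` at `A`. -/
theorem decompRingAut_sub_pow_mem_maximalIdeal {φ : GQ} {q : ℕ} (hφ : A.IsFrobeniusAt φ q)
    (c : ↥(baseRing A K₁)) :
    decompRingAut (K₁ := K₁) hφ.mem_decompositionSubgroup c - c ^ q ∈
      IsLocalRing.maximalIdeal ↥(baseRing A K₁) := by
  rw [mem_maximalIdeal_baseRing_iff]
  have hc : ((c : ↥K₁) : Ω) ∈ A := (A.valuation_le_one_iff _).mp (valuation_coe_le_one c)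
  have h1 := frobenius_sub_pow_mem_nonunits hφ hc
  rw [ValuationSubring.mem_nonunits_iff] at h1
  have h2 : (((decompRingAut (K₁ := K₁) hφ.mem_decompositionSubgroup c - c ^ q :
      ↥(baseRing A K₁)) : ↥K₁) : Ω) = φ ((c : ↥K₁) : Ω) - ((c : ↥K₁) : Ω) ^ q := by
    rw [← coe_coe_decompRingAut hφ.mem_decompositionSubgroup c]
    rfl
  rw [h2]
  exact h1

variable [IsDiscreteValuationRing ↥(baseRing A K₁)] [IsFractionRing ↥(baseRing A K₁) ↥K₁]
  {E : IntermediateField ↥K₁ (LaurentSeries ↥K₁)} (hE : CoeffStable E)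
  {hM : E ≤ gaussField ↥(baseRing A K₁) ↥K₁}

/-- `σ̄` acts on the constants from `R₁` through `decompRingAut`. -/
theorem coeffRingAut_algebraMap_baseRing_of_decomp (hσ : σ ∈ A.decompositionSubgroup ℚ)
    (r : ↥(baseRing A K₁)) :
    coeffRingAut hE (resGal K₁ σ) (algebraMap ↥K₁ ↥E (algebraMap ↥(baseRing A K₁) ↥K₁ r)) =
      algebraMap ↥K₁ ↥E (algebraMap ↥(baseRing A K₁) ↥K₁ (decompRingAut hσ r)) := by
  rw [coeffRingAut_algebraMap]
  rfl

/-- `σ̄` maps the Gauss valuation subring into itself. -/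
theorem coeffRingAut_mem_gaussValSub_of_decomp (hσ : σ ∈ A.decompositionSubgroup ℚ) {x : ↥E}
    (hx : x ∈ gaussValSub ↥(baseRing A K₁) ↥K₁ E hM) :
    coeffRingAut hE (resGal K₁ σ) x ∈ gaussValSub ↥(baseRing A K₁) ↥K₁ E hM :=
  map_mem_gaussValSub_of_local (hM := hM) ((resGal K₁ σ : ↥K₁ ≃ₐ[ℚ] ↥K₁) : ↥K₁ →+* ↥K₁)
    (decompRingAut (K₁ := K₁) hσ).toRingHom
    (resGal_algebraMap_baseRing_of_decomp hσ)
    (fun r hr => (decompRingAut_mem_maximalIdeal_iff hσ r).mp hr)
    (coeffRingAut hE (resGal K₁ σ) : ↥E →+* ↥E) (fun _ => rfl) hx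

/-- **`mem_inf`**: `σ̄` preserves the Gauss valuation subring. -/
theorem coeffRingAut_mem_gaussValSub_iff_of_decomp (hσ : σ ∈ A.decompositionSubgroup ℚ) (x : ↥E) :
    coeffRingAut hE (resGal K₁ σ) x ∈ gaussValSub ↥(baseRing A K₁) ↥K₁ E hM ↔
      x ∈ gaussValSub ↥(baseRing A K₁) ↥K₁ E hM := by
  refine ⟨fun h => ?_, coeffRingAut_mem_gaussValSub_of_decomp hE hσ⟩
  have := coeffRingAut_mem_gaussValSub_of_decomp (hM := hM) hE (inv_mem hσ) h
  rwa [coeffRingAut_inv_apply] at this

end Decomp

section Sheet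

variable {R : Type*} [CommRing R] [IsDomain R] [IsDiscreteValuationRing R] [CharZero R]
  {K₁ : Type*} [Field K₁] [Algebra R K₁] [IsFractionRing R K₁]
  {K : Type*} [Field K] [Algebra K₁ K] [Algebra R K] [IsScalarTower R K₁ K]
  {E : Type*} [Field E] [Algebra K E] [Algebra R E] [IsScalarTower R K E] [FiniteDimensional K E]
  {π : R} {u : K} {Winf W0 : ValuationSubring E}

omit [IsDomain R] [IsDiscreteValuationRing R] [CharZero R] in
theorem C_dvd_map_iff_of_local (σR : R →+* R)
    (hloc : ∀ r : R, σR r ∈ Ideal.span {π} ↔ r ∈ Ideal.span {π}) (f : R[X]) :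
    C π ∣ f.map σR ↔ C π ∣ f := by
  rw [C_dvd_iff_dvd_coeff, C_dvd_iff_dvd_coeff]
  refine forall_congr' fun i => ?_
  rw [coeff_map, ← Ideal.mem_span_singleton, ← Ideal.mem_span_singleton]
  exact hloc _

/-- **an automorphism preserving `W_∞` preserves `W_0`** (local form: `σR` only has to preserve the
ideal `(π)` in both directions). -/
theorem _root_.Fermat.Agent.SS.IsTwoSheet.mem_zero_iff_of_ringEquiv_of_local
    (h : IsTwoSheet π u Winf W0) (σ : E ≃+* E)
    (σR : R →+* R) (hσu : σ (algebraMap K E u) = algebraMap K E u)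
    (hσR : ∀ r : R, σ (algebraMap R E r) = algebraMap R E (σR r))
    (hloc : ∀ r : R, σR r ∈ Ideal.span {π} ↔ r ∈ Ideal.span {π})
    (hinf : ∀ x : E, σ x ∈ Winf ↔ x ∈ Winf) :
    ∀ x : E, σ x ∈ W0 ↔ x ∈ W0 := by
  obtain ⟨g1, g2, g3⟩ := h.gauss_zero
  have hR0 : ∀ r : R, algebraMap R E r ∈ W0 := by
    intro r
    have := g1 (C r)
    rwa [aeval_C, ValuationSubring.mem_comap, ← IsScalarTower.algebraMap_apply] at this
  have hkey : ∀ f : R[X], σ (algebraMap K E (aeval u f)) =
      algebraMap K E (aeval u (f.map σR)) := fun f =>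
    map_algebraMap_aeval_eq (u := u) (σ : E →+* E) σR hσu hσR f
  -- `W0.comap σ` restricts to the Gauss valuation
  have hG : IsGaussAt R π u ((W0.comap (σ : E →+* E)).comap (algebraMap K E)) := by
    refine ⟨fun f => ?_, ?_, fun f hf => ?_⟩
    · rw [ValuationSubring.mem_comap, ValuationSubring.mem_comap, RingEquiv.coe_toRingHom, hkey]
      exact g1 _
    · intro hmem
      rw [ValuationSubring.mem_comap, ValuationSubring.mem_comap, map_inv₀, map_inv₀,
        ← IsScalarTower.algebraMap_apply] at hmem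
      have hmem' : (algebraMap R E (σR π))⁻¹ ∈ W0 := by
        have := hσR π
        rw [RingEquiv.coe_toRingHom] at hmem
        rwa [this] at hmem
      apply g2
      rw [ValuationSubring.mem_comap, map_inv₀, ← IsScalarTower.algebraMap_apply]
      have hπc : σR π ∈ Ideal.span {π} := (hloc π).mpr (Ideal.mem_span_singleton_self π)
      rw [Ideal.mem_span_singleton] at hπc
      obtain ⟨c, hc⟩ := hπc
      have hne : algebraMap R E (σR π) ≠ 0 := by
        rw [← hσR π]
        intro h0
        have h1 : algebraMap R E π = 0 := by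
          have := (map_eq_zero_iff σ σ.injective).mp h0
          exact this
        apply g2
        rw [ValuationSubring.mem_comap, map_inv₀, ← IsScalarTower.algebraMap_apply, h1, inv_zero]
        exact W0.zero_mem
      have hπ0 : algebraMap R E π ≠ 0 := by
        intro h0
        apply hne
        rw [hc, map_mul, h0, zero_mul]
      have : (algebraMap R E π)⁻¹ = algebraMap R E c * (algebraMap R E (σR π))⁻¹ := by
        rw [hc, map_mul, mul_inv]
        have h1c : algebraMap R E c ≠ 0 := by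
          intro h0
          apply hne
          rw [hc, map_mul, h0, mul_zero]
        field_simp
      rw [this]
      exact W0.mul_mem _ _ (hR0 _) hmem'
    · rw [ValuationSubring.mem_comap, ValuationSubring.mem_comap, map_inv₀, map_inv₀,
        RingEquiv.coe_toRingHom, hkey, ← map_inv₀, ← ValuationSubring.mem_comap]
      exact g3 _ (fun hd => hf ((C_dvd_map_iff_of_local σR hloc f).mp hd))
  rcases h.only _ hG with h1 | h1
  · exfalso
    apply h.ne
    ext x
    obtain ⟨y, rfl⟩ := σ.surjective x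
    have : y ∈ W0.comap (σ : E →+* E) ↔ y ∈ Winf := by rw [h1]
    rw [ValuationSubring.mem_comap, RingEquiv.coe_toRingHom] at this
    rw [hinf, this]
  · intro x
    have : x ∈ W0.comap (σ : E →+* E) ↔ x ∈ W0 := by rw [h1]
    rwa [ValuationSubring.mem_comap, RingEquiv.coe_toRingHom] at this

end Sheet

end Fermat.Agent.S35
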