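/-
(S35) (I3) (P3) REDUCTIONS — helper5 — **the action of an inertia automorphism at a node.**

`R` the local ring of the normal model at a node in normal form `x y = π^m r`, `K = Frac R`,
`W∞`, `W0` the valuation subrings of `K` of the two branches, `σ` a ring endomorphism of `K`
preserving `R`, acting trivially on the residue fields of `W∞`, `W0`, with `σ π = θ π`.

* `IsNodePair.exists_unit_map_x` : `σ x = x ε`, `ε ∈ Rˣ`.
* `IsNodePair.theta_pow_sub_one_mem` : `θ^m ≡ 1` modulo the uniformizer of the base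
  (the tame ramification index divides the thickness of every node).
* `IsNodePair.sigma_relation` : if `f = x^k v G^N`, `σ f = c f g^N` and `g` is congruent to the
  constants `c∞`, `c0` on the two branches, then `c0 ≡ θ^δ c∞`, `δ` the order of `G` along `W0`.
-/
import Mathlib
import Fermat.Agent.S35.RED_helper5_Node
import Fermat.Agent.SS.NODEALG_helper5_Order

set_option autoImplicit false
set_option linter.unusedSectionVars false
set_option linter.style.haveILetI false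

namespace Fermat.Agent.SS

open IsLocalRing

section Sigma

variable {R₁ : Type*} [CommRing R₁] [IsDomain R₁] [IsDiscreteValuationRing R₁]
variable {R : Type*} [CommRing R] [IsDomain R] [IsLocalRing R] [IsNoetherianRing R]
  [IsIntegrallyClosed R] [Algebra R₁ R]
variable {K : Type*} [Field K] [Algebra R K] [IsFractionRing R K]
variable {P0 Pinf : Ideal R} {x y r : R} {m : ℕ}

/-- **`σ x = x ε`** at a node, for an endomorphism `σ` of the fraction field preserving the node. -/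
theorem IsNodePair.exists_unit_map_x (h : IsNodePair P0 Pinf x y) [hP0 : P0.IsPrime]
    [hPinf : Pinf.IsPrime] {ϖ : R₁}
    (hπ0 : algebraMap R₁ R ϖ ∈ P0) (hπinf : algebraMap R₁ R ϖ ∈ Pinf)
    (hinf : P0 ⊓ Pinf ≤ Ideal.span {algebraMap R₁ R ϖ})
    (hxy : x * y = algebraMap R₁ R ϖ ^ m * r) (hr : IsUnit r) (hm : 1 ≤ m)
    {x₁ y₁ r₁ : R} (θ : R₁ˣ)
    (hxy₁ : x₁ * y₁ = algebraMap R₁ R ((θ : R₁) * ϖ) ^ m * r₁) (hr₁ : IsUnit r₁)
    (hx₁ : x₁ ∉ Pinf) (hy₁ : y₁ ∉ P0) :
    ∃ ε : Rˣ, x₁ = x * (ε : R) := by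
  classical
  have hinjK : Function.Injective (algebraMap R (FractionRing R)) := IsFractionRing.injective R (FractionRing R)
  have hx0 : x ≠ 0 := fun h0 => h.x_notMem (h0 ▸ Pinf.zero_mem)
  have hy0 : y ≠ 0 := fun h0 => h.y_notMem (h0 ▸ P0.zero_mem)
  have hπne : algebraMap R₁ R ϖ ≠ 0 := by
    intro h0
    have : x * y = 0 := by rw [hxy, h0, zero_pow (by omega), zero_mul]
    rcases mul_eq_zero.mp this with h' | h'
    · exact hx0 h'
    · exact hy0 h'
  have hθu : IsUnit (algebraMap R₁ R (θ : R₁)) := θ.isUnit.map _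
  have hx₁0 : x₁ ≠ 0 := fun h0 => hx₁ (h0 ▸ Pinf.zero_mem)
  have hx₁K : algebraMap R (FractionRing R) x₁ ≠ 0 := fun h' => hx₁0 (hinjK (by rw [h', map_zero]))
  -- `x₁` is a unit at every prime of height one other than `P0`
  have hunit : ∀ 𝔮 : Ideal R, 𝔮.IsPrime → 𝔮.height = 1 → 𝔮 ≠ P0 →
      IsUnitAtPrime 𝔮 (algebraMap R (FractionRing R) x₁) := by
    intro 𝔮 h𝔮 hh hne
    refine isUnitAtPrime_algebraMap ?_
    intro hmem
    have h1 : algebraMap R₁ R ((θ : R₁) * ϖ) ^ m * r₁ ∈ 𝔮 := by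
      rw [← hxy₁]; exact 𝔮.mul_mem_right _ hmem
    have h2 : algebraMap R₁ R ϖ ∈ 𝔮 := by
      rcases h𝔮.mem_or_mem h1 with h' | h'
      · have h3 := h𝔮.mem_of_pow_mem m h'
        rw [map_mul] at h3
        rcases h𝔮.mem_or_mem h3 with h4 | h4
        · exact absurd (Ideal.eq_top_of_isUnit_mem _ h4 hθu) h𝔮.ne_top
        · exact h4
      · exact absurd (Ideal.eq_top_of_isUnit_mem _ h' hr₁) h𝔮.ne_top
    rcases h.eq_or_eq_of_mem_of_height_one hπ0 hπinf hinf hπne hxy hm 𝔮 hh h2 with h' | h'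
    · exact hne h'
    · rw [h'] at hmem; exact hx₁ hmem
  obtain ⟨k', v', hkv⟩ := h.exists_zpow_mul_unit hπ0 hinf hxy hr hm hx₁K hunit
  -- the order at `P0`
  have hxK : algebraMap R (FractionRing R) x ≠ 0 := fun h' => hx0 (hinjK (by rw [h', map_zero]))
  have hyK : algebraMap R (FractionRing R) y ≠ 0 := fun h' => hy0 (hinjK (by rw [h', map_zero]))
  have hπK : algebraMap R (FractionRing R) (algebraMap R₁ R ϖ) ≠ 0 := fun h' => hπne (hinjK (by rw [h', map_zero]))
  have hrP0 : r ∉ P0 := fun h' => hP0.ne_top (Ideal.eq_top_of_isUnit_mem _ h' hr)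
  have hr₁P0 : r₁ ∉ P0 := fun h' => hP0.ne_top (Ideal.eq_top_of_isUnit_mem _ h' hr₁)
  have hθP0 : algebraMap R₁ R (θ : R₁) ^ m ∉ P0 := fun h' =>
    hP0.ne_top (Ideal.eq_top_of_isUnit_mem _ h' (hθu.pow m))
  have hy₁0 : y₁ ≠ 0 := fun h0 => hy₁ (h0 ▸ P0.zero_mem)
  have hy₁K : algebraMap R (FractionRing R) y₁ ≠ 0 := fun h' => hy₁0 (hinjK (by rw [h', map_zero]))
  -- `x₁ π^{-m}` is a unit at `P0`
  have h1 : IsUnitAtPrime P0
      (algebraMap R (FractionRing R) x₁ * (algebraMap R (FractionRing R) (algebraMap R₁ R ϖ) ^ (m : ℤ))⁻¹) := by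
    have e1 : algebraMap R (FractionRing R) x₁ * (algebraMap R (FractionRing R) (algebraMap R₁ R ϖ) ^ (m : ℤ))⁻¹ =
        algebraMap R (FractionRing R) (algebraMap R₁ R (θ : R₁) ^ m * r₁) / algebraMap R (FractionRing R) y₁ := by
      have e0 : algebraMap R (FractionRing R) x₁ * algebraMap R (FractionRing R) y₁ =
          algebraMap R (FractionRing R) (algebraMap R₁ R (θ : R₁) ^ m * r₁) *
            algebraMap R (FractionRing R) (algebraMap R₁ R ϖ) ^ m := by
        have h' := congrArg (algebraMap R (FractionRing R)) hxy₁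
        simp only [map_mul, map_pow, mul_pow] at h' ⊢
        rw [h']; ring
      rw [zpow_natCast, div_eq_mul_inv, eq_comm, ← div_eq_mul_inv, div_eq_iff hy₁K, mul_assoc,
        mul_comm _ (algebraMap R (FractionRing R) y₁), ← mul_assoc, e0, mul_assoc,
        mul_inv_cancel₀ (pow_ne_zero _ hπK), mul_one]
    rw [e1]
    exact (isUnitAtPrime_algebraMap (fun hmem => by
      rcases hP0.mem_or_mem hmem with h' | h'
      · exact hθP0 h'
      · exact hr₁P0 h')).div (isUnitAtPrime_algebraMap hy₁)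
  -- `x^{k'} v' π^{-m k'}` is a unit at `P0`
  have hw : IsUnitAtPrime P0 (algebraMap R (FractionRing R) r / algebraMap R (FractionRing R) y) :=
    (isUnitAtPrime_algebraMap hrP0).div (isUnitAtPrime_algebraMap h.y_notMem)
  have hxeq : algebraMap R (FractionRing R) x =
      algebraMap R (FractionRing R) (algebraMap R₁ R ϖ) ^ (m : ℤ) * (algebraMap R (FractionRing R) r / algebraMap R (FractionRing R) y) := by
    have := congrArg (algebraMap R (FractionRing R)) hxy
    rw [map_mul, map_mul, map_pow] at this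
    rw [zpow_natCast]
    field_simp
    exact this
  have h2 : IsUnitAtPrime P0
      (algebraMap R (FractionRing R) x₁ * (algebraMap R (FractionRing R) (algebraMap R₁ R ϖ) ^ ((m : ℤ) * k'))⁻¹) := by
    have e2 : algebraMap R (FractionRing R) x₁ * (algebraMap R (FractionRing R) (algebraMap R₁ R ϖ) ^ ((m : ℤ) * k'))⁻¹ =
        (algebraMap R (FractionRing R) r / algebraMap R (FractionRing R) y) ^ k' * algebraMap R (FractionRing R) (v' : R) := by
      rw [hkv, hxeq, mul_zpow, ← zpow_mul]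
      have : algebraMap R (FractionRing R) (algebraMap R₁ R ϖ) ^ ((m : ℤ) * k') ≠ 0 := zpow_ne_zero _ hπK
      field_simp
    rw [e2]
    exact (hw.zpow k').mul (isUnitAtPrime_unit v')
  have hk' : (m : ℤ) = (m : ℤ) * k' := zpow_isUnitAtPrime_unique P0 hπ0 hπne h1 h2
  have hk1 : k' = 1 := by
    have hm0 : (m : ℤ) ≠ 0 := by exact_mod_cast (by omega : m ≠ 0)
    have : (m : ℤ) * 1 = (m : ℤ) * k' := by rw [mul_one]; exact hk'
    exact (mul_left_cancel₀ hm0 this).symm
  refine ⟨v', hinjK ?_⟩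
  rw [hkv, hk1, zpow_one, map_mul]

variable (R) in
/-- the data of an endomorphism `σ` of `K` preserving the node: it preserves `R`, acts trivially on
the residue fields of the two branch valuations and multiplies the uniformizer by the unit `θ`. -/
structure IsNodeAut (ϖ : R₁) (Winf W0 : ValuationSubring K) (σ : K →+* K) (θ : R₁ˣ) : Prop where
  map_R : ∀ a : R, ∃ a' : R, σ (algebraMap R K a) = algebraMap R K a'
  res_inf : ∀ z : K, z ∈ Winf → Winf.valuation (σ z - z) < 1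
  res_zero : ∀ z : K, z ∈ W0 → W0.valuation (σ z - z) < 1
  map_pi : σ (algebraMap R K (algebraMap R₁ R ϖ)) =
    algebraMap R K (algebraMap R₁ R ((θ : R₁) * ϖ))

/-- the two branch valuations of a node: `R ⊆ W∞ ∩ W0`, `Pinf = R ∩ 𝔪_{W∞}`, `P0 = R ∩ 𝔪_{W0}`. -/
structure IsNodeVal (P0 Pinf : Ideal R) (Winf W0 : ValuationSubring K) : Prop where
  mem_inf : ∀ a : R, algebraMap R K a ∈ Winf
  mem_zero : ∀ a : R, algebraMap R K a ∈ W0
  lt_inf : ∀ a : R, a ∈ Pinf ↔ Winf.valuation (algebraMap R K a) < 1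
  lt_zero : ∀ a : R, a ∈ P0 ↔ W0.valuation (algebraMap R K a) < 1

theorem IsNodeVal.valuation_inf_eq_one {Winf W0 : ValuationSubring K}
    (hV : IsNodeVal P0 Pinf Winf W0) {a : R} (ha : a ∉ Pinf) :
    Winf.valuation (algebraMap R K a) = 1 :=
  le_antisymm ((ValuationSubring.valuation_le_one_iff _ _).mpr (hV.mem_inf a))
    (not_lt.mp (fun h => ha ((hV.lt_inf a).mpr h)))

theorem IsNodeVal.valuation_zero_eq_one {Winf W0 : ValuationSubring K}
    (hV : IsNodeVal P0 Pinf Winf W0) {a : R} (ha : a ∉ P0) :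
    W0.valuation (algebraMap R K a) = 1 :=
  le_antisymm ((ValuationSubring.valuation_le_one_iff _ _).mpr (hV.mem_zero a))
    (not_lt.mp (fun h => ha ((hV.lt_zero a).mpr h)))

/-- if `σ z ≡ z` modulo the maximal ideal of `W` and `z` is a unit of `W`, so is `σ z`. -/
theorem valuation_map_eq_one_of_sub_lt {W : ValuationSubring K} {z z' : K}
    (hz : W.valuation z = 1) (h : W.valuation (z' - z) < 1) : W.valuation z' = 1 := by
  have : z' = z + (z' - z) := by ring
  rw [this, Valuation.map_add_eq_of_lt_left _ (by rw [hz]; exact h), hz]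

/-- `σ z / z ≡ 1` for a unit `z` of `W` with `σ z ≡ z`. -/
theorem valuation_div_sub_one_lt {W : ValuationSubring K} {z z' : K}
    (hz : W.valuation z = 1) (h : W.valuation (z' - z) < 1) : W.valuation (z' / z - 1) < 1 := by
  have hz0 : z ≠ 0 := fun h0 => by rw [h0, map_zero] at hz; exact zero_ne_one hz
  have : z' / z - 1 = (z' - z) / z := by field_simp
  rw [this, map_div₀, hz, div_one]
  exact h

/-- a constant of the base lying in the maximal ideal of `R` is divisible by the uniformizer. -/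
theorem mem_span_of_algebraMap_mem_maximalIdeal {ϖ : R₁} (hϖ : Irreducible ϖ) {a : R₁}
    (h : algebraMap R₁ R a ∈ maximalIdeal R) : a ∈ Ideal.span {ϖ} := by
  rw [← hϖ.maximalIdeal_eq]
  by_contra hn
  have hu : IsUnit a := by
    by_contra hnu
    exact hn ((IsLocalRing.mem_maximalIdeal _).mpr hnu)
  exact ((IsLocalRing.mem_maximalIdeal _).mp h) (hu.map (algebraMap R₁ R))

/-- the swapped node pair. -/
theorem IsNodePair.swap (h : IsNodePair P0 Pinf x y) : IsNodePair Pinf P0 y x :=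
  ⟨h.y_mem, h.y_notMem, h.y_gen, h.x_mem, h.x_notMem, h.x_gen⟩

/-- the images under `σ` of the node data. -/
theorem IsNodePair.exists_map_data (h : IsNodePair P0 Pinf x y) {ϖ : R₁}
    (hxy : x * y = algebraMap R₁ R ϖ ^ m * r) (hr : IsUnit r)
    {Winf W0 : ValuationSubring K} (hV : IsNodeVal P0 Pinf Winf W0) {σ : K →+* K} {θ : R₁ˣ}
    (hσ : IsNodeAut R ϖ Winf W0 σ θ) :
    ∃ x₁ y₁ r₁ : R, σ (algebraMap R K x) = algebraMap R K x₁ ∧
      σ (algebraMap R K y) = algebraMap R K y₁ ∧ σ (algebraMap R K r) = algebraMap R K r₁ ∧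
      x₁ * y₁ = algebraMap R₁ R ((θ : R₁) * ϖ) ^ m * r₁ ∧ IsUnit r₁ ∧ x₁ ∉ Pinf ∧ y₁ ∉ P0 ∧
      x₁ - x ∈ Pinf ∧ y₁ - y ∈ P0 ∧ r₁ - r ∈ Pinf := by
  have hinjK : Function.Injective (algebraMap R K) := IsFractionRing.injective R K
  obtain ⟨x₁, hx₁⟩ := hσ.map_R x
  obtain ⟨y₁, hy₁⟩ := hσ.map_R y
  obtain ⟨r₁, hr₁⟩ := hσ.map_R r
  obtain ⟨ru, rfl⟩ := hr
  obtain ⟨r₂, hr₂⟩ := hσ.map_R ((ru⁻¹ : Rˣ) : R)
  have hr₁u : IsUnit r₁ := by
    have h12 : r₁ * r₂ = 1 := by
      apply hinjK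
      rw [map_mul, ← hr₁, ← hr₂, ← map_mul, ← map_mul, Units.mul_inv, map_one, map_one]
    exact ⟨⟨r₁, r₂, h12, (mul_comm _ _).trans h12⟩, rfl⟩
  have hxy₁ : x₁ * y₁ = algebraMap R₁ R ((θ : R₁) * ϖ) ^ m * r₁ := by
    apply hinjK
    have e := congrArg (fun z => σ (algebraMap R K z)) hxy
    simp only [map_mul, map_pow] at e
    rw [hx₁, hy₁, hσ.map_pi, hr₁] at e
    simp only [map_mul, map_pow] at e ⊢
    exact e
  have hsub : ∀ a a' : R, σ (algebraMap R K a) = algebraMap R K a' →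
      Winf.valuation (algebraMap R K (a' - a)) < 1 := by
    intro a a' ha
    rw [map_sub, ← ha]
    exact hσ.res_inf _ (hV.mem_inf a)
  have hsub0 : ∀ a a' : R, σ (algebraMap R K a) = algebraMap R K a' →
      W0.valuation (algebraMap R K (a' - a)) < 1 := by
    intro a a' ha
    rw [map_sub, ← ha]
    exact hσ.res_zero _ (hV.mem_zero a)
  have hx₁x : x₁ - x ∈ Pinf := (hV.lt_inf _).mpr (hsub x x₁ hx₁)
  have hy₁y : y₁ - y ∈ P0 := (hV.lt_zero _).mpr (hsub0 y y₁ hy₁)
  refine ⟨x₁, y₁, r₁, hx₁, hy₁, hr₁, hxy₁, hr₁u, ?_, ?_, hx₁x, hy₁y,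
    (hV.lt_inf _).mpr (hsub _ r₁ hr₁)⟩
  · intro hmem
    apply h.x_notMem
    have := Pinf.sub_mem hmem hx₁x
    simpa using this
  · intro hmem
    apply h.y_notMem
    have := P0.sub_mem hmem hy₁y
    simpa using this

/-- **the tame character has order dividing the thickness of the node**: `θ^m ≡ 1` modulo the
uniformizer of the base. -/
theorem IsNodePair.theta_pow_sub_one_mem (h : IsNodePair P0 Pinf x y) [hP0 : P0.IsPrime]
    [hPinf : Pinf.IsPrime] {ϖ : R₁} (hϖ : Irreducible ϖ)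
    (hπ0 : algebraMap R₁ R ϖ ∈ P0) (hπinf : algebraMap R₁ R ϖ ∈ Pinf)
    (hinf : P0 ⊓ Pinf ≤ Ideal.span {algebraMap R₁ R ϖ})
    (hxy : x * y = algebraMap R₁ R ϖ ^ m * r) (hr : IsUnit r) (hm : 1 ≤ m)
    {Winf W0 : ValuationSubring K} (hV : IsNodeVal P0 Pinf Winf W0) {σ : K →+* K} {θ : R₁ˣ}
    (hσ : IsNodeAut R ϖ Winf W0 σ θ) :
    (θ : R₁) ^ m - 1 ∈ Ideal.span {ϖ} := by
  obtain ⟨x₁, y₁, r₁, -, -, -, hxy₁, hr₁u, hx₁n, hy₁n, hx₁x, hy₁y, hr₁r⟩ :=
    h.exists_map_data hxy hr hV hσ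
  obtain ⟨ε, hε⟩ := h.exists_unit_map_x hπ0 hπinf hinf hxy hr hm θ hxy₁ hr₁u hx₁n hy₁n
  have hinf' : Pinf ⊓ P0 ≤ Ideal.span {algebraMap R₁ R ϖ} := by rw [inf_comm]; exact hinf
  have hxy' : y * x = algebraMap R₁ R ϖ ^ m * r := by rw [mul_comm]; exact hxy
  have hxy₁' : y₁ * x₁ = algebraMap R₁ R ((θ : R₁) * ϖ) ^ m * r₁ := by rw [mul_comm]; exact hxy₁
  obtain ⟨ε', hε'⟩ := h.swap.exists_unit_map_x hπinf hπ0 hinf' hxy' hr hm θ hxy₁' hr₁u hy₁n hx₁n
  have hx0 : x ≠ 0 := fun h0 => h.x_notMem (h0 ▸ Pinf.zero_mem)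
  have hy0 : y ≠ 0 := fun h0 => h.y_notMem (h0 ▸ P0.zero_mem)
  have hle0 : P0 ≤ maximalIdeal R := le_maximalIdeal hP0.ne_top
  have hleinf : Pinf ≤ maximalIdeal R := le_maximalIdeal hPinf.ne_top
  -- `ε ε' r = θ^m r₁`
  have hkey : (ε : R) * (ε' : R) * r = algebraMap R₁ R (θ : R₁) ^ m * r₁ := by
    apply mul_left_cancel₀ (mul_ne_zero hx0 hy0)
    calc x * y * ((ε : R) * (ε' : R) * r) = (x * (ε : R)) * (y * (ε' : R)) * r := by ring
      _ = x₁ * y₁ * r := by rw [← hε, ← hε']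
      _ = algebraMap R₁ R ((θ : R₁) * ϖ) ^ m * r₁ * r := by rw [hxy₁]
      _ = algebraMap R₁ R (θ : R₁) ^ m * r₁ * (algebraMap R₁ R ϖ ^ m * r) := by
          rw [map_mul, mul_pow]; ring
      _ = x * y * (algebraMap R₁ R (θ : R₁) ^ m * r₁) := by rw [← hxy]; ring
  have hε1 : (ε : R) - 1 ∈ Pinf := by
    have h1 : x * ((ε : R) - 1) ∈ Pinf := by
      have : x * ((ε : R) - 1) = x₁ - x := by rw [hε]; ring
      rw [this]; exact hx₁x
    rcases hPinf.mem_or_mem h1 with h' | h'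
    · exact absurd h' h.x_notMem
    · exact h'
  have hε'1 : (ε' : R) - 1 ∈ P0 := by
    have h1 : y * ((ε' : R) - 1) ∈ P0 := by
      have : y * ((ε' : R) - 1) = y₁ - y := by rw [hε']; ring
      rw [this]; exact hy₁y
    rcases hP0.mem_or_mem h1 with h' | h'
    · exact absurd h' h.y_notMem
    · exact h'
  have hmem : algebraMap R₁ R ((θ : R₁) ^ m - 1) * r ∈ maximalIdeal R := by
    have e1 : algebraMap R₁ R ((θ : R₁) ^ m - 1) * r =
        algebraMap R₁ R (θ : R₁) ^ m * (r - r₁) + r * (((ε : R) - 1) * (ε' : R) + ((ε' : R) - 1)) := by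
      rw [map_sub, map_pow, map_one]
      linear_combination (-1 : R) * hkey
    rw [e1]
    refine Ideal.add_mem _ (Ideal.mul_mem_left _ _ ?_) (Ideal.mul_mem_left _ _
      (Ideal.add_mem _ (Ideal.mul_mem_right _ _ (hleinf hε1)) (hle0 hε'1)))
    have : r - r₁ = -(r₁ - r) := by ring
    rw [this]
    exact neg_mem (hleinf hr₁r)
  refine mem_span_of_algebraMap_mem_maximalIdeal (R := R) hϖ ?_
  rcases (Ideal.IsPrime.mem_or_mem inferInstance hmem) with h' | h'
  · exact h'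
  · exact absurd ((IsLocalRing.mem_maximalIdeal _).mp h') (not_not.mpr hr)

/-- `σ` maps units of `R` to units of `R`. -/
theorem IsNodeAut.exists_unit_map {ϖ : R₁} {Winf W0 : ValuationSubring K} {σ : K →+* K} {θ : R₁ˣ}
    (hσ : IsNodeAut R ϖ Winf W0 σ θ) (u : Rˣ) :
    ∃ u' : Rˣ, σ (algebraMap R K (u : R)) = algebraMap R K (u' : R) := by
  have hinjK : Function.Injective (algebraMap R K) := IsFractionRing.injective R K
  obtain ⟨r₁, hr₁⟩ := hσ.map_R (u : R)
  obtain ⟨r₂, hr₂⟩ := hσ.map_R ((u⁻¹ : Rˣ) : R)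
  have h12 : r₁ * r₂ = 1 := by
    apply hinjK
    rw [map_mul, ← hr₁, ← hr₂, ← map_mul, ← map_mul, Units.mul_inv, map_one, map_one]
  exact ⟨⟨r₁, r₂, h12, (mul_comm _ _).trans h12⟩, hr₁⟩

/-- the image in `K` of an integral power of a unit of the base. -/
theorem algebraMap_base_units_zpow (θ : R₁ˣ) (δ : ℤ) :
    algebraMap R K (algebraMap R₁ R ((θ ^ δ : R₁ˣ) : R₁)) =
      algebraMap R K (algebraMap R₁ R (θ : R₁)) ^ δ := by
  have h1 : (Units.map ((algebraMap R K).comp (algebraMap R₁ R)).toMonoidHom (θ ^ δ) : K) =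
      ((Units.map ((algebraMap R K).comp (algebraMap R₁ R)).toMonoidHom θ : Kˣ) : K) ^ δ := by
    rw [map_zpow, Units.val_zpow_eq_zpow_val]
  exact h1

/-- **the relation between the constants of `g` on the two branches at a node**: if
`f = x^k v G^N` (`v` a unit of `R`, `G` a unit along `W∞` of order `δ` along `W0`),
`σ f = c f g^N` and `g ≡ c∞` on `W∞`, `g ≡ c0` on `W0` for constants `c∞`, `c0` of the base, then
`c0 ≡ θ^δ c∞` modulo the uniformizer of the base. -/
theorem IsNodePair.sigma_relation (h : IsNodePair P0 Pinf x y) [hP0 : P0.IsPrime]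
    [hPinf : Pinf.IsPrime] {ϖ : R₁} (hϖ : Irreducible ϖ)
    (hπ0 : algebraMap R₁ R ϖ ∈ P0) (hπinf : algebraMap R₁ R ϖ ∈ Pinf)
    (hinf : P0 ⊓ Pinf ≤ Ideal.span {algebraMap R₁ R ϖ})
    (hxy : x * y = algebraMap R₁ R ϖ ^ m * r) (hr : IsUnit r) (hm : 1 ≤ m)
    {Winf W0 : ValuationSubring K} (hV : IsNodeVal P0 Pinf Winf W0) {σ : K →+* K} {θ : R₁ˣ}
    (hσ : IsNodeAut R ϖ Winf W0 σ θ)
    {N : ℕ} (hN : 0 < N) {f g G : K} {k δ : ℤ} {v : Rˣ} (c : R₁ˣ)
    (hf : f = algebraMap R K x ^ k * algebraMap R K (v : R) * G ^ N)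
    (hGinf : Winf.valuation G = 1)
    (hG0 : W0.valuation (G * (algebraMap R K (algebraMap R₁ R ϖ) ^ δ)⁻¹) = 1)
    (hσf : σ f = algebraMap R K (algebraMap R₁ R (c : R₁)) * f * g ^ N)
    (cinf c0 : R₁)
    (hginf : Winf.valuation (g - algebraMap R K (algebraMap R₁ R cinf)) < 1)
    (hg0 : W0.valuation (g - algebraMap R K (algebraMap R₁ R c0)) < 1) :
    c0 - ((θ ^ δ : R₁ˣ) : R₁) * cinf ∈ Ideal.span {ϖ} := by
  have hinjK : Function.Injective (algebraMap R K) := IsFractionRing.injective R K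
  have hx0 : x ≠ 0 := fun h0 => h.x_notMem (h0 ▸ Pinf.zero_mem)
  have hy0 : y ≠ 0 := fun h0 => h.y_notMem (h0 ▸ P0.zero_mem)
  have hπne : algebraMap R₁ R ϖ ≠ 0 := by
    intro h0
    have : x * y = 0 := by rw [hxy, h0, zero_pow (by omega), zero_mul]
    rcases mul_eq_zero.mp this with h' | h'
    · exact hx0 h'
    · exact hy0 h'
  have hxK : algebraMap R K x ≠ 0 := fun h' => hx0 (hinjK (by rw [h', map_zero]))
  have hπK : algebraMap R K (algebraMap R₁ R ϖ) ≠ 0 := fun h' => hπne (hinjK (by rw [h', map_zero]))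
  have hle0 : P0 ≤ maximalIdeal R := le_maximalIdeal hP0.ne_top
  have hleinf : Pinf ≤ maximalIdeal R := le_maximalIdeal hPinf.ne_top
  obtain ⟨x₁, y₁, r₁, hx₁, -, -, hxy₁, hr₁u, hx₁n, hy₁n, -, -, -⟩ :=
    h.exists_map_data hxy hr hV hσ
  obtain ⟨ε, hε⟩ := h.exists_unit_map_x hπ0 hπinf hinf hxy hr hm θ hxy₁ hr₁u hx₁n hy₁n
  obtain ⟨v₁, hv₁⟩ := hσ.exists_unit_map v
  have hG0' : G ≠ 0 := fun h0 => by rw [h0, map_zero] at hGinf; exact zero_ne_one hGinf
  have hGW : G ∈ Winf := (ValuationSubring.valuation_le_one_iff _ _).mp hGinf.le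
  have hσGinf : Winf.valuation (σ G) = 1 :=
    valuation_map_eq_one_of_sub_lt hGinf (hσ.res_inf G hGW)
  have hσG0 : σ G ≠ 0 := fun h0 => by rw [h0, map_zero] at hσGinf; exact zero_ne_one hσGinf
  have hvK : algebraMap R K (v : R) ≠ 0 := fun h' => v.ne_zero (hinjK (by rw [h', map_zero]))
  have hcK : algebraMap R K (algebraMap R₁ R (c : R₁)) ≠ 0 := by
    intro h'
    have h1 : algebraMap R₁ R (c : R₁) = 0 := hinjK (by rw [h', map_zero])
    exact (c.isUnit.map (algebraMap R₁ R)).ne_zero h1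
  -- the unit `w`
  set c' : Rˣ := Units.map (algebraMap R₁ R).toMonoidHom c with hc'
  have hc'v : ((c' : Rˣ) : R) = algebraMap R₁ R (c : R₁) := rfl
  set w : Rˣ := ε ^ k * v₁ * c'⁻¹ * v⁻¹ with hw
  set H : K := g * G / σ G with hH
  have hεK : algebraMap R K (ε : R) ≠ 0 := fun h' => ε.ne_zero (hinjK (by rw [h', map_zero]))
  have hεk : algebraMap R K ((ε ^ k : Rˣ) : R) = algebraMap R K (ε : R) ^ k := by
    have h1 : (Units.map (algebraMap R K).toMonoidHom (ε ^ k) : K) =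
        ((Units.map (algebraMap R K).toMonoidHom ε : Kˣ) : K) ^ k := by
      rw [map_zpow, Units.val_zpow_eq_zpow_val]
    exact h1
  have hHN : H ^ N = algebraMap R K (w : R) := by
    have e1 : σ f = (algebraMap R K x * algebraMap R K (ε : R)) ^ k * algebraMap R K (v₁ : R) *
        σ G ^ N := by
      rw [hf, map_mul, map_mul, map_zpow₀, map_pow, hx₁, hv₁, hε, map_mul]
    have e2 : algebraMap R K (ε : R) ^ k * algebraMap R K (v₁ : R) * σ G ^ N =
        algebraMap R K (c' : R) * algebraMap R K (v : R) * G ^ N * g ^ N := by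
      have e3 := e1.symm.trans hσf
      rw [hf, mul_zpow] at e3
      have hxk : algebraMap R K x ^ k ≠ 0 := zpow_ne_zero _ hxK
      apply mul_left_cancel₀ hxk
      rw [hc'v]
      linear_combination e3
    have hcv : algebraMap R K (c' : R) ≠ 0 := by rw [hc'v]; exact hcK
    have hw' : algebraMap R K (w : R) = algebraMap R K (ε : R) ^ k * algebraMap R K (v₁ : R) *
        (algebraMap R K (c' : R))⁻¹ * (algebraMap R K (v : R))⁻¹ := by
      have h1 : algebraMap R K (w : R) * (algebraMap R K (c' : R) * algebraMap R K (v : R)) =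
          algebraMap R K (ε : R) ^ k * algebraMap R K (v₁ : R) := by
        rw [← hεk, ← map_mul, ← map_mul, ← map_mul]
        congr 1
        rw [hw]
        simp only [Units.val_mul]
        calc ((ε ^ k : Rˣ) : R) * (v₁ : R) * ((c'⁻¹ : Rˣ) : R) * ((v⁻¹ : Rˣ) : R) *
              ((c' : R) * (v : R))
            = ((ε ^ k : Rˣ) : R) * (v₁ : R) * (((c'⁻¹ : Rˣ) : R) * (c' : R)) *
              (((v⁻¹ : Rˣ) : R) * (v : R)) := by ring
          _ = ((ε ^ k : Rˣ) : R) * (v₁ : R) := by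
            rw [Units.inv_mul, Units.inv_mul, mul_one, mul_one]
      rw [← h1]
      field_simp
    rw [hw', hH, div_pow, mul_pow]
    have hσGN : σ G ^ N ≠ 0 := pow_ne_zero _ hσG0
    field_simp
    linear_combination (-1 : K) * e2
  -- `H` lies in `R`
  have hHint : IsIntegral R H := by
    refine IsIntegral.of_pow hN ?_
    rw [hHN]; exact isIntegral_algebraMap
  obtain ⟨h₀, hh₀⟩ := IsIntegrallyClosed.algebraMap_eq_of_integral hHint
  have hgH : g = H * (σ G / G) := by rw [hH]; field_simp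
  -- the branch `W∞`
  have h1 : Winf.valuation (g - H) < 1 := by
    have : g - H = H * (σ G / G - 1) := by nth_rewrite 1 [hgH]; ring
    rw [this, map_mul]
    have hHle : Winf.valuation H ≤ 1 := by
      rw [← hh₀]; exact (ValuationSubring.valuation_le_one_iff _ _).mpr (hV.mem_inf h₀)
    calc Winf.valuation H * Winf.valuation (σ G / G - 1)
        ≤ 1 * Winf.valuation (σ G / G - 1) := mul_le_mul_left hHle _
      _ < 1 := by rw [one_mul]; exact valuation_div_sub_one_lt hGinf (hσ.res_inf G hGW)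
  have hmem1 : h₀ - algebraMap R₁ R cinf ∈ Pinf := by
    rw [hV.lt_inf, map_sub, hh₀]
    have : H - algebraMap R K (algebraMap R₁ R cinf) =
        (g - algebraMap R K (algebraMap R₁ R cinf)) - (g - H) := by ring
    rw [this]
    exact lt_of_le_of_lt (Valuation.map_sub _ _ _) (max_lt hginf h1)
  -- the branch `W0`
  set G₀ : K := G * (algebraMap R K (algebraMap R₁ R ϖ) ^ δ)⁻¹ with hG₀
  have hG₀W : G₀ ∈ W0 := (ValuationSubring.valuation_le_one_iff _ _).mp hG0.le
  have hG₀0 : G₀ ≠ 0 := fun h0 => by rw [h0, map_zero] at hG0; exact zero_ne_one hG0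
  have hθK : algebraMap R K (algebraMap R₁ R (θ : R₁)) ≠ 0 := by
    intro h'
    have h1 : algebraMap R₁ R (θ : R₁) = 0 := hinjK (by rw [h', map_zero])
    exact (θ.isUnit.map (algebraMap R₁ R)).ne_zero h1
  have hσG₀ : σ G / G = algebraMap R K (algebraMap R₁ R (θ : R₁)) ^ δ * (σ G₀ / G₀) := by
    have e1 : σ G₀ = σ G * ((algebraMap R K (algebraMap R₁ R (θ : R₁)) *
        algebraMap R K (algebraMap R₁ R ϖ)) ^ δ)⁻¹ := by
      rw [hG₀, map_mul, map_inv₀, map_zpow₀, hσ.map_pi, map_mul, map_mul]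
    rw [e1, hG₀, mul_zpow]
    have hπδ : algebraMap R K (algebraMap R₁ R ϖ) ^ δ ≠ 0 := zpow_ne_zero _ hπK
    have hθδ : algebraMap R K (algebraMap R₁ R (θ : R₁)) ^ δ ≠ 0 := zpow_ne_zero _ hθK
    field_simp
  set Θ : R := algebraMap R₁ R ((θ ^ δ : R₁ˣ) : R₁) with hΘ
  have hΘK : algebraMap R K Θ = algebraMap R K (algebraMap R₁ R (θ : R₁)) ^ δ :=
    algebraMap_base_units_zpow θ δ
  have h2 : W0.valuation (g - algebraMap R K (h₀ * Θ)) < 1 := by
    have : g - algebraMap R K (h₀ * Θ) = algebraMap R K (h₀ * Θ) * (σ G₀ / G₀ - 1) := by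
      rw [map_mul, hΘK, hh₀]; nth_rewrite 1 [hgH]; rw [hσG₀]; ring
    rw [this, map_mul]
    have hle : W0.valuation (algebraMap R K (h₀ * Θ)) ≤ 1 :=
      (ValuationSubring.valuation_le_one_iff _ _).mpr (hV.mem_zero _)
    calc W0.valuation (algebraMap R K (h₀ * Θ)) * W0.valuation (σ G₀ / G₀ - 1)
        ≤ 1 * W0.valuation (σ G₀ / G₀ - 1) := mul_le_mul_left hle _
      _ < 1 := by rw [one_mul]; exact valuation_div_sub_one_lt hG0 (hσ.res_zero G₀ hG₀W)
  have hmem2 : h₀ * Θ - algebraMap R₁ R c0 ∈ P0 := by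
    rw [hV.lt_zero, map_sub]
    have : algebraMap R K (h₀ * Θ) - algebraMap R K (algebraMap R₁ R c0) =
        (g - algebraMap R K (algebraMap R₁ R c0)) - (g - algebraMap R K (h₀ * Θ)) := by ring
    rw [this]
    exact lt_of_le_of_lt (Valuation.map_sub _ _ _) (max_lt hg0 h2)
  -- conclusion
  refine mem_span_of_algebraMap_mem_maximalIdeal (R := R) hϖ ?_
  have : algebraMap R₁ R (c0 - ((θ ^ δ : R₁ˣ) : R₁) * cinf) =
      Θ * (h₀ - algebraMap R₁ R cinf) - (h₀ * Θ - algebraMap R₁ R c0) := by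
    rw [map_sub, map_mul, hΘ]; ring
  rw [this]
  exact Ideal.sub_mem _ (Ideal.mul_mem_left _ _ (hleinf hmem1)) (hle0 hmem2)

end Sigma

end Fermat.Agent.SS
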