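/-
S35 — lead — package [T2], part 3: **newness kills the transfers of the eigenlattice**, and the
Frobenius polynomial identity for the representation on the eigenlattice.
-/
import Mathlib
import Fermat.Agent.S35.T2_lead_Core

set_option autoImplicit false
set_option linter.unusedSectionVars false
set_option linter.unusedVariables false
set_option linter.style.haveILetI false

open CongruenceSubgroup ModularCurve ModularCurve.Period

open scoped MatrixGroups

namespace Fermat.Agent.S35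

open Fermat.Agent.GR Fermat.Agent.X0N Fermat.Agent.JA

local notation "Ω" => AlgebraicClosure ℚ
local notation "GQ" => (AlgebraicClosure ℚ ≃ₐ[ℚ] AlgebraicClosure ℚ)

section New

variable {M₀ q : ℕ} [NeZero M₀] [NeZero q] [NeZero (M₀ * q)] {ι : Type*} [Fintype ι]
  (X : TransferDatum ↥(Gamma0 (M₀ * q)) ↥(Gamma0 M₀) (GL (Fin 2) ℝ) ι)

/-- **newness kills the transfer**: if the prime-to-`M₀ q` part of the system `a` does not occur
at level `M₀`, a Hecke-equivariant transfer kills the `a`-eigenspace of level `M₀ q`. -/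
theorem transferGrp_eq_zero_of_new (B : Type) [CommRing B] (L : Type*) [Field L] [Algebra B L]
    (hinj : Function.Injective (algebraMap B L))
    (hH : ∀ ℓ : Nat.Primes, ¬ (ℓ : ℕ) ∣ M₀ * q → ∀ ψ : Additive ↥(Gamma0 (M₀ * q)) →+ B,
      X.transferGrp B (heckeGrpP (M₀ * q) ℓ B ψ) = heckeGrpP M₀ ℓ B (X.transferGrp B ψ))
    (hpar : ∀ ψ ∈ parabolicHoms B (Gamma0 (M₀ * q)) B,
      X.transferGrp B ψ ∈ parabolicHoms B (Gamma0 M₀) B)
    (a : Nat.Primes → B)
    (hnew : eigenParOn M₀ L (primesNotDvd (M₀ * q)) (fun ℓ => algebraMap B L (a ℓ)) = ⊥)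
    {v : Additive ↥(Gamma0 (M₀ * q)) →+ B} (hv : v ∈ eigenPar (M₀ * q) B a) :
    X.transferGrp B v = 0 := by
  rw [mem_eigenPar] at hv
  have hmem : (algebraMap B L).toAddMonoidHom.comp (X.transferGrp B v) ∈
      eigenParOn M₀ L (primesNotDvd (M₀ * q)) (fun ℓ => algebraMap B L (a ℓ)) := by
    rw [mem_eigenParOn]
    refine ⟨comp_mem_parabolicHoms _ (hpar v hv.1), fun ℓ hℓ => ?_⟩
    rw [heckeGrpP_comp, ← hH ℓ hℓ, hv.2 ℓ]
    have h1 : X.transferGrp B (a ℓ • v) = a ℓ • X.transferGrp B v :=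
      (X.transferGrpₗ B B).map_smul (a ℓ) v
    rw [h1]
    refine AddMonoidHom.ext fun γ => ?_
    show algebraMap B L (a ℓ • (X.transferGrp B v) γ) =
      algebraMap B L (a ℓ) • algebraMap B L ((X.transferGrp B v) γ)
    rw [smul_eq_mul, map_mul, smul_eq_mul]
  rw [hnew, Submodule.mem_bot] at hmem
  refine AddMonoidHom.ext fun γ => ?_
  apply hinj
  have := DFunLike.congr_fun hmem γ
  show algebraMap B L ((X.transferGrp B v) γ) = algebraMap B L 0
  rw [map_zero]
  exact this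

end New

section Rep

variable {M₀ q p : ℕ} [NeZero M₀] [NeZero q] [NeZero (M₀ * q)] [hp : Fact p.Prime]
  (I : StageIData (M₀ * q) p) (D₀ : KapData (JZero M₀) (Gamma0 M₀) p)
  {ι : Type*} [Fintype ι]
  (Xα Xβ : TransferDatum ↥(Gamma0 (M₀ * q)) ↥(Gamma0 M₀) (GL (Fin 2) ℝ) ι)
  (B : Type) [CommRing B] [IsDomain B] [IsDiscreteValuationRing B] [CharZero B]
  [Algebra ℤ_[p] B] [Module.Flat ℤ_[p] B] (hpB : (p : B) ∈ IsLocalRing.maximalIdeal B)
  (a : Nat.Primes → B)
  (L : Type) [Field L] [Algebra B L] [IsFractionRing B L]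
  (hrank : Module.finrank L ↥(eigenPar (M₀ * q) L (mapSys B L a)) = 2)

theorem natCast_end_eq_smul_one {R V : Type*} [CommRing R] [AddCommGroup V] [Module R V]
    (n : ℕ) : ((n : ℕ) : Module.End R V) = ((n : R)) • (1 : Module.End R V) := by
  rw [Nat.cast_smul_eq_nsmul, nsmul_one]

/-- **the Frobenius polynomial identity for the representation on the eigenlattice** of a system
which is new at `q`, for one Frobenius lift `φ` satisfying the key property. -/
theorem rep_frobPoly_eq_zero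
    (hkα : ∀ (k : ℕ) (x : ↥(torsionNat (JZero (M₀ * q)) (p ^ k))),
      D₀.kap k (torsionNatMap₂ (p ^ k) (degPushAlpha M₀ q) x) =
        Xα.transferGrp (ZMod (p ^ k)) (I.D.kap k x))
    (hkβ : ∀ (k : ℕ) (x : ↥(torsionNat (JZero (M₀ * q)) (p ^ k))),
      D₀.kap k (torsionNatMap₂ (p ^ k) (degPushBeta M₀ q) x) =
        Xβ.transferGrp (ZMod (p ^ k)) (I.D.kap k x))
    (hparα : ∀ (R : Type) [CommRing R], ∀ ψ ∈ parabolicHoms R (Gamma0 (M₀ * q)) R,
      Xα.transferGrp R ψ ∈ parabolicHoms R (Gamma0 M₀) R)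
    (hparβ : ∀ (R : Type) [CommRing R], ∀ ψ ∈ parabolicHoms R (Gamma0 (M₀ * q)) R,
      Xβ.transferGrp R ψ ∈ parabolicHoms R (Gamma0 M₀) R)
    (hHα : ∀ ℓ : Nat.Primes, ¬ (ℓ : ℕ) ∣ M₀ * q → ∀ ψ : Additive ↥(Gamma0 (M₀ * q)) →+ B,
      Xα.transferGrp B (heckeGrpP (M₀ * q) ℓ B ψ) = heckeGrpP M₀ ℓ B (Xα.transferGrp B ψ))
    (hHβ : ∀ ℓ : Nat.Primes, ¬ (ℓ : ℕ) ∣ M₀ * q → ∀ ψ : Additive ↥(Gamma0 (M₀ * q)) →+ B,
      Xβ.transferGrp B (heckeGrpP (M₀ * q) ℓ B ψ) = heckeGrpP M₀ ℓ B (Xβ.transferGrp B ψ))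
    (hnew : eigenParOn M₀ L (primesNotDvd (M₀ * q)) (mapSys B L a) = ⊥)
    {c r : ℕ} {φ : GQ}
    (hkey : ∀ (k : ℕ) (x : JZero (M₀ * q)), p ^ k • x = 0 → degPushAlpha M₀ q x = 0 →
      degPushBeta M₀ q x = 0 → p ^ c • frobPolyAct q r φ x = 0) :
    (((I.rep B hpB a L hrank).ρ φ) ^ r -
        ((q : B) ^ r) • (1 : Module.End B (I.rep B hpB a L hrank).V)) *
      (((I.rep B hpB a L hrank).ρ φ) ^ 2 - 1) * ((I.rep B hpB a L hrank).ρ φ - 1) = 0 := by
  have hinj : Function.Injective (algebraMap B L) := IsFractionRing.injective B L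
  have hmain := restrict_frobPoly_eq_zero (eigenLattice (M₀ * q) B a)
    (rhoM (M₀ * q) p B I.rhoP φ)
    (fun m hm => rhoM_mem (M₀ * q) p B a I.rhoP I.rhoP_comm φ hm) ((q : B) ^ r) r (by
      intro v hv
      have hv' : v.1 ∈ eigenPar (M₀ * q) B a := hv
      have h1 := parExt_frobPoly_apply_eq_zero I.D D₀ Xα Xβ B hkα hkβ hparα hparβ hkey v
        (transferGrp_eq_zero_of_new Xα B L hinj hHα (hparα B) a hnew hv')
        (transferGrp_eq_zero_of_new Xβ B L hinj hHβ (hparβ B) a hnew hv')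
      rw [natCast_end_eq_smul_one, Nat.cast_pow] at h1
      exact h1)
  exact hmain

end Rep

end Fermat.Agent.S35
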