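/-
S35 — helper1 — **[T3], abstract calculus of Kummer pairs.**

Over any function field `F / K`: a *Kummer pair* of exponent `m` is a pair `(x, f)`, `x ∈ Pic⁰(F)`,
`f ∈ Fˣ`, such that `x = [D]` and `div f = m • D` for some degree-zero divisor `D`.  Kummer pairs are
stable under semilinear automorphisms, products, quotients and powers; a pair whose function is a
constant times an `m`-th power has trivial class.  Consequently the class
`(g ^ r - Q) (g ^ 2 - 1) (g - 1) x` is represented by the explicit function `frobPolyFun Q r g f`,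
and a Kummer relation `frobPolyFun Q r g f ^ c = a • w ^ m` kills `c • frobPolyAct … x`.
-/
import Mathlib
import Fermat.Agent.SS.TOPA_lead
import Fermat.Agent.S35.KEYFROB_helper8_Iface

set_option autoImplicit false
set_option linter.unusedSectionVars false
set_option linter.unusedVariables false
set_option linter.style.haveILetI false

open AlgebraicCurve

namespace Fermat.Agent.S35

open Fermat.Agent.SS

section Pair

variable {K F : Type*} [Field K] [Field F] [Algebra K F]

/-- `(x, f)` is a **Kummer pair** of exponent `m`: `x = [D]` with `div f = m • D`. -/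
def IsKummerPair (m : ℕ) (x : Pic0 K F) (f : F) : Prop :=
  f ≠ 0 ∧ ∃ D : Divisor.degZero (K := K) (F := F), Pic0.mk D = x ∧
    ∀ v : Place K F, v.ord f = (m : ℤ) * (D : Divisor K F) v

theorem IsKummerPair.ne_zero {m : ℕ} {x : Pic0 K F} {f : F} (h : IsKummerPair m x f) : f ≠ 0 :=
  h.1

/-- every `m`-torsion class is part of a Kummer pair. -/
theorem exists_isKummerPair {m : ℕ} (x : Pic0 K F) (hx : m • x = 0) :
    ∃ f : F, IsKummerPair m x f := by
  obtain ⟨D, rfl⟩ := Pic0.mk_surjective x
  have hmD : (m • D : Divisor.degZero (K := K) (F := F)) ∈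
      (Divisor.principal (K := K) (F := F)).addSubgroupOf (Divisor.degZero (K := K) (F := F)) := by
    have h1 : (Pic0.mk (m • D) : Pic0 K F) = m • Pic0.mk D := rfl
    rw [← h1] at hx
    exact (QuotientAddGroup.eq_zero_iff _).1 hx
  rw [AddSubgroup.mem_addSubgroupOf] at hmD
  obtain ⟨f, hf, hfD⟩ := hmD
  refine ⟨f, hf, D, rfl, fun v => ?_⟩
  rw [← hfD v]
  show ((m • (D : Divisor K F)) : Divisor K F) v = _
  rw [Finsupp.smul_apply, nsmul_eq_mul]

/-- all orders of the function of a Kummer pair are divisible by `m`. -/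
theorem IsKummerPair.dvd_ord {m : ℕ} {x : Pic0 K F} {f : F} (h : IsKummerPair m x f)
    (v : Place K F) : (m : ℤ) ∣ v.ord f := by
  obtain ⟨-, D, -, hD⟩ := h
  exact ⟨_, hD v⟩

/-- Kummer pairs are stable under semilinear automorphisms. -/
theorem IsKummerPair.smul {m : ℕ} {x : Pic0 K F} {f : F} (h : IsKummerPair m x f)
    (g : SemilinearAut K F) : IsKummerPair m (g • x) (g • f) := by
  obtain ⟨hf, D, rfl, hD⟩ := h
  have hgf : g • f ≠ 0 := by simpa using hf
  refine ⟨hgf, SemilinearAut.degZeroSMulHom g D,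
    (SemilinearAut.pic0_smul_mk g D).symm, fun v => ?_⟩
  rw [place_ord_smul_eq, hD, SemilinearAut.coe_degZeroSMulHom, SemilinearAut.divisor_smul_apply]

/-- products of Kummer pairs. -/
theorem IsKummerPair.mul {m : ℕ} {x y : Pic0 K F} {f h : F} (hx : IsKummerPair m x f)
    (hy : IsKummerPair m y h) : IsKummerPair m (x + y) (f * h) := by
  obtain ⟨hf, D, rfl, hD⟩ := hx
  obtain ⟨hh, E, rfl, hE⟩ := hy
  refine ⟨mul_ne_zero hf hh, D + E, rfl, fun v => ?_⟩
  rw [v.ord_mul hf hh, hD, hE]
  show _ = (m : ℤ) * ((D : Divisor K F) + (E : Divisor K F)) v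
  rw [Finsupp.add_apply]
  ring

/-- inverses of Kummer pairs. -/
theorem IsKummerPair.inv {m : ℕ} {x : Pic0 K F} {f : F} (hx : IsKummerPair m x f) :
    IsKummerPair m (-x) f⁻¹ := by
  obtain ⟨hf, D, rfl, hD⟩ := hx
  refine ⟨inv_ne_zero hf, -D, rfl, fun v => ?_⟩
  rw [v.ord_inv, hD]
  show _ = (m : ℤ) * (-(D : Divisor K F)) v
  rw [Finsupp.neg_apply]
  ring

/-- quotients of Kummer pairs. -/
theorem IsKummerPair.div {m : ℕ} {x y : Pic0 K F} {f h : F} (hx : IsKummerPair m x f)
    (hy : IsKummerPair m y h) : IsKummerPair m (x - y) (f / h) := by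
  rw [sub_eq_add_neg, div_eq_mul_inv]
  exact hx.mul hy.inv

/-- powers of Kummer pairs. -/
theorem IsKummerPair.pow {m : ℕ} {x : Pic0 K F} {f : F} (hx : IsKummerPair m x f) (n : ℕ) :
    IsKummerPair m (n • x) (f ^ n) := by
  obtain ⟨hf, D, rfl, hD⟩ := hx
  refine ⟨pow_ne_zero n hf, n • D, rfl, fun v => ?_⟩
  have h1 : v.ord (f ^ n) = (n : ℤ) * v.ord f := by
    have := v.ord_zpow f n
    rw [zpow_natCast] at this
    exact this
  rw [h1, hD]
  show _ = (m : ℤ) * ((n • (D : Divisor K F)) : Divisor K F) v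
  rw [Finsupp.smul_apply, nsmul_eq_mul]
  ring

/-- **a Kummer pair whose function is a constant times an `m`-th power has trivial class.** -/
theorem IsKummerPair.eq_zero_of_eq {m : ℕ} (hm : m ≠ 0) {x : Pic0 K F} {f : F}
    (hx : IsKummerPair m x f) {a : K} {w : F} (ha : a ≠ 0)
    (h : f = algebraMap K F a * w ^ m) : x = 0 := by
  obtain ⟨hf, D, rfl, hD⟩ := hx
  have hw : w ≠ 0 := by
    rintro rfl
    rw [zero_pow hm, mul_zero] at h
    exact hf h
  refine (QuotientAddGroup.eq_zero_iff _).2 ?_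
  rw [AddSubgroup.mem_addSubgroupOf]
  refine ⟨w, hw, fun v => ?_⟩
  have h2 : v.ord (algebraMap K F a * w ^ m) = (m : ℤ) * v.ord w := by
    rw [v.ord_mul ((map_ne_zero _).2 ha) (pow_ne_zero m hw), place_ord_algebraMap_eq_zero v ha,
      zero_add]
    have := v.ord_zpow w m
    rw [zpow_natCast] at this
    exact this
  have h3 : (m : ℤ) * (D : Divisor K F) v = (m : ℤ) * v.ord w := by
    rw [← hD, h, h2]
  have hm' : (m : ℤ) ≠ 0 := by exact_mod_cast hm
  exact mul_left_cancel₀ hm' h3

/-- **a Kummer relation for a power of the function kills the multiple of the class.** -/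
theorem IsKummerPair.nsmul_eq_zero_of_pow_eq {m : ℕ} (hm : m ≠ 0) {x : Pic0 K F} {f : F}
    (hx : IsKummerPair m x f) (c : ℕ) {a : K} {w : F} (ha : a ≠ 0)
    (h : f ^ c = algebraMap K F a * w ^ m) : c • x = 0 :=
  (hx.pow c).eq_zero_of_eq hm ha h

end Pair

section Poly

variable {K F : Type*} [Field K] [Field F] [Algebra K F]

/-- the function representing `(g - 1) x`. -/
noncomputable def frobSubOneFun (g : SemilinearAut K F) (f : F) : F := g • f / f

/-- the function representing `(g ^ 2 - 1) x`. -/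
noncomputable def frobSqSubOneFun (g : SemilinearAut K F) (f : F) : F := g • g • f / f

/-- the function representing `(g ^ r - Q) x`. -/
noncomputable def frobPowSubFun (Q r : ℕ) (g : SemilinearAut K F) (f : F) : F :=
  (g ^ r) • f / f ^ Q

/-- the function representing `(g ^ r - Q) (g ^ 2 - 1) (g - 1) x`. -/
noncomputable def frobPolyFun (Q r : ℕ) (g : SemilinearAut K F) (f : F) : F :=
  frobPowSubFun Q r g (frobSqSubOneFun g (frobSubOneFun g f))

theorem IsKummerPair.frobSubOne {m : ℕ} {x : Pic0 K F} {f : F} (h : IsKummerPair m x f)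
    (g : SemilinearAut K F) : IsKummerPair m (frobSubOne g x) (frobSubOneFun g f) :=
  (h.smul g).div h

theorem IsKummerPair.frobSqSubOne {m : ℕ} {x : Pic0 K F} {f : F} (h : IsKummerPair m x f)
    (g : SemilinearAut K F) : IsKummerPair m (frobSqSubOne g x) (frobSqSubOneFun g f) :=
  ((h.smul g).smul g).div h

theorem IsKummerPair.frobPowSub {m : ℕ} {x : Pic0 K F} {f : F} (h : IsKummerPair m x f)
    (q r : ℕ) (g : SemilinearAut K F) :
    IsKummerPair m (frobPowSub q r g x) (frobPowSubFun (q ^ r) r g f) :=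
  (h.smul (g ^ r)).div (h.pow (q ^ r))

/-- **the class `(g ^ r - q ^ r) (g ^ 2 - 1) (g - 1) x` is represented by `frobPolyFun`.** -/
theorem IsKummerPair.frobPolyAct {m : ℕ} {x : Pic0 K F} {f : F} (h : IsKummerPair m x f)
    (q r : ℕ) (g : SemilinearAut K F) :
    IsKummerPair m (frobPolyAct q r g x) (frobPolyFun (q ^ r) r g f) :=
  ((h.frobSubOne g).frobSqSubOne g).frobPowSub q r g

/-- **[T3], abstract form**: a Kummer relation for `frobPolyFun` kills the class. -/
theorem nsmul_frobPolyAct_eq_zero_of_kummer {m : ℕ} (hm : m ≠ 0) {x : Pic0 K F} {f : F}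
    (h : IsKummerPair m x f) (q r c : ℕ) (g : SemilinearAut K F) {a : K} {w : F} (ha : a ≠ 0)
    (hw : frobPolyFun (q ^ r) r g f ^ c = algebraMap K F a * w ^ m) :
    c • frobPolyAct q r g x = 0 :=
  (h.frobPolyAct q r g).nsmul_eq_zero_of_pow_eq hm c ha hw

end Poly

end Fermat.Agent.S35
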