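/-
S35 — helper1 — **[T3], the norm conditions**: for a finite extension `F ⊂ F'` of function fields
over `K` with the norm formula for push-forwards of divisors, and a Kummer pair `(x, f)` of exponent
`m` on `F'`: if the push-forward of `x` to `Pic⁰(F)` vanishes, the norm of `f` is a constant times an
`m`-th power in `F` (as soon as functions of `F` without zeros and poles are constant).
-/
import Mathlib
import Fermat.Agent.S35.T3_helper1_Pair

set_option autoImplicit false
set_option linter.unusedSectionVars false
set_option linter.unusedVariables false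
set_option linter.style.haveILetI false

open AlgebraicCurve

namespace Fermat.Agent.S35

open Fermat.Agent.SS

section Norm

variable {K F F' : Type*} [Field K] [Field F] [Field F']
  [Algebra K F] [Algebra K F'] [Algebra F F'] [IsScalarTower K F F']
  [Algebra.IsIntegral F F'] [HasPrincipalDivisors K F'] [Module.Finite F F']

/-- **the norm of the function of a Kummer pair with trivial push-forward is a constant times an
`m`-th power.** -/
theorem IsKummerPair.exists_norm_eq_of_pushforward_eq_zero
    (H : Divisor.PushforwardNormFormula K F F')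
    (hconst : ∀ u : F, u ≠ 0 → (∀ v : Place K F, v.ord u = 0) → ∃ a : K, u = algebraMap K F a)
    {m : ℕ} {x : Pic0 K F'} {f : F'} (h : IsKummerPair m x f)
    (hx : Pic0.pushforwardHom K F F' H x = 0) :
    ∃ (a : K) (h' : F), a ≠ 0 ∧ h' ≠ 0 ∧ Algebra.norm F f = algebraMap K F a * h' ^ m := by
  obtain ⟨hf, D, rfl, hD⟩ := h
  rw [Pic0.pushforwardHom_mk] at hx
  have hprin := (QuotientAddGroup.eq_zero_iff _).1 hx
  rw [AddSubgroup.mem_addSubgroupOf] at hprin
  obtain ⟨h', hh', hDh'⟩ := hprin
  have hDh'' : ∀ v : Place K F, Divisor.pushforward F (D : Divisor K F') v = v.ord h' := hDh'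
  have hNf : Algebra.norm F f ≠ 0 := Algebra.norm_ne_zero_iff.mpr hf
  -- the divisor of `f`
  have hdivf : ∀ w : Place K F', ((m • (D : Divisor K F')) : Divisor K F') w = w.ord f := by
    intro w
    rw [Finsupp.smul_apply, nsmul_eq_mul, hD]
  have hN : ∀ v : Place K F, v.ord (Algebra.norm F f) = (m : ℤ) * v.ord h' := by
    intro v
    rw [← H f hf (m • (D : Divisor K F')) hdivf v, map_nsmul, Finsupp.smul_apply, nsmul_eq_mul,
      hDh'']
  -- the quotient is a constant
  have hu0 : Algebra.norm F f / h' ^ m ≠ 0 := div_ne_zero hNf (pow_ne_zero m hh')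
  obtain ⟨a, ha⟩ := hconst (Algebra.norm F f / h' ^ m) hu0 (fun v => by
    rw [div_eq_mul_inv, v.ord_mul hNf (inv_ne_zero (pow_ne_zero m hh')), v.ord_inv, hN]
    have h1 : v.ord (h' ^ m) = (m : ℤ) * v.ord h' := by
      have := v.ord_zpow h' m
      rw [zpow_natCast] at this
      exact this
    rw [h1]
    ring)
  refine ⟨a, h', ?_, hh', ?_⟩
  · rintro rfl
    rw [map_zero] at ha
    exact hu0 ha
  · rw [← ha, div_mul_cancel₀ _ (pow_ne_zero m hh')]

end Norm

end Fermat.Agent.S35
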